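import Mathlib
import Fermat.Agent.RT.Even.Sq

/-!
# S59, wall R1 — BYPASS v2, part 1 (helper34): elementary bases and the even sub-structure

`A` a commutative ring, `N` an abelian group, `t : A →+* AddMonoid.End N` a structure of `A`-module
on `N` (written as a ring homomorphism, so that SEVERAL structures can live on the same `N`).

* `S59minevIsBasis t b`  : `b : ι → N` is a basis of `N` for the structure `t` (elementary form);
* `s59minev_card_eq`     : two bases for the same structure have the same cardinality;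
* `s59minev_decomp_unique` : uniqueness in `f = ∑_e w^e · sq (f_e)` (`RT/Even/Sq.lean` has existence);
* `s59minev_even_basis`  : for `A = O⟦w_1..w_h⟧`: a `t`-basis `b` gives the `(t ∘ sq)`-basis
  `(e, i) ↦ t (w^e) (b i)` (`sq : w_j ↦ w_j²`, `e ∈ {0,1}^h`).
Mathlib + `RT/Even/Sq.lean`.
-/

set_option autoImplicit false
set_option linter.unusedSectionVars false

namespace Fermat.Agent.S59

open MvPowerSeries Fermat.Agent.RT.Even

section Basis

variable {A : Type*} [CommRing A] {N : Type*} [AddCommGroup N]

/-- `b` is a basis of `N` for the module structure `t` (elementary form). -/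
def S59minevIsBasis (t : A →+* AddMonoid.End N) {ι : Type*} [Fintype ι] (b : ι → N) : Prop :=
  (∀ x : N, ∃ f : ι → A, x = ∑ i, t (f i) (b i)) ∧
    ∀ f : ι → A, ∑ i, t (f i) (b i) = 0 → ∀ i, f i = 0

theorem s59minev_sum_apply (t : A →+* AddMonoid.End N) {κ : Type*} (s : Finset κ) (F : κ → A)
    (x : N) : t (∑ k ∈ s, F k) x = ∑ k ∈ s, t (F k) x := by
  rw [map_sum]
  exact AddMonoidHom.finsetSum_apply _ _ _

/-- the coordinate map of a family -/
def s59minevPhi (t : A →+* AddMonoid.End N) {ι : Type*} [Fintype ι] (b : ι → N) :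
    (ι → A) →+ N where
  toFun f := ∑ i, t (f i) (b i)
  map_zero' := by simp
  map_add' f g := by
    rw [← Finset.sum_add_distrib]
    refine Finset.sum_congr rfl fun i _ => ?_
    rw [Pi.add_apply, map_add]
    rfl

theorem s59minevPhi_apply (t : A →+* AddMonoid.End N) {ι : Type*} [Fintype ι] (b : ι → N)
    (f : ι → A) : s59minevPhi t b f = ∑ i, t (f i) (b i) := rfl

theorem s59minevPhi_smul (t : A →+* AddMonoid.End N) {ι : Type*} [Fintype ι] (b : ι → N)
    (c : A) (f : ι → A) : s59minevPhi t b (c • f) = t c (s59minevPhi t b f) := by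
  rw [s59minevPhi_apply, s59minevPhi_apply, map_sum]
  refine Finset.sum_congr rfl fun i _ => ?_
  rw [Pi.smul_apply, smul_eq_mul, map_mul]
  rfl

theorem s59minevPhi_bijective (t : A →+* AddMonoid.End N) {ι : Type*} [Fintype ι] (b : ι → N)
    (hb : S59minevIsBasis t b) : Function.Bijective (s59minevPhi t b) := by
  constructor
  · rw [injective_iff_map_eq_zero]
    intro f hf
    funext i
    exact hb.2 f hf i
  · intro x
    obtain ⟨f, hf⟩ := hb.1 x
    exact ⟨f, hf.symm⟩

/-- the coordinates, as an additive equivalence -/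
noncomputable def s59minevEquiv (t : A →+* AddMonoid.End N) {ι : Type*} [Fintype ι] (b : ι → N)
    (hb : S59minevIsBasis t b) : (ι → A) ≃+ N :=
  AddEquiv.ofBijective (s59minevPhi t b) (s59minevPhi_bijective t b hb)

theorem s59minevEquiv_apply (t : A →+* AddMonoid.End N) {ι : Type*} [Fintype ι] (b : ι → N)
    (hb : S59minevIsBasis t b) (f : ι → A) :
    s59minevEquiv t b hb f = ∑ i, t (f i) (b i) := rfl

theorem s59minevEquiv_symm_smul (t : A →+* AddMonoid.End N) {ι : Type*} [Fintype ι] (b : ι → N)
    (hb : S59minevIsBasis t b) (c : A) (x : N) :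
    (s59minevEquiv t b hb).symm (t c x) = c • (s59minevEquiv t b hb).symm x := by
  apply (s59minevEquiv t b hb).injective
  rw [AddEquiv.apply_symm_apply]
  show _ = s59minevPhi t b _
  rw [s59minevPhi_smul]
  show _ = t c (s59minevEquiv t b hb _)
  rw [AddEquiv.apply_symm_apply]

/-- **Two bases for the same structure have the same cardinality.** -/
theorem s59minev_card_eq [Nontrivial A] (t : A →+* AddMonoid.End N) {ι κ : Type*} [Fintype ι]
    [Fintype κ] (b : ι → N) (c : κ → N) (hb : S59minevIsBasis t b) (hc : S59minevIsBasis t c) :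
    Fintype.card ι = Fintype.card κ := by
  let e : (ι → A) ≃+ (κ → A) := (s59minevEquiv t b hb).trans (s59minevEquiv t c hc).symm
  have he : ∀ (a : A) (f : ι → A), e (a • f) = a • e f := by
    intro a f
    show (s59minevEquiv t c hc).symm (s59minevPhi t b (a • f)) = _
    rw [s59minevPhi_smul, s59minevEquiv_symm_smul]
    rfl
  exact card_eq_of_linearEquiv A (e.toLinearEquiv he)

end Basis

section Decomp

variable {σ : Type*} [Fintype σ] [DecidableEq σ] {O : Type*} [CommRing O]

theorem s59minev_par (m : σ →₀ ℕ) (b : σ → Bool) : rtevPar (2 • m + rtevExp b) = b := by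
  funext i
  have h1 : (2 • m + rtevExp b) i = 2 * m i + (if b i then 1 else 0) := by
    simp only [Finsupp.coe_add, Finsupp.coe_smul, Pi.add_apply, Pi.smul_apply, rtevExp_apply,
      smul_eq_mul]
  show decide ((2 • m + rtevExp b) i % 2 = 1) = b i
  rcases Bool.eq_false_or_eq_true (b i) with hb | hb
  · rw [hb] at h1 ⊢
    apply decide_eq_true
    rw [h1, if_pos rfl]
    omega
  · rw [hb] at h1 ⊢
    apply decide_eq_false
    rw [h1, if_neg (by simp)]
    omega


theorem s59minev_half (m : σ →₀ ℕ) (b : σ → Bool) : rtevHalf (2 • m + rtevExp b) = m := by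
  ext i
  simp only [rtevHalf_apply, Finsupp.coe_add, Finsupp.coe_smul, Pi.add_apply, Pi.smul_apply,
    rtevExp_apply, smul_eq_mul]
  split_ifs <;> omega

/-- **Uniqueness of the even decomposition.** -/
theorem s59minev_decomp_unique (g : (σ → Bool) → MvPowerSeries σ O)
    (h : ∑ b : σ → Bool, monomial (rtevExp b) (1 : O) * rtevSq (g b) = 0) : ∀ b, g b = 0 := by
  intro b
  ext m
  have h1 := congrArg (coeff (2 • m + rtevExp b)) h
  rw [map_sum, Finset.sum_eq_single b] at h1
  · rw [rtev_coeff_monomial_mul_sq, s59minev_par, if_pos rfl, s59minev_half] at h1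
    rw [h1, map_zero, map_zero]
  · intro b' _ hb'
    rw [rtev_coeff_monomial_mul_sq, s59minev_par, if_neg hb']
  · intro hn
    exact absurd (Finset.mem_univ _) hn

/-- **The even basis**: a `t`-basis `b` gives the `(t ∘ sq)`-basis `(e, i) ↦ t (w^e) (b i)`. -/
theorem s59minev_even_basis {N : Type*} [AddCommGroup N]
    (t : MvPowerSeries σ O →+* AddMonoid.End N) {ι : Type*} [Fintype ι] (b : ι → N)
    (hb : S59minevIsBasis t b) :
    S59minevIsBasis (t.comp (rtevSq (σ := σ) (O := O) : MvPowerSeries σ O →+* MvPowerSeries σ O))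
      (fun p : (σ → Bool) × ι => t (monomial (rtevExp p.1) (1 : O)) (b p.2)) := by
  have key : ∀ g : (σ → Bool) × ι → MvPowerSeries σ O,
      ∑ p : (σ → Bool) × ι, (t.comp (rtevSq (σ := σ) (O := O) :
          MvPowerSeries σ O →+* MvPowerSeries σ O)) (g p)
        (t (monomial (rtevExp p.1) (1 : O)) (b p.2)) =
      ∑ i, t (∑ e : σ → Bool, monomial (rtevExp e) (1 : O) * rtevSq (g (e, i))) (b i) := by
    intro g
    rw [Fintype.sum_prod_type, Finset.sum_comm]
    refine Finset.sum_congr rfl fun i _ => ?_
    rw [s59minev_sum_apply]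
    refine Finset.sum_congr rfl fun e _ => ?_
    rw [mul_comm, map_mul]
    rfl
  constructor
  · intro x
    obtain ⟨f, hf⟩ := hb.1 x
    refine ⟨fun p => rtevComp p.1 (f p.2), ?_⟩
    rw [key, hf]
    refine Finset.sum_congr rfl fun i _ => ?_
    rw [← rtev_decomp (f i)]
  · intro g hg p
    rw [key] at hg
    have h1 := hb.2 _ hg p.2
    exact s59minev_decomp_unique (fun e => g (e, p.2)) h1 p.1

end Decomp

end Fermat.Agent.S59
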