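import Mathlib
import Fermat.Prelude.Def_Algebra_PatchingDatum
import Fermat.Agent.S57.Level
import Fermat.Agent.S57.Conclusion
import Fermat.Agent.S59.Min.EvenBasis

/-!
# S59, wall R1 — BYPASS v2 (helper34): the sign at the Taylor–Wiles primes is NOT needed

`P = 𝒪⟦X₁..X_h⟧`.  The EVEN limit datum `S59minevData 𝒪 h R M`:

* `N` a `P`-module (the action of `R_∞`), `s : P →+* End(N)` a SECOND structure (the diamond side
  `S_∞`), `N` free over `s` with basis `b` (rank `d`);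
* `φ : P →ₐ[𝒪] P` with **only the EVEN scalars in the image**: `φ (sq f) • x = s (sq f) x`
  (`sq : X_j ↦ X_j²`; K6 gives `c_j² = X_j²` for `c_j = φ X_j = χ_j − χ_j⁻¹`);
* `ψ : P ↠ R`, `ψ (φ X_j) = 0`, `π : N ↠ M` semilinear, `ker π = ∑_j s(X_j) N` (the full base).

Theorem `s59minev_level`: there is a `PatchingLevel 𝒪 h R M ⊥` with the same `ψ` and `φ`
(⇒ `s59minev_main`: `M` free over `R`, faithful, `ker ψ = (φ X_j)_j`).

Proof.  (1) `N` is free over `s ∘ sq` (`s59minev_even_basis`).  (2) S57's `level_free` for the level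
`(N with P acting through φ, sq, Λ = P ⧸ (X_j²), N ⧸ (X_j²) N)`: `N` is free for `f ⋆ x = φ f • x`.
(3) Both bases give bases over `s ∘ sq = ⋆ ∘ sq`: the ranks agree.  (4) `(φ X) N ⊆ (s X) N = ker π`,
both quotients are free over `𝒪` of the same rank: Orzech ⇒ equality.  (5) assemble.
-/

set_option autoImplicit false
set_option linter.unusedSectionVars false
set_option linter.unusedVariables false
set_option linter.style.longLine false

noncomputable section

namespace Fermat.Agent.S59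

open MvPowerSeries Fermat.Agent.RT.Even

/-- The EVEN limit datum. -/
structure S59minevData (𝒪 : Type) [CommRing 𝒪] (h : ℕ) (R : Type) [CommRing R] [Algebra 𝒪 R]
    (M : Type) [AddCommGroup M] [Module R M] : Type 1 where
  N : Type
  [instAddCommGroup : AddCommGroup N]
  [instModule : Module (MvPowerSeries (Fin h) 𝒪) N]
  s : MvPowerSeries (Fin h) 𝒪 →+* AddMonoid.End N
  s_C : ∀ (a : 𝒪) (x : N), s (C a) x = (C a : MvPowerSeries (Fin h) 𝒪) • x
  d : ℕ
  b : Fin d → N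
  b_basis : S59minevIsBasis s b
  φ : MvPowerSeries (Fin h) 𝒪 →ₐ[𝒪] MvPowerSeries (Fin h) 𝒪
  scalE : ∀ (f : MvPowerSeries (Fin h) 𝒪) (x : N), φ (rtevSq f) • x = s (rtevSq f) x
  ψ : MvPowerSeries (Fin h) 𝒪 →ₐ[𝒪] R
  ψ_surjective : Function.Surjective ψ
  ψ_φ_X : ∀ j : Fin h, ψ (φ (X j)) = 0
  π : N →+ M
  π_smul : ∀ (f : MvPowerSeries (Fin h) 𝒪) (x : N), π (f • x) = ψ f • π x
  π_surjective : Function.Surjective π
  ker_π : ∀ x : N, π x = 0 ↔ ∃ y : Fin h → N, x = ∑ j, s (X j) (y j)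

attribute [instance] S59minevData.instAddCommGroup S59minevData.instModule

section Tw

variable {𝒪 : Type} [CommRing 𝒪] {h : ℕ}

/-- `N` with `P = 𝒪⟦X₁..X_h⟧` acting through `φ`. -/
def S59minevTw (φ : MvPowerSeries (Fin h) 𝒪 →ₐ[𝒪] MvPowerSeries (Fin h) 𝒪) (N : Type) : Type := N

variable (φ : MvPowerSeries (Fin h) 𝒪 →ₐ[𝒪] MvPowerSeries (Fin h) 𝒪) (N : Type)
  [AddCommGroup N] [Module (MvPowerSeries (Fin h) 𝒪) N]

instance s59minevTwGrp : AddCommGroup (S59minevTw φ N) := ‹AddCommGroup N›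

instance s59minevTwMod : Module (MvPowerSeries (Fin h) 𝒪) (S59minevTw φ N) :=
  Module.compHom N (φ : MvPowerSeries (Fin h) 𝒪 →+* MvPowerSeries (Fin h) 𝒪)

/-- the identity `N → N_φ` -/
def s59minevTo : N ≃+ S59minevTw φ N := AddEquiv.refl N

theorem s59minevTw_smul (f : MvPowerSeries (Fin h) 𝒪) (x : N) :
    f • s59minevTo φ N x = s59minevTo φ N (φ f • x) := rfl

/-- the structure `⋆` as a ring homomorphism -/
def s59minevStar : MvPowerSeries (Fin h) 𝒪 →+* AddMonoid.End N :=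
  (Module.toAddMonoidEnd (MvPowerSeries (Fin h) 𝒪) N).comp
    (φ : MvPowerSeries (Fin h) 𝒪 →+* MvPowerSeries (Fin h) 𝒪)

theorem s59minevStar_apply (f : MvPowerSeries (Fin h) 𝒪) (x : N) :
    s59minevStar φ N f x = φ f • x := rfl

/-- the ideal `(X_j²)_j` -/
def s59minevI (𝒪 : Type) [CommRing 𝒪] (h : ℕ) : Ideal (MvPowerSeries (Fin h) 𝒪) :=
  Ideal.span (Set.range fun i : Fin h =>
    (rtevSq (σ := Fin h) (O := 𝒪)) (X i : MvPowerSeries (Fin h) 𝒪))

/-- the base of the auxiliary level: `N_φ ⧸ (X_j²) N_φ` -/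
abbrev S59minevM2 : Type :=
  S59minevTw φ N ⧸ (s59minevI 𝒪 h • (⊤ : Submodule (MvPowerSeries (Fin h) 𝒪) (S59minevTw φ N)))

end Tw

section Aux

variable {𝒪 : Type} [CommRing 𝒪] {h : ℕ} {R : Type} [CommRing R] [Algebra 𝒪 R]
  {M : Type} [AddCommGroup M] [Module R M] (D : S59minevData 𝒪 h R M)

/-- `ψ ∘ φ` kills the ideal `(X_j²)`. -/
theorem s59minev_psi_phi_I {f : MvPowerSeries (Fin h) 𝒪} (hf : f ∈ s59minevI 𝒪 h) :
    D.ψ (D.φ f) = 0 := by
  have hle : s59minevI 𝒪 h ≤ RingHom.ker ((D.ψ : MvPowerSeries (Fin h) 𝒪 →+* R).comp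
      (D.φ : MvPowerSeries (Fin h) 𝒪 →+* MvPowerSeries (Fin h) 𝒪)) := by
    unfold s59minevI
    rw [Ideal.span_le]
    rintro _ ⟨i, rfl⟩
    rw [SetLike.mem_coe, RingHom.mem_ker, RingHom.comp_apply]
    show D.ψ (D.φ (rtevSq (X i))) = 0
    rw [expand_X, map_pow, map_pow, D.ψ_φ_X, zero_pow two_ne_zero]
  exact hle hf

/-- `π` kills `(X_j²) N_φ`. -/
theorem s59minev_pi_K (x : S59minevTw D.φ D.N)
    (hx : x ∈ s59minevI 𝒪 h • (⊤ : Submodule (MvPowerSeries (Fin h) 𝒪) (S59minevTw D.φ D.N))) :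
    D.π ((s59minevTo D.φ D.N).symm x) = 0 := by
  refine Submodule.smul_induction_on hx ?_ ?_
  · intro f hf y _
    show D.π (D.φ f • ((s59minevTo D.φ D.N).symm y)) = 0
    rw [D.π_smul, s59minev_psi_phi_I D hf, zero_smul]
  · intro y z hy hz
    rw [map_add, map_add, hy, hz, add_zero]

theorem s59minev_nontrivial_M2 [Nontrivial M] : Nontrivial (S59minevM2 D.φ D.N) := by
  obtain ⟨m, hm⟩ := exists_ne (0 : M)
  obtain ⟨x, rfl⟩ := D.π_surjective m
  refine ⟨⟨Submodule.Quotient.mk (s59minevTo D.φ D.N x), 0, ?_⟩⟩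
  intro h0
  rw [Submodule.Quotient.mk_eq_zero] at h0
  apply hm
  have := s59minev_pi_K D _ h0
  rwa [AddEquiv.symm_apply_apply] at this

/-- the even basis of `N`, indexed by `Fin` -/
def s59minevB2 : Fin (Fintype.card ((Fin h → Bool) × Fin D.d)) → S59minevTw D.φ D.N :=
  fun k => s59minevTo D.φ D.N
    (D.s (monomial (rtevExp ((Fintype.equivFin ((Fin h → Bool) × Fin D.d)).symm k).1) (1 : 𝒪))
      (D.b ((Fintype.equivFin ((Fin h → Bool) × Fin D.d)).symm k).2))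

theorem s59minev_sum_B2 (c : Fin (Fintype.card ((Fin h → Bool) × Fin D.d)) →
    MvPowerSeries (Fin h) 𝒪) :
    ∑ i, (rtevSq (σ := Fin h) (O := 𝒪)) (c i) • s59minevB2 D i =
      s59minevTo D.φ D.N (∑ p : (Fin h → Bool) × Fin D.d,
        (D.s.comp (rtevSq (σ := Fin h) (O := 𝒪) :
          MvPowerSeries (Fin h) 𝒪 →+* MvPowerSeries (Fin h) 𝒪))
          (c (Fintype.equivFin ((Fin h → Bool) × Fin D.d) p))
          (D.s (monomial (rtevExp p.1) (1 : 𝒪)) (D.b p.2))) := by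
  rw [map_sum]
  rw [← (Fintype.equivFin ((Fin h → Bool) × Fin D.d)).sum_comp]
  refine Finset.sum_congr rfl fun p _ => ?_
  unfold s59minevB2
  rw [Equiv.symm_apply_apply, s59minevTw_smul, D.scalE]
  rfl

/-- **The auxiliary level** `(N_φ, sq, Λ = P ⧸ (X_j²), N_φ ⧸ (X_j²) N_φ)`. -/
def s59minevL2 : Algebra.PatchingLevel 𝒪 h (MvPowerSeries (Fin h) 𝒪 ⧸ s59minevI 𝒪 h)
    (S59minevM2 D.φ D.N) ⊥ where
  N := S59minevTw D.φ D.N
  φ := rtevSq (σ := Fin h) (O := 𝒪)
  ψ := Ideal.Quotient.mkₐ 𝒪 (s59minevI 𝒪 h)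
  ψ_surjective := Ideal.Quotient.mkₐ_surjective 𝒪 _
  ψ_φ_X := fun i => by
    rw [Ideal.Quotient.mkₐ_eq_mk]
    exact Ideal.Quotient.eq_zero_iff_mem.2 (Ideal.subset_span ⟨i, rfl⟩)
  π := (Submodule.mkQ _).toAddMonoidHom
  π_smul := fun f x => rfl
  π_surjective := Submodule.mkQ_surjective _
  ker_π := fun x => by
    show Submodule.Quotient.mk x = 0 ↔ _
    rw [Submodule.Quotient.mk_eq_zero]
    rfl
  d := Fintype.card ((Fin h → Bool) × Fin D.d)
  b := s59minevB2 D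
  b_span := fun x => by
    obtain ⟨g, hg⟩ := (s59minev_even_basis D.s D.b D.b_basis).1 ((s59minevTo D.φ D.N).symm x)
    refine ⟨fun k => g ((Fintype.equivFin ((Fin h → Bool) × Fin D.d)).symm k), ?_⟩
    rw [s59minev_sum_B2]
    simp only [Equiv.symm_apply_apply]
    rw [← hg, AddEquiv.apply_symm_apply]
  b_rel := fun c => by
    constructor
    · intro hc k
      rw [Ideal.mem_bot]
      rw [s59minev_sum_B2] at hc
      have h0 := (s59minevTo D.φ D.N).injective (hc.trans (map_zero _).symm)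
      have := (s59minev_even_basis D.s D.b D.b_basis).2
        (fun p => c (Fintype.equivFin ((Fin h → Bool) × Fin D.d) p)) h0
        ((Fintype.equivFin ((Fin h → Bool) × Fin D.d)).symm k)
      rwa [Equiv.apply_symm_apply] at this
    · intro hc
      refine Finset.sum_eq_zero fun i _ => ?_
      rw [Ideal.mem_bot.1 (hc i), map_zero, zero_smul]

end Aux

end Fermat.Agent.S59
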