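import Mathlib
import Fermat.Prelude.Def_Algebra_PatchingDatum
import Fermat.Agent.S57.Level
import Fermat.Agent.S57.Conclusion
import Fermat.Agent.S59.Min.EvenAlg

/-!
# S59, wall R1 — BYPASS v2, part 3 (helper34): the level from the even limit datum

`s59minev_level : S59minevData 𝒪 h R M → ∃ L : PatchingLevel 𝒪 h R M ⊥, L.ψ = D.ψ ∧ L.φ = D.φ`
and `s59minev_main` (`M` free over `R`, faithful, `ker ψ = (φ X_j)_j`).  See `EvenAlg.lean`.
-/

set_option autoImplicit false
set_option linter.unusedSectionVars false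
set_option linter.unusedVariables false
set_option linter.style.longLine false
set_option linter.style.haveILetI false

noncomputable section

namespace Fermat.Agent.S59

open MvPowerSeries Fermat.Agent.RT.Even

section Reindex

variable {A : Type*} [CommRing A] {N : Type*} [AddCommGroup N]

theorem S59minevIsBasis.reindex (t : A →+* AddMonoid.End N) {ι κ : Type*} [Fintype ι] [Fintype κ]
    (b : ι → N) (hb : S59minevIsBasis t b) (e : κ ≃ ι) : S59minevIsBasis t (b ∘ e) := by
  constructor
  · intro x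
    obtain ⟨f, hf⟩ := hb.1 x
    refine ⟨f ∘ e, ?_⟩
    rw [hf, ← e.sum_comp]
    rfl
  · intro f hf k
    have h1 : ∑ i, t ((f ∘ e.symm) i) (b i) = 0 := by
      rw [← hf, ← e.sum_comp]
      refine Finset.sum_congr rfl fun i _ => ?_
      simp only [Function.comp_apply, Equiv.symm_apply_apply]
    have := hb.2 _ h1 (e k)
    simpa only [Function.comp_apply, Equiv.symm_apply_apply] using this

end Reindex

section Main

variable {𝒪 : Type} [CommRing 𝒪] [IsDomain 𝒪] [IsDiscreteValuationRing 𝒪] {h : ℕ}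
  {R : Type} [CommRing R] [Algebra 𝒪 R] {M : Type} [AddCommGroup M] [Module R M] [Nontrivial M]
  (D : S59minevData 𝒪 h R M)

/-- **`N` is free for `f ⋆ x = φ f • x`** (S57's `level_free` for the auxiliary level). -/
theorem s59minev_star_basis :
    ∃ (ι : Type) (_ : Fintype ι) (β : ι → D.N), S59minevIsBasis (s59minevStar D.φ D.N) β := by
  haveI := s59minev_nontrivial_M2 D
  haveI hfree : Module.Free (MvPowerSeries (Fin h) 𝒪) (S59minevTw D.φ D.N) :=
    Fermat.Agent.S57.level_free (s59minevL2 D)
  haveI hfin : Module.Finite (MvPowerSeries (Fin h) 𝒪) (S59minevTw D.φ D.N) :=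
    Fermat.Agent.S57.level_finite (s59minevL2 D)
  let β := Module.Free.chooseBasis (MvPowerSeries (Fin h) 𝒪) (S59minevTw D.φ D.N)
  haveI : Fintype (Module.Free.ChooseBasisIndex (MvPowerSeries (Fin h) 𝒪)
      (S59minevTw D.φ D.N)) := Module.Free.ChooseBasisIndex.fintype _ _
  refine ⟨_, inferInstance, fun i => (s59minevTo D.φ D.N).symm (β i), ?_, ?_⟩
  · intro x
    refine ⟨fun i => β.repr (s59minevTo D.φ D.N x) i, ?_⟩
    have := β.sum_repr (s59minevTo D.φ D.N x)
    exact ((s59minevTo D.φ D.N).injective this).symm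
  · intro f hf
    exact Fintype.linearIndependent_iff.1 β.linearIndependent f hf

/-- the two even structures agree -/
theorem s59minev_comp_eq :
    (s59minevStar D.φ D.N).comp (rtevSq (σ := Fin h) (O := 𝒪) :
        MvPowerSeries (Fin h) 𝒪 →+* MvPowerSeries (Fin h) 𝒪) =
      D.s.comp (rtevSq (σ := Fin h) (O := 𝒪) :
        MvPowerSeries (Fin h) 𝒪 →+* MvPowerSeries (Fin h) 𝒪) := by
  ext f x
  exact D.scalE f x

/-- **The rank for `⋆` is the rank for `s`.** -/
theorem s59minev_star_basis_fin :
    ∃ β : Fin D.d → D.N, S59minevIsBasis (s59minevStar D.φ D.N) β := by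
  obtain ⟨ι, hι, β, hβ⟩ := s59minev_star_basis D
  have h1 := s59minev_even_basis D.s D.b D.b_basis
  have h2 := s59minev_even_basis (s59minevStar D.φ D.N) β hβ
  rw [s59minev_comp_eq] at h2
  have hcard := s59minev_card_eq _ _ _ h1 h2
  rw [Fintype.card_prod, Fintype.card_prod, Fintype.card_fin] at hcard
  have hpos : 0 < Fintype.card (Fin h → Bool) := Fintype.card_pos
  have hd : Fintype.card ι = D.d := (Nat.eq_of_mul_eq_mul_left hpos hcard).symm
  have e : Fin D.d ≃ ι := (Fintype.equivFinOfCardEq hd).symm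
  exact ⟨β ∘ e, hβ.reindex _ β e⟩

end Main

section Kernel

variable {𝒪 : Type} [CommRing 𝒪] [IsDomain 𝒪] [IsDiscreteValuationRing 𝒪] {h : ℕ}
  {R : Type} [CommRing R] [Algebra 𝒪 R] {M : Type} [AddCommGroup M] [Module R M] [Nontrivial M]
  (D : S59minevData 𝒪 h R M)

/-- the ideal `(φ X_j)_j` -/
def s59minevJ : Ideal (MvPowerSeries (Fin h) 𝒪) :=
  Ideal.span (Set.range fun j : Fin h => D.φ (X j))

/-- `φ` maps the augmentation ideal into `(φ X_j)_j`. -/
theorem s59minev_phi_mem_J (f : MvPowerSeries (Fin h) 𝒪) (hf : constantCoeff f = 0) :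
    D.φ f ∈ s59minevJ D := by
  have h1 : f ∈ Ideal.span (Set.range (X : Fin h → MvPowerSeries (Fin h) 𝒪)) := by
    rw [← rtev_aug_eq_span (σ := Fin h) (O := 𝒪), RingHom.mem_ker]
    exact hf
  have h2 := Ideal.mem_map_of_mem (D.φ : MvPowerSeries (Fin h) 𝒪 →+* MvPowerSeries (Fin h) 𝒪) h1
  rw [Ideal.map_span, ← Set.range_comp] at h2
  exact h2

/-- `π` kills `(φ X_j) N`. -/
theorem s59minev_pi_J (x : D.N)
    (hx : x ∈ s59minevJ D • (⊤ : Submodule (MvPowerSeries (Fin h) 𝒪) D.N)) : D.π x = 0 := by
  have hle : s59minevJ D ≤ RingHom.ker (D.ψ : MvPowerSeries (Fin h) 𝒪 →+* R) := by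
    unfold s59minevJ
    rw [Ideal.span_le]
    rintro _ ⟨j, rfl⟩
    exact D.ψ_φ_X j
  refine Submodule.smul_induction_on hx ?_ ?_
  · intro f hf y _
    rw [D.π_smul]
    have : D.ψ f = 0 := hle hf
    rw [this, zero_smul]
  · intro y z hy hz
    rw [map_add, hy, hz, add_zero]

/-- the constant coefficients of the coordinates in a basis -/
def s59minevCC (t : MvPowerSeries (Fin h) 𝒪 →+* AddMonoid.End D.N) (β : Fin D.d → D.N)
    (hβ : S59minevIsBasis t β) : D.N →+ (Fin D.d → 𝒪) where
  toFun x := fun i => constantCoeff ((s59minevEquiv t β hβ).symm x i)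
  map_zero' := by
    funext i
    simp
  map_add' x y := by
    funext i
    simp

theorem s59minevCC_apply (t : MvPowerSeries (Fin h) 𝒪 →+* AddMonoid.End D.N) (β : Fin D.d → D.N)
    (hβ : S59minevIsBasis t β) (x : D.N) (i : Fin D.d) :
    s59minevCC D t β hβ x i = constantCoeff ((s59minevEquiv t β hβ).symm x i) := rfl

theorem s59minevCC_t (t : MvPowerSeries (Fin h) 𝒪 →+* AddMonoid.End D.N) (β : Fin D.d → D.N)
    (hβ : S59minevIsBasis t β) (f : MvPowerSeries (Fin h) 𝒪) (x : D.N) :
    s59minevCC D t β hβ (t f x) = constantCoeff f • s59minevCC D t β hβ x := by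
  funext i
  rw [s59minevCC_apply, s59minevEquiv_symm_smul, Pi.smul_apply, Pi.smul_apply, smul_eq_mul,
    map_mul, smul_eq_mul, s59minevCC_apply]

/-- the section `a ↦ ∑ t (C a_i) β_i` -/
theorem s59minevCC_sec (t : MvPowerSeries (Fin h) 𝒪 →+* AddMonoid.End D.N) (β : Fin D.d → D.N)
    (hβ : S59minevIsBasis t β) (a : Fin D.d → 𝒪) :
    s59minevCC D t β hβ (s59minevEquiv t β hβ (fun i => C (a i))) = a := by
  funext i
  rw [s59minevCC_apply, AddEquiv.symm_apply_apply, constantCoeff_C]

/-- the kernel of the constant coefficients for `⋆` lies in `(φ X_j) N` -/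
theorem s59minevCC_star_ker (β : Fin D.d → D.N)
    (hβ : S59minevIsBasis (s59minevStar D.φ D.N) β) (x : D.N)
    (hx : s59minevCC D _ β hβ x = 0) :
    x ∈ s59minevJ D • (⊤ : Submodule (MvPowerSeries (Fin h) 𝒪) D.N) := by
  have h1 : x = ∑ i, D.φ ((s59minevEquiv _ β hβ).symm x i) • β i := by
    have := (s59minevEquiv _ β hβ).apply_symm_apply x
    rw [s59minevEquiv_apply] at this
    exact this.symm
  rw [h1]
  refine Submodule.sum_mem _ fun i _ => ?_
  refine Submodule.smul_mem_smul (s59minev_phi_mem_J D _ ?_) Submodule.mem_top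
  have := congrFun hx i
  rwa [s59minevCC_apply] at this

/-- `ker π` lies in the kernel of the constant coefficients for `s` -/
theorem s59minevCC_s_ker (x : D.N) (hx : D.π x = 0) :
    s59minevCC D D.s D.b D.b_basis x = 0 := by
  obtain ⟨y, rfl⟩ := (D.ker_π x).1 hx
  rw [map_sum]
  refine Finset.sum_eq_zero fun j _ => ?_
  rw [s59minevCC_t, constantCoeff_X, zero_smul]

/-- **The kernel of `π` is `(φ X_j) N`.** -/
theorem s59minev_ker (β : Fin D.d → D.N) (hβ : S59minevIsBasis (s59minevStar D.φ D.N) β)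
    (x : D.N) : D.π x = 0 ↔
      x ∈ s59minevJ D • (⊤ : Submodule (MvPowerSeries (Fin h) 𝒪) D.N) := by
  refine ⟨fun hx => ?_, s59minev_pi_J D x⟩
  -- the comparison map `B̄ : 𝒪^d → 𝒪^d`
  have hφC : ∀ r : 𝒪, D.φ (C r) = C r := by
    intro r
    have := D.φ.commutes r
    rwa [MvPowerSeries.algebraMap_apply, Algebra.algebraMap_self, RingHom.id_apply] at this
  have hBC : ∀ (r : 𝒪) (y : D.N), s59minevCC D D.s D.b D.b_basis
      ((C r : MvPowerSeries (Fin h) 𝒪) • y) = r • s59minevCC D D.s D.b D.b_basis y := by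
    intro r y
    rw [← D.s_C, s59minevCC_t, constantCoeff_C]
  let Bbar : (Fin D.d → 𝒪) →ₗ[𝒪] (Fin D.d → 𝒪) :=
    { toFun := fun a => s59minevCC D D.s D.b D.b_basis
        (s59minevEquiv _ β hβ (fun i => C (a i)))
      map_add' := by
        intro a a'
        rw [← map_add, ← map_add]
        congr 2
        funext i
        simp
      map_smul' := by
        intro r a
        rw [RingHom.id_apply, ← hBC]
        congr 1
        have h1 : (fun i => (C ((r • a) i) : MvPowerSeries (Fin h) 𝒪)) =
            (C r : MvPowerSeries (Fin h) 𝒪) • fun i => (C (a i) : MvPowerSeries (Fin h) 𝒪) := by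
          funext i
          simp
        rw [h1]
        show s59minevPhi _ β _ = _
        rw [s59minevPhi_smul, s59minevStar_apply, hφC]
        rfl }
  have hB : ∀ y : D.N, s59minevCC D D.s D.b D.b_basis y =
      Bbar (s59minevCC D _ β hβ y) := by
    intro y
    have h0 : s59minevCC D _ β hβ
        (y - s59minevEquiv _ β hβ (fun i => C (s59minevCC D _ β hβ y i))) = 0 := by
      rw [map_sub, s59minevCC_sec, sub_self]
    have h1 := s59minevCC_s_ker D _ (s59minev_pi_J D _ (s59minevCC_star_ker D β hβ _ h0))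
    rw [map_sub, sub_eq_zero] at h1
    exact h1
  have hsurj : Function.Surjective Bbar := by
    intro a
    refine ⟨s59minevCC D _ β hβ (s59minevEquiv D.s D.b D.b_basis (fun i => C (a i))), ?_⟩
    rw [← hB, s59minevCC_sec]
  have hinj : Function.Injective Bbar :=
    OrzechProperty.injective_of_surjective_endomorphism Bbar hsurj
  apply s59minevCC_star_ker D β hβ
  apply hinj
  rw [← hB, s59minevCC_s_ker D x hx, map_zero]

/-- **BYPASS v2: the patching level from the even limit datum.** -/
theorem s59minev_level :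
    ∃ L : Algebra.PatchingLevel 𝒪 h R M ⊥, L.ψ = D.ψ ∧ L.φ = D.φ := by
  obtain ⟨β, hβ⟩ := s59minev_star_basis_fin D
  refine ⟨{ N := D.N
            φ := D.φ
            ψ := D.ψ
            ψ_surjective := D.ψ_surjective
            ψ_φ_X := D.ψ_φ_X
            π := D.π
            π_smul := D.π_smul
            π_surjective := D.π_surjective
            ker_π := s59minev_ker D β hβ
            d := D.d
            b := β
            b_span := hβ.1
            b_rel := fun c => ⟨fun hc i => Ideal.mem_bot.2 (hβ.2 c hc i), fun hc => ?_⟩ }, rfl, rfl⟩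
  refine Finset.sum_eq_zero fun i _ => ?_
  rw [Ideal.mem_bot.1 (hc i), map_zero, zero_smul]

/-- **BYPASS v2, conclusion**: from the even limit datum, `M` is free over `R`, faithful, and
`ker ψ = (φ X_j)_j` — no `U_q`, no sign. -/
theorem s59minev_main :
    Module.Free R M ∧ Module.annihilator R M = ⊥ ∧
      RingHom.ker D.ψ = Ideal.span (Set.range fun i : Fin h => D.φ (MvPowerSeries.X i)) := by
  obtain ⟨L, hψ, hφ⟩ := s59minev_level D
  have := Fermat.Agent.S57.conclusion_of_free L (Fermat.Agent.S57.level_free L)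
  rw [hψ, hφ] at this
  exact this

end Kernel

end Fermat.Agent.S59
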