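/-
S59, wall R1 — BYPASS v2, EVEN-LIMIT (helper34): the compactness argument of `S59/Patch/Limit.lean`
(helper63) with EVEN scalars only.

* `S59ptLevE … sq k ρ φ ψ` : as `S59ptLev`, but `scal` only for the scalars `sq c`;
* `S59ptLimE … sq ρ φ ψ`   : the conditions on the limit;
* `s59pt_limitE`           : if every level is inhabited, there is a limit.
The proof is helper63's, word for word, with `c ↦ sq c` in `scal`.
-/
import Fermat.Agent.S59.Patch.Limit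

set_option autoImplicit false
set_option linter.unusedSectionVars false
set_option linter.unusedVariables false

namespace Fermat.Agent.S59

open Ideal Fermat.Agent.RT.P

section Defs

variable {𝒪 : Type} [CommRing 𝒪] {A : Type} [CommRing A] [Algebra 𝒪 A]
  {R : Type} [CommRing R] [Algebra 𝒪 R]
  (I : Ideal A) (𝔯 : Ideal R) (𝔬 : Ideal 𝒪) (ε : A →+* 𝒪) (hε : ∀ k, I ^ k ≤ (𝔬 ^ k).comap ε)
  {d : ℕ} (Θ : R →+* Matrix (Fin d) (Fin d) 𝒪) {ι : Type} (X : ι → A) (sq : A →ₐ[𝒪] A)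

/-- The conditions at level `k`, with EVEN scalars only (`sq c`). -/
structure S59ptLevE (k : ℕ) (ρ : A →ₐ[𝒪] Matrix (Fin d) (Fin d) (A ⧸ I ^ k))
    (φ : A →ₐ[𝒪] A ⧸ I ^ k) (ψ : A →ₐ[𝒪] R ⧸ 𝔯 ^ k) : Prop where
  scal : ∀ c : A, ∃ a : A, Ideal.Quotient.mk (I ^ k) a = φ (sq c) ∧
    ρ a = algebraMap A (Matrix (Fin d) (Fin d) (A ⧸ I ^ k)) (sq c)
  rel : ∀ i, ∃ a : A, Ideal.Quotient.mk (I ^ k) a = φ (X i) ∧ ψ a = 0
  surj : ∀ y : R, ∃ a : A, ψ a = Ideal.Quotient.mk (𝔯 ^ k) y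
  base : ∀ f : A, ∃ y : R, Ideal.Quotient.mk (𝔯 ^ k) y = ψ f ∧
    (Θ y).map (Ideal.Quotient.mk (𝔬 ^ k)) = (ρ f).map (Ideal.quotientMap (𝔬 ^ k) ε (hε k))

/-- The conditions on the limit. -/
structure S59ptLimE (ρ : A →ₐ[𝒪] Matrix (Fin d) (Fin d) A) (φ : A →ₐ[𝒪] A) (ψ : A →ₐ[𝒪] R) :
    Prop where
  scal : ∀ c : A, ρ (φ (sq c)) = algebraMap A (Matrix (Fin d) (Fin d) A) (sq c)
  rel : ∀ i, ψ (φ (X i)) = 0
  surj : Function.Surjective ψ
  base : ∀ f : A, Θ (ψ f) = (ρ f).map ε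

variable {I 𝔯 𝔬 ε hε Θ X sq}

theorem S59ptLevE.reduce {m n : ℕ} (h : m ≤ n)
    {ρ : A →ₐ[𝒪] Matrix (Fin d) (Fin d) (A ⧸ I ^ n)}
    {φ : A →ₐ[𝒪] A ⧸ I ^ n} {ψ : A →ₐ[𝒪] R ⧸ 𝔯 ^ n}
    (H : S59ptLevE I 𝔯 𝔬 ε hε Θ X sq n ρ φ ψ) :
    S59ptLevE I 𝔯 𝔬 ε hε Θ X sq m (rtpRed I h ρ) (s59ptRed I h φ) (s59ptRed 𝔯 h ψ) := by
  refine ⟨?_, ?_, ?_, ?_⟩
  · intro c
    obtain ⟨a, ha1, ha2⟩ := H.scal c
    refine ⟨a, ?_, ?_⟩
    · rw [s59ptRed_apply, ← ha1, Ideal.Quotient.factor_mk]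
    · rw [rtpRed_apply, ha2, rtp_map_algebraMap_factor]
  · intro i
    obtain ⟨a, ha1, ha2⟩ := H.rel i
    refine ⟨a, ?_, ?_⟩
    · rw [s59ptRed_apply, ← ha1, Ideal.Quotient.factor_mk]
    · rw [s59ptRed_apply, ha2, map_zero]
  · intro y
    obtain ⟨a, ha⟩ := H.surj y
    refine ⟨a, ?_⟩
    rw [s59ptRed_apply, ha, Ideal.Quotient.factor_mk]
  · intro f
    obtain ⟨y, hy1, hy2⟩ := H.base f
    refine ⟨y, ?_, ?_⟩
    · rw [s59ptRed_apply, ← hy1, Ideal.Quotient.factor_mk]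
    · have h1 := congrArg
        (fun N => N.map (Ideal.Quotient.factor (Ideal.pow_le_pow_right h : 𝔬 ^ n ≤ 𝔬 ^ m))) hy2
      rw [rtp_map_mk_factor] at h1
      rw [h1, rtpRed_apply]
      ext i j
      simp only [Matrix.map_apply]
      obtain ⟨s, hs⟩ := Ideal.Quotient.mk_surjective (ρ f i j)
      rw [← hs, Ideal.quotientMap_mk, Ideal.Quotient.factor_mk, Ideal.Quotient.factor_mk,
        Ideal.quotientMap_mk]

end Defs

section Main

variable {𝒪 : Type} [CommRing 𝒪] {A : Type} [CommRing A] [Algebra 𝒪 A]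
  {R : Type} [CommRing R] [Algebra 𝒪 R]
  (I : Ideal A) (𝔯 : Ideal R) (𝔬 : Ideal 𝒪) (ε : A →+* 𝒪) (hε : ∀ k, I ^ k ≤ (𝔬 ^ k).comap ε)
  {d : ℕ} (Θ : R →+* Matrix (Fin d) (Fin d) 𝒪) {ι : Type} (X : ι → A) (sq : A →ₐ[𝒪] A)

/-- **The patching theorem, matrix form, EVEN scalars.** -/
theorem s59pt_limitE [IsAdicComplete I A] (hI : I ≤ Ideal.jacobson ⊥)
    (hA : ∀ k, Finite (A ⧸ I ^ k))
    [IsAdicComplete 𝔯 R] (h𝔯 : 𝔯 ≤ Ideal.jacobson ⊥) (hR : ∀ k, Finite (R ⧸ 𝔯 ^ k))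
    [IsHausdorff 𝔬 𝒪] (hO : ∀ k, Finite (𝒪 ⧸ 𝔬 ^ k))
    (hlev : ∀ k, ∃ ρ φ ψ, S59ptLevE I 𝔯 𝔬 ε hε Θ X sq k ρ φ ψ) :
    ∃ ρ φ ψ, S59ptLimE ε Θ X sq ρ φ ψ := by
  classical
  have hfinM : ∀ n, Finite (Matrix (Fin d) (Fin d) (A ⧸ I ^ n)) := fun n => by
    have := hA n
    exact inferInstanceAs (Finite (Fin d → Fin d → A ⧸ I ^ n))
  have hfinMO : ∀ n, Finite (Matrix (Fin d) (Fin d) (𝒪 ⧸ 𝔬 ^ n)) := fun n => by
    have := hO n
    exact inferInstanceAs (Finite (Fin d → Fin d → 𝒪 ⧸ 𝔬 ^ n))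
  have hfin1 : ∀ n, Finite (A →ₐ[𝒪] Matrix (Fin d) (Fin d) (A ⧸ I ^ n)) := fun n => by
    have := hfinM n
    exact rtp_finite_algHom I hI hA
  have hfin2 : ∀ n, Finite (A →ₐ[𝒪] A ⧸ I ^ n) := fun n => by
    have := hA n
    exact rtp_finite_algHom I hI hA
  have hfin3 : ∀ n, Finite (A →ₐ[𝒪] R ⧸ 𝔯 ^ n) := fun n => by
    have := hR n
    exact rtp_finite_algHom I hI hA
  -- the inverse system of the level sets
  let Y : ℕ → Type := fun n =>
    {p : (A →ₐ[𝒪] Matrix (Fin d) (Fin d) (A ⧸ I ^ n)) × (A →ₐ[𝒪] A ⧸ I ^ n) ×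
        (A →ₐ[𝒪] R ⧸ 𝔯 ^ n) // S59ptLevE I 𝔯 𝔬 ε hε Θ X sq n p.1 p.2.1 p.2.2}
  have hYfin : ∀ n, Finite (Y n) := fun n => by
    have := hfin1 n
    have := hfin2 n
    have := hfin3 n
    exact Subtype.finite
  have hYne : ∀ n, Nonempty (Y n) := fun n => by
    obtain ⟨ρ, φ, ψ, h⟩ := hlev n
    exact ⟨⟨(ρ, φ, ψ), h⟩⟩
  let π : ∀ {i j : ℕ}, i ≤ j → Y j → Y i := fun {i j} hij p =>
    ⟨(rtpRed I hij p.1.1, s59ptRed I hij p.1.2.1, s59ptRed 𝔯 hij p.1.2.2), p.2.reduce hij⟩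
  have π_refl : ∀ ⦃i⦄ (a : Y i), π (le_refl i) a = a := by
    intro i a
    apply Subtype.ext
    exact Prod.ext (rtpRed_refl I _) (Prod.ext (s59ptRed_refl I _) (s59ptRed_refl 𝔯 _))
  have π_trans : ∀ ⦃i j k⦄ (hij : i ≤ j) (hjk : j ≤ k) (a : Y k),
      π hij (π hjk a) = π (hij.trans hjk) a := by
    intro i j k hij hjk a
    apply Subtype.ext
    exact Prod.ext (rtpRed_trans I hij hjk _)
      (Prod.ext (s59ptRed_trans I hij hjk _) (s59ptRed_trans 𝔯 hij hjk _))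
  have := hYfin 0
  obtain ⟨x, hx⟩ := exists_seq_forall_proj_of_forall_finite (α := Y)
    (fun {i j} hij => π hij) π_refl π_trans (fun i a => by
      have := hYfin (i + 1)
      exact Set.toFinite _)
  -- compatibilities
  have hc1 : ∀ {m n : ℕ} (h : m ≤ n), rtpRed I h (x n).1.1 = (x m).1.1 :=
    fun {m n} h => congrArg (fun p : Y m => p.1.1) (hx h)
  have hc2 : ∀ {m n : ℕ} (h : m ≤ n), s59ptRed I h (x n).1.2.1 = (x m).1.2.1 :=
    fun {m n} h => congrArg (fun p : Y m => p.1.2.1) (hx h)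
  have hc3 : ∀ {m n : ℕ} (h : m ≤ n), s59ptRed 𝔯 h (x n).1.2.2 = (x m).1.2.2 :=
    fun {m n} h => congrArg (fun p : Y m => p.1.2.2) (hx h)
  -- the limits
  obtain ⟨ρ, hρ⟩ := rtp_lift_algHom I (fun n => (x n).1.1) (fun {m n} h => hc1 h)
  obtain ⟨φ, hφ⟩ := s59pt_lift_algHom I (fun n => (x n).1.2.1) (fun {m n} h => hc2 h)
  obtain ⟨ψ, hψ⟩ := s59pt_lift_algHom 𝔯 (fun n => (x n).1.2.2) (fun {m n} h => hc3 h)
  refine ⟨ρ, φ, ψ, ⟨?_, ?_, ?_, ?_⟩⟩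
  · -- scal
    intro c
    obtain ⟨a, ha⟩ := rtp_exists_preimage I hI hA
      (B := fun n => (A ⧸ I ^ n) × Matrix (Fin d) (Fin d) (A ⧸ I ^ n))
      (fun n => (Ideal.Quotient.mk (I ^ n)).prod
        ((x n).1.1 : A →+* Matrix (Fin d) (Fin d) (A ⧸ I ^ n)))
      (fun n => ((x n).1.2.1 (sq c), algebraMap A (Matrix (Fin d) (Fin d) (A ⧸ I ^ n)) (sq c)))
      (by
        intro n a ha
        have h1 : Ideal.Quotient.mk (I ^ (n + 1)) a = (x (n + 1)).1.2.1 (sq c) :=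
          congrArg Prod.fst ha
        have h2 : (x (n + 1)).1.1 a
            = algebraMap A (Matrix (Fin d) (Fin d) (A ⧸ I ^ (n + 1))) (sq c) := congrArg Prod.snd ha
        refine Prod.ext ?_ ?_
        · show Ideal.Quotient.mk (I ^ n) a = (x n).1.2.1 (sq c)
          rw [← hc2 (Nat.le_succ n), s59ptRed_apply, ← h1, Ideal.Quotient.factor_mk]
        · show (x n).1.1 a = algebraMap A (Matrix (Fin d) (Fin d) (A ⧸ I ^ n)) (sq c)
          rw [← hc1 (Nat.le_succ n), rtpRed_apply, h2, rtp_map_algebraMap_factor])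
      (by
        intro n
        obtain ⟨a, ha1, ha2⟩ := (x n).2.scal c
        exact ⟨a, Prod.ext ha1 ha2⟩)
    have h1 : a = φ (sq c) := by
      apply rtp_eq_of_forall_mk_eq I
      intro n
      rw [hφ n (sq c)]
      exact congrArg Prod.fst (ha n)
    apply rtp_matrix_ext I
    intro n
    rw [hρ n, ← h1, rtp_map_algebraMap_mk]
    exact congrArg Prod.snd (ha n)
  · -- rel
    intro i
    obtain ⟨a, ha⟩ := rtp_exists_preimage I hI hA
      (B := fun n => (A ⧸ I ^ n) × (R ⧸ 𝔯 ^ n))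
      (fun n => (Ideal.Quotient.mk (I ^ n)).prod ((x n).1.2.2 : A →+* R ⧸ 𝔯 ^ n))
      (fun n => ((x n).1.2.1 (X i), 0))
      (by
        intro n a ha
        have h1 : Ideal.Quotient.mk (I ^ (n + 1)) a = (x (n + 1)).1.2.1 (X i) :=
          congrArg Prod.fst ha
        have h2 : (x (n + 1)).1.2.2 a = 0 := congrArg Prod.snd ha
        refine Prod.ext ?_ ?_
        · show Ideal.Quotient.mk (I ^ n) a = (x n).1.2.1 (X i)
          rw [← hc2 (Nat.le_succ n), s59ptRed_apply, ← h1, Ideal.Quotient.factor_mk]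
        · show (x n).1.2.2 a = 0
          rw [← hc3 (Nat.le_succ n), s59ptRed_apply, h2, map_zero])
      (by
        intro n
        obtain ⟨a, ha1, ha2⟩ := (x n).2.rel i
        exact ⟨a, Prod.ext ha1 ha2⟩)
    have h1 : a = φ (X i) := by
      apply rtp_eq_of_forall_mk_eq I
      intro n
      rw [hφ n (X i)]
      exact congrArg Prod.fst (ha n)
    apply rtp_eq_of_forall_mk_eq 𝔯
    intro n
    rw [hψ n, ← h1, map_zero]
    exact congrArg Prod.snd (ha n)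
  · -- surj
    intro y
    obtain ⟨a, ha⟩ := rtp_exists_preimage I hI hA
      (B := fun n => R ⧸ 𝔯 ^ n)
      (fun n => ((x n).1.2.2 : A →+* R ⧸ 𝔯 ^ n))
      (fun n => Ideal.Quotient.mk (𝔯 ^ n) y)
      (by
        intro n a ha
        have h2 : (x (n + 1)).1.2.2 a = Ideal.Quotient.mk (𝔯 ^ (n + 1)) y := ha
        show (x n).1.2.2 a = Ideal.Quotient.mk (𝔯 ^ n) y
        rw [← hc3 (Nat.le_succ n), s59ptRed_apply, h2, Ideal.Quotient.factor_mk])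
      (by
        intro n
        exact (x n).2.surj y)
    refine ⟨a, ?_⟩
    apply rtp_eq_of_forall_mk_eq 𝔯
    intro n
    rw [hψ n]
    exact ha n
  · -- base
    intro f
    obtain ⟨y, hy⟩ := rtp_exists_preimage 𝔯 h𝔯 hR
      (B := fun n => (R ⧸ 𝔯 ^ n) × Matrix (Fin d) (Fin d) (𝒪 ⧸ 𝔬 ^ n))
      (fun n => (Ideal.Quotient.mk (𝔯 ^ n)).prod
        ((Ideal.Quotient.mk (𝔬 ^ n)).mapMatrix.comp Θ))
      (fun n => ((x n).1.2.2 f, ((x n).1.1 f).map (Ideal.quotientMap (𝔬 ^ n) ε (hε n))))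
      (by
        intro n y hy
        have h1 : Ideal.Quotient.mk (𝔯 ^ (n + 1)) y = (x (n + 1)).1.2.2 f :=
          congrArg Prod.fst hy
        have h2 : (Θ y).map (Ideal.Quotient.mk (𝔬 ^ (n + 1)))
            = ((x (n + 1)).1.1 f).map (Ideal.quotientMap (𝔬 ^ (n + 1)) ε (hε (n + 1))) :=
          congrArg Prod.snd hy
        refine Prod.ext ?_ ?_
        · show Ideal.Quotient.mk (𝔯 ^ n) y = (x n).1.2.2 f
          rw [← hc3 (Nat.le_succ n), s59ptRed_apply, ← h1, Ideal.Quotient.factor_mk]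
        · show (Θ y).map (Ideal.Quotient.mk (𝔬 ^ n))
            = ((x n).1.1 f).map (Ideal.quotientMap (𝔬 ^ n) ε (hε n))
          have h3 := congrArg (fun N => N.map (Ideal.Quotient.factor
            (Ideal.pow_le_pow_right (Nat.le_succ n) : 𝔬 ^ (n + 1) ≤ 𝔬 ^ n))) h2
          rw [rtp_map_mk_factor] at h3
          rw [h3, ← hc1 (Nat.le_succ n), rtpRed_apply]
          ext i j
          simp only [Matrix.map_apply]
          obtain ⟨s, hs⟩ := Ideal.Quotient.mk_surjective ((x (n + 1)).1.1 f i j)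
          rw [← hs, Ideal.quotientMap_mk, Ideal.Quotient.factor_mk, Ideal.Quotient.factor_mk,
            Ideal.quotientMap_mk])
      (by
        intro n
        obtain ⟨y, hy1, hy2⟩ := (x n).2.base f
        exact ⟨y, Prod.ext hy1 hy2⟩)
    have h1 : y = ψ f := by
      apply rtp_eq_of_forall_mk_eq 𝔯
      intro n
      rw [hψ n f]
      exact congrArg Prod.fst (hy n)
    apply rtp_matrix_ext 𝔬
    intro n
    have h2 : (Θ y).map (Ideal.Quotient.mk (𝔬 ^ n))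
        = ((x n).1.1 f).map (Ideal.quotientMap (𝔬 ^ n) ε (hε n)) := congrArg Prod.snd (hy n)
    rw [← h1, h2, ← hρ n]
    ext i j
    simp only [Matrix.map_apply, Ideal.quotientMap_mk]

end Main

end Fermat.Agent.S59
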