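import Mathlib
import Fermat.Agent.S59.Patch.Main
import Fermat.Agent.S59.Eta.Abs
import Fermat.Agent.S59.NC.TateFinal
import Fermat.Agent.S57

/-!
# S59, wall R1 (MIN′) — the HUB of the minimal case (deputy helper7)

Ledger: NOTES/S59-R1.md.  Target: `hmin` of `s59top_StmtChain` (`S59/Top.lean`),
`lPhi 0 ≤ Module.length 𝒪 (𝒪 ⧸ etaL 0)`, with `lPhi 0 = length Φ_{R_∅}` and `etaL 0 = J_B(E, x)` the
MODULE congruence ideal of the lattice at the minimal level (the base of R2's induction,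
`S59/Eta/PlanR2Full.lean`).

## R1-ALG (pure algebra, PROVED here, no arithmetic)

`𝒪` a complete discrete valuation ring with finite residue field, `(ℓ : 𝒪) ∈ 𝔪`; `R` an
`𝒪`-algebra, `M` an `R`-module, nontrivial and finite free over `𝒪`.  From ONE object,
a patching datum `D : Algebra.PatchingDatum 𝒪 ℓ r R M` (the prelude's structure: at every level `n`
a frame of `M` over `𝒪⟦X₁..X_r⟧ / ((1+X_j)^{ℓ^n} − 1)`), we get

* `s59min_free`      : `M` is free over `R`, `Ann_R M = 0`;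
* `s59min_ring`      : `R` is local, finite and free over `𝒪`;
* `s59min_ci`        : `length Φ_{R, π} ≤ length (𝒪 ⧸ η_{R, π})` for every augmentation `π` of `R`
                       (patching theorem `s59pt_main` + S57 + Tate `s59tate_stmtNCCI`);
* `s59min_iso`       : every surjection `γ : R ↠ T` through which `R` acts on `M` is BIJECTIVE
                       (the minimal `R_∅ = T_∅`);
* `s59min_hmin`      : `length Φ_{R, π} ≤ length (𝒪 ⧸ J_B(E, x))` for a pairing `B` on `M` for which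
                       `R` is self-adjoint, `E ≤` the `π`-eigenspace, `x ∈ M` (**this is `hmin`**);
* `s59min_hmin_amb`  : the same with `M` inside an ambient lattice `L` (`M = L_𝔪`, `E ⊆ M`), the
                       shape in which R2 (`s59r2f_step`, full lattices) starts its induction.

## R1-PD (the arithmetic leaf, OPEN)

The existence of the patching datum for `(R_∅, L_∅)`: see NOTES/S59-R1.md.
-/

set_option autoImplicit false
set_option linter.unusedSectionVars false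
set_option linter.unusedVariables false
set_option linter.style.haveILetI false
set_option linter.style.longLine false

namespace Fermat.Agent.S59

open IsLocalRing

section Alg

variable {𝒪 : Type} [CommRing 𝒪] [IsDomain 𝒪] [IsDiscreteValuationRing 𝒪]

/-- a ring over which a nontrivial finite free `𝒪`-module is free is itself finite and free
over the discrete valuation ring `𝒪` -/
theorem s59min_ring_of_free {R : Type} [CommRing R] [Algebra 𝒪 R]
    {M : Type} [AddCommGroup M] [Module R M] [Module 𝒪 M] [IsScalarTower 𝒪 R M]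
    [Nontrivial M] [Module.Finite 𝒪 M] [Module.Free 𝒪 M] (hfree : Module.Free R M) :
    Module.Finite 𝒪 R ∧ Module.Free 𝒪 R := by
  classical
  haveI := hfree
  let b := Module.Free.chooseBasis R M
  obtain ⟨i⟩ : Nonempty (Module.Free.ChooseBasisIndex R M) := b.index_nonempty
  let f : R →ₗ[𝒪] M := (LinearMap.toSpanSingleton R M (b i)).restrictScalars 𝒪
  have hf : Function.Injective f := by
    rw [injective_iff_map_eq_zero]
    intro t ht
    have h1 : t • b i = 0 := ht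
    have h2 := congrArg (fun v => b.repr v i) h1
    simpa using h2
  haveI : IsNoetherian 𝒪 M := isNoetherian_of_isNoetherianRing_of_finite 𝒪 M
  haveI hfin : Module.Finite 𝒪 R := Module.Finite.of_injective f hf
  haveI : Module.IsTorsionFree 𝒪 R :=
    Function.Injective.moduleIsTorsionFree f hf (fun c t => f.map_smul c t)
  exact ⟨hfin, Module.free_of_finite_type_torsion_free'⟩

variable [IsAdicComplete (maximalIdeal 𝒪) 𝒪] [Finite (ResidueField 𝒪)]

/-- **R1-ALG, freeness**: a patching datum makes `M` free and faithful over `R`. -/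
theorem s59min_free (ℓ : ℕ) (hℓ : (ℓ : 𝒪) ∈ maximalIdeal 𝒪) {r : ℕ} {R : Type} [CommRing R]
    [Algebra 𝒪 R] {M : Type} [AddCommGroup M] [Module R M] [Nontrivial M]
    (D : Algebra.PatchingDatum 𝒪 ℓ r R M) :
    Module.Free R M ∧ Module.annihilator R M = ⊥ := by
  haveI : Nontrivial R := Module.nontrivial R M
  obtain ⟨L⟩ := s59pt_main ℓ hℓ D
  obtain ⟨h1, h2, -⟩ := Fermat.Agent.S57.result L
  exact ⟨h1, h2⟩

/-- **R1-ALG, the ring**: `R` is local, finite and free over `𝒪`. -/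
theorem s59min_ring (ℓ : ℕ) (hℓ : (ℓ : 𝒪) ∈ maximalIdeal 𝒪) {r : ℕ} {R : Type} [CommRing R]
    [Algebra 𝒪 R] {M : Type} [AddCommGroup M] [Module R M] [Module 𝒪 M] [IsScalarTower 𝒪 R M]
    [Nontrivial M] [Module.Finite 𝒪 M] [Module.Free 𝒪 M]
    (D : Algebra.PatchingDatum 𝒪 ℓ r R M) :
    IsLocalRing R ∧ Module.Finite 𝒪 R ∧ Module.Free 𝒪 R := by
  haveI : Nontrivial R := Module.nontrivial R M
  have hψ₀ : Function.Surjective ((D.level 0).ψ : MvPowerSeries (Fin r) 𝒪 →+* R) :=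
    (D.level 0).ψ_surjective
  have hloc : IsLocalRing R := IsLocalRing.of_surjective' _ hψ₀
  obtain ⟨h1, h2⟩ := s59min_ring_of_free (𝒪 := 𝒪) (R := R) (M := M) (s59min_free ℓ hℓ D).1
  exact ⟨hloc, h1, h2⟩

/-- **R1-ALG, complete intersection**: `length Φ_{R, π} ≤ length (𝒪 ⧸ η_{R, π})` for every
augmentation `π` of `R`. -/
theorem s59min_ci (ℓ : ℕ) (hℓ : (ℓ : 𝒪) ∈ maximalIdeal 𝒪) {r : ℕ} {R : Type} [CommRing R]
    [Algebra 𝒪 R] {M : Type} [AddCommGroup M] [Module R M] [Module 𝒪 M] [IsScalarTower 𝒪 R M]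
    [Nontrivial M] [Module.Finite 𝒪 M] [Module.Free 𝒪 M]
    (D : Algebra.PatchingDatum 𝒪 ℓ r R M) (π : R →ₐ[𝒪] 𝒪) :
    s59p_phiLen 𝒪 π ≤ Module.length 𝒪 (𝒪 ⧸ s59p_eta 𝒪 π) := by
  haveI : Nontrivial R := Module.nontrivial R M
  obtain ⟨hloc, hfin, hfree⟩ := s59min_ring (M := M) ℓ hℓ D
  obtain ⟨L⟩ := s59pt_main ℓ hℓ D
  obtain ⟨-, -, hker⟩ := Fermat.Agent.S57.result L
  exact s59tate_stmtNCCI 𝒪 R r L.ψ (fun i => L.φ (MvPowerSeries.X i)) L.ψ_surjective hker π

omit [IsDomain 𝒪] [IsDiscreteValuationRing 𝒪] [IsAdicComplete (maximalIdeal 𝒪) 𝒪]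
  [Finite (ResidueField 𝒪)] in
/-- a surjection `γ : R ↠ T` through which `R` acts on the faithful module `M` is bijective -/
theorem s59min_iso_of_ann {R T : Type} [CommRing R] [CommRing T] [Algebra 𝒪 R] [Algebra 𝒪 T]
    {M : Type} [AddCommGroup M] [Module R M] [Module T M]
    (γ : R →ₐ[𝒪] T) (hγ : Function.Surjective γ) (hcompat : ∀ (t : R) (m : M), γ t • m = t • m)
    (hann : Module.annihilator R M = ⊥) : Function.Bijective γ := by
  refine ⟨?_, hγ⟩
  rw [injective_iff_map_eq_zero]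
  intro t ht
  have h1 : t ∈ Module.annihilator R M := by
    rw [Module.mem_annihilator]
    intro m
    rw [← hcompat t m, ht, zero_smul]
  rw [hann] at h1
  exact h1

/-- **R1-ALG, minimal `R = T`**: with a patching datum for `(R, M)`, every surjection `γ : R ↠ T`
through which `R` acts on `M` is bijective. -/
theorem s59min_iso (ℓ : ℕ) (hℓ : (ℓ : 𝒪) ∈ maximalIdeal 𝒪) {r : ℕ} {R T : Type} [CommRing R]
    [CommRing T] [Algebra 𝒪 R] [Algebra 𝒪 T] {M : Type} [AddCommGroup M] [Module R M]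
    [Module T M] [Nontrivial M] (D : Algebra.PatchingDatum 𝒪 ℓ r R M)
    (γ : R →ₐ[𝒪] T) (hγ : Function.Surjective γ)
    (hcompat : ∀ (t : R) (m : M), γ t • m = t • m) : Function.Bijective γ :=
  s59min_iso_of_ann γ hγ hcompat (s59min_free ℓ hℓ D).2

omit [IsDomain 𝒪] [IsDiscreteValuationRing 𝒪] [IsAdicComplete (maximalIdeal 𝒪) 𝒪]
  [Finite (ResidueField 𝒪)] in
/-- monotonicity of the module congruence ideal in the eigen-submodule -/
theorem s59min_J_mono {L : Type} [AddCommGroup L] [Module 𝒪 L] (B : L →ₗ[𝒪] L →ₗ[𝒪] 𝒪)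
    {E E' : Submodule 𝒪 L} (h : E ≤ E') (x : L) : s59eta_J B E x ≤ s59eta_J B E' x :=
  Submodule.map_mono h

/-- **R1-ALG = `hmin`**: `length Φ_{R, π} ≤ length (𝒪 ⧸ J_B(E, x))`, for a pairing `B` on `M` for
which `R` is self-adjoint, `E` inside the `π`-eigenspace of `M`, and `x` in the `π`-eigenspace. -/
theorem s59min_hmin (ℓ : ℕ) (hℓ : (ℓ : 𝒪) ∈ maximalIdeal 𝒪) {r : ℕ} {R : Type} [CommRing R]
    [Algebra 𝒪 R] {M : Type} [AddCommGroup M] [Module R M] [Module 𝒪 M] [IsScalarTower 𝒪 R M]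
    [Nontrivial M] [Module.Finite 𝒪 M] [Module.Free 𝒪 M]
    (D : Algebra.PatchingDatum 𝒪 ℓ r R M) (π : R →ₐ[𝒪] 𝒪)
    (B : M →ₗ[𝒪] M →ₗ[𝒪] 𝒪) (hB : ∀ (t : R) (x y : M), B (t • x) y = B x (t • y))
    (E : Submodule 𝒪 M) (hE : E ≤ s59eta_eig M π) (x : M) (hx : x ∈ s59eta_eig M π) :
    s59p_phiLen 𝒪 π ≤ Module.length 𝒪 (𝒪 ⧸ s59eta_J B E x) := by
  haveI := (s59min_free ℓ hℓ D).1
  have h1 : s59eta_J B E x ≤ s59p_eta 𝒪 π :=
    (s59min_J_mono B hE x).trans
      (s59eta_min_abs (Module.Free.chooseBasis R M) B hB π x hx)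
  exact s59eta_base_abs π _ h1 _ (s59min_ci ℓ hℓ D π)

/-- **R1-ALG = `hmin`, ambient form**: `M` (`= L_𝔪`) maps to an ambient lattice `L` by `ι`, the
pairing `B` lives on `L`, `R` is self-adjoint for `B ∘ (ι × ι)`, the eigen-submodule `E` of `L`
consists of images of `π`-eigenvectors of `M`, and `x = ι x₀`. -/
theorem s59min_hmin_amb (ℓ : ℕ) (hℓ : (ℓ : 𝒪) ∈ maximalIdeal 𝒪) {r : ℕ} {R : Type} [CommRing R]
    [Algebra 𝒪 R] {M : Type} [AddCommGroup M] [Module R M] [Module 𝒪 M] [IsScalarTower 𝒪 R M]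
    [Nontrivial M] [Module.Finite 𝒪 M] [Module.Free 𝒪 M]
    (D : Algebra.PatchingDatum 𝒪 ℓ r R M) (π : R →ₐ[𝒪] 𝒪)
    {L : Type} [AddCommGroup L] [Module 𝒪 L] (ι : M →ₗ[𝒪] L)
    (B : L →ₗ[𝒪] L →ₗ[𝒪] 𝒪)
    (hB : ∀ (t : R) (x y : M), B (ι (t • x)) (ι y) = B (ι x) (ι (t • y)))
    (E : Submodule 𝒪 L) (hE : ∀ y ∈ E, ∃ m ∈ s59eta_eig M π, ι m = y)
    (x₀ : M) (hx : x₀ ∈ s59eta_eig M π) :
    s59p_phiLen 𝒪 π ≤ Module.length 𝒪 (𝒪 ⧸ s59eta_J B E (ι x₀)) := by
  have h0 := s59min_hmin ℓ hℓ D π (B.compl₁₂ ι ι) (fun t x y => hB t x y)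
    (s59eta_eig M π) le_rfl x₀ hx
  refine h0.trans (s59eta_length_anti _ _ ?_)
  intro c hc
  rw [s59eta_mem_J] at hc ⊢
  obtain ⟨y, hy, rfl⟩ := hc
  obtain ⟨m, hm, rfl⟩ := hE y hy
  exact ⟨m, hm, rfl⟩

end Alg

end Fermat.Agent.S59
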