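import Mathlib
import Fermat.Agent.S59.Min.Plan

/-!
# S59, wall R1 (MIN′) — R1-ALG from ONE patching level, and from FINITE levels (helper7)

`S59/Min/Plan.lean` consumes a `Algebra.PatchingDatum` (integral levels).  The K-machine (and its
`W`-twins `S59/LowK/*`) produces FINITE levels: matrices over `A ⧸ 𝔪_A ^ k`, `A = 𝒪⟦X₁..X_r⟧`.  Here
are the same conclusions from

* one patching level with `J = ⊥`  (`s59minl_free`, `s59minl_ring`, `s59minl_ci`, `s59minl_iso`,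
  `s59minl_hmin`, `s59minl_hmin_amb`);
* a family of finite levels `S59ptLev … k ρ φ ψ` (`S59/Patch/Limit.lean`), one for every `k`
  (`s59minl_level_of_lev` and **`s59minl_hmin_of_lev`**, `s59minl_iso_of_lev`).

The finite level `k` asks for (with `I = 𝔪_A`, `Θ : R → M_d(𝒪)` the action of `R` on `M` in a basis):
`ρ : A → M_d(A ⧸ I^k)` (the action of `R_∞ = A` on the free module `(A ⧸ I^k)^d`),
`φ : A → A ⧸ I^k` (the `S_∞`-structure), `ψ : A → R ⧸ 𝔪_R^k` with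
`scal` (`φ c` acts by the scalar `c`), `rel` (`ψ (φ X_i) = 0`), `surj`, `base` (`ρ` mod `X` is `Θ ∘ ψ`).
-/

set_option autoImplicit false
set_option linter.unusedSectionVars false
set_option linter.unusedVariables false
set_option linter.style.haveILetI false
set_option linter.style.longLine false

namespace Fermat.Agent.S59

open IsLocalRing MvPowerSeries

section Level

variable {𝒪 : Type} [CommRing 𝒪] [IsDomain 𝒪] [IsDiscreteValuationRing 𝒪]

/-- a patching level with `J = ⊥` makes `M` free and faithful over `R` (S57) -/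
theorem s59minl_free {r : ℕ} {R : Type} [CommRing R]
    [Algebra 𝒪 R] {M : Type} [AddCommGroup M] [Module R M] [Nontrivial M]
    (L : Algebra.PatchingLevel 𝒪 r R M ⊥) :
    Module.Free R M ∧ Module.annihilator R M = ⊥ := by
  obtain ⟨h1, h2, -⟩ := Fermat.Agent.S57.result L
  exact ⟨h1, h2⟩

/-- `R` is local, finite and free over `𝒪` -/
theorem s59minl_ring {r : ℕ} {R : Type} [CommRing R]
    [Algebra 𝒪 R] {M : Type} [AddCommGroup M] [Module R M] [Module 𝒪 M] [IsScalarTower 𝒪 R M]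
    [Nontrivial M] [Module.Finite 𝒪 M] [Module.Free 𝒪 M]
    (L : Algebra.PatchingLevel 𝒪 r R M ⊥) :
    IsLocalRing R ∧ Module.Finite 𝒪 R ∧ Module.Free 𝒪 R := by
  haveI : Nontrivial R := Module.nontrivial R M
  have hψ₀ : Function.Surjective (L.ψ : MvPowerSeries (Fin r) 𝒪 →+* R) := L.ψ_surjective
  have hloc : IsLocalRing R := IsLocalRing.of_surjective' _ hψ₀
  obtain ⟨h1, h2⟩ := s59min_ring_of_free (𝒪 := 𝒪) (R := R) (M := M) (s59minl_free L).1
  exact ⟨hloc, h1, h2⟩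

/-- complete intersection: `length Φ_{R, π} ≤ length (𝒪 ⧸ η_{R, π})` -/
theorem s59minl_ci {r : ℕ} {R : Type} [CommRing R]
    [Algebra 𝒪 R] {M : Type} [AddCommGroup M] [Module R M] [Module 𝒪 M] [IsScalarTower 𝒪 R M]
    [Nontrivial M] [Module.Finite 𝒪 M] [Module.Free 𝒪 M]
    (L : Algebra.PatchingLevel 𝒪 r R M ⊥) (π : R →ₐ[𝒪] 𝒪) :
    s59p_phiLen 𝒪 π ≤ Module.length 𝒪 (𝒪 ⧸ s59p_eta 𝒪 π) := by
  obtain ⟨hloc, hfin, hfree⟩ := s59minl_ring (M := M) L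
  obtain ⟨-, -, hker⟩ := Fermat.Agent.S57.result L
  exact s59tate_stmtNCCI 𝒪 R r L.ψ (fun i => L.φ (MvPowerSeries.X i)) L.ψ_surjective hker π

/-- minimal `R = T` -/
theorem s59minl_iso {r : ℕ} {R T : Type} [CommRing R]
    [CommRing T] [Algebra 𝒪 R] [Algebra 𝒪 T] {M : Type} [AddCommGroup M] [Module R M]
    [Module T M] [Nontrivial M] (L : Algebra.PatchingLevel 𝒪 r R M ⊥)
    (γ : R →ₐ[𝒪] T) (hγ : Function.Surjective γ)
    (hcompat : ∀ (t : R) (m : M), γ t • m = t • m) : Function.Bijective γ :=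
  s59min_iso_of_ann γ hγ hcompat (s59minl_free L).2

/-- `hmin` with the module congruence ideal -/
theorem s59minl_hmin {r : ℕ} {R : Type} [CommRing R]
    [Algebra 𝒪 R] {M : Type} [AddCommGroup M] [Module R M] [Module 𝒪 M] [IsScalarTower 𝒪 R M]
    [Nontrivial M] [Module.Finite 𝒪 M] [Module.Free 𝒪 M]
    (L : Algebra.PatchingLevel 𝒪 r R M ⊥) (π : R →ₐ[𝒪] 𝒪)
    (B : M →ₗ[𝒪] M →ₗ[𝒪] 𝒪) (hB : ∀ (t : R) (x y : M), B (t • x) y = B x (t • y))
    (E : Submodule 𝒪 M) (hE : E ≤ s59eta_eig M π) (x : M) (hx : x ∈ s59eta_eig M π) :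
    s59p_phiLen 𝒪 π ≤ Module.length 𝒪 (𝒪 ⧸ s59eta_J B E x) := by
  haveI := (s59minl_free L).1
  have h1 : s59eta_J B E x ≤ s59p_eta 𝒪 π :=
    (s59min_J_mono B hE x).trans
      (s59eta_min_abs (Module.Free.chooseBasis R M) B hB π x hx)
  exact s59eta_base_abs π _ h1 _ (s59minl_ci L π)

/-- `hmin`, ambient form -/
theorem s59minl_hmin_amb {r : ℕ} {R : Type} [CommRing R]
    [Algebra 𝒪 R] {M : Type} [AddCommGroup M] [Module R M] [Module 𝒪 M] [IsScalarTower 𝒪 R M]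
    [Nontrivial M] [Module.Finite 𝒪 M] [Module.Free 𝒪 M]
    (L₀ : Algebra.PatchingLevel 𝒪 r R M ⊥) (π : R →ₐ[𝒪] 𝒪)
    {L : Type} [AddCommGroup L] [Module 𝒪 L] (ι : M →ₗ[𝒪] L)
    (B : L →ₗ[𝒪] L →ₗ[𝒪] 𝒪)
    (hB : ∀ (t : R) (x y : M), B (ι (t • x)) (ι y) = B (ι x) (ι (t • y)))
    (E : Submodule 𝒪 L) (hE : ∀ y ∈ E, ∃ m ∈ s59eta_eig M π, ι m = y)
    (x₀ : M) (hx : x₀ ∈ s59eta_eig M π) :
    s59p_phiLen 𝒪 π ≤ Module.length 𝒪 (𝒪 ⧸ s59eta_J B E (ι x₀)) := by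
  have h0 := s59minl_hmin L₀ π (B.compl₁₂ ι ι) (fun t x y => hB t x y)
    (s59eta_eig M π) le_rfl x₀ hx
  refine h0.trans (s59eta_length_anti _ _ ?_)
  intro c hc
  rw [s59eta_mem_J] at hc ⊢
  obtain ⟨y, hy, rfl⟩ := hc
  obtain ⟨m, hm, rfl⟩ := hE y hy
  exact ⟨m, hm, rfl⟩

end Level

section Lev

open Fermat.Agent.RT.K2c

variable {𝒪 : Type} [CommRing 𝒪] [IsDomain 𝒪] [IsDiscreteValuationRing 𝒪]
  [IsAdicComplete (maximalIdeal 𝒪) 𝒪] [Finite (ResidueField 𝒪)]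

/-- **the patching theorem from FINITE levels**: `R` local Noetherian complete with finite residue
field, `M` free over `𝒪` with basis `m`, and for every `k` a finite level `S59ptLev … k ρ φ ψ`. -/
theorem s59minl_level_of_lev {r : ℕ} {R : Type} [CommRing R] [Algebra 𝒪 R] [IsLocalRing R]
    [IsNoetherianRing R] [IsAdicComplete (maximalIdeal R) R] [Finite (ResidueField R)]
    {M : Type} [AddCommGroup M] [Module R M] [Module 𝒪 M] [IsScalarTower 𝒪 R M] {d : ℕ}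
    (m : Module.Basis (Fin d) 𝒪 M)
    (hlev : ∀ k, ∃ ρ φ ψ, S59ptLev (maximalIdeal (MvPowerSeries (Fin r) 𝒪)) (maximalIdeal R)
      (maximalIdeal 𝒪) (constantCoeff (σ := Fin r) (R := 𝒪)) (fun k => s59pt_eps_pow k)
      (s59ptTheta m) (MvPowerSeries.X : Fin r → MvPowerSeries (Fin r) 𝒪) k ρ φ ψ) :
    Nonempty (Algebra.PatchingLevel 𝒪 r R M ⊥) := by
  haveI : IsAdicComplete (maximalIdeal (MvPowerSeries (Fin r) 𝒪)) (MvPowerSeries (Fin r) 𝒪) :=
    rtk2c_isAdicComplete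
  haveI : Finite (ResidueField (MvPowerSeries (Fin r) 𝒪)) := rtk2c_finite_residueField
  obtain ⟨ρ, φ, ψ, h⟩ := s59pt_limit (maximalIdeal (MvPowerSeries (Fin r) 𝒪)) (maximalIdeal R)
    (maximalIdeal 𝒪) (constantCoeff (σ := Fin r) (R := 𝒪)) (fun k => s59pt_eps_pow k)
    (s59ptTheta m)
    (MvPowerSeries.X : Fin r → MvPowerSeries (Fin r) 𝒪)
    (IsLocalRing.maximalIdeal_le_jacobson ⊥) (fun k => rtk2c_finite_quotient_pow k)
    (IsLocalRing.maximalIdeal_le_jacobson ⊥) (fun k => rtk2c_finite_quotient_pow k)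
    (fun k => rtk2c_finite_quotient_pow k) hlev
  exact ⟨s59ptLevelOfLim h⟩

/-- **R1-ALG = `hmin` from FINITE levels.** -/
theorem s59minl_hmin_of_lev {r : ℕ} {R : Type} [CommRing R] [Algebra 𝒪 R] [IsLocalRing R]
    [IsNoetherianRing R] [IsAdicComplete (maximalIdeal R) R] [Finite (ResidueField R)]
    {M : Type} [AddCommGroup M] [Module R M] [Module 𝒪 M] [IsScalarTower 𝒪 R M] {d : ℕ}
    [Nontrivial M] (m : Module.Basis (Fin d) 𝒪 M)
    (hlev : ∀ k, ∃ ρ φ ψ, S59ptLev (maximalIdeal (MvPowerSeries (Fin r) 𝒪)) (maximalIdeal R)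
      (maximalIdeal 𝒪) (constantCoeff (σ := Fin r) (R := 𝒪)) (fun k => s59pt_eps_pow k)
      (s59ptTheta m) (MvPowerSeries.X : Fin r → MvPowerSeries (Fin r) 𝒪) k ρ φ ψ)
    (π : R →ₐ[𝒪] 𝒪)
    {L : Type} [AddCommGroup L] [Module 𝒪 L] (ι : M →ₗ[𝒪] L)
    (B : L →ₗ[𝒪] L →ₗ[𝒪] 𝒪)
    (hB : ∀ (t : R) (x y : M), B (ι (t • x)) (ι y) = B (ι x) (ι (t • y)))
    (E : Submodule 𝒪 L) (hE : ∀ y ∈ E, ∃ m ∈ s59eta_eig M π, ι m = y)
    (x₀ : M) (hx : x₀ ∈ s59eta_eig M π) :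
    s59p_phiLen 𝒪 π ≤ Module.length 𝒪 (𝒪 ⧸ s59eta_J B E (ι x₀)) := by
  obtain ⟨L₀⟩ := s59minl_level_of_lev m hlev
  haveI : Module.Finite 𝒪 M := Module.Finite.of_basis m
  haveI : Module.Free 𝒪 M := Module.Free.of_basis m
  exact s59minl_hmin_amb L₀ π ι B hB E hE x₀ hx

/-- **minimal `R = T` from FINITE levels.** -/
theorem s59minl_iso_of_lev {r : ℕ} {R T : Type} [CommRing R] [Algebra 𝒪 R] [IsLocalRing R]
    [IsNoetherianRing R] [IsAdicComplete (maximalIdeal R) R] [Finite (ResidueField R)]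
    [CommRing T] [Algebra 𝒪 T]
    {M : Type} [AddCommGroup M] [Module R M] [Module 𝒪 M] [IsScalarTower 𝒪 R M] [Module T M]
    {d : ℕ} [Nontrivial M] (m : Module.Basis (Fin d) 𝒪 M)
    (hlev : ∀ k, ∃ ρ φ ψ, S59ptLev (maximalIdeal (MvPowerSeries (Fin r) 𝒪)) (maximalIdeal R)
      (maximalIdeal 𝒪) (constantCoeff (σ := Fin r) (R := 𝒪)) (fun k => s59pt_eps_pow k)
      (s59ptTheta m) (MvPowerSeries.X : Fin r → MvPowerSeries (Fin r) 𝒪) k ρ φ ψ)
    (γ : R →ₐ[𝒪] T) (hγ : Function.Surjective γ)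
    (hcompat : ∀ (t : R) (x : M), γ t • x = t • x) : Function.Bijective γ := by
  obtain ⟨L₀⟩ := s59minl_level_of_lev m hlev
  exact s59minl_iso L₀ γ hγ hcompat

end Lev

end Fermat.Agent.S59
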