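import Mathlib
import Fermat.Agent.S59.Patch.Main
import Fermat.Agent.S59.Min.PlanLev
import Fermat.Agent.S59.Min.EvenLimit
import Fermat.Agent.S59.Min.EvenLevel

/-!
# S59, wall R1 — BYPASS v2, part 5 (helper34): minimal `R = T` from FINITE EVEN levels

The K-machine gives, at a Taylor–Wiles level, only the EVEN scalars in the image of the Galois side
(`tr ρ(g_j)² − 4 = X_j²`).  Here:

* `s59minevOfLim`          : an even limit `S59ptLimE … rtevSq ρ φ ψ` is an `S59minevData`;
* `s59minev_level_of_lev`  : finite even levels `∀ k, ∃ ρ φ ψ, S59ptLevE … rtevSq k ρ φ ψ`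
                             ⇒ `Nonempty (PatchingLevel 𝒪 r R M ⊥)`  (twin of `s59minl_level_of_lev`);
* `s59minev_hmin_of_lev`, `s59minev_iso_of_lev` : twins of `s59minl_hmin_of_lev`, `s59minl_iso_of_lev`.

No `U_q`, no sign, no local–global compatibility for `Frob · inertia` (R1-LG is avoided).
-/

set_option autoImplicit false
set_option linter.unusedSectionVars false
set_option linter.unusedVariables false
set_option linter.style.longLine false
set_option linter.style.haveILetI false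

noncomputable section

namespace Fermat.Agent.S59

open MvPowerSeries IsLocalRing Fermat.Agent.RT.Even

section OfLimE

variable {𝒪 : Type} [CommRing 𝒪] {r : ℕ} {R : Type} [CommRing R] [Algebra 𝒪 R]
  {M : Type} [AddCommGroup M] [Module R M] [Module 𝒪 M] [IsScalarTower 𝒪 R M] {d : ℕ}
  {m : Module.Basis (Fin d) 𝒪 M}
  {ρ : MvPowerSeries (Fin r) 𝒪 →ₐ[𝒪] Matrix (Fin d) (Fin d) (MvPowerSeries (Fin r) 𝒪)}
  {φ : MvPowerSeries (Fin r) 𝒪 →ₐ[𝒪] MvPowerSeries (Fin r) 𝒪}
  {ψ : MvPowerSeries (Fin r) 𝒪 →ₐ[𝒪] R}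
  (h : S59ptLimE (constantCoeff (σ := Fin r) (R := 𝒪)) (s59ptTheta m)
    (MvPowerSeries.X : Fin r → MvPowerSeries (Fin r) 𝒪) (rtevSq (σ := Fin r) (O := 𝒪)) ρ φ ψ)

include h in
theorem s59minev_lim_psi_smul (f : MvPowerSeries (Fin r) 𝒪) (j : Fin d) :
    ψ f • m j = ∑ i, (constantCoeff (ρ f i j) : 𝒪) • m i := by
  rw [← m.sum_repr (ψ f • m j)]
  refine Finset.sum_congr rfl fun i _ => ?_
  rw [← s59ptTheta_apply, h.base, Matrix.map_apply]

include h in
theorem s59minev_lim_pi_smul (f : MvPowerSeries (Fin r) 𝒪)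
    (x : S59ptMod ρ.toRingHom) :
    s59ptPi m ρ.toRingHom (f • x) =
      ψ f • s59ptPi m ρ.toRingHom x := by
  rw [s59ptPi_apply, s59ptPi_apply, Finset.smul_sum]
  have h1 : ∀ i, (constantCoeff ((f • x) i) : 𝒪) • m i
      = ∑ j, ((constantCoeff (x j) : 𝒪) * constantCoeff (ρ f i j)) • m i := by
    intro i
    rw [s59ptMod_smul_apply, map_sum, Finset.sum_smul]
    refine Finset.sum_congr rfl fun j _ => ?_
    rw [map_mul, mul_comm]
    rfl
  simp only [h1]
  rw [Finset.sum_comm]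
  refine Finset.sum_congr rfl fun j _ => ?_
  rw [smul_comm, s59minev_lim_psi_smul h, Finset.smul_sum]
  refine Finset.sum_congr rfl fun i _ => ?_
  rw [smul_smul]

/-- the diamond structure on `A^d`: coordinatewise multiplication -/
def s59minevS (ρ' : MvPowerSeries (Fin r) 𝒪 →+* Matrix (Fin d) (Fin d) (MvPowerSeries (Fin r) 𝒪)) :
    MvPowerSeries (Fin r) 𝒪 →+* AddMonoid.End (S59ptMod ρ') where
  toFun f :=
    { toFun := fun x => s59ptModMk ρ' (fun i => f * x i)
      map_zero' := by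
        apply s59ptMod_ext
        intro i
        show f * (0 : S59ptMod ρ') i = 0
        rw [s59ptMod_zero_apply, mul_zero]
      map_add' := fun x y => by
        apply s59ptMod_ext
        intro i
        show f * (x + y) i = f * x i + f * y i
        rw [s59ptMod_add_apply, mul_add] }
  map_one' := by
    ext x
    apply s59ptMod_ext
    intro i
    show 1 * x i = x i
    rw [one_mul]
  map_mul' f g := by
    ext x
    apply s59ptMod_ext
    intro i
    show f * g * x i = f * (g * x i)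
    rw [mul_assoc]
  map_zero' := by
    ext x
    apply s59ptMod_ext
    intro i
    show 0 * x i = 0
    rw [zero_mul]
  map_add' f g := by
    ext x
    apply s59ptMod_ext
    intro i
    show (f + g) * x i = f * x i + g * x i
    rw [add_mul]

theorem s59minevS_apply
    (ρ' : MvPowerSeries (Fin r) 𝒪 →+* Matrix (Fin d) (Fin d) (MvPowerSeries (Fin r) 𝒪))
    (f : MvPowerSeries (Fin r) 𝒪) (x : S59ptMod ρ') (i : Fin d) :
    s59minevS ρ' f x i = f * x i := rfl

theorem s59minevS_sum_std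
    (ρ' : MvPowerSeries (Fin r) 𝒪 →+* Matrix (Fin d) (Fin d) (MvPowerSeries (Fin r) 𝒪))
    (c : Fin d → MvPowerSeries (Fin r) 𝒪) (j : Fin d) :
    (∑ i, s59minevS ρ' (c i) (s59ptStd ρ' i)) j = c j := by
  classical
  rw [s59ptMod_sum_apply, Finset.sum_eq_single j]
  · rw [s59minevS_apply]
    show c j * (Pi.single j 1 : Fin d → MvPowerSeries (Fin r) 𝒪) j = c j
    rw [Pi.single_eq_same, mul_one]
  · intro i _ hij
    rw [s59minevS_apply]
    show c i * (Pi.single i 1 : Fin d → MvPowerSeries (Fin r) 𝒪) j = 0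
    rw [Pi.single_eq_of_ne (Ne.symm hij), mul_zero]
  · intro h
    exact absurd (Finset.mem_univ j) h

/-- **an even limit is an even limit datum** -/
def s59minevOfLim : S59minevData 𝒪 r R M where
  N := S59ptMod ρ.toRingHom
  instAddCommGroup := s59ptModAddCommGroup ρ.toRingHom
  instModule := s59ptModModule ρ.toRingHom
  s := s59minevS ρ.toRingHom
  s_C := fun a x => by
    apply s59ptMod_ext
    intro i
    have hC : ρ.toRingHom (C a) = algebraMap (MvPowerSeries (Fin r) 𝒪)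
        (Matrix (Fin d) (Fin d) (MvPowerSeries (Fin r) 𝒪)) (C a) := by
      have h1 := ρ.commutes a
      rw [MvPowerSeries.algebraMap_apply, Algebra.algebraMap_self, RingHom.id_apply] at h1
      show ρ (C a) = _
      rw [h1]
      ext i j
      rw [Matrix.algebraMap_matrix_apply, Matrix.algebraMap_matrix_apply]
      split_ifs
      · rw [MvPowerSeries.algebraMap_apply, Algebra.algebraMap_self, RingHom.id_apply,
          Algebra.algebraMap_self, RingHom.id_apply]
      · rfl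
    rw [s59ptMod_scalar_smul _ hC, s59minevS_apply]
  d := d
  b := s59ptStd ρ.toRingHom
  b_basis := by
    constructor
    · intro x
      exact ⟨fun j => x j, s59ptMod_ext _ fun j => (s59minevS_sum_std _ _ j).symm⟩
    · intro c hc i
      rw [← s59minevS_sum_std ρ.toRingHom c i, hc]
      rfl
  φ := φ
  scalE := fun f x => by
    apply s59ptMod_ext
    intro i
    rw [s59ptMod_scalar_smul _ (h.scal f), s59minevS_apply]
  ψ := ψ
  ψ_surjective := h.surj
  ψ_φ_X := h.rel
  π := s59ptPi m ρ.toRingHom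
  π_smul := fun f x => s59minev_lim_pi_smul h f x
  π_surjective := s59ptPi_surjective m _
  ker_π := fun x => by
    rw [s59ptPi_eq_zero_iff]
    constructor
    · intro hx
      have h1 : ∀ j, ∃ w : Fin r → MvPowerSeries (Fin r) 𝒪, x j = ∑ i, w i * MvPowerSeries.X i :=
        fun j => s59pt_exists_sum_X ((s59pt_mem_X_iff _).2 (hx j))
      choose w hw using h1
      refine ⟨fun i => s59ptModMk ρ.toRingHom (fun j => w j i), ?_⟩
      apply s59ptMod_ext
      intro j
      rw [s59ptMod_sum_apply, hw j]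
      refine Finset.sum_congr rfl fun i _ => ?_
      rw [s59minevS_apply, mul_comm]
      rfl
    · rintro ⟨y, rfl⟩ j
      rw [s59ptMod_sum_apply, map_sum]
      refine Finset.sum_eq_zero fun i _ => ?_
      rw [s59minevS_apply, map_mul, constantCoeff_X, zero_mul]

end OfLimE

section Lev

open Fermat.Agent.RT.K2c

variable {𝒪 : Type} [CommRing 𝒪] [IsDomain 𝒪] [IsDiscreteValuationRing 𝒪]
  [IsAdicComplete (maximalIdeal 𝒪) 𝒪] [Finite (ResidueField 𝒪)]

/-- **BYPASS v2: the patching level from FINITE EVEN levels** (twin of `s59minl_level_of_lev`):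
`scal` is asked for the EVEN scalars `sq c` only. -/
theorem s59minev_level_of_lev {r : ℕ} {R : Type} [CommRing R] [Algebra 𝒪 R] [IsLocalRing R]
    [IsNoetherianRing R] [IsAdicComplete (maximalIdeal R) R] [Finite (ResidueField R)]
    {M : Type} [AddCommGroup M] [Module R M] [Module 𝒪 M] [IsScalarTower 𝒪 R M] [Nontrivial M]
    {d : ℕ} (m : Module.Basis (Fin d) 𝒪 M)
    (hlev : ∀ k, ∃ ρ φ ψ, S59ptLevE (maximalIdeal (MvPowerSeries (Fin r) 𝒪)) (maximalIdeal R)
      (maximalIdeal 𝒪) (constantCoeff (σ := Fin r) (R := 𝒪)) (fun k => s59pt_eps_pow k)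
      (s59ptTheta m) (MvPowerSeries.X : Fin r → MvPowerSeries (Fin r) 𝒪)
      (rtevSq (σ := Fin r) (O := 𝒪)) k ρ φ ψ) :
    Nonempty (Algebra.PatchingLevel 𝒪 r R M ⊥) := by
  haveI : IsAdicComplete (maximalIdeal (MvPowerSeries (Fin r) 𝒪)) (MvPowerSeries (Fin r) 𝒪) :=
    rtk2c_isAdicComplete
  haveI : Finite (ResidueField (MvPowerSeries (Fin r) 𝒪)) := rtk2c_finite_residueField
  obtain ⟨ρ, φ, ψ, h⟩ := s59pt_limitE (maximalIdeal (MvPowerSeries (Fin r) 𝒪)) (maximalIdeal R)
    (maximalIdeal 𝒪) (constantCoeff (σ := Fin r) (R := 𝒪)) (fun k => s59pt_eps_pow k)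
    (s59ptTheta m)
    (MvPowerSeries.X : Fin r → MvPowerSeries (Fin r) 𝒪) (rtevSq (σ := Fin r) (O := 𝒪))
    (IsLocalRing.maximalIdeal_le_jacobson ⊥) (fun k => rtk2c_finite_quotient_pow k)
    (IsLocalRing.maximalIdeal_le_jacobson ⊥) (fun k => rtk2c_finite_quotient_pow k)
    (fun k => rtk2c_finite_quotient_pow k) hlev
  obtain ⟨L, -, -⟩ := s59minev_level (s59minevOfLim h)
  exact ⟨L⟩

/-- **R1-ALG = `hmin` from FINITE EVEN levels** (twin of `s59minl_hmin_of_lev`). -/
theorem s59minev_hmin_of_lev {r : ℕ} {R : Type} [CommRing R] [Algebra 𝒪 R] [IsLocalRing R]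
    [IsNoetherianRing R] [IsAdicComplete (maximalIdeal R) R] [Finite (ResidueField R)]
    {M : Type} [AddCommGroup M] [Module R M] [Module 𝒪 M] [IsScalarTower 𝒪 R M] {d : ℕ}
    [Nontrivial M] (m : Module.Basis (Fin d) 𝒪 M)
    (hlev : ∀ k, ∃ ρ φ ψ, S59ptLevE (maximalIdeal (MvPowerSeries (Fin r) 𝒪)) (maximalIdeal R)
      (maximalIdeal 𝒪) (constantCoeff (σ := Fin r) (R := 𝒪)) (fun k => s59pt_eps_pow k)
      (s59ptTheta m) (MvPowerSeries.X : Fin r → MvPowerSeries (Fin r) 𝒪)
      (rtevSq (σ := Fin r) (O := 𝒪)) k ρ φ ψ)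
    (π : R →ₐ[𝒪] 𝒪)
    {L : Type} [AddCommGroup L] [Module 𝒪 L] (ι : M →ₗ[𝒪] L)
    (B : L →ₗ[𝒪] L →ₗ[𝒪] 𝒪)
    (hB : ∀ (t : R) (x y : M), B (ι (t • x)) (ι y) = B (ι x) (ι (t • y)))
    (E : Submodule 𝒪 L) (hE : ∀ y ∈ E, ∃ m ∈ s59eta_eig M π, ι m = y)
    (x₀ : M) (hx : x₀ ∈ s59eta_eig M π) :
    s59p_phiLen 𝒪 π ≤ Module.length 𝒪 (𝒪 ⧸ s59eta_J B E (ι x₀)) := by
  obtain ⟨L₀⟩ := s59minev_level_of_lev m hlev
  haveI : Module.Finite 𝒪 M := Module.Finite.of_basis m
  haveI : Module.Free 𝒪 M := Module.Free.of_basis m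
  exact s59minl_hmin_amb L₀ π ι B hB E hE x₀ hx

/-- **minimal `R = T` from FINITE EVEN levels** (twin of `s59minl_iso_of_lev`). -/
theorem s59minev_iso_of_lev {r : ℕ} {R T : Type} [CommRing R] [Algebra 𝒪 R] [IsLocalRing R]
    [IsNoetherianRing R] [IsAdicComplete (maximalIdeal R) R] [Finite (ResidueField R)]
    [CommRing T] [Algebra 𝒪 T]
    {M : Type} [AddCommGroup M] [Module R M] [Module 𝒪 M] [IsScalarTower 𝒪 R M] [Module T M]
    {d : ℕ} [Nontrivial M] (m : Module.Basis (Fin d) 𝒪 M)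
    (hlev : ∀ k, ∃ ρ φ ψ, S59ptLevE (maximalIdeal (MvPowerSeries (Fin r) 𝒪)) (maximalIdeal R)
      (maximalIdeal 𝒪) (constantCoeff (σ := Fin r) (R := 𝒪)) (fun k => s59pt_eps_pow k)
      (s59ptTheta m) (MvPowerSeries.X : Fin r → MvPowerSeries (Fin r) 𝒪)
      (rtevSq (σ := Fin r) (O := 𝒪)) k ρ φ ψ)
    (γ : R →ₐ[𝒪] T) (hγ : Function.Surjective γ)
    (hcompat : ∀ (t : R) (x : M), γ t • x = t • x) : Function.Bijective γ := by
  obtain ⟨L₀⟩ := s59minev_level_of_lev m hlev
  exact s59minl_iso L₀ γ hγ hcompat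

end Lev

end Fermat.Agent.S59
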