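import Mathlib
import Fermat.Agent.TW.PowerSurj
import Fermat.Agent.RT.K2c.Local
import Fermat.Agent.S53.PowerSeries
import Fermat.Agent.S59.Min.EvenOfLim

/-!
# S59, wall R1 — R1-ASM v2, leaf ASM-ALG (helper34; shape by helper7)

`P = 𝒪⟦X₁..X_r⟧`.  From the abstract data at ONE Taylor–Wiles level

* `γ : P ↠ R_Q` (S56), `κ : R_Q ↠ R_∅` (R1-CTRL),
* `θ : R_Q → M_d(P ⧸ 𝔪^k)` (the action at level `k`), killing a power of `𝔪_{R_Q}`,
* `c_j ∈ 𝔪_{R_Q}` (HENSEL: `c_j = χ_j − χ_j⁻¹`) with the EVEN relation `θ(c_j)² = X_j²` (K6) and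
  `κ(c_j) = 0` (`ρ_∅` is unramified at `q_j`),
* the FULL base `Θ(κ x) ≡ θ(x)` modulo the augmentation,

the even level `S59ptLevE … rtevSq k ρ φ ψ` of `S59/Min/EvenOfLim.lean`
(`ρ = θ ∘ γ`, `ψ = κ ∘ γ` mod `𝔪_R^k`, `φ X_j` = the class of a lift of `c_j`).

* `s59minasm_algHom_ext` : two algebra homomorphisms out of `𝒪⟦X⟧` (any target ring) which agree on
  the variables and kill a power of `(X)` are equal;
* `s59minasm_lev`        : ASM-ALG.
-/

set_option autoImplicit false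
set_option linter.unusedSectionVars false
set_option linter.unusedVariables false
set_option linter.style.longLine false
set_option linter.style.haveILetI false

noncomputable section

namespace Fermat.Agent.S59

open MvPowerSeries IsLocalRing Fermat.Agent.RT.Even

section Uniq

variable {𝒪 : Type*} [CommRing 𝒪] {B : Type*} [Ring B] [Algebra 𝒪 B] {σ : Type*} [Finite σ]

/-- Two `𝒪`-algebra homomorphisms out of `𝒪⟦X⟧` which agree on the variables and kill a power of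
`(X)` are equal (the target need not be commutative). -/
theorem s59minasm_algHom_ext (F G : MvPowerSeries σ 𝒪 →ₐ[𝒪] B) (n : ℕ)
    (hF : ∀ x ∈ (Ideal.span (Set.range (X : σ → MvPowerSeries σ 𝒪))) ^ n, F x = 0)
    (hG : ∀ x ∈ (Ideal.span (Set.range (X : σ → MvPowerSeries σ 𝒪))) ^ n, G x = 0)
    (h : ∀ i, F (X i) = G (X i)) : F = G := by
  have hpoly : F.comp (MvPolynomial.coeToMvPowerSeries.algHom (R := 𝒪) (σ := σ) 𝒪) =
      G.comp (MvPolynomial.coeToMvPowerSeries.algHom (R := 𝒪) (σ := σ) 𝒪) := by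
    apply MvPolynomial.algHom_ext
    intro i
    simp only [AlgHom.comp_apply, MvPolynomial.coeToMvPowerSeries.algHom_apply,
      Algebra.algebraMap_self, MvPolynomial.coe_X, MvPowerSeries.map_id, RingHom.id_apply]
    exact h i
  apply AlgHom.ext
  intro p
  have hp := Fermat.Agent.S53.mvPowerSeries_sub_truncTotal_mem_pow p n
  have h1 := hF _ hp
  have h2 := hG _ hp
  rw [map_sub, sub_eq_zero] at h1 h2
  rw [h1, h2]
  have := DFunLike.congr_fun hpoly (truncTotal n p)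
  simpa only [AlgHom.comp_apply, MvPolynomial.coeToMvPowerSeries.algHom_apply,
    Algebra.algebraMap_self, MvPowerSeries.map_id, RingHom.id_apply] using this

end Uniq

section Asm

open Fermat.Agent.RT.K2c

variable {𝒪 : Type} [CommRing 𝒪] [IsDomain 𝒪] [IsDiscreteValuationRing 𝒪]
  [IsAdicComplete (maximalIdeal 𝒪) 𝒪]

/-- **ASM-ALG**: the even level `k` from the abstract Taylor–Wiles data at one level. -/
theorem s59minasm_lev {r : ℕ} {R : Type} [CommRing R] [Algebra 𝒪 R] [IsLocalRing R]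
    {M : Type} [AddCommGroup M] [Module R M] [Module 𝒪 M] [IsScalarTower 𝒪 R M] {d : ℕ}
    (m : Module.Basis (Fin d) 𝒪 M) (k : ℕ)
    {RQ : Type} [CommRing RQ] [Algebra 𝒪 RQ] [IsLocalRing RQ]
    (γ : MvPowerSeries (Fin r) 𝒪 →ₐ[𝒪] RQ) (hγ : Function.Surjective γ)
    (κ : RQ →ₐ[𝒪] R) (hκ : Function.Surjective κ)
    (θ : RQ →ₐ[𝒪] Matrix (Fin d) (Fin d)
      (MvPowerSeries (Fin r) 𝒪 ⧸ maximalIdeal (MvPowerSeries (Fin r) 𝒪) ^ k))
    (hnil : ∃ N, ∀ x ∈ maximalIdeal RQ ^ N, θ x = 0)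
    (c : Fin r → RQ) (hc : ∀ j, c j ∈ maximalIdeal RQ)
    (hsq : ∀ j, θ (c j) * θ (c j) = algebraMap (MvPowerSeries (Fin r) 𝒪)
      (Matrix (Fin d) (Fin d)
        (MvPowerSeries (Fin r) 𝒪 ⧸ maximalIdeal (MvPowerSeries (Fin r) 𝒪) ^ k))
      (X j * X j))
    (hrel : ∀ j, κ (c j) = 0)
    (hbase : ∀ x : RQ, (s59ptTheta m (κ x)).map (Ideal.Quotient.mk (maximalIdeal 𝒪 ^ k)) =
      (θ x).map (Ideal.quotientMap (maximalIdeal 𝒪 ^ k)
        (constantCoeff (σ := Fin r) (R := 𝒪)) (s59pt_eps_pow k))) :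
    ∃ ρ φ ψ, S59ptLevE (maximalIdeal (MvPowerSeries (Fin r) 𝒪)) (maximalIdeal R)
      (maximalIdeal 𝒪) (constantCoeff (σ := Fin r) (R := 𝒪)) (fun k => s59pt_eps_pow k)
      (s59ptTheta m) (MvPowerSeries.X : Fin r → MvPowerSeries (Fin r) 𝒪)
      (rtevSq (σ := Fin r) (O := 𝒪)) k ρ φ ψ := by
  classical
  haveI : IsAdicComplete (maximalIdeal (MvPowerSeries (Fin r) 𝒪)) (MvPowerSeries (Fin r) 𝒪) :=
    rtk2c_isAdicComplete
  -- lifts of the `c_j`
  choose a ha using fun j => hγ (c j)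
  have hloc : IsLocalHom (γ : MvPowerSeries (Fin r) 𝒪 →+* RQ) :=
    Function.Surjective.isLocalHom (γ : MvPowerSeries (Fin r) 𝒪 →+* RQ) hγ
  have ham : ∀ j, a j ∈ maximalIdeal (MvPowerSeries (Fin r) 𝒪) := by
    intro j
    rw [mem_maximalIdeal, mem_nonunits_iff]
    intro hu
    have h1 : IsUnit (γ (a j)) := hu.map γ
    rw [ha j] at h1
    exact (mem_nonunits_iff.mp ((mem_maximalIdeal _).mp (hc j))) h1
  obtain ⟨Φ, hΦ⟩ := Fermat.Agent.TW.psj_exists_algHom (𝒪 := 𝒪)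
    (maximalIdeal (MvPowerSeries (Fin r) 𝒪)) a ham
  obtain ⟨N, hN⟩ := hnil
  -- `γ` maps `𝔪_P ^ n` into `𝔪_{R_Q} ^ n`
  have hγm : ∀ (n : ℕ) (x : MvPowerSeries (Fin r) 𝒪),
      x ∈ maximalIdeal (MvPowerSeries (Fin r) 𝒪) ^ n → γ x ∈ maximalIdeal RQ ^ n := by
    intro n x hx
    have h1 := Ideal.mem_map_of_mem (γ : MvPowerSeries (Fin r) 𝒪 →+* RQ) hx
    rw [Ideal.map_pow] at h1
    refine Ideal.pow_right_mono ?_ n h1
    rw [Ideal.map_le_iff_le_comap]
    intro y hy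
    rw [Ideal.mem_comap, mem_maximalIdeal, mem_nonunits_iff]
    intro hu
    have : IsUnit y := hloc.map_nonunit y hu
    exact (mem_nonunits_iff.mp ((mem_maximalIdeal _).mp hy)) this
  have hXm : Ideal.span (Set.range (X : Fin r → MvPowerSeries (Fin r) 𝒪)) ≤
      maximalIdeal (MvPowerSeries (Fin r) 𝒪) := by
    rw [Ideal.span_le]
    rintro _ ⟨i, rfl⟩
    rw [SetLike.mem_coe, mem_maximalIdeal, mem_nonunits_iff,
      MvPowerSeries.isUnit_iff_constantCoeff, constantCoeff_X]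
    exact not_isUnit_zero
  refine ⟨θ.comp γ, (Ideal.Quotient.mkₐ 𝒪 _).comp Φ,
    (Ideal.Quotient.mkₐ 𝒪 (maximalIdeal R ^ k)).comp (κ.comp γ), ?_, ?_, ?_, ?_⟩
  · -- scal
    intro f
    refine ⟨Φ (rtevSq f), rfl, ?_⟩
    let F : MvPowerSeries (Fin r) 𝒪 →ₐ[𝒪] Matrix (Fin d) (Fin d)
        (MvPowerSeries (Fin r) 𝒪 ⧸ maximalIdeal (MvPowerSeries (Fin r) 𝒪) ^ k) :=
      (θ.comp γ).comp (Φ.comp (rtevSq (σ := Fin r) (O := 𝒪)))
    let G : MvPowerSeries (Fin r) 𝒪 →ₐ[𝒪] Matrix (Fin d) (Fin d)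
        (MvPowerSeries (Fin r) 𝒪 ⧸ maximalIdeal (MvPowerSeries (Fin r) 𝒪) ^ k) :=
      (IsScalarTower.toAlgHom 𝒪 (MvPowerSeries (Fin r) 𝒪) (Matrix (Fin d) (Fin d)
        (MvPowerSeries (Fin r) 𝒪 ⧸ maximalIdeal (MvPowerSeries (Fin r) 𝒪) ^ k))).comp
        (rtevSq (σ := Fin r) (O := 𝒪))
    have hFG : F = G := by
      refine s59minasm_algHom_ext F G (max N k) ?_ ?_ ?_
      · intro x hx
        show θ (γ (Φ (rtevSq x))) = 0
        apply hN
        refine Ideal.pow_le_pow_right (le_max_left N k) (hγm _ _ ?_)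
        have h1 := Fermat.Agent.S53.mvPowerSeries_map_pow_span_range_X_le
          (Φ.comp (rtevSq (σ := Fin r) (O := 𝒪))) (max N k) (Ideal.mem_map_of_mem _ hx)
        refine Ideal.pow_right_mono ?_ _ h1
        rw [Ideal.span_le]
        rintro _ ⟨i, rfl⟩
        show Φ (rtevSq (X i)) ∈ _
        rw [expand_X, map_pow, hΦ]
        exact Ideal.pow_mem_of_mem _ (ham i) 2 (by norm_num)
      · intro x hx
        show algebraMap (MvPowerSeries (Fin r) 𝒪) (Matrix (Fin d) (Fin d)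
          (MvPowerSeries (Fin r) 𝒪 ⧸ maximalIdeal (MvPowerSeries (Fin r) 𝒪) ^ k)) (rtevSq x) = 0
        have h1 := Fermat.Agent.S53.mvPowerSeries_map_pow_span_range_X_le
          (rtevSq (σ := Fin r) (O := 𝒪)) (max N k) (Ideal.mem_map_of_mem _ hx)
        have h2 : rtevSq x ∈ maximalIdeal (MvPowerSeries (Fin r) 𝒪) ^ k := by
          refine Ideal.pow_le_pow_right (le_max_right N k) (Ideal.pow_right_mono ?_ _ h1)
          rw [Ideal.span_le]
          rintro _ ⟨i, rfl⟩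
          show rtevSq (X i) ∈ _
          rw [expand_X]
          exact Ideal.pow_mem_of_mem _ (hXm (Ideal.subset_span ⟨i, rfl⟩)) 2 (by norm_num)
        ext i j
        rw [Matrix.algebraMap_matrix_apply, Matrix.zero_apply]
        split_ifs
        · rw [Ideal.Quotient.algebraMap_eq]
          exact Ideal.Quotient.eq_zero_iff_mem.2 h2
        · rfl
      · intro i
        show θ (γ (Φ (rtevSq (X i)))) = algebraMap (MvPowerSeries (Fin r) 𝒪) (Matrix (Fin d) (Fin d)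
          (MvPowerSeries (Fin r) 𝒪 ⧸ maximalIdeal (MvPowerSeries (Fin r) 𝒪) ^ k)) (rtevSq (X i))
        rw [expand_X, map_pow, hΦ, map_pow, ha, pow_two, map_mul, hsq, pow_two]
    exact DFunLike.congr_fun hFG f
  · -- rel
    intro i
    refine ⟨Φ (X i), rfl, ?_⟩
    show Ideal.Quotient.mk _ (κ (γ (Φ (X i)))) = 0
    rw [hΦ, ha, hrel, map_zero]
  · -- surj
    intro y
    obtain ⟨x, rfl⟩ := hκ y
    obtain ⟨f, rfl⟩ := hγ x
    exact ⟨f, rfl⟩
  · -- base
    intro f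
    exact ⟨κ (γ f), rfl, hbase (γ f)⟩

end Asm

end Fermat.Agent.S59
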