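/-
S59, wall R1 (MIN′), side lemma of leaf RES-TR (helper9): **the traces of `ρ̄ = s59feBar` are
integer casts**, so that ANY two ring homomorphisms out of the residue field agree on them
(in RES-TR: `B.ι0` and `ResidueField.map (algebraMap 𝒪 T0)`).

* `s59minbti_residue_int`  : every element of the residue field of `ℤ_[p]` is an integer cast;
* `s59minbti_trace_int`    : `tr (s59feBar W hΔ p φ hφ).ρ σ = (n : k)` for some `n : ℤ`;
* `s59minbti_hom_agree`    : two ring homomorphisms agree at an integer cast;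
* `s59minbti_trace_agree`  : two ring homomorphisms `k → k'` agree at the traces of `s59feBar`;
* `s59minbti_setup_trace_int`, `s59minbti_setup_trace_agree` : the same for
  `Y := s59lk_setupBigW …` (`Y.ρbar = s59feBar …` by `rfl`).
-/
import Fermat.Agent.S59.LowK.SetupBigW

set_option autoImplicit false
set_option linter.style.haveILetI false
set_option linter.unusedSectionVars false
set_option linter.unusedVariables false
set_option linter.style.longLine false

noncomputable section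

namespace Fermat.Agent.S59

open IsLocalRing Fermat.Agent.EC

/-- every element of the residue field of `ℤ_[p]` is an integer cast -/
theorem s59minbti_residue_int (p : ℕ) [hp : Fact p.Prime] (z : ResidueField ℤ_[p]) :
    ∃ n : ℤ, z = (n : ResidueField ℤ_[p]) := by
  obtain ⟨x, rfl⟩ := residue_surjective z
  refine ⟨(PadicInt.appr x 1 : ℕ), ?_⟩
  have h1 : x - (PadicInt.appr x 1 : ℕ) ∈ maximalIdeal ℤ_[p] := by
    have := PadicInt.appr_spec 1 x
    rwa [pow_one, ← PadicInt.maximalIdeal_eq_span_p] at this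
  have h2 : residue ℤ_[p] (x - ((PadicInt.appr x 1 : ℕ) : ℤ_[p])) = 0 :=
    (residue_eq_zero_iff _).2 h1
  rw [map_sub, sub_eq_zero, map_natCast] at h2
  rw [h2, Int.cast_natCast]

/-- two ring homomorphisms agree at an integer cast -/
theorem s59minbti_hom_agree {k k' : Type} [Ring k] [Ring k'] (f g : k →+* k') {z : k}
    (hz : ∃ n : ℤ, z = (n : k)) : f z = g z := by
  obtain ⟨n, rfl⟩ := hz
  rw [map_intCast, map_intCast]

section Bar

variable (W : WeierstrassCurve ℤ) (hΔ : W.Δ ≠ 0) (p : ℕ) [hp : Fact p.Prime]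
variable {𝒪 : Type} [CommRing 𝒪] [IsLocalRing 𝒪] (φ : ℤ_[p] →+* 𝒪) (hφ : IsLocalHom φ)

/-- **the traces of `s59feBar` are integer casts** -/
theorem s59minbti_trace_int (σ : AlgebraicClosure ℚ ≃ₐ[ℚ] AlgebraicClosure ℚ) :
    ∃ n : ℤ, LinearMap.trace (ResidueField 𝒪) (s59feBar W hΔ p φ hφ).V
      ((s59feBar W hΔ p φ hφ).ρ σ) = (n : ResidueField 𝒪) := by
  haveI := hφ
  obtain ⟨n, hn⟩ := s59minbti_residue_int p
    (LinearMap.trace (ResidueField ℤ_[p]) (tateRepInt W hΔ p).residual.V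
      ((tateRepInt W hΔ p).residual.ρ σ))
  refine ⟨n, ?_⟩
  have h1 : LinearMap.trace (ResidueField 𝒪) (s59feBar W hΔ p φ hφ).V
      ((s59feBar W hΔ p φ hφ).ρ σ) =
      (ResidueField.map φ) (LinearMap.trace (ResidueField ℤ_[p])
        (tateRepInt W hΔ p).residual.V ((tateRepInt W hΔ p).residual.ρ σ)) := by
    letI : Algebra (ResidueField ℤ_[p]) (ResidueField 𝒪) := (ResidueField.map φ).toAlgebra
    exact LinearMap.trace_baseChange ((tateRepInt W hΔ p).residual.ρ σ) (ResidueField 𝒪)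
  rw [h1, hn, map_intCast]

/-- two ring homomorphisms out of the residue field agree at the traces of `s59feBar` -/
theorem s59minbti_trace_agree {k' : Type} [Ring k'] (f g : ResidueField 𝒪 →+* k')
    (σ : AlgebraicClosure ℚ ≃ₐ[ℚ] AlgebraicClosure ℚ) :
    f (LinearMap.trace (ResidueField 𝒪) (s59feBar W hΔ p φ hφ).V
        ((s59feBar W hΔ p φ hφ).ρ σ)) =
      g (LinearMap.trace (ResidueField 𝒪) (s59feBar W hΔ p φ hφ).V
        ((s59feBar W hΔ p φ hφ).ρ σ)) :=
  s59minbti_hom_agree f g (s59minbti_trace_int W hΔ p φ hφ σ)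

end Bar

end Fermat.Agent.S59

namespace Fermat.Agent.S59.LowK

open IsLocalRing Polynomial Fermat.Agent.TW Fermat.Agent.RT Fermat.Agent.RT.K1
  Fermat.Agent.RT.Prod Fermat.Agent.EC Fermat.Agent.S59 Fermat.Agent.S59.LowQ ExtCitation

section Setup

variable (p : ℕ) [hp : Fact p.Prime] (hp35 : p = 3 ∨ p = 5)
  (W : WeierstrassCurve ℤ) (hΔ : W.Δ ≠ 0) (hss : W.IsSemistableModel)
  (hirr : W.ModRepIsIrreducible p) (M : ℕ) (hM : M ≠ 0)
  (htriv : ∀ r : ℕ, r.Prime → r ≠ p → r ∣ M → s59lq_Unram W p r →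
    s59lq_IsTrivialPrime W p r)
  (𝒪 : Type) [CommRing 𝒪] [IsDomain 𝒪] [IsDiscreteValuationRing 𝒪]
  [IsAdicComplete (maximalIdeal 𝒪) 𝒪] [Finite (ResidueField 𝒪)] [CharZero 𝒪]
  (φ : ℤ_[p] →+* 𝒪) (hφ : IsLocalHom φ)
  (hsp : ((s59lkP0 p).map (Int.castRingHom 𝒪)).Splits)

/-- the traces of the residual representation of the setup over the big ring are integer
casts -/
theorem s59minbti_setup_trace_int (σ : AlgebraicClosure ℚ ≃ₐ[ℚ] AlgebraicClosure ℚ) :
    ∃ n : ℤ, LinearMap.trace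
      (ResidueField (s59lk_setupBigW p hp35 W hΔ hss hirr M hM htriv 𝒪 φ hφ hsp).O)
      (s59lk_setupBigW p hp35 W hΔ hss hirr M hM htriv 𝒪 φ hφ hsp).ρbar.V
      ((s59lk_setupBigW p hp35 W hΔ hss hirr M hM htriv 𝒪 φ hφ hsp).ρbar.ρ σ) =
      (n : ResidueField (s59lk_setupBigW p hp35 W hΔ hss hirr M hM htriv 𝒪 φ hφ hsp).O) :=
  s59minbti_trace_int W hΔ p φ hφ σ

/-- two ring homomorphisms out of the residue field agree at the traces of the residual
representation of the setup over the big ring -/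
theorem s59minbti_setup_trace_agree {k' : Type} [Ring k']
    (f g : ResidueField (s59lk_setupBigW p hp35 W hΔ hss hirr M hM htriv 𝒪 φ hφ hsp).O →+* k')
    (σ : AlgebraicClosure ℚ ≃ₐ[ℚ] AlgebraicClosure ℚ) :
    f (LinearMap.trace
        (ResidueField (s59lk_setupBigW p hp35 W hΔ hss hirr M hM htriv 𝒪 φ hφ hsp).O)
        (s59lk_setupBigW p hp35 W hΔ hss hirr M hM htriv 𝒪 φ hφ hsp).ρbar.V
        ((s59lk_setupBigW p hp35 W hΔ hss hirr M hM htriv 𝒪 φ hφ hsp).ρbar.ρ σ)) =
      g (LinearMap.trace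
        (ResidueField (s59lk_setupBigW p hp35 W hΔ hss hirr M hM htriv 𝒪 φ hφ hsp).O)
        (s59lk_setupBigW p hp35 W hΔ hss hirr M hM htriv 𝒪 φ hφ hsp).ρbar.V
        ((s59lk_setupBigW p hp35 W hΔ hss hirr M hM htriv 𝒪 φ hφ hsp).ρbar.ρ σ)) :=
  s59minbti_hom_agree f g
    (s59minbti_setup_trace_int p hp35 W hΔ hss hirr M hM htriv 𝒪 φ hφ hsp σ)

end Setup

end Fermat.Agent.S59.LowK

end
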