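import Mathlib
import Fermat.Agent.S59.Min.PlanLev

/-!
# S59, wall R1 (MIN′) — BASE in the shape of `S59Stage` (`S59/TopWire.lean`) (helper7)

The captain's BASE is `s₀.lPhi ≤ Module.length 𝒪 (𝒪 ⧸ s₀.etaL)` with
`s₀.lPhi = s59p_phiLen 𝒪 (s₀.πT.comp s₀.γ)` (by definition) and `s₀.etaL = J_B(E, x)`.

* `s59minb_base`        : `R`, `T`, `γ : R ↠ T`, `πT : T → 𝒪`, `M` a module over `T` (and over `R`
  through `γ`: `hcompat`), ONE patching level with `J = ⊥` for `(R, M)`, the pairing `B` on the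
  ambient lattice `L ⊇ M` with `T` self-adjoint, `E ⊆ ι(πT-eigenspace)`, `x = ι x₀`:
  `γ` is BIJECTIVE and `s59p_phiLen 𝒪 (πT.comp γ) ≤ length (𝒪 ⧸ J_B(E, x))`.
* `s59minb_base_of_lev` : the same from FINITE levels (`S59ptLev`, every `k`).
* `s59minb_base_of_datum` : the same from a `Algebra.PatchingDatum`.

No import of `S59/Top*.lean`: the statement is on `(R, T, γ, πT)`, the captain plugs in
`R = s₀.D.R`, `T = s₀.T`, `γ = s₀.γ`, `πT = s₀.πT` and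
`Module R M := Module.compHom M (γ : R →+* T)`.
-/

set_option autoImplicit false
set_option linter.unusedSectionVars false
set_option linter.unusedVariables false
set_option linter.style.haveILetI false
set_option linter.style.longLine false

namespace Fermat.Agent.S59

open IsLocalRing MvPowerSeries

section Base

variable {𝒪 : Type} [CommRing 𝒪] [IsDomain 𝒪] [IsDiscreteValuationRing 𝒪]

/-- **BASE from one patching level.** -/
theorem s59minb_base {r : ℕ} {R T : Type} [CommRing R] [CommRing T] [Algebra 𝒪 R] [Algebra 𝒪 T]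
    (γ : R →ₐ[𝒪] T) (hγ : Function.Surjective γ) (πT : T →ₐ[𝒪] 𝒪)
    {M : Type} [AddCommGroup M] [Module 𝒪 M] [Module R M] [IsScalarTower 𝒪 R M] [Module T M]
    [Nontrivial M] [Module.Finite 𝒪 M] [Module.Free 𝒪 M]
    (hcompat : ∀ (t : R) (m : M), γ t • m = t • m)
    (L₀ : Algebra.PatchingLevel 𝒪 r R M ⊥)
    {L : Type} [AddCommGroup L] [Module 𝒪 L] (ι : M →ₗ[𝒪] L) (B : L →ₗ[𝒪] L →ₗ[𝒪] 𝒪)
    (hB : ∀ (t : T) (x y : M), B (ι (t • x)) (ι y) = B (ι x) (ι (t • y)))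
    (E : Submodule 𝒪 L) (hE : ∀ y ∈ E, ∃ m : M, (∀ t : T, t • m = πT t • m) ∧ ι m = y)
    (x₀ : M) (hx₀ : ∀ t : T, t • x₀ = πT t • x₀) :
    Function.Bijective γ ∧
      s59p_phiLen 𝒪 (πT.comp γ) ≤ Module.length 𝒪 (𝒪 ⧸ s59eta_J B E (ι x₀)) := by
  refine ⟨s59minl_iso L₀ γ hγ hcompat, ?_⟩
  have heig : ∀ m : M, (∀ t : T, t • m = πT t • m) → m ∈ s59eta_eig M (πT.comp γ) := by
    intro m hm
    rw [s59eta_mem_eig]
    intro t
    rw [← hcompat t m, hm (γ t)]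
    rfl
  refine s59minl_hmin_amb L₀ (πT.comp γ) ι B ?_ E ?_ x₀ (heig x₀ hx₀)
  · intro t x y
    rw [← hcompat t x, ← hcompat t y]
    exact hB (γ t) x y
  · intro y hy
    obtain ⟨m, hm, rfl⟩ := hE y hy
    exact ⟨m, heig m hm, rfl⟩

variable [IsAdicComplete (maximalIdeal 𝒪) 𝒪] [Finite (ResidueField 𝒪)]

/-- **BASE from FINITE levels.** -/
theorem s59minb_base_of_lev {r : ℕ} {R T : Type} [CommRing R] [CommRing T] [Algebra 𝒪 R]
    [Algebra 𝒪 T] [IsLocalRing R] [IsNoetherianRing R] [IsAdicComplete (maximalIdeal R) R]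
    [Finite (ResidueField R)]
    (γ : R →ₐ[𝒪] T) (hγ : Function.Surjective γ) (πT : T →ₐ[𝒪] 𝒪)
    {M : Type} [AddCommGroup M] [Module 𝒪 M] [Module R M] [IsScalarTower 𝒪 R M] [Module T M]
    [Nontrivial M] {d : ℕ} (m : Module.Basis (Fin d) 𝒪 M)
    (hcompat : ∀ (t : R) (x : M), γ t • x = t • x)
    (hlev : ∀ k, ∃ ρ φ ψ, S59ptLev (maximalIdeal (MvPowerSeries (Fin r) 𝒪)) (maximalIdeal R)
      (maximalIdeal 𝒪) (constantCoeff (σ := Fin r) (R := 𝒪)) (fun k => s59pt_eps_pow k)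
      (s59ptTheta m) (MvPowerSeries.X : Fin r → MvPowerSeries (Fin r) 𝒪) k ρ φ ψ)
    {L : Type} [AddCommGroup L] [Module 𝒪 L] (ι : M →ₗ[𝒪] L) (B : L →ₗ[𝒪] L →ₗ[𝒪] 𝒪)
    (hB : ∀ (t : T) (x y : M), B (ι (t • x)) (ι y) = B (ι x) (ι (t • y)))
    (E : Submodule 𝒪 L) (hE : ∀ y ∈ E, ∃ m : M, (∀ t : T, t • m = πT t • m) ∧ ι m = y)
    (x₀ : M) (hx₀ : ∀ t : T, t • x₀ = πT t • x₀) :
    Function.Bijective γ ∧
      s59p_phiLen 𝒪 (πT.comp γ) ≤ Module.length 𝒪 (𝒪 ⧸ s59eta_J B E (ι x₀)) := by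
  obtain ⟨L₀⟩ := s59minl_level_of_lev m hlev
  haveI : Module.Finite 𝒪 M := Module.Finite.of_basis m
  haveI : Module.Free 𝒪 M := Module.Free.of_basis m
  exact s59minb_base γ hγ πT hcompat L₀ ι B hB E hE x₀ hx₀

/-- **BASE from a patching datum.** -/
theorem s59minb_base_of_datum (ℓ : ℕ) (hℓ : (ℓ : 𝒪) ∈ maximalIdeal 𝒪) {r : ℕ} {R T : Type}
    [CommRing R] [CommRing T] [Algebra 𝒪 R] [Algebra 𝒪 T]
    (γ : R →ₐ[𝒪] T) (hγ : Function.Surjective γ) (πT : T →ₐ[𝒪] 𝒪)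
    {M : Type} [AddCommGroup M] [Module 𝒪 M] [Module R M] [IsScalarTower 𝒪 R M] [Module T M]
    [Nontrivial M] [Module.Finite 𝒪 M] [Module.Free 𝒪 M]
    (hcompat : ∀ (t : R) (m : M), γ t • m = t • m)
    (D : Algebra.PatchingDatum 𝒪 ℓ r R M)
    {L : Type} [AddCommGroup L] [Module 𝒪 L] (ι : M →ₗ[𝒪] L) (B : L →ₗ[𝒪] L →ₗ[𝒪] 𝒪)
    (hB : ∀ (t : T) (x y : M), B (ι (t • x)) (ι y) = B (ι x) (ι (t • y)))
    (E : Submodule 𝒪 L) (hE : ∀ y ∈ E, ∃ m : M, (∀ t : T, t • m = πT t • m) ∧ ι m = y)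
    (x₀ : M) (hx₀ : ∀ t : T, t • x₀ = πT t • x₀) :
    Function.Bijective γ ∧
      s59p_phiLen 𝒪 (πT.comp γ) ≤ Module.length 𝒪 (𝒪 ⧸ s59eta_J B E (ι x₀)) := by
  haveI : Nontrivial R := Module.nontrivial R M
  obtain ⟨L₀⟩ := s59pt_main ℓ hℓ D
  exact s59minb_base γ hγ πT hcompat L₀ ι B hB E hE x₀ hx₀

end Base

end Fermat.Agent.S59
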