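import Mathlib
import Fermat.Agent.RT.K5.Indep2
import Fermat.Agent.RT.K5.FreeO
import Fermat.Agent.RT.K5.BaseAbs

/-!
# S59 / R1-BASEID, the cone side: **E-SPAN**

The cone (`rthkk5_atW`, S59/LowK/ConcK5W.lean) builds its base lattice as the `Θ`-part of
`Hom(Γ₀(N), 𝒪)` with a family `c : Fin r → Hom(Γ₀(N), 𝒪)` whose reductions mod `𝔪ⁿ` are bases of the
`Θ`-parts of `Hom(Γ₀(N), 𝒪/𝔪ⁿ)` (`hcn`), and these have the intrinsic description `K5inIntr`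
(`hIntr₀`).  Here:

* `s59minbid_lim`, `s59minbid_uniq` : abstract completeness: a function which is, modulo every
  `Iⁿ`, a combination of the `c i`, with unique coefficients mod `Iⁿ`, is a combination of the `c i`
  (and the coefficients are unique);
* `s59minbid_red_mem` : the reduction mod `𝔪ⁿ` of a joint eigenvector `φ` of the `T_ℓ` whose
  eigenvalues are congruent to `a ℓ` mod `𝔪` lies in every subgroup with the intrinsic description;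
* `s59minbid_espan` : **E-SPAN** such a `φ` is an `𝒪`-combination of the `c i`;
* `s59minbid_indep` : the `c i` are linearly independent over `𝒪`;
* `s59minbid_eig` : the coefficient vector of `φ` is an eigenvector of the matrices of the `T_ℓ`.
-/

set_option autoImplicit false
set_option linter.unusedSectionVars false

noncomputable section

namespace Fermat.Agent.S59

open CongruenceSubgroup Matrix
open scoped MatrixGroups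
open Fermat.Agent.ES1 (gammaH)
open Fermat.Agent.RT.K5
open IsLocalRing

/-! ## abstract completeness -/

section abs

variable {𝒪 : Type*} [CommRing 𝒪] (I : Ideal 𝒪) {G : Type*} {r : ℕ}

/-- coefficients are unique (Hausdorff) -/
theorem s59minbid_uniq [IsHausdorff I 𝒪] (c : Fin r → G → 𝒪)
    (hinj : ∀ (n : ℕ) (v : Fin r → 𝒪), (∀ g, ∑ i, v i * c i g ∈ I ^ n) → ∀ i, v i ∈ I ^ n)
    (v : Fin r → 𝒪) (hv : ∀ g, ∑ i, v i * c i g = 0) : v = 0 := by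
  funext i
  refine IsHausdorff.haus' (I := I) (v i) fun n => ?_
  rw [SModEq.zero, smul_eq_mul, Ideal.mul_top]
  exact hinj n v (fun g => by rw [hv g]; exact Submodule.zero_mem _) i

/-- **completeness**: a function that is a combination of the `c i` modulo every `Iⁿ`, the
coefficients being unique modulo `Iⁿ`, is a combination of the `c i`. -/
theorem s59minbid_lim [IsAdicComplete I 𝒪] (c : Fin r → G → 𝒪) (φ : G → 𝒪)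
    (hspan : ∀ n : ℕ, ∃ v : Fin r → 𝒪, ∀ g, φ g - ∑ i, v i * c i g ∈ I ^ n)
    (hinj : ∀ (n : ℕ) (v : Fin r → 𝒪), (∀ g, ∑ i, v i * c i g ∈ I ^ n) → ∀ i, v i ∈ I ^ n) :
    ∃ v : Fin r → 𝒪, ∀ g, φ g = ∑ i, v i * c i g := by
  choose v hv using hspan
  -- the coefficients are compatible
  have hcomp : ∀ {m n : ℕ}, m ≤ n → ∀ i, v n i - v m i ∈ I ^ m := by
    intro m n hmn
    refine hinj m (fun i => v n i - v m i) fun g => ?_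
    have h1 : ∑ i, (v n i - v m i) * c i g
        = (φ g - ∑ i, v m i * c i g) - (φ g - ∑ i, v n i * c i g) := by
      simp only [sub_mul, Finset.sum_sub_distrib]
      ring
    rw [h1]
    exact Submodule.sub_mem _ (hv m g) (Ideal.pow_le_pow_right hmn (hv n g))
  -- the limits
  have hlim : ∀ i, ∃ L : 𝒪, ∀ n, v n i - L ∈ I ^ n := by
    intro i
    obtain ⟨L, hL⟩ := IsPrecomplete.prec (I := I) (M := 𝒪) inferInstance (f := fun n => v n i)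
      (fun {m n} hmn => by
        rw [SModEq.sub_mem, smul_eq_mul, Ideal.mul_top]
        have := hcomp hmn i
        rw [← neg_sub]
        exact Submodule.neg_mem _ this)
    refine ⟨L, fun n => ?_⟩
    have := hL n
    rwa [SModEq.sub_mem, smul_eq_mul, Ideal.mul_top] at this
  choose L hL using hlim
  refine ⟨L, fun g => ?_⟩
  rw [← sub_eq_zero]
  refine IsHausdorff.haus' (I := I) _ fun n => ?_
  rw [SModEq.zero, smul_eq_mul, Ideal.mul_top]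
  have h1 : φ g - ∑ i, L i * c i g
      = (φ g - ∑ i, v n i * c i g) + ∑ i, (v n i - L i) * c i g := by
    simp only [sub_mul, Finset.sum_sub_distrib]
    ring
  rw [h1]
  exact Submodule.add_mem _ (hv n g)
    (Submodule.sum_mem _ fun i _ => Ideal.mul_mem_right _ _ (hL i n))

end abs

/-! ## joint eigenvectors and their reductions -/

section conc

variable {𝒪 : Type} [CommRing 𝒪] {N M : ℕ} [NeZero N] [hMN : Fact (M ∣ N)]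

/-- powers of an operator on an eigenvector -/
theorem s59minbid_pow_eigen {V : Type*} [AddCommGroup V] [Module 𝒪 V] (θ : V →+ V) (s : 𝒪)
    (w : V) (hsm : ∀ c : 𝒪, θ (c • w) = c • θ w) (hw : θ w = s • w) (n : ℕ) :
    k5s_pow θ n w = s ^ n • w := by
  induction n with
  | zero => rw [pow_zero, one_smul]; rfl
  | succ n ih => rw [k5s_pow_succ', ih, hsm, hw, smul_smul, pow_succ]

/-- `T_ℓ` commutes with the scalars -/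
theorem s59minbid_tS_smul (ℓ : ℕ) [NeZero ℓ] (A : Type) [AddCommGroup A] [Module 𝒪 A]
    (x : 𝒪) (φ : HomS (gammaH N M (⊤ : Subgroup (ZMod M)ˣ)) A) :
    tS N M ℓ ⊤ A (x • φ) = x • tS N M ℓ ⊤ A φ :=
  (k5nat_tS N M (LinearMap.lsmul 𝒪 A x).toAddMonoidHom ℓ ⊤ φ).symm

/-- the reduction of an eigenvector is an eigenvector -/
theorem s59minbid_red_eigen (I : Ideal 𝒪) (ℓ : ℕ) [NeZero ℓ] (x : 𝒪)
    (φ : HomS (gammaH N M (⊤ : Subgroup (ZMod M)ˣ)) 𝒪) (hφ : tS N M ℓ ⊤ 𝒪 φ = x • φ) :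
    tS N M ℓ ⊤ (𝒪 ⧸ I) (k5foRed I _ φ) = x • k5foRed I _ φ := by
  have h1 := k5nat_tS N M (Submodule.mkQ I).toAddMonoidHom ℓ ⊤ φ
  have h2 : k5foRed I (gammaH N M (⊤ : Subgroup (ZMod M)ˣ)) (x • φ)
      = x • k5foRed I (gammaH N M (⊤ : Subgroup (ZMod M)ˣ)) φ := by
    rw [k5fo_red_smul, k5fo_mk_smul]
  rw [← h2, ← hφ]
  exact h1.symm

/-- a scalar of `I` kills `Hom(Γ, 𝒪/I)` -/
theorem s59minbid_smul_eq_zero (I : Ideal 𝒪) {Γ : Subgroup SL(2, ℤ)} {x : 𝒪} (hx : x ∈ I)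
    (w : HomS Γ (𝒪 ⧸ I)) : x • w = 0 := by
  rw [← k5fo_mk_smul, Ideal.Quotient.eq_zero_iff_mem.mpr hx, zero_smul]

variable [IsLocalRing 𝒪]

/-- **the reduction mod `𝔪ⁿ` of a joint eigenvector with eigenvalues `≡ a ℓ` mod `𝔪` lies in
every subgroup with the intrinsic description.** -/
theorem s59minbid_red_mem (a : ℕ → 𝒪) (S₀ S : Finset ℕ) (ℓ₀ : ℕ) [NeZero ℓ₀] (hℓ₀ : ℓ₀.Prime)
    (hℓ₀S₀ : ℓ₀ ∉ S₀) (hℓ₀S : ℓ₀ ∉ S)
    (hne : residue 𝒪 (a ℓ₀) ≠ (ℓ₀ : ResidueField 𝒪) + 1) (n : ℕ)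
    (X : AddSubgroup (HomS (gammaH N M (⊤ : Subgroup (ZMod M)ˣ)) (𝒪 ⧸ maximalIdeal 𝒪 ^ n)))
    (hX : K5inIntr N M (𝒪 ⧸ maximalIdeal 𝒪 ^ n) a S₀ S ℓ₀ X)
    (ψ : ℕ → 𝒪) (hψ : ∀ ℓ : ℕ, ℓ.Prime → ℓ ∉ S₀ → ℓ ∉ S → ψ ℓ - a ℓ ∈ maximalIdeal 𝒪)
    (φ : HomS (gammaH N M (⊤ : Subgroup (ZMod M)ˣ)) 𝒪)
    (hφ : ∀ (ℓ : ℕ) [NeZero ℓ], ℓ.Prime → ℓ ∉ S₀ → ℓ ∉ S → tS N M ℓ ⊤ 𝒪 φ = ψ ℓ • φ) :
    k5foRed (maximalIdeal 𝒪 ^ n) _ φ ∈ X := by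
  refine (hX _).mpr ⟨?_, fun ℓ _ hℓ h1 h2 => ?_⟩
  · -- the `η`-part: `T_ℓ₀ − ℓ₀ − 1` acts by a unit
    have hu : IsUnit (ψ ℓ₀ - ((ℓ₀ : 𝒪) + 1)) := by
      rw [← IsLocalRing.notMem_maximalIdeal, ← IsLocalRing.residue_eq_zero_iff]
      have h3 : residue 𝒪 (ψ ℓ₀) = residue 𝒪 (a ℓ₀) := by
        rw [← sub_eq_zero, ← map_sub, IsLocalRing.residue_eq_zero_iff]
        exact hψ ℓ₀ hℓ₀ hℓ₀S₀ hℓ₀S
      rw [map_sub, map_add, map_natCast, map_one, h3, sub_eq_zero]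
      exact hne
    obtain ⟨t, ht⟩ := hu.exists_left_inv
    have hw := s59minbid_red_eigen (maximalIdeal 𝒪 ^ n) ℓ₀ (ψ ℓ₀) φ (hφ ℓ₀ hℓ₀ hℓ₀S₀ hℓ₀S)
    have hη : ∀ w : HomS (gammaH N M (⊤ : Subgroup (ZMod M)ˣ)) (𝒪 ⧸ maximalIdeal 𝒪 ^ n),
        tS N M ℓ₀ ⊤ (𝒪 ⧸ maximalIdeal 𝒪 ^ n) w = ψ ℓ₀ • w →
        etaS N M ℓ₀ ⊤ (𝒪 ⧸ maximalIdeal 𝒪 ^ n) w = (ψ ℓ₀ - ((ℓ₀ : 𝒪) + 1)) • w := by
      intro w hw
      show tS N M ℓ₀ ⊤ (𝒪 ⧸ maximalIdeal 𝒪 ^ n) w - (ℓ₀ + 1) • w = _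
      rw [hw, sub_smul]
      congr 1
      rw [← Nat.cast_smul_eq_nsmul 𝒪 (ℓ₀ + 1) w]
      push_cast
      rfl
    rw [k5s_mem_etaPart]
    intro k
    refine ⟨t ^ k • k5foRed (maximalIdeal 𝒪 ^ n) _ φ, ?_⟩
    have hsm : ∀ (x : 𝒪)
        (w : HomS (gammaH N M (⊤ : Subgroup (ZMod M)ˣ)) (𝒪 ⧸ maximalIdeal 𝒪 ^ n)),
        etaS N M ℓ₀ ⊤ (𝒪 ⧸ maximalIdeal 𝒪 ^ n) (x • w)
          = x • etaS N M ℓ₀ ⊤ (𝒪 ⧸ maximalIdeal 𝒪 ^ n) w := by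
      intro x w
      show tS N M ℓ₀ ⊤ (𝒪 ⧸ maximalIdeal 𝒪 ^ n) (x • w) - (ℓ₀ + 1) • (x • w)
        = x • (tS N M ℓ₀ ⊤ (𝒪 ⧸ maximalIdeal 𝒪 ^ n) w - (ℓ₀ + 1) • w)
      rw [s59minbid_tS_smul, smul_sub, smul_comm x (ℓ₀ + 1) w]
    induction k with
    | zero => rw [pow_zero, one_smul]; rfl
    | succ k ih =>
      rw [k5s_pow_succ, hsm, hη _ hw, smul_smul, pow_succ, mul_assoc, ht, mul_one]
      exact ih
  · -- `T_ℓ − a ℓ` is nilpotent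
    rw [k5lc_mem_ker]
    refine ⟨n, ?_⟩
    have hw := s59minbid_red_eigen (maximalIdeal 𝒪 ^ n) ℓ (ψ ℓ) φ (hφ ℓ hℓ h1 h2)
    have hpow := s59minbid_pow_eigen (k5lcS N M ℓ (a ℓ) (𝒪 ⧸ maximalIdeal 𝒪 ^ n) ⊤)
      (ψ ℓ - a ℓ) (k5foRed (maximalIdeal 𝒪 ^ n) _ φ)
      (fun x => by
        rw [k5lcS_apply, k5lcS_apply, s59minbid_tS_smul, smul_sub, smul_comm x (a ℓ)])
      (by rw [k5lcS_apply, hw, sub_smul]) n
    rw [hpow]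
    exact s59minbid_smul_eq_zero _ (Ideal.pow_mem_pow (hψ ℓ hℓ h1 h2) n) _

/-- the translation of `K5IsBasis` at level `n` : spanning -/
theorem s59minbid_span_of_basis (I : Ideal 𝒪) {Γ : Subgroup SL(2, ℤ)} {r : ℕ}
    (c : Fin r → HomS Γ 𝒪) (φ : HomS Γ 𝒪) (v' : Fin r → 𝒪 ⧸ I)
    (h : k5foRed I Γ φ = ∑ i, v' i • k5foRed I Γ (c i)) :
    ∃ v : Fin r → 𝒪, ∀ g, φ g - ∑ i, v i * c i g ∈ I := by
  choose v hv using fun i => Ideal.Quotient.mk_surjective (v' i)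
  refine ⟨v, fun g => ?_⟩
  rw [← Ideal.Quotient.eq_zero_iff_mem, map_sub, map_sum, sub_eq_zero]
  have h1 := congrArg (fun f : HomS Γ (𝒪 ⧸ I) => f g) h
  simp only [AddMonoidHom.finsetSum_apply, AddMonoidHom.smul_apply] at h1
  refine h1.trans (Finset.sum_congr rfl fun i _ => ?_)
  rw [map_mul, hv i]
  rfl

/-- the translation of `K5IsBasis` at level `n` : uniqueness -/
theorem s59minbid_inj_of_basis (I : Ideal 𝒪) {Γ : Subgroup SL(2, ℤ)} {r : ℕ}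
    (c : Fin r → HomS Γ 𝒪)
    (hinj : Function.Injective (fun v' : Fin r → 𝒪 ⧸ I => ∑ i, v' i • k5foRed I Γ (c i)))
    (v : Fin r → 𝒪) (hv : ∀ g, ∑ i, v i * c i g ∈ I) : ∀ i, v i ∈ I := by
  have h1 : (fun v' : Fin r → 𝒪 ⧸ I => ∑ i, v' i • k5foRed I Γ (c i))
      (fun i => Ideal.Quotient.mk I (v i))
      = (fun v' : Fin r → 𝒪 ⧸ I => ∑ i, v' i • k5foRed I Γ (c i)) 0 := by
    refine AddMonoidHom.ext fun g => ?_
    simp only [AddMonoidHom.finsetSum_apply, AddMonoidHom.smul_apply, Pi.zero_apply, zero_smul,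
      Finset.sum_const_zero]
    have h2 := Ideal.Quotient.eq_zero_iff_mem.mpr (hv g)
    rw [map_sum] at h2
    refine Eq.trans (Finset.sum_congr rfl fun i _ => ?_) h2
    rw [map_mul]
    rfl
  intro i
  have h3 := congrFun (hinj h1) i
  exact Ideal.Quotient.eq_zero_iff_mem.mp h3

variable [IsAdicComplete (maximalIdeal 𝒪) 𝒪]

/-- **E-SPAN.**  `c` a family of `Hom(Γ₀(N), 𝒪)` whose reductions mod `𝔪ⁿ` are bases of subgroups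
`X n` with the intrinsic description (`Θ`-parts of the cone).  Then every joint eigenvector `φ` of
the `T_ℓ` (`ℓ ∉ S₀ ∪ S` prime) whose eigenvalues are `≡ a ℓ` mod `𝔪` is an `𝒪`-combination of the
`c i`. -/
theorem s59minbid_espan (a : ℕ → 𝒪) (S₀ S : Finset ℕ) (ℓ₀ : ℕ) [NeZero ℓ₀] (hℓ₀ : ℓ₀.Prime)
    (hℓ₀S₀ : ℓ₀ ∉ S₀) (hℓ₀S : ℓ₀ ∉ S)
    (hne : residue 𝒪 (a ℓ₀) ≠ (ℓ₀ : ResidueField 𝒪) + 1)
    (X : ∀ n : ℕ,
      AddSubgroup (HomS (gammaH N M (⊤ : Subgroup (ZMod M)ˣ)) (𝒪 ⧸ maximalIdeal 𝒪 ^ n)))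
    (hX : ∀ n, K5inIntr N M (𝒪 ⧸ maximalIdeal 𝒪 ^ n) a S₀ S ℓ₀ (X n))
    {r : ℕ} (c : Fin r → HomS (gammaH N M (⊤ : Subgroup (ZMod M)ˣ)) 𝒪)
    (hc : ∀ n, K5IsBasis (𝒪 ⧸ maximalIdeal 𝒪 ^ n) (X n)
      (fun i => mapS (Submodule.mkQ (maximalIdeal 𝒪 ^ n)).toAddMonoidHom (c i)))
    (ψ : ℕ → 𝒪) (hψ : ∀ ℓ : ℕ, ℓ.Prime → ℓ ∉ S₀ → ℓ ∉ S → ψ ℓ - a ℓ ∈ maximalIdeal 𝒪)
    (φ : HomS (gammaH N M (⊤ : Subgroup (ZMod M)ˣ)) 𝒪)
    (hφ : ∀ (ℓ : ℕ) [NeZero ℓ], ℓ.Prime → ℓ ∉ S₀ → ℓ ∉ S → tS N M ℓ ⊤ 𝒪 φ = ψ ℓ • φ) :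
    ∃ v : Fin r → 𝒪, φ = ∑ i, v i • c i := by
  obtain ⟨v, hv⟩ := s59minbid_lim (maximalIdeal 𝒪) (fun i g => c i g) (fun g => φ g)
    (fun n => by
      obtain ⟨v', hv'⟩ := (hc n).2.2 _
        (s59minbid_red_mem a S₀ S ℓ₀ hℓ₀ hℓ₀S₀ hℓ₀S hne n (X n) (hX n) ψ hψ φ hφ)
      exact s59minbid_span_of_basis _ c φ v' hv')
    (fun n v hv => s59minbid_inj_of_basis _ c (hc n).2.1 v hv)
  refine ⟨v, AddMonoidHom.ext fun g => ?_⟩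
  simp only [AddMonoidHom.finsetSum_apply, AddMonoidHom.smul_apply, smul_eq_mul]
  exact hv g

/-- the `c i` are linearly independent over `𝒪` -/
theorem s59minbid_indep
    (X : ∀ n : ℕ,
      AddSubgroup (HomS (gammaH N M (⊤ : Subgroup (ZMod M)ˣ)) (𝒪 ⧸ maximalIdeal 𝒪 ^ n)))
    {r : ℕ} (c : Fin r → HomS (gammaH N M (⊤ : Subgroup (ZMod M)ˣ)) 𝒪)
    (hc : ∀ n, K5IsBasis (𝒪 ⧸ maximalIdeal 𝒪 ^ n) (X n)
      (fun i => mapS (Submodule.mkQ (maximalIdeal 𝒪 ^ n)).toAddMonoidHom (c i)))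
    (v : Fin r → 𝒪) (hv : ∑ i, v i • c i = 0) : v = 0 := by
  refine s59minbid_uniq (maximalIdeal 𝒪) (fun i g => c i g)
    (fun n v hv => s59minbid_inj_of_basis _ c (hc n).2.1 v hv) v fun g => ?_
  have h1 := congrArg (fun f : HomS (gammaH N M (⊤ : Subgroup (ZMod M)ˣ)) 𝒪 => f g) hv
  simpa only [AddMonoidHom.finsetSum_apply, AddMonoidHom.smul_apply, smul_eq_mul,
    AddMonoidHom.zero_apply] using h1

/-- **the coefficient vector of an eigenvector is an eigenvector of the matrix of `T_ℓ`** -/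
theorem s59minbid_eig
    (X : ∀ n : ℕ,
      AddSubgroup (HomS (gammaH N M (⊤ : Subgroup (ZMod M)ˣ)) (𝒪 ⧸ maximalIdeal 𝒪 ^ n)))
    {r : ℕ} (c : Fin r → HomS (gammaH N M (⊤ : Subgroup (ZMod M)ˣ)) 𝒪)
    (hc : ∀ n, K5IsBasis (𝒪 ⧸ maximalIdeal 𝒪 ^ n) (X n)
      (fun i => mapS (Submodule.mkQ (maximalIdeal 𝒪 ^ n)).toAddMonoidHom (c i)))
    (ℓ : ℕ) [NeZero ℓ] (A : Matrix (Fin r) (Fin r) 𝒪)
    (hA : ∀ i', tS N M ℓ ⊤ 𝒪 (c i') = ∑ i, A i i' • c i)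
    (x : 𝒪) (v : Fin r → 𝒪) (hv : tS N M ℓ ⊤ 𝒪 (∑ i, v i • c i) = x • ∑ i, v i • c i) :
    A.mulVec v = x • v := by
  rw [← sub_eq_zero]
  refine s59minbid_indep X c hc _ ?_
  have h1 : tS N M ℓ ⊤ 𝒪 (∑ i, v i • c i) = ∑ i, (A.mulVec v) i • c i := by
    rw [map_sum]
    have h2 : ∀ i', tS N M ℓ ⊤ 𝒪 (v i' • c i') = ∑ i, (A i i' * v i') • c i := by
      intro i'
      rw [s59minbid_tS_smul, hA, Finset.smul_sum]
      refine Finset.sum_congr rfl fun i _ => ?_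
      rw [smul_smul, mul_comm]
    rw [Finset.sum_congr rfl fun i' _ => h2 i', Finset.sum_comm]
    refine Finset.sum_congr rfl fun i _ => ?_
    rw [← Finset.sum_smul]
    rfl
  simp only [Pi.sub_apply, Pi.smul_apply, smul_eq_mul, sub_smul, Finset.sum_sub_distrib]
  rw [← h1, hv, Finset.smul_sum, sub_eq_zero]
  refine Finset.sum_congr rfl fun i _ => ?_
  rw [smul_smul]

/-- **E-SPAN in the shape of the consumer `s59mindc_iota`** (helper22, S59/Min/DictCmp.lean):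
`S = ∅`, `p ∈ S₀`, the primes of `N` in `S₀`. -/
theorem s59minbid_espan_par (p : ℕ) (a : ℕ → 𝒪) (S₀ : Finset ℕ) (hpS : p ∈ S₀)
    (ℓ₀ : ℕ) [NeZero ℓ₀] (hℓ₀ : ℓ₀.Prime) (hℓ₀S₀ : ℓ₀ ∉ S₀)
    (hne : residue 𝒪 (a ℓ₀) ≠ (ℓ₀ : ResidueField 𝒪) + 1)
    (X : ∀ n : ℕ,
      AddSubgroup (HomS (gammaH N M (⊤ : Subgroup (ZMod M)ˣ)) (𝒪 ⧸ maximalIdeal 𝒪 ^ n)))
    (hX : ∀ n, K5inIntr N M (𝒪 ⧸ maximalIdeal 𝒪 ^ n) a S₀ ∅ ℓ₀ (X n))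
    {r : ℕ} (c : Fin r → HomS (gammaH N M (⊤ : Subgroup (ZMod M)ˣ)) 𝒪)
    (hc : ∀ n, K5IsBasis (𝒪 ⧸ maximalIdeal 𝒪 ^ n) (X n)
      (fun i => mapS (Submodule.mkQ (maximalIdeal 𝒪 ^ n)).toAddMonoidHom (c i)))
    (hNS : ∀ ℓ : ℕ, ℓ.Prime → ℓ ∣ N → ℓ ∈ S₀)
    (ψ : ℕ → 𝒪) (hψ : ∀ ℓ : ℕ, ℓ.Prime → ℓ ∉ S₀ → ψ ℓ - a ℓ ∈ maximalIdeal 𝒪)
    (φ : HomS (gammaH N M (⊤ : Subgroup (ZMod M)ˣ)) 𝒪)
    (hφ : ∀ (ℓ : ℕ) [NeZero ℓ] [Fact ℓ.Prime], ¬ ℓ ∣ N → ℓ ≠ p →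
      tS N M ℓ ⊤ 𝒪 φ = ψ ℓ • φ) :
    ∃ v : Fin r → 𝒪, φ = ∑ i, v i • c i := by
  refine s59minbid_espan a S₀ ∅ ℓ₀ hℓ₀ hℓ₀S₀ (Finset.notMem_empty _) hne X hX c hc ψ
    (fun ℓ hℓ h1 _ => hψ ℓ hℓ h1) φ fun ℓ _ hℓ h1 _ => ?_
  have : Fact ℓ.Prime := ⟨hℓ⟩
  exact hφ ℓ (fun hd => h1 (hNS ℓ hℓ hd)) (fun h => h1 (by rw [h]; exact hpS))

end conc

end Fermat.Agent.S59
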