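import Fermat.Agent.RT.Hecke.ConcBaseAbs

/-!
# S59 wall R1, R1-BASEID (DICT-ι): the BLOCK dictionary, abstract linear algebra (helper9)

The base module of the cone is `𝒪 ^ (2 ^ h * r)`, on which the base Hecke ring `T0` acts through
`j0 : T0 →ₐ[𝒪] M_{2 ^ h * r}(𝒪)` and the Hecke operators by the block-diagonal matrices
`rthkcbBlock 𝒪 h r (ac ℓ)` (`S59bidData.j0_a`, `S59/Min/BaseIdFinal.lean`).  The comparison map of
helper22 (`s59mindc_iota`, `S59/Min/DictCmp.lean`) lives on ONE block `𝒪 ^ r`.  This file passes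
from one block to `2 ^ h` blocks and produces the hypotheses `M`, `m`, `hj0`, `ι'`, `hB`, `hE` of
the feed (`s59minfd_stage_dict`, helper67):

* `s59bidSum h r : 𝒪 ^ (2 ^ h * r) →ₗ 𝒪 ^ r` (sum of the blocks), `s59bidEmb h r` (first block),
  `s59bid_block_mulVec`, `s59bidSum_block`, `s59bidSum_emb`, `s59bid_block_emb`;
* `S59bidM j0` : the module `𝒪 ^ d` with the action of `T0` through `j0`; `s59bidBasis j0` its
  standard basis, `s59bid_hj0 : j0 t i j = (s59bidBasis j0).repr (t • s59bidBasis j0 j) i`;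
* `s59bid_selfadj_of_gen` : the field `hB` for all of `T0` from the generators;
* `s59bid_eig_of_gen`     : an eigenvector for the generators is an eigenvector for `χ₀ h`, all `h`;
* **`s59bid_dict`** : the block dictionary: from `ι₁ : 𝒪 ^ r →ₗ L` injective, intertwining `ac i`
  with self-adjoint operators `S i` of `L`, `j0 (a i) = rthkcbBlock 𝒪 h r (ac i)`, the `a i`
  generating `T0`: the map `ι' = ι₁ ∘ s59bidSum : S59bidM j0 →ₗ L` satisfies `hB`, and every
  `y ∈ range ι₁` with `S i y = ψ i • y` is `ι'` of an eigenvector of `S59bidM j0`.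
-/

set_option autoImplicit false
set_option linter.unusedSectionVars false
set_option linter.unusedVariables false
set_option linter.style.longLine false

noncomputable section

namespace Fermat.Agent.S59.LowK

open Fermat.Agent.RT

/-! ### blocks -/

section Block

variable {O : Type} [CommRing O] (h r : ℕ)

/-- the sum of the `2 ^ h` blocks -/
def s59bidSum : (Fin (2 ^ h * r) → O) →ₗ[O] (Fin r → O) where
  toFun v i := ∑ s : Fin (2 ^ h), v (finProdFinEquiv (s, i))
  map_add' v w := by
    funext i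
    simp only [Pi.add_apply, Finset.sum_add_distrib]
  map_smul' c v := by
    funext i
    simp only [Pi.smul_apply, smul_eq_mul, Finset.mul_sum, RingHom.id_apply]

theorem s59bidSum_apply (v : Fin (2 ^ h * r) → O) (i : Fin r) :
    s59bidSum h r v i = ∑ s : Fin (2 ^ h), v (finProdFinEquiv (s, i)) := rfl

/-- the embedding of the first block -/
def s59bidEmb : (Fin r → O) →ₗ[O] (Fin (2 ^ h * r) → O) where
  toFun w k := if (finProdFinEquiv.symm k).1 = ⟨0, pow_pos two_pos h⟩ then
    w (finProdFinEquiv.symm k).2 else 0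
  map_add' v w := by
    funext k
    simp only [Pi.add_apply]
    split_ifs <;> simp
  map_smul' c v := by
    funext k
    simp only [Pi.smul_apply, smul_eq_mul, RingHom.id_apply]
    split_ifs <;> simp

theorem s59bidEmb_apply (w : Fin r → O) (s : Fin (2 ^ h)) (i : Fin r) :
    s59bidEmb h r w (finProdFinEquiv (s, i)) =
      if s = ⟨0, pow_pos two_pos h⟩ then w i else 0 := by
  show (if (finProdFinEquiv.symm (finProdFinEquiv (s, i))).1 = ⟨0, pow_pos two_pos h⟩ then
    w (finProdFinEquiv.symm (finProdFinEquiv (s, i))).2 else 0) = _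
  rw [Equiv.symm_apply_apply]

/-- the block-diagonal matrix acts blockwise -/
theorem s59bid_block_mulVec (A : Matrix (Fin r) (Fin r) O) (v : Fin (2 ^ h * r) → O)
    (s : Fin (2 ^ h)) (i : Fin r) :
    (rthkcbBlock O h r A).mulVec v (finProdFinEquiv (s, i)) =
      ∑ j, A i j * v (finProdFinEquiv (s, j)) := by
  rw [Matrix.mulVec, dotProduct, ← finProdFinEquiv.sum_comp, Fintype.sum_prod_type]
  simp only [rthkcbBlock_apply]
  rw [Finset.sum_eq_single s]
  · simp
  · intro s' _ hs'
    refine Finset.sum_eq_zero fun j _ => ?_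
    rw [if_neg (Ne.symm hs'), zero_mul]
  · intro hs
    exact absurd (Finset.mem_univ s) hs

theorem s59bidSum_block (A : Matrix (Fin r) (Fin r) O) (v : Fin (2 ^ h * r) → O) :
    s59bidSum h r ((rthkcbBlock O h r A).mulVec v) = A.mulVec (s59bidSum h r v) := by
  funext i
  rw [s59bidSum_apply, Matrix.mulVec, dotProduct]
  simp only [s59bid_block_mulVec, s59bidSum_apply, Finset.mul_sum]
  rw [Finset.sum_comm]

theorem s59bidSum_emb (w : Fin r → O) : s59bidSum h r (s59bidEmb h r w) = w := by
  funext i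
  rw [s59bidSum_apply]
  simp only [s59bidEmb_apply]
  rw [Finset.sum_ite_eq' Finset.univ (⟨0, pow_pos two_pos h⟩ : Fin (2 ^ h)) (fun _ => w i)]
  simp

theorem s59bid_block_emb (A : Matrix (Fin r) (Fin r) O) (w : Fin r → O) :
    (rthkcbBlock O h r A).mulVec (s59bidEmb h r w) = s59bidEmb h r (A.mulVec w) := by
  funext k
  obtain ⟨⟨s, i⟩, rfl⟩ := finProdFinEquiv.surjective k
  rw [s59bid_block_mulVec, s59bidEmb_apply]
  simp only [s59bidEmb_apply]
  by_cases hs : s = ⟨0, pow_pos two_pos h⟩
  · simp only [if_pos hs]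
    rfl
  · simp only [if_neg hs, mul_zero, Finset.sum_const_zero]

end Block

/-! ### the module `𝒪 ^ d` over `T0` -/

section Mod

variable {O T0 : Type} [CommRing O] [CommRing T0] [Algebra O T0] {d : ℕ}

/-- **`𝒪 ^ d` with the action of `T0` through `j0`** -/
def S59bidM (j0 : T0 →ₐ[O] Matrix (Fin d) (Fin d) O) : Type := Fin d → O

variable (j0 : T0 →ₐ[O] Matrix (Fin d) (Fin d) O)

instance s59bidM_addCommGroup : AddCommGroup (S59bidM j0) :=
  inferInstanceAs (AddCommGroup (Fin d → O))

instance s59bidM_module : Module O (S59bidM j0) :=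
  inferInstanceAs (Module O (Fin d → O))

/-- the ring homomorphism `T0 → End_𝒪 (𝒪 ^ d)` -/
def s59bidAct : T0 →ₐ[O] Module.End O (Fin d → O) :=
  ((Matrix.toLinAlgEquiv' : Matrix (Fin d) (Fin d) O ≃ₐ[O] Module.End O (Fin d → O)) :
    Matrix (Fin d) (Fin d) O →ₐ[O] Module.End O (Fin d → O)).comp j0

instance s59bidM_moduleT : Module T0 (S59bidM j0) :=
  Module.compHom (Fin d → O) (s59bidAct j0).toRingHom

/-- the underlying vector -/
def S59bidM.vec {j0 : T0 →ₐ[O] Matrix (Fin d) (Fin d) O} (x : S59bidM j0) : Fin d → O := x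

/-- the element of `S59bidM j0` with a given vector -/
def S59bidM.of (j0 : T0 →ₐ[O] Matrix (Fin d) (Fin d) O) (v : Fin d → O) : S59bidM j0 := v

theorem s59bidM_smul_vec (t : T0) (x : S59bidM j0) :
    (t • x).vec = (j0 t).mulVec x.vec := by
  show (s59bidAct j0 t) x = _
  rw [s59bidAct]
  rfl

theorem s59bidM_osmul_vec (c : O) (x : S59bidM j0) : (c • x).vec = c • x.vec := rfl

instance s59bidM_tower : IsScalarTower O T0 (S59bidM j0) where
  smul_assoc c t x := by
    show (s59bidAct j0 (c • t)) x = c • (s59bidAct j0 t) x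
    rw [map_smul]
    rfl

/-- the standard basis -/
def s59bidBasis : Module.Basis (Fin d) O (S59bidM j0) := Pi.basisFun O (Fin d)

theorem s59bid_hj0 (t : T0) (i j : Fin d) :
    j0 t i j = (s59bidBasis j0).repr (t • s59bidBasis j0 j) i := by
  have h1 : (s59bidBasis j0).repr (t • s59bidBasis j0 j) i = (t • s59bidBasis j0 j).vec i := rfl
  rw [h1, s59bidM_smul_vec]
  have h2 : (s59bidBasis j0 j).vec = Pi.single j 1 := by
    show Pi.basisFun O (Fin d) j = _
    rw [Pi.basisFun_apply]
  rw [h2, Matrix.mulVec_single_one]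
  rfl

theorem s59bidM_nontrivial [Nontrivial O] (hd : 0 < d) : Nontrivial (S59bidM j0) := by
  have : Nonempty (Fin d) := ⟨⟨0, hd⟩⟩
  exact inferInstanceAs (Nontrivial (Fin d → O))

end Mod

/-! ### generators -/

section Gen

variable {O T0 : Type} [CommRing O] [CommRing T0] [Algebra O T0]
  {M : Type} [AddCommGroup M] [Module O M] [Module T0 M] [IsScalarTower O T0 M]
  {L : Type} [AddCommGroup L] [Module O L]

/-- **the field `hB` from the generators**: the self-adjointness of the action through `ι'`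
passes from a generating set of `T0` to `T0`. -/
theorem s59bid_selfadj_of_gen (ι' : M →ₗ[O] L) (B : L →ₗ[O] L →ₗ[O] O) (G : Set T0)
    (hgen : Algebra.adjoin O G = ⊤)
    (hG : ∀ t ∈ G, ∀ x y : M, B (ι' (t • x)) (ι' y) = B (ι' x) (ι' (t • y))) (t : T0)
    (x y : M) : B (ι' (t • x)) (ι' y) = B (ι' x) (ι' (t • y)) := by
  have ht : t ∈ Algebra.adjoin O G := by rw [hgen]; exact Algebra.mem_top
  induction ht using Algebra.adjoin_induction generalizing x y with
  | mem t ht => exact hG t ht x y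
  | algebraMap c =>
    simp only [algebraMap_smul, map_smul, LinearMap.smul_apply]
  | add t t' _ _ iht iht' =>
    simp only [add_smul, map_add, LinearMap.add_apply, iht, iht']
  | mul t t' _ _ iht iht' =>
    rw [mul_smul, iht, iht', ← mul_smul, mul_comm]

/-- an eigenvector for the generators of a ring `Hk` is an eigenvector for all of `Hk` -/
theorem s59bid_eig_of_gen {Hk : Type} [CommRing Hk] (χ₀ : Hk →+* T0) (θ : Hk →+* O)
    (G : Set Hk) (hG : Subring.closure G = ⊤) (x : M)
    (hx : ∀ g ∈ G, χ₀ g • x = θ g • x) (t : Hk) : χ₀ t • x = θ t • x := by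
  have ht : t ∈ Subring.closure G := by rw [hG]; exact Subring.mem_top t
  induction ht using Subring.closure_induction with
  | mem t ht => exact hx t ht
  | zero => rw [map_zero, map_zero, zero_smul, zero_smul]
  | one => rw [map_one, map_one, one_smul, one_smul]
  | add t t' _ _ iht iht' => rw [map_add, map_add, add_smul, add_smul, iht, iht']
  | neg t _ iht => rw [map_neg, map_neg, neg_smul, neg_smul, iht]
  | mul t t' _ _ iht iht' =>
    rw [map_mul, map_mul, mul_smul, iht', smul_comm, iht, smul_smul, mul_comm]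

end Gen

/-! ### the block dictionary -/

section Dict

variable {O T0 : Type} [CommRing O] [CommRing T0] [Algebra O T0] (h r : ℕ)
  (j0 : T0 →ₐ[O] Matrix (Fin (2 ^ h * r)) (Fin (2 ^ h * r)) O)
  {L : Type} [AddCommGroup L] [Module O L]

/-- the map `ι' = ι₁ ∘ (sum of the blocks)` on `S59bidM j0` -/
def s59bidIota (ι₁ : (Fin r → O) →ₗ[O] L) : S59bidM j0 →ₗ[O] L :=
  ι₁.comp (s59bidSum h r)

theorem s59bidIota_apply (ι₁ : (Fin r → O) →ₗ[O] L) (x : S59bidM j0) :
    s59bidIota h r j0 ι₁ x = ι₁ (s59bidSum h r x.vec) := rfl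

/-- **The block dictionary.** -/
theorem s59bid_dict {I : Type} (a : I → T0) (ac : I → Matrix (Fin r) (Fin r) O)
    (ha : ∀ i, j0 (a i) = rthkcbBlock O h r (ac i))
    (hgen : Algebra.adjoin O (Set.range a) = ⊤)
    (ι₁ : (Fin r → O) →ₗ[O] L) (hι₁ : Function.Injective ι₁)
    (S : I → L →ₗ[O] L) (hS : ∀ i v, S i (ι₁ v) = ι₁ ((ac i).mulVec v))
    (B : L →ₗ[O] L →ₗ[O] O) (hBS : ∀ i x y, B (S i x) y = B x (S i y)) :
    (∀ (i : I) (x : S59bidM j0), s59bidIota h r j0 ι₁ (a i • x) = S i (s59bidIota h r j0 ι₁ x)) ∧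
    (∀ (t : T0) (x y : S59bidM j0),
      B (s59bidIota h r j0 ι₁ (t • x)) (s59bidIota h r j0 ι₁ y) =
        B (s59bidIota h r j0 ι₁ x) (s59bidIota h r j0 ι₁ (t • y))) ∧
    ∀ (ψ : I → O) (y : L), (∃ v, ι₁ v = y) → (∀ i, S i y = ψ i • y) →
      ∃ m' : S59bidM j0, (∀ i, a i • m' = ψ i • m') ∧ s59bidIota h r j0 ι₁ m' = y := by
  have hequiv : ∀ (i : I) (x : S59bidM j0),
      s59bidIota h r j0 ι₁ (a i • x) = S i (s59bidIota h r j0 ι₁ x) := by
    intro i x
    rw [s59bidIota_apply, s59bidIota_apply, s59bidM_smul_vec, ha, s59bidSum_block, hS]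
  refine ⟨hequiv, ?_, ?_⟩
  · intro t x y
    refine s59bid_selfadj_of_gen (s59bidIota h r j0 ι₁) B (Set.range a) hgen ?_ t x y
    rintro _ ⟨i, rfl⟩ x y
    rw [hequiv, hequiv, hBS]
  · rintro ψ y ⟨v, rfl⟩ hy
    refine ⟨S59bidM.of j0 (s59bidEmb h r v), fun i => ?_, ?_⟩
    · have h1 : (ac i).mulVec v = ψ i • v := by
        apply hι₁
        rw [← hS, hy, map_smul]
      show S59bidM.of j0 _ = S59bidM.of j0 _
      have h2 : (a i • S59bidM.of j0 (s59bidEmb h r v)).vec
          = (ψ i • S59bidM.of j0 (s59bidEmb h r v)).vec := by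
        rw [s59bidM_smul_vec, ha, s59bidM_osmul_vec]
        show (rthkcbBlock O h r (ac i)).mulVec (s59bidEmb h r v) = ψ i • s59bidEmb h r v
        rw [s59bid_block_emb, h1, map_smul]
      exact h2
    · rw [s59bidIota_apply]
      show ι₁ (s59bidSum h r (s59bidEmb h r v)) = _
      rw [s59bidSum_emb]

end Dict

end Fermat.Agent.S59.LowK

end
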