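import Fermat.Agent.S59.Eta.Asm
import Fermat.Agent.RT.Base.Bridge
import Fermat.Agent.RT.Base.BridgePar

/-!
# S59 wall R1, DICT-ι / R1-BASEID: THE COMPARISON MAP (helper22)

The base lattice of the cone (`S59/LowK/ConcK5W.lean`, `rthkk5_atW`) is the `Θ`-part of
`HomS (gammaH N M ⊤) 𝒪` — ALL homomorphisms `Γ₀(N) → 𝒪` —, with basis `c` and Hecke matrices
`a ℓ` (`tS N M ℓ ⊤ 𝒪 (c i') = ∑ i, a ℓ i i' • c i`).  The lattice of R2 (`S59/Eta/Asm.lean`) is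
`s59asmL 𝒪 N = 𝒪 ⊗[ℤ] Hom_par(Γ₀(N), ℤ)` with `s59asmT`.  This file compares them:

* `s59mindcMu 𝒪 N : s59asmL 𝒪 N →ₗ[𝒪] HomG N 𝒪`, `a ⊗ x ↦ (γ ↦ a * x γ)`;
* `s59mindcMu_T`         : `μ (s59asmT ℓ X) = S41.Tc ℓ (μ X)`;
* `s59mindcMu_mem_Hpar`, `s59mindcMu_surj` : the range of `μ` is `Hom_par(Γ₀(N), 𝒪)`
  (`𝒪` a domain of characteristic `0`; `Γ₀(N)` is finitely generated);
* `s59mindcMu_injective`;
* `s59mindcLam 𝒪 N M : s59asmL 𝒪 N →ₗ[𝒪] HomS (gammaH N M ⊤) 𝒪` (`μ` transported by `rtbbE0`),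
  `s59mindcLam_injective`, `s59mindcLam_tS`, `s59mindcLam_parabolic`, `s59mindcLam_surj`;
* `s59mindc_mem_E_iff`   : `y ∈ s59asmE 𝒪 N p ψ ↔` `Λ y` is a `ψ`-eigenvector of the `tS ℓ`;
* **`s59mindc_lift`**    : a parabolic family `c` with Hecke matrices `a ℓ` lifts to a family
  `κ` in `s59asmL 𝒪 N` with `Λ (κ i) = c i` and the SAME Hecke matrices for `s59asmT`;
* **`s59mindc_iota`**    : DICT-ι in the basis `c`: the map `ι' v = ∑ i, v i • κ i` is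
  Hecke-equivariant, and every `ψ`-eigenvector of `s59asmL 𝒪 N` is `ι'` of a `ψ`-eigenvector as
  soon as the parabolic `ψ`-eigenvectors of `HomS` are in the span of `c` (the cone's side);
* `s59mindc_eta_parabolic` : the `η`-part is parabolic (`Base.stmtEtaPar`), so a family `c` in
  the `η`-part is parabolic.
-/

set_option autoImplicit false
set_option linter.unusedSectionVars false
set_option linter.unusedVariables false
set_option linter.style.haveILetI false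
set_option linter.style.longLine false

noncomputable section

namespace Fermat.Agent.S59

open TensorProduct CongruenceSubgroup Fermat.Agent.S41 Matrix
open ModularCurve.Period (IsParabolicHom parabolicHoms mem_parabolicHoms_iff)
open Fermat.Agent.ES1 (gammaH)
open Fermat.Agent.RT.K5 (HomS tS etaS etaPart)
open Fermat.Agent.RT.Base
open scoped MatrixGroups

/-! ### The map `μ` -/

section Mu

variable (𝒪 : Type) [CommRing 𝒪] (M : ℕ)

/-- post-composition with `ℤ → 𝒪` on the parabolic lattice -/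
def s59mindcCast : ↥(Lpar M) →ₗ[ℤ] HomG M 𝒪 :=
  AddMonoidHom.toIntLinearMap
    { toFun := fun x => (Int.castAddHom 𝒪).comp (x : HomG M ℤ)
      map_zero' := by
        ext g
        simp
      map_add' := fun x y => by
        ext g
        simp }

theorem s59mindcCast_apply (x : ↥(Lpar M)) (γ : Additive (Gamma0 M)) :
    s59mindcCast 𝒪 M x γ = (((x : HomG M ℤ) γ : ℤ) : 𝒪) := rfl

/-- **the comparison** `μ : 𝒪 ⊗[ℤ] Hom_par(Γ₀(M), ℤ) → Hom(Γ₀(M), 𝒪)` -/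
def s59mindcMu : s59asmL 𝒪 M →ₗ[𝒪] HomG M 𝒪 :=
  LinearMap.liftBaseChange 𝒪 (s59mindcCast 𝒪 M)

variable {𝒪 M}

theorem s59mindcMu_tmul (a : 𝒪) (x : ↥(Lpar M)) (γ : Additive (Gamma0 M)) :
    s59mindcMu 𝒪 M (a ⊗ₜ[ℤ] x) γ = a * (((x : HomG M ℤ) γ : ℤ) : 𝒪) := by
  unfold s59mindcMu
  rw [LinearMap.liftBaseChange_tmul]
  rfl

/-- `n ↦ a * n : ℤ →+ 𝒪` -/
def s59mindcF (a : 𝒪) : ℤ →+ 𝒪 := (AddMonoidHom.mulLeft a).comp (Int.castAddHom 𝒪)

theorem s59mindcF_apply (a : 𝒪) (n : ℤ) : s59mindcF a n = a * (n : 𝒪) := rfl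

theorem s59mindcMu_tmul_eq (a : 𝒪) (x : ↥(Lpar M)) :
    s59mindcMu 𝒪 M (a ⊗ₜ[ℤ] x) = (s59mindcF a).comp (x : HomG M ℤ) :=
  AddMonoidHom.ext fun γ => s59mindcMu_tmul a x γ

/-- the image of `μ` is parabolic -/
theorem s59mindcMu_mem_Hpar (X : s59asmL 𝒪 M) : s59mindcMu 𝒪 M X ∈ Hpar M 𝒪 := by
  induction X using TensorProduct.induction_on with
  | zero =>
    rw [map_zero]
    exact (Hpar M 𝒪).zero_mem
  | add X Y hX hY =>
    rw [map_add]
    exact (Hpar M 𝒪).add_mem hX hY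
  | tmul a x =>
    rw [s59mindcMu_tmul_eq]
    show IsParabolicHom (Gamma0 M) ((s59mindcF a).comp (x : HomG M ℤ))
    intro γ hγ
    have hx : IsParabolicHom (Gamma0 M) (x : HomG M ℤ) := x.2
    rw [AddMonoidHom.comp_apply, hx γ hγ, map_zero]

/-- **`μ` is Hecke-equivariant** -/
theorem s59mindcMu_T [NeZero M] (ℓ : ℕ) [Fact ℓ.Prime] (hℓ : ¬ ℓ ∣ M) (X : s59asmL 𝒪 M) :
    s59mindcMu 𝒪 M (s59asmT 𝒪 M ℓ hℓ X) = Tc ℓ hℓ (s59mindcMu 𝒪 M X) := by
  induction X using TensorProduct.induction_on with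
  | zero =>
    rw [map_zero, map_zero]
    have h := Fermat.Agent.ES.HeckeP.heckeHom_add hℓ (0 : HomG M 𝒪) 0
    rw [add_zero] at h
    exact add_left_cancel ((add_zero (Fermat.Agent.ES.HeckeP.heckeHom hℓ (0 : HomG M 𝒪))).trans h)
  | add X Y hX hY =>
    rw [map_add, map_add, hX, hY, map_add]
    exact (Fermat.Agent.ES.HeckeP.heckeHom_add hℓ (s59mindcMu 𝒪 M X) (s59mindcMu 𝒪 M Y)).symm
  | tmul a x =>
    unfold s59asmT
    rw [LinearMap.baseChange_tmul, s59mindcMu_tmul_eq, s59mindcMu_tmul_eq, s59bcTcZ_coe]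
    exact (Fermat.Agent.ES.HeckeP.heckeHom_comp hℓ (s59mindcF a) (x : HomG M ℤ)).symm

end Mu

/-! ### Finite generation: the values of a homomorphism lie in a finitely generated subgroup -/

section Span

variable {A : Type} [AddCommGroup A] (M : ℕ) [NeZero M]

theorem s59mindc_fin_span (φ : HomG M A) :
    ∃ s : Finset A, ∀ γ : Additive (Gamma0 M), φ γ ∈ Submodule.span ℤ (s : Set A) := by
  classical
  haveI hfg : Group.FG (Gamma0 M) :=
    (Group.fg_iff_subgroup_fg _).mpr (Fermat.Agent.S22.gamma0_fg M)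
  obtain ⟨S, hS⟩ := Group.fg_def.mp hfg
  refine ⟨S.image (fun g => φ (Additive.ofMul g)), fun γ => ?_⟩
  have key : ∀ g ∈ Subgroup.closure (S : Set (Gamma0 M)), φ (Additive.ofMul g) ∈
      Submodule.span ℤ (↑(S.image fun g => φ (Additive.ofMul g)) : Set A) := by
    intro g hg
    induction hg using Subgroup.closure_induction with
    | mem x hx =>
      refine Submodule.subset_span ?_
      rw [Finset.coe_image]
      exact ⟨x, hx, rfl⟩
    | one =>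
      rw [ofMul_one, map_zero]
      exact Submodule.zero_mem _
    | mul x y _ _ hx hy =>
      rw [ofMul_mul, map_add]
      exact Submodule.add_mem _ hx hy
    | inv x _ hx =>
      rw [ofMul_inv, map_neg]
      exact Submodule.neg_mem _ hx
  have hγ : Additive.toMul γ ∈ Subgroup.closure (S : Set (Gamma0 M)) := by
    rw [hS]
    trivial
  exact key _ hγ

end Span

/-! ### Surjectivity onto the parabolic homomorphisms, injectivity -/

section Iso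

variable {𝒪 : Type} [CommRing 𝒪] [IsDomain 𝒪] [CharZero 𝒪] {M : ℕ} [NeZero M]

/-- **every parabolic homomorphism `Γ₀(M) → 𝒪` is in the image of `μ`** -/
theorem s59mindcMu_surj (φ : HomG M 𝒪) (hφ : IsParabolicHom (Gamma0 M) φ) :
    ∃ X : s59asmL 𝒪 M, s59mindcMu 𝒪 M X = φ := by
  classical
  obtain ⟨s, hs⟩ := s59mindc_fin_span M φ
  let e := Module.finBasis ℤ ↥(Submodule.span ℤ (s : Set 𝒪))
  -- the coordinates of `φ`
  let x : Fin (Module.finrank ℤ ↥(Submodule.span ℤ (s : Set 𝒪))) → HomG M ℤ := fun k =>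
    { toFun := fun γ => e.repr ⟨φ γ, hs γ⟩ k
      map_zero' := by
        have h0 : (⟨φ 0, hs 0⟩ : ↥(Submodule.span ℤ (s : Set 𝒪))) = 0 :=
          Subtype.ext (map_zero φ)
        rw [h0, map_zero]
        rfl
      map_add' := fun γ δ => by
        have h0 : (⟨φ (γ + δ), hs (γ + δ)⟩ : ↥(Submodule.span ℤ (s : Set 𝒪)))
            = ⟨φ γ, hs γ⟩ + ⟨φ δ, hs δ⟩ := Subtype.ext (map_add φ γ δ)
        rw [h0, map_add]
        rfl }
  have hx : ∀ k, x k ∈ Lpar M := by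
    intro k γ hγ
    show e.repr ⟨φ (Additive.ofMul γ), hs _⟩ k = 0
    have h0 : (⟨φ (Additive.ofMul γ), hs _⟩ : ↥(Submodule.span ℤ (s : Set 𝒪))) = 0 :=
      Subtype.ext (hφ γ hγ)
    rw [h0, map_zero]
    rfl
  refine ⟨∑ k, ((e k : ↥(Submodule.span ℤ (s : Set 𝒪))) : 𝒪) ⊗ₜ[ℤ] (⟨x k, hx k⟩ : ↥(Lpar M)),
    AddMonoidHom.ext fun γ => ?_⟩
  rw [map_sum, AddMonoidHom.finsetSum_apply]
  have h1 := congrArg (Subtype.val) (e.sum_repr ⟨φ γ, hs γ⟩)
  rw [← show ((⟨φ γ, hs γ⟩ : ↥(Submodule.span ℤ (s : Set 𝒪))) : 𝒪) = φ γ from rfl, ← h1,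
    AddSubmonoidClass.coe_finsetSum]
  refine Finset.sum_congr rfl fun k _ => ?_
  rw [s59mindcMu_tmul, Submodule.coe_smul, zsmul_eq_mul, mul_comm]
  rfl

/-- **`μ` is injective** -/
theorem s59mindcMu_injective : Function.Injective (s59mindcMu 𝒪 M) := by
  classical
  rw [injective_iff_map_eq_zero]
  intro X hX
  let b := Module.finBasis ℤ ↥(Lpar M)
  let B := Algebra.TensorProduct.basis 𝒪 b
  -- the coefficients of `X`
  set cf : Fin (Module.finrank ℤ ↥(Lpar M)) → 𝒪 := fun i => B.repr X i with hcf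
  have hXs : X = ∑ i, cf i ⊗ₜ[ℤ] b i := by
    conv_lhs => rw [← B.sum_repr X]
    refine Finset.sum_congr rfl fun i _ => ?_
    rw [Algebra.TensorProduct.basis_apply, TensorProduct.smul_tmul', smul_eq_mul, mul_one]
  have hval : ∀ γ : Additive (Gamma0 M),
      ∑ i, cf i * ((((b i : ↥(Lpar M)) : HomG M ℤ) γ : ℤ) : 𝒪) = 0 := by
    intro γ
    have h := congrArg (fun ψ : HomG M 𝒪 => ψ γ) hX
    simp only [AddMonoidHom.zero_apply] at h
    rw [hXs, map_sum, AddMonoidHom.finsetSum_apply] at h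
    rw [← h]
    exact Finset.sum_congr rfl fun i _ => (s59mindcMu_tmul _ _ _).symm
  -- the subgroup generated by the coefficients
  let s : Finset 𝒪 := Finset.univ.image cf
  have hmem : ∀ i, cf i ∈ Submodule.span ℤ (s : Set 𝒪) := fun i =>
    Submodule.subset_span (by
      rw [Finset.coe_image]
      exact ⟨i, Finset.mem_coe.mpr (Finset.mem_univ i), rfl⟩)
  let e := Module.finBasis ℤ ↥(Submodule.span ℤ (s : Set 𝒪))
  have hzero : ∀ i, cf i = 0 := by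
    have hk : ∀ k i, e.repr ⟨cf i, hmem i⟩ k = 0 := by
      intro k
      -- the element `∑ i, n i k • b i` of `Lpar M` vanishes
      have hy : ∑ i, (e.repr ⟨cf i, hmem i⟩ k) • b i = 0 := by
        apply Subtype.ext
        refine AddMonoidHom.ext fun γ => ?_
        rw [AddSubgroup.coe_zero, AddMonoidHom.zero_apply]
        have h2 : (∑ i, (((b i : ↥(Lpar M)) : HomG M ℤ) γ) •
            (⟨cf i, hmem i⟩ : ↥(Submodule.span ℤ (s : Set 𝒪)))) = 0 := by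
          apply Subtype.ext
          rw [AddSubmonoidClass.coe_finsetSum, Submodule.coe_zero, ← hval γ]
          refine Finset.sum_congr rfl fun i _ => ?_
          rw [Submodule.coe_smul, zsmul_eq_mul, mul_comm]
        have h3 := congrArg (fun v => e.repr v k) h2
        simp only [map_sum, map_smul, map_zero, Finsupp.coe_finsetSum, Finset.sum_apply,
          Finsupp.coe_smul, Pi.smul_apply, smul_eq_mul, Finsupp.coe_zero, Pi.zero_apply] at h3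
        rw [AddSubmonoidClass.coe_finsetSum, AddMonoidHom.finsetSum_apply, ← h3]
        refine Finset.sum_congr rfl fun i _ => ?_
        rw [AddSubgroupClass.coe_zsmul, AddMonoidHom.smul_apply, smul_eq_mul, mul_comm]
      intro i
      have h4 := congrArg (fun v => b.repr v i) hy
      simpa [Finsupp.single_apply] using h4
    intro i
    have h5 : (⟨cf i, hmem i⟩ : ↥(Submodule.span ℤ (s : Set 𝒪))) = 0 := by
      apply e.repr.injective
      ext k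
      rw [hk k i, map_zero]
      rfl
    exact congrArg Subtype.val h5
  rw [hXs]
  refine Finset.sum_eq_zero fun i _ => ?_
  rw [hzero i, TensorProduct.zero_tmul]

end Iso

/-! ### Transport to `HomS (gammaH N M ⊤) 𝒪` -/

section Lam

variable (𝒪 : Type) [CommRing 𝒪] (N M : ℕ) [hMN : Fact (M ∣ N)]

/-- **the comparison** `Λ : 𝒪 ⊗ Hom_par(Γ₀(N), ℤ) → HomS (gammaH N M ⊤) 𝒪` -/
def s59mindcLam : s59asmL 𝒪 N →ₗ[𝒪] HomS (gammaH N M (⊤ : Subgroup (ZMod M)ˣ)) 𝒪 where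
  toFun X := (s59mindcMu 𝒪 N X).comp (MonoidHom.toAdditive (rtbbE0 N M).toMonoidHom)
  map_add' X Y := by
    rw [map_add]
    rfl
  map_smul' a X := by
    rw [map_smul]
    rfl

variable {𝒪 N M}

theorem s59mindcLam_apply (X : s59asmL 𝒪 N) (γ : gammaH N M (⊤ : Subgroup (ZMod M)ˣ)) :
    s59mindcLam 𝒪 N M X (Additive.ofMul γ) = s59mindcMu 𝒪 N X (Additive.ofMul (rtbbE0 N M γ)) :=
  rfl

/-- `rtbbTr ∘ Λ = μ` -/
theorem s59mindc_tr_lam (X : s59asmL 𝒪 N) :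
    rtbbTr N M 𝒪 (s59mindcLam 𝒪 N M X) = s59mindcMu 𝒪 N X := by
  refine AddMonoidHom.ext fun γ => ?_
  obtain ⟨γ, rfl⟩ : ∃ γ' : Gamma0 N, Additive.ofMul γ' = γ := ⟨Additive.toMul γ, rfl⟩
  rw [rtbbTr_apply, s59mindcLam_apply, MulEquiv.apply_symm_apply]

/-- the inverse of the transport `rtbbTr` -/
theorem s59mindc_tr_surj {A : Type} [AddCommGroup A] (ψ : HomG N A) :
    rtbbTr N M A (ψ.comp (MonoidHom.toAdditive (rtbbE0 N M).toMonoidHom)) = ψ := by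
  refine AddMonoidHom.ext fun γ => ?_
  obtain ⟨γ, rfl⟩ : ∃ γ' : Gamma0 N, Additive.ofMul γ' = γ := ⟨Additive.toMul γ, rfl⟩
  rw [rtbbTr_apply]
  show ψ (Additive.ofMul (rtbbE0 N M ((rtbbE0 N M).symm γ))) = _
  rw [MulEquiv.apply_symm_apply]

/-- the image of `Λ` is parabolic -/
theorem s59mindcLam_parabolic (X : s59asmL 𝒪 N) :
    IsParabolicHom (gammaH N M (⊤ : Subgroup (ZMod M)ˣ)) (s59mindcLam 𝒪 N M X) := by
  apply rtbb_parabolic_of_tr
  rw [s59mindc_tr_lam]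
  exact s59mindcMu_mem_Hpar X

/-- **`Λ` is Hecke-equivariant** -/
theorem s59mindcLam_tS [NeZero N] (ℓ : ℕ) [NeZero ℓ] [Fact ℓ.Prime] (hℓ : ¬ ℓ ∣ N)
    (X : s59asmL 𝒪 N) :
    s59mindcLam 𝒪 N M (s59asmT 𝒪 N ℓ hℓ X) = tS N M ℓ ⊤ 𝒪 (s59mindcLam 𝒪 N M X) := by
  apply rtbbTr_injective (N := N) (M := M) (A := 𝒪)
  rw [s59mindc_tr_lam, rtbbTr_tS ℓ hℓ, s59mindc_tr_lam, s59mindcMu_T]
  rfl

variable [IsDomain 𝒪] [CharZero 𝒪] [NeZero N]

/-- **`Λ` is injective** -/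
theorem s59mindcLam_injective : Function.Injective (s59mindcLam 𝒪 N M) := by
  intro X Y h
  apply s59mindcMu_injective
  rw [← s59mindc_tr_lam (M := M) X, ← s59mindc_tr_lam (M := M) Y, h]

/-- **the range of `Λ` is the set of parabolic homomorphisms** -/
theorem s59mindcLam_surj (φ : HomS (gammaH N M (⊤ : Subgroup (ZMod M)ˣ)) 𝒪)
    (hφ : IsParabolicHom (gammaH N M (⊤ : Subgroup (ZMod M)ˣ)) φ) :
    ∃ X : s59asmL 𝒪 N, s59mindcLam 𝒪 N M X = φ := by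
  obtain ⟨X, hX⟩ := s59mindcMu_surj (rtbbTr N M 𝒪 φ) (rtbbTr_parabolic hφ)
  refine ⟨X, ?_⟩
  apply rtbbTr_injective (N := N) (M := M) (A := 𝒪)
  rw [s59mindc_tr_lam, hX]

/-- the `ψ`-eigenvectors of `s59asmL 𝒪 N` are the `ψ`-eigenvectors of the `tS ℓ` -/
theorem s59mindc_mem_E_iff {p : ℕ} {ψ : ℕ → 𝒪} (y : s59asmL 𝒪 N) :
    y ∈ s59asmE 𝒪 N p ψ ↔ ∀ (ℓ : ℕ) [NeZero ℓ] [Fact ℓ.Prime], ¬ ℓ ∣ N → ℓ ≠ p →
      tS N M ℓ ⊤ 𝒪 (s59mindcLam 𝒪 N M y) = ψ ℓ • s59mindcLam 𝒪 N M y := by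
  rw [s59asm_mem_E]
  constructor
  · intro h ℓ _ _ hℓ hℓp
    rw [← s59mindcLam_tS ℓ hℓ, h ℓ hℓ hℓp, map_smul]
  · intro h ℓ _ hℓ hℓp
    haveI : NeZero ℓ := ⟨(Fact.out : ℓ.Prime).ne_zero⟩
    apply s59mindcLam_injective (M := M)
    rw [s59mindcLam_tS ℓ hℓ, h ℓ hℓ hℓp, map_smul]

/-! ### The lift of the basis of the cone -/

/-- **the lift**: a parabolic family `c` with Hecke matrices `a ℓ` lifts to `s59asmL 𝒪 N`
with the same Hecke matrices. -/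
theorem s59mindc_lift {r : ℕ} (c : Fin r → HomS (gammaH N M (⊤ : Subgroup (ZMod M)ˣ)) 𝒪)
    (hc : ∀ i, IsParabolicHom (gammaH N M (⊤ : Subgroup (ZMod M)ˣ)) (c i)) :
    ∃ κ : Fin r → s59asmL 𝒪 N, (∀ i, s59mindcLam 𝒪 N M (κ i) = c i) ∧
      ∀ (a : Matrix (Fin r) (Fin r) 𝒪) (ℓ : ℕ) [NeZero ℓ] [Fact ℓ.Prime] (hℓ : ¬ ℓ ∣ N),
        (∀ i', tS N M ℓ ⊤ 𝒪 (c i') = ∑ i, a i i' • c i) →
        ∀ i', s59asmT 𝒪 N ℓ hℓ (κ i') = ∑ i, a i i' • κ i := by
  choose κ hκ using fun i => s59mindcLam_surj (c i) (hc i)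
  refine ⟨κ, hκ, fun a ℓ _ _ hℓ hmat i' => ?_⟩
  apply s59mindcLam_injective (M := M)
  rw [s59mindcLam_tS ℓ hℓ, hκ, hmat, map_sum]
  refine Finset.sum_congr rfl fun i _ => ?_
  rw [map_smul, hκ]

/-- **DICT-ι in the basis of the cone.**  `c` a parabolic family of `HomS (gammaH N M ⊤) 𝒪`;
then there is `ι' : 𝒪^r → s59asmL 𝒪 N` with `Λ (ι' v) = ∑ i, v i • c i`, which intertwines
the matrices `a ℓ` of the `tS ℓ` with the `s59asmT ℓ`, and such that every `ψ`-eigenvector of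
`s59asmL 𝒪 N` is `ι'` of a vector `v` as soon as every parabolic `ψ`-eigenvector of the `tS ℓ` is
in the span of `c`. -/
theorem s59mindc_iota {r : ℕ} (c : Fin r → HomS (gammaH N M (⊤ : Subgroup (ZMod M)ˣ)) 𝒪)
    (hc : ∀ i, IsParabolicHom (gammaH N M (⊤ : Subgroup (ZMod M)ˣ)) (c i)) :
    ∃ ι' : (Fin r → 𝒪) →ₗ[𝒪] s59asmL 𝒪 N,
      (∀ v, s59mindcLam 𝒪 N M (ι' v) = ∑ i, v i • c i) ∧
      (∀ (a : Matrix (Fin r) (Fin r) 𝒪) (ℓ : ℕ) [NeZero ℓ] [Fact ℓ.Prime] (hℓ : ¬ ℓ ∣ N),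
        (∀ i', tS N M ℓ ⊤ 𝒪 (c i') = ∑ i, a i i' • c i) →
        ∀ v, s59asmT 𝒪 N ℓ hℓ (ι' v) = ι' (a.mulVec v)) ∧
      ∀ (p : ℕ) (ψ : ℕ → 𝒪),
        (∀ φ : HomS (gammaH N M (⊤ : Subgroup (ZMod M)ˣ)) 𝒪,
          IsParabolicHom (gammaH N M (⊤ : Subgroup (ZMod M)ˣ)) φ →
          (∀ (ℓ : ℕ) [NeZero ℓ] [Fact ℓ.Prime], ¬ ℓ ∣ N → ℓ ≠ p →
            tS N M ℓ ⊤ 𝒪 φ = ψ ℓ • φ) → ∃ v : Fin r → 𝒪, φ = ∑ i, v i • c i) →
        ∀ y ∈ s59asmE 𝒪 N p ψ, ∃ v : Fin r → 𝒪, ι' v = y := by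
  obtain ⟨κ, hκ, hmatκ⟩ := s59mindc_lift c hc
  let ι' : (Fin r → 𝒪) →ₗ[𝒪] s59asmL 𝒪 N :=
    { toFun := fun v => ∑ i, v i • κ i
      map_add' := fun v w => by
        simp only [Pi.add_apply, add_smul, Finset.sum_add_distrib]
      map_smul' := fun t v => by
        simp only [Pi.smul_apply, smul_eq_mul, mul_smul, Finset.smul_sum, RingHom.id_apply] }
  have hι : ∀ v, s59mindcLam 𝒪 N M (ι' v) = ∑ i, v i • c i := by
    intro v
    show s59mindcLam 𝒪 N M (∑ i, v i • κ i) = _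
    rw [map_sum]
    refine Finset.sum_congr rfl fun i _ => ?_
    rw [map_smul, hκ]
  refine ⟨ι', hι, fun a ℓ _ _ hℓ hmat v => ?_, fun p ψ hspan y hy => ?_⟩
  · apply s59mindcLam_injective (M := M)
    rw [s59mindcLam_tS ℓ hℓ, hι, hι, map_sum]
    have h1 : ∀ i', tS N M ℓ ⊤ 𝒪 (v i' • c i') = ∑ i, (a i i' * v i') • c i := by
      intro i'
      have e1 : v i' • c i' = s59mindcLam 𝒪 N M (v i' • κ i') := by rw [map_smul, hκ]
      rw [e1, ← s59mindcLam_tS ℓ hℓ, map_smul, hmatκ a ℓ hℓ hmat i', Finset.smul_sum, map_sum]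
      refine Finset.sum_congr rfl fun i _ => ?_
      rw [map_smul, map_smul, hκ, smul_smul, mul_comm]
    rw [Finset.sum_congr rfl fun i' _ => h1 i', Finset.sum_comm]
    refine Finset.sum_congr rfl fun i _ => ?_
    rw [← Finset.sum_smul]
    rfl
  · obtain ⟨v, hv⟩ := hspan (s59mindcLam 𝒪 N M y) (s59mindcLam_parabolic y)
      ((s59mindc_mem_E_iff (M := M) y).mp hy)
    refine ⟨v, ?_⟩
    apply s59mindcLam_injective (M := M)
    rw [hι, hv]

end Lam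

/-! ### The `η`-part is parabolic -/

section Eta

variable {𝒪 : Type} [CommRing 𝒪] [IsDomain 𝒪] [CharZero 𝒪] {N M : ℕ} [NeZero N]
  [hMN : Fact (M ∣ N)]

/-- a family in the `η`-part (`η = T_ℓ₀ − (ℓ₀ + 1)`, `N` squarefree) is parabolic -/
theorem s59mindc_eta_parabolic (hN : Squarefree N) (ℓ₀ : ℕ) [NeZero ℓ₀] (hℓ₀ : ℓ₀.Prime)
    (hℓ₀N : ¬ ℓ₀ ∣ N) (φ : HomS (gammaH N M (⊤ : Subgroup (ZMod M)ˣ)) 𝒪)
    (hφ : φ ∈ etaPart (etaS N M ℓ₀ (⊤ : Subgroup (ZMod M)ˣ) 𝒪)) :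
    IsParabolicHom (gammaH N M (⊤ : Subgroup (ZMod M)ˣ)) φ :=
  stmtEtaPar N M ℓ₀ 𝒪 hN hℓ₀ hℓ₀N
    (fun n a hn h => by
      rcases smul_eq_zero.mp h with h1 | h1
      · exact absurd h1 hn
      · exact h1) φ hφ

end Eta

end Fermat.Agent.S59

end
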