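import Fermat.Agent.S59.Min.BaseIdFinal
import Fermat.Agent.S59.Min.BaseIdIota
import Fermat.Agent.S59.Min.DictCmp
import Fermat.Agent.S59.Eta.BCBase

/-!
# S59 wall R1, R1-BASEID (DICT-ι): THE DICTIONARY over the cone's base (helper9)

Assembly of
* the export of the base lattice of the cone (`S59bidData Y h 1`, `S59/Min/BaseIdFinal.lean`),
* the comparison map of helper22 (`s59mindc_iota`, `S59/Min/DictCmp.lean`),
* the block dictionary (`s59bid_dict`, `S59/Min/BaseIdIota.lean`):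

over `D : S59bidData Y h 1` (level `M` squarefree), with `T0 = D.B.T0`, `j0 = D.B.j0`, the module
`S59bidM D.B.j0 = 𝒪 ^ (2 ^ h * r)` (`T0` acting through `j0`, standard basis `s59bidBasis`,
`s59bid_hj0`), the lattice `L = s59asmL 𝒪 M = 𝒪 ⊗ Hom_par(Γ₀(M), ℤ)` of R2 with its pairing
`s59asmB` and Hecke operators `s59asmT`:

* **`s59bid_dict_asm`** : there is `ι' : S59bidM D.B.j0 →ₗ[𝒪] s59asmL 𝒪 M` with
  - `ι' (D.B.a ℓ • x) = s59asmT 𝒪 M ℓ hℓ (ι' x)` for the primes `ℓ ∤ M p` (Hecke-equivariance),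
  - `hB` : `s59asmB (ι' (t • x)) (ι' y) = s59asmB (ι' x) (ι' (t • y))` for ALL `t : T0`
    — under `hgen` : `T0` is generated over `𝒪` by the `D.B.a ℓ`, `ℓ ∤ M p`,
  - `hE` : every `y ∈ s59asmE 𝒪 M p ψ` is `ι'` of an eigenvector `m'` (`D.B.a ℓ • m' = ψ ℓ • m'`,
    `ℓ ∤ M p`) — under E-SPAN for `ψ` (helper56): the parabolic `ψ`-eigenvectors of
    `HomS (gammaH M 1 ⊤) 𝒪` are in the `𝒪`-span of `D.c`.
-/

set_option autoImplicit false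
set_option linter.unusedSectionVars false
set_option linter.unusedVariables false
set_option linter.style.haveILetI false
set_option linter.style.longLine false

noncomputable section

namespace Fermat.Agent.S59.LowK

open IsLocalRing Fermat.Agent.ES Fermat.Agent.S30 Fermat.Agent.W1 Fermat.Agent.TW
open Fermat.Agent.ES1 Fermat.Agent.RT Fermat.Agent.RT.K5 Fermat.Agent.RT.Prod
open Fermat.Agent.S59.LowQ ExtCitation ModularCurve ModularCurve.Period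
open Fermat.Agent.S59
open scoped MatrixGroups

section Dict

variable {W : WeierstrassCurve ℤ} {p M : ℕ} [hp : Fact p.Prime] [NeZero M]
  [iM₀N : Fact ((1 : ℕ) ∣ M)] {Y : s59lk_KSetupW W p M} {h : ℕ}

/-- a prime `ℓ ∤ M p` does not divide `M` -/
theorem s59bid_not_dvd_left {ℓ : ℕ} (hℓ : ¬ ℓ ∣ M * p) : ¬ ℓ ∣ M :=
  fun hd => hℓ (Dvd.dvd.mul_right hd p)

/-- a prime `ℓ ∤ M p` is not `p` -/
theorem s59bid_ne_right {ℓ : ℕ} (hℓ : ¬ ℓ ∣ M * p) : ℓ ≠ p :=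
  fun e => hℓ (e ▸ Dvd.intro_left M rfl)

/-- a prime `ℓ ∤ M`, `ℓ ≠ p` does not divide `M p` -/
theorem s59bid_not_dvd_mul {ℓ : ℕ} (hℓ : ℓ.Prime) (hℓM : ¬ ℓ ∣ M) (hℓp : ℓ ≠ p) :
    ¬ ℓ ∣ M * p := by
  intro hd
  rcases (Nat.Prime.dvd_mul hℓ).mp hd with h1 | h1
  · exact hℓM h1
  · exact hℓp ((Nat.prime_dvd_prime_iff_eq hℓ hp.out).mp h1)

/-- **THE DICTIONARY over the cone's base.** -/
theorem s59bid_dict_asm (D : S59bidData Y h 1) (hsq : Squarefree M)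
    (hgen : Algebra.adjoin Y.O
      (Set.range fun ℓ : {ℓ : Nat.Primes // ¬ (ℓ : ℕ) ∣ M * p} => D.B.a ℓ.1) = ⊤) :
    ∃ ι' : S59bidM D.B.j0 →ₗ[Y.O] s59asmL Y.O M,
      (∀ (ℓ : Nat.Primes) (hℓ : ¬ (ℓ : ℕ) ∣ M * p) (x : S59bidM D.B.j0),
        ι' (D.B.a ℓ • x) =
          (haveI : Fact (ℓ : ℕ).Prime := ⟨ℓ.2⟩
           s59asmT Y.O M (ℓ : ℕ) (s59bid_not_dvd_left hℓ)) (ι' x)) ∧
      (∀ (t : D.B.T0) (x y : S59bidM D.B.j0),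
        s59asmB Y.O M (ι' (t • x)) (ι' y) = s59asmB Y.O M (ι' x) (ι' (t • y))) ∧
      ∀ ψ : ℕ → Y.O,
        (∀ φ : HomS (gammaH M 1 (⊤ : Subgroup (ZMod 1)ˣ)) Y.O,
          IsParabolicHom (gammaH M 1 (⊤ : Subgroup (ZMod 1)ˣ)) φ →
          (∀ (ℓ : ℕ) [NeZero ℓ] [Fact ℓ.Prime], ¬ ℓ ∣ M → ℓ ≠ p →
            tS M 1 ℓ ⊤ Y.O φ = ψ ℓ • φ) → ∃ v : Fin D.r → Y.O, φ = ∑ i, v i • D.c i) →
        ∀ y ∈ s59asmE Y.O M p ψ, ∃ m' : S59bidM D.B.j0,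
          (∀ ℓ : Nat.Primes, ¬ (ℓ : ℕ) ∣ M * p → D.B.a ℓ • m' = ψ ℓ • m') ∧ ι' m' = y := by
  classical
  obtain ⟨ι₁, hΛ, hT₁, hspan₁⟩ := s59mindc_iota (𝒪 := Y.O) (N := M) (M := 1) D.c (D.par hsq)
  -- `ι₁` is injective
  have hinj : Function.Injective ι₁ := by
    intro v w hvw
    have h1 : (∑ i, v i • D.c i) = ∑ i, w i • D.c i := by rw [← hΛ, ← hΛ, hvw]
    exact D.lat.basis.2.1 h1
  -- the index set and the operators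
  let I : Type := {ℓ : Nat.Primes // ¬ (ℓ : ℕ) ∣ M * p}
  let S : I → s59asmL Y.O M →ₗ[Y.O] s59asmL Y.O M := fun i =>
    haveI : Fact (i.1 : ℕ).Prime := ⟨i.1.2⟩
    s59asmT Y.O M (i.1 : ℕ) (s59bid_not_dvd_left i.2)
  have hS : ∀ (i : I) (v : Fin D.r → Y.O), S i (ι₁ v) = ι₁ ((D.ac i.1).mulVec v) := by
    intro i v
    haveI : Fact (i.1 : ℕ).Prime := ⟨i.1.2⟩
    haveI : NeZero (i.1 : ℕ) := ⟨i.1.2.ne_zero⟩
    exact hT₁ (D.ac i.1) (i.1 : ℕ) (s59bid_not_dvd_left i.2) (D.hT (i.1 : ℕ) i.1.2 i.2) v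
  have hBS : ∀ (i : I) (x y : s59asmL Y.O M),
      s59asmB Y.O M (S i x) y = s59asmB Y.O M x (S i y) := by
    intro i x y
    haveI : Fact (i.1 : ℕ).Prime := ⟨i.1.2⟩
    exact s59bcc_selfadj Y.O (s59bcPairZ M) (s59bcTcZ M (i.1 : ℕ) (s59bid_not_dvd_left i.2))
      (s59bcPairZ_Tc M (i.1 : ℕ) (s59bid_not_dvd_left i.2)) x y
  obtain ⟨hequiv, hB, hE⟩ := s59bid_dict h D.r D.B.j0 (fun i : I => D.B.a i.1)
    (fun i : I => D.ac i.1) (fun i => D.j0_a i.1 i.2) hgen ι₁ hinj S hS (s59asmB Y.O M) hBS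
  refine ⟨s59bidIota h D.r D.B.j0 ι₁, fun ℓ hℓ x => hequiv ⟨ℓ, hℓ⟩ x, hB, ?_⟩
  intro ψ hspan y hy
  obtain ⟨v, hv⟩ := hspan₁ p ψ hspan y hy
  have hy' : ∀ i : I, S i y = ψ (i.1 : ℕ) • y := by
    intro i
    haveI : Fact (i.1 : ℕ).Prime := ⟨i.1.2⟩
    exact (s59asm_mem_E Y.O M).mp hy (i.1 : ℕ) (s59bid_not_dvd_left i.2) (s59bid_ne_right i.2)
  obtain ⟨m', hm', hm'y⟩ := hE (fun i : I => ψ (i.1 : ℕ)) y ⟨v, hv⟩ hy'
  exact ⟨m', fun ℓ hℓ => hm' ⟨ℓ, hℓ⟩, hm'y⟩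

end Dict

end Fermat.Agent.S59.LowK

end
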