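import Fermat.Agent.S59.Min.BaseIdTop
import Fermat.Agent.RT.Base.Theta

/-!
# S59 wall R1, R1-BASEID (DICT-ι), the EXPORT of the base lattice of the cone, part 3 (helper9):
# the Hecke side at ONE setup WITH its base lattice

`S59btrHeckeDataQ Y h` (helper34) hides the base module behind the existential fields `d`, `T0`,
`j0`, `a`.  Here the same data are delivered together with the lattice they come from:

* `S59bidData Y h M₀` : `r`, a basis `c : Fin r → HomS (gammaH M M₀ ⊤) 𝒪` of the `Θ`-part of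
  `Hom(Γ₀(M), 𝒪)` (`lat : S59bidLattice …`), the matrices `ac ℓ` of `T_ℓ = tS M M₀ ℓ ⊤ 𝒪` in `c`
  (`hT`), `d = 2 ^ h * r`, base matrices `a0 ℓ = rthkcbBlock 𝒪 h r (ac ℓ)` (`ha0`: block diagonal,
  `2 ^ h` copies), the Galois side of the base `B : HkBaseOutW Y (2 ^ h * r) σ₀ τ₀ S' a0`
  (with `B.ha0 : B.j0 (B.a ℓ) = a0 ℓ`), and the levels `TWGal ∧ S59btrBaseTr ∧ S59btrTrQin` over
  `B.j0`, `B.ρ0`;
* `S59bidData.toQ`  : the underlying `S59btrHeckeDataQ Y h` (`d`, `T0`, `j0`, `ρ0`, `a`, `S'`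
  are those of `B`, definitionally);
* `S59bidData.j0_a` : `B.j0 (B.a ℓ) = rthkcbBlock 𝒪 h r (ac ℓ)` for the primes `ℓ ∤ M p`;
* `S59bidData.par`  : the `c i` are PARABOLIC (`M` squarefree);
* `s59bid_final_at` : the assembly (twin of `s59btr_modSideAt_of_concTop` + `s59btr_final_atQ`,
  helper34, over a given base);
* **`s59bid_data_five`** : `5 ≤ p`, UNCONDITIONAL: `Nonempty (S59bidData Y h 1)` at every setup
  `Y` of a squarefree level `M ≥ 2` prime to `p` at which `W` is residually modular.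
-/

set_option autoImplicit false
set_option linter.unusedSectionVars false
set_option linter.unusedVariables false
set_option linter.style.haveILetI false
set_option linter.style.longLine false

noncomputable section

namespace Fermat.Agent.S59.LowK

open IsLocalRing Polynomial Fermat.Agent.ES Fermat.Agent.S30 Fermat.Agent.W1 Fermat.Agent.TW
open Fermat.Agent.ES1 Fermat.Agent.RT Fermat.Agent.RT.K1 Fermat.Agent.RT.K5 Fermat.Agent.RT.Prod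
open Fermat.Agent.S59.LowQ ExtCitation ModularCurve ModularCurve.Period
open WeierstrassCurve WeierstrassCurve.Affine WeierstrassCurve.Affine.Point
open scoped MatrixGroups

/-- **The Hecke side at one setup with its base lattice.** -/
structure S59bidData {W : WeierstrassCurve ℤ} {p M : ℕ} [Fact p.Prime] [NeZero M]
    (Y : s59lk_KSetupW W p M) (h : ℕ) (M₀ : ℕ) [NeZero M₀] [Fact (M₀ ∣ M)] : Type 1 where
  /-- the rank of the base lattice -/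
  r : ℕ
  hr : 0 < r
  /-- the basis of the `Θ`-part of `Hom(Γ₀(M), 𝒪)` -/
  c : Fin r → HomS (gammaH M M₀ (⊤ : Subgroup (ZMod M₀)ˣ)) Y.O
  /-- the matrices of the Hecke operators in the basis `c` -/
  ac : ℕ → Matrix (Fin r) (Fin r) Y.O
  S₀ : Finset ℕ
  e₀ : HExpr Y.O
  ℓ₀₀ : ℕ
  [instℓ₀₀ : NeZero ℓ₀₀]
  lat : S59bidLattice Y M₀ r c S₀ e₀ ℓ₀₀
  hT : ∀ (ℓ : ℕ) [NeZero ℓ], ℓ.Prime → ¬ ℓ ∣ M * p →
    ∀ i', tS M M₀ ℓ ⊤ Y.O (c i') = ∑ i, ac ℓ i i' • c i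
  S' : Finset ℕ
  hS' : ∀ ℓ : ℕ, ℓ.Prime → ¬ ℓ ∣ M * p → ℓ ∉ S'
  σ₀ : GQ
  τ₀ : GQ
  /-- the base matrices: block diagonal, `2 ^ h` copies of `ac ℓ` -/
  a0 : ℕ → Matrix (Fin (2 ^ h * r)) (Fin (2 ^ h * r)) Y.O
  ha0 : ∀ ℓ : ℕ, ℓ.Prime → ¬ ℓ ∣ M * p → a0 ℓ = rthkcbBlock Y.O h r (ac ℓ)
  /-- the Galois side of the base -/
  B : HkBaseOutW Y (2 ^ h * r) σ₀ τ₀ S' a0
  /-- the levels, with the base traces and the inertia elements -/
  levelQ : ∀ (n : ℕ) (qv : Fin h → ℕ),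
    IsTWFamily p Y.ρbar (Y.Smin ∪ Finset.univ.image Y.r) n h qv →
    ∃ (A : Type) (_ : CommRing A) (_ : IsLocalRing A) (_ : Algebra Y.O A)
      (ιA : ResidueField Y.O →+* ResidueField A) (ρ : GaloisRepAdic A)
      (b : Module.Basis (Fin 2) A ρ.V) (β βi : ℕ → Matrix (Fin 2) (Fin 2) A)
      (π1 πχ : A →ₐ[Y.O] Matrix (Fin (2 ^ h * r)) (Fin (2 ^ h * r))
        (RttwS Y.O (Y.m h) ⧸ maximalIdeal (RttwS Y.O (Y.m h)) ^ n)),
      TWGal p Y.ρbar Y.Smin (Finset.univ.image qv) Y.r Y.σ Y.φ Y.tχ Y.lam (Y.m h) (2 ^ h * r)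
        B.j0
        (fun i => LinearMap.toMatrix B.b0 B.b0 (B.ρ0.ρ (Y.σ i)))
        (fun i => LinearMap.toMatrix B.b0 B.b0 (B.ρ0.ρ (Y.φ i))) n (rttwEvenQ Y.O (Y.m h) h n)
        ιA ρ b β βi π1 πχ ∧
      S59btrBaseTr (Y.m h) (2 ^ h * r) n B.j0 B.ρ0 ρ π1 ∧
      S59btrTrQin (Y.m h) h (2 ^ h * r) n qv ρ π1

attribute [instance] S59bidData.instℓ₀₀

namespace S59bidData

variable {W : WeierstrassCurve ℤ} {p M : ℕ} [hp : Fact p.Prime] [NeZero M]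
  {Y : s59lk_KSetupW W p M} {h : ℕ} {M₀ : ℕ} [NeZero M₀] [Fact (M₀ ∣ M)]

/-- the underlying Hecke data with the base traces and the inertia elements -/
def toQ (D : S59bidData Y h M₀) : S59btrHeckeDataQ Y h where
  D :=
    { d := 2 ^ h * D.r
      hd := Nat.mul_pos (pow_pos two_pos h) D.hr
      T0 := D.B.T0
      j0 := D.B.j0
      hj0 := D.B.hj0
      ρ0 := D.B.ρ0
      b0 := D.B.b0
      hdet0 := D.B.hdet0
      ι0 := D.B.ι0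
      hres0 := D.B.hres0
      habs0 := D.B.habs0
      S' := D.S'
      hpS' := D.B.hpS'
      hNS' := D.B.hNS'
      a := D.B.a
      hocc := D.B.hocc
      hcong := D.B.hcong
      hfrob := D.B.hfrob
      level := fun n qv hqv => by
        obtain ⟨A, c1, c2, c3, ιA, ρ, b, β, βi, π1, πχ, hT, -, -⟩ := D.levelQ n qv hqv
        exact ⟨A, c1, c2, c3, ιA, ρ, b, β, βi, π1, πχ, hT⟩ }
  levelQ := D.levelQ

theorem toQ_d (D : S59bidData Y h M₀) : D.toQ.D.d = 2 ^ h * D.r := rfl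

/-- **the link**: the base Hecke operator `a ℓ` acts on `𝒪 ^ (2 ^ h * r)` by `2 ^ h` diagonal
copies of the matrix `ac ℓ` of `T_ℓ` in the basis `c` of the lattice. -/
theorem j0_a (D : S59bidData Y h M₀) (ℓ : Nat.Primes) (hℓ : ¬ (ℓ : ℕ) ∣ M * p) :
    D.B.j0 (D.B.a ℓ) = rthkcbBlock Y.O h D.r (D.ac ℓ) := by
  rw [D.B.ha0 ℓ (D.hS' ℓ ℓ.2 hℓ), D.ha0 ℓ ℓ.2 hℓ]

/-- the non-Eisenstein prime does not divide the level -/
theorem not_dvd (D : S59bidData Y h M₀) : ¬ D.ℓ₀₀ ∣ M :=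
  fun hd => D.lat.hℓ₀S (D.lat.hNS D.ℓ₀₀ D.lat.hℓ₀ hd)

/-- **the basis of the lattice is PARABOLIC** -/
theorem par (D : S59bidData Y h M₀) (hM : Squarefree M) (i : Fin D.r) :
    IsParabolicHom (gammaH M M₀ (⊤ : Subgroup (ZMod M₀)ˣ)) (D.c i) := by
  have htf : ∀ (n : ℕ), n ≠ 0 → ∀ a : Y.O, n • a = 0 → a = 0 := by
    intro n hn a ha
    rw [nsmul_eq_mul] at ha
    rcases mul_eq_zero.mp ha with h1 | h1
    · exact absurd (Nat.cast_eq_zero.mp h1) hn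
    · exact h1
  exact Fermat.Agent.RT.Base.rtbb_thetaPart_par hM D.ℓ₀₀ D.lat.hℓ₀ D.not_dvd
    (htf 2 two_ne_zero) (htf D.ℓ₀₀ D.lat.hℓ₀.ne_zero) D.e₀ D.lat.he₀ (D.c i) (D.lat.basis.1 i)

end S59bidData

section atY

variable {W : WeierstrassCurve ℤ} {p M : ℕ} [hp : Fact p.Prime] [NeZero M]
  (Y : s59lk_KSetupW W p M) (h : ℕ) (M₀ : ℕ) [NeZero M₀] [Fact (M₀ ∣ M)]

/-- **The assembly over a given base**: the base `(r, c, ac)` with its lattice facts, `HkBase`,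
the two equations of the base matrices and the levels over this base give the Hecke side with
its base lattice (twin of `s59btr_modSideAt_of_concTop` + `s59btr_final_atQ`, helper34). -/
theorem s59bid_final_at (hcheb : Cheb.WeakChebotarev) (hB : StmtHkAbsBW p)
    (hRes : StmtHkResW p) (r : ℕ) (hr : 0 < r)
    (c : Fin r → HomS (gammaH M M₀ (⊤ : Subgroup (ZMod M₀)ˣ)) Y.O)
    (ac : ℕ → Matrix (Fin r) (Fin r) Y.O)
    (S₀ : Finset ℕ) (e₀ : HExpr Y.O) (ℓ₀₀ : ℕ) [NeZero ℓ₀₀]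
    (hlat : S59bidLattice Y M₀ r c S₀ e₀ ℓ₀₀)
    (S' : Finset ℕ) (hpS' : p ∈ S') (hNS' : ∀ ℓ : ℕ, ℓ.Prime → ℓ ∣ M → ℓ ∈ S')
    (𝕋₀ : Type) [CommRing 𝕋₀] (J₀ : Type) [AddCommGroup J₀] [Module 𝕋₀ J₀]
    [DistribMulAction GQ J₀] (Tr₀ : ℕ → 𝕋₀)
    (Φ0 : 𝕋₀ →+* Matrix (Fin (2 ^ h * r)) (Fin (2 ^ h * r)) Y.O)
    (hbase : HkBase p Y.ρbar M S' (2 ^ h * r) J₀ Tr₀ Φ0)
    (hS' : ∀ ℓ : ℕ, ℓ.Prime → ¬ ℓ ∣ M * p → ℓ ∉ S')
    (hmat : ∀ (ℓ : ℕ) [NeZero ℓ], ℓ.Prime → ¬ ℓ ∣ M * p →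
      (∀ i', tS M M₀ ℓ ⊤ Y.O (c i') = ∑ i, ac ℓ i i' • c i) ∧
        Φ0 (Tr₀ ℓ) = rthkcbBlock Y.O h r (ac ℓ))
    (hlev : S59bidLevels Y h (2 ^ h * r) (fun ℓ => Φ0 (Tr₀ ℓ))) :
    Nonempty (S59bidData Y h M₀) := by
  have hd : 0 < 2 ^ h * r := Nat.mul_pos (pow_pos two_pos h) hr
  obtain ⟨⟨σ₀, τ₀, hξ⟩, hunip⟩ := hRes W M Y
  obtain ⟨B⟩ := hB hcheb W M Y (2 ^ h * r) hd σ₀ τ₀ hξ S' hpS' hNS' 𝕋₀ J₀ Tr₀ Φ0 hbase
  have key : ∀ (n : ℕ) (qv : Fin h → ℕ),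
      IsTWFamily p Y.ρbar (Y.Smin ∪ Finset.univ.image Y.r) n h qv →
      ∃ (A : Type) (_ : CommRing A) (_ : IsLocalRing A) (_ : Algebra Y.O A)
        (ιA : ResidueField Y.O →+* ResidueField A) (ρ : GaloisRepAdic A)
        (b : Module.Basis (Fin 2) A ρ.V) (β βi : ℕ → Matrix (Fin 2) (Fin 2) A)
        (π1 πχ : A →ₐ[Y.O] Matrix (Fin (2 ^ h * r)) (Fin (2 ^ h * r))
          (RttwS Y.O (Y.m h) ⧸ maximalIdeal (RttwS Y.O (Y.m h)) ^ n)),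
        TWGal p Y.ρbar Y.Smin (Finset.univ.image qv) Y.r Y.σ Y.φ Y.tχ Y.lam (Y.m h)
          (2 ^ h * r) B.j0
          (fun i => LinearMap.toMatrix B.b0 B.b0 (B.ρ0.ρ (Y.σ i)))
          (fun i => LinearMap.toMatrix B.b0 B.b0 (B.ρ0.ρ (Y.φ i))) n
          (rttwEvenQ Y.O (Y.m h) h n) ιA ρ b β βi π1 πχ ∧
        S59btrBaseTr (Y.m h) (2 ^ h * r) n B.j0 B.ρ0 ρ π1 ∧
        S59btrTrQin (Y.m h) h (2 ^ h * r) n qv ρ π1 := by
    intro n qv hqv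
    -- the module side with the inertia elements (the proof of `s59btr_modSideAt_of_concTop`)
    have hmodlev : ∃ (L : ℕ) (𝕋 : Type) (_ : CommRing 𝕋) (J : Type) (_ : AddCommGroup J)
        (_ : Module 𝕋 J) (_ : DistribMulAction GQ J) (Tr : ℕ → 𝕋)
        (Φ1 Φχ : 𝕋 →+* Matrix (Fin (2 ^ h * r)) (Fin (2 ^ h * r))
          (RthkSn Y.O (Y.m h) (n + 1))),
        HkLevel p Y.lam Y.ρbar
          (Y.Smin ∪ (Finset.univ.image qv ∪ Finset.univ.image Y.r)) Y.σ Y.tχ (Y.m h) h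
          (2 ^ h * r) (n + 1) (fun ℓ => Φ0 (Tr₀ ℓ)) L J Tr Φ1 Φχ ∧
        HkUnipJ p Y.Smin J ∧
        S59btrTrQinLevel p (Y.m h) h (2 ^ h * r) (n + 1) qv J Φ1 := by
      obtain ⟨L, M', j1, j2, j3, 𝔲, ℓ₀, j4, H', J, j5, j6, j7, Tr, b, ψ1, ψχ, hside, hUJ, hQ⟩ :=
        hlev n qv hqv
      letI := rthkcaAlg Y.O (Y.m h) (n + 1)
      haveI := rthkca_tower Y.O (Y.m h) (n + 1)
      have hconc := rthk_conc_side hside
      have hW := rthk_conc hconc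
      refine ⟨L, _, _, J, _, _, _, _, _, _, rthk_sub hW, hUJ, ?_⟩
      intro j hj
      obtain ⟨g, A, x, u, hA, hg, hx, hact, h1⟩ := hQ j hj
      have hxE : x ∈ rthksE p J := Subring.subset_closure ⟨g, hx⟩
      refine ⟨g, A, ⟨x, hxE⟩, hA, hg,
        fun k => (rthks_approx_iff _ k g ⟨x, hxE⟩).mpr (hx k), ?_⟩
      have hD := rthkcs_act_eq_D hside.stable x u hact
      have huv : ψ1 (QuotientGroup.mk u) * ψ1 (QuotientGroup.mk u)⁻¹ = 1 := by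
        rw [← map_mul, mul_inv_cancel, map_one]
      have e4 : (4 : Matrix (Fin (2 ^ h * r)) (Fin (2 ^ h * r)) (RthkSn Y.O (Y.m h) (n + 1)))
          = algebraMap (RthkSn Y.O (Y.m h) (n + 1))
              (Matrix (Fin (2 ^ h * r)) (Fin (2 ^ h * r)) (RthkSn Y.O (Y.m h) (n + 1))) 4 := by
        rw [map_ofNat]
      have key := rthkc_chi hconc.free _ hconc.act_comm ψ1 x (QuotientGroup.mk u) hD
      show rthkcPhi hconc.free _ hconc.act_comm ψ1 x ^ 2 - 4 = _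
      rw [key, ← map_pow, ← h1, e4, ← map_sub]
      congr 1
      linear_combination 4 * huv
    -- the Galois side (the proof of `s59btr_final_atQ`)
    obtain ⟨L, 𝕋, j1, J, j2, j3, j4, Tr, Φ1, Φχ, hlevel, hUJ, hQin⟩ := hmodlev
    have htrace : ∀ ℓ : ℕ, ℓ.Prime → ℓ ∉ S' →
        ∀ A : ValuationSubring (AlgebraicClosure ℚ), A.LiesOverPrime ℓ →
          ∀ τ : GQ, A.IsFrobeniusAt τ ℓ →
            B.j0 (LinearMap.trace B.T0 B.ρ0.V (B.ρ0.ρ τ)) = Φ0 (Tr₀ ℓ) := by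
      intro ℓ hℓ hℓS A hA τ hτ
      have h1 := B.hfrob ⟨ℓ, hℓ⟩ hℓS A hA τ hτ
      rw [Fermat.Agent.S31.trace_of_charpoly B.ρ0.finrank_eq (B.ρ0.ρ τ) _ _ h1]
      exact B.ha0 ⟨ℓ, hℓ⟩ hℓS
    obtain ⟨A₀, k1, k2, k3, ιA, ρ, b, φ1, φχ, hout, hbt, hex1, -⟩ :=
      s59btr_absLX hcheb p Y.hyp.hp2 Y.O Y.lam Y.half Y.hlam Y.hyp.hp𝒪 (rthk_f_halfW Y) Y.ρbar
        Y.hyp.habs Y.hyp.hdet Y.Smin (Finset.univ.image qv ∪ Finset.univ.image Y.r)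
        (fun r _ hrp hrne => hunip r hrp hrne)
        Y.ι Y.σ Y.φ Y.tχ (Y.m h) h (2 ^ h * r) (n + 1) hd (Nat.succ_pos n) σ₀ τ₀ hξ B.T0 B.j0
        B.ρ0 B.b0 B.u0 B.hdet0 B.hmat B.hu0 S' (fun ℓ => Φ0 (Tr₀ ℓ)) htrace L 𝕋 J Tr Φ1 Φχ
        hlevel hUJ
    have hdown := rthk_d_out (n := n) (Nat.le_succ n) hout
    have hbdown := s59btr_down (n := n) (Nat.le_succ n) hbt
    have hqdown := s59btr_trQin_down (n := n) (Nat.le_succ n)
      (s59btr_trQin_of_exact hQin hex1)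
    exact s59btr_packQ_std p Y.lam Y.ρbar Y.hyp.habs Y.Smin (Finset.univ.image qv) Y.r Y.r_inj
      Y.σ Y.φ Y.tχ h (2 ^ h * r) n qv B.j0 B.ρ0 _ _ ιA ρ b _ _ hdown hbdown hqdown
  exact ⟨{ r := r, hr := hr, c := c, ac := ac, S₀ := S₀, e₀ := e₀, ℓ₀₀ := ℓ₀₀, lat := hlat
           hT := fun ℓ _ hℓ hℓN => (hmat ℓ hℓ hℓN).1
           S' := S', hS' := hS', σ₀ := σ₀, τ₀ := τ₀
           a0 := fun ℓ => Φ0 (Tr₀ ℓ)
           ha0 := fun ℓ hℓ hℓN => by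
             haveI : NeZero ℓ := ⟨hℓ.ne_zero⟩
             exact (hmat ℓ hℓ hℓN).2
           B := B, levelQ := key }⟩

end atY

/-- **The Hecke side at one setup WITH its base lattice, `p ≥ 5`, UNCONDITIONAL** (K7-FLAT, K6,
HK-ABS-B, HK-RES, weak Chebotarev filled in): at every setup `Y` of a squarefree level `M ≥ 2`
prime to `p` at which `W` is residually modular. -/
theorem s59bid_data_five {W : WeierstrassCurve ℤ} {p M : ℕ} [hp : Fact p.Prime] [NeZero M]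
    [iM₀N : Fact ((1 : ℕ) ∣ M)]
    (hp5 : 5 ≤ p) (hΔ : W.Δ ≠ 0) (hsq : Squarefree M) (hpM : ¬ p ∣ M) (hM2 : 2 ≤ M)
    (hmod : W.IsResiduallyModularOfLevel p M) (Y : s59lk_KSetupW W p M) (h : ℕ) :
    Nonempty (S59bidData Y h 1) := by
  obtain ⟨r, hr, c, ac, S₀, e₀, ℓ₀₀, iℓ₀₀, hlat, S', hpS', hNS', 𝕋₀, i1, J₀, i2, i3, i4, Tr₀, Φ0,
    hbase, hS', hmat, hlev⟩ := s59bid_top_atUW hp5 K7F.stmtFlatH K6.rtk6c4at_stmtChiJDiv5 hΔ hsq
      hpM hM2 hmod Y h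
  exact s59bid_final_at Y h 1 Fermat.Agent.Cheb.weakChebotarev_holds (stmtHkAbsBW p)
    (stmtHkResW p) r hr c ac S₀ e₀ ℓ₀₀ hlat S' hpS' hNS' 𝕋₀ J₀ Tr₀ Φ0 hbase hS' hmat hlev

end Fermat.Agent.S59.LowK

end
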