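/-
S59, wall R1 (MIN′), leaf **DICT-τ-FEED, `χ₀` + `hres`** (helper34): the inputs `χ₀`, `hres` of
DICT-τ (`s59mindt_main`, S59/Min/DictTau.lean) from the data `(a, hocc, hcong)` of a base of the
K-machine (`HkBaseOutW`, S59/LowK/PlanW.lean).  This file is generic (no K-machine import); the
wiring over `HkBaseOutW` is in S59/Min/DictFeedW.lean.

* `s59mindf_evalS_surj` : the Hecke polynomials in the variables outside `S ⊇ primes(M)` fill the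
  Hecke algebra away from `S`;
* `s59mindf_hom_ext` : two ring homomorphisms of `heckeAlgebra M 2 S` which agree at the `T_ℓ` are
  equal;
* **`s59mindf_chi`** : from `hocc` (the values `a ℓ` kill the Hecke polynomials outside `S` which
  are `0` on the cusp forms) the character `χ₀ : heckeAlgebra M 2 S →+* A` with
  `χ₀ (evalS t) = aeval a t` and `χ₀ T_ℓ = a ℓ`;
* `s59mindf_hgen0` : `hgen0` of DICT-τ from the generation of the base ring by values `a ℓ`;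
  `s59mindf_range_le` : the values of `χ₀` are integral polynomials in the `a ℓ`, `ℓ ∉ S`;
* `s59mindf_point_maximal` : a point `x : T0 →ₐ[𝒪] 𝒪` of a local `𝒪`-algebra maps the maximal ideal
  in the maximal ideal;
* **`s59mindf_hres`** : `residue (x (χ₀ t)) = θ t` for every point `x` of `T0`, if
  `χ₀ T_ℓ ≡ c ℓ mod 𝔪_{T0}` and `θ T_ℓ = c ℓ mod 𝔪_𝒪`.
-/
import Fermat.Agent.S31.Helpers
import Fermat.Prelude.Def_CuspForm_HeckeGaloisRepDatum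

set_option autoImplicit false
set_option linter.style.haveILetI false
set_option linter.unusedSectionVars false
set_option linter.unusedVariables false
set_option linter.style.longLine false

noncomputable section

namespace Fermat.Agent.S59

open IsLocalRing ModularCurve CongruenceSubgroup Fermat.Agent.S31

section Chi

variable {M : ℕ} [NeZero M]

/-- the Hecke polynomials in the variables outside `S ⊇ primes(M)` fill the Hecke algebra away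
from `S` -/
theorem s59mindf_evalS_surj (S : Set ℕ) (hMS : ∀ q : ℕ, q.Prime → q ∣ M → q ∈ S)
    (x : CuspForm.heckeAlgebra M 2 S) :
    ∃ t ∈ MvPolynomial.supported ℤ (outsideVars S), evalS M S t = x := by
  obtain ⟨x, hx⟩ := x
  have key : ∃ t ∈ MvPolynomial.supported ℤ (outsideVars S),
      ((evalS M S t : CuspForm.heckeAlgebra M 2 S) :
        Module.End ℂ (CuspForm (Gamma0 M) 2)) = x := by
    unfold CuspForm.heckeAlgebra at hx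
    induction hx using Algebra.adjoin_induction with
    | mem y hy =>
      rcases hy with ⟨ℓ, hℓ, hℓM, hℓS, rfl⟩ | ⟨r, hrM, hr, hrS, rfl⟩
      · refine ⟨heckeGen ⟨ℓ, hℓ⟩, (MvPolynomial.X_mem_supported (R := ℤ)).mpr hℓS, ?_⟩
        rw [evalS_heckeGen hℓ hℓM hℓS]
        rfl
      · exact absurd (hMS r hr hrM) hrS
    | algebraMap r =>
      refine ⟨algebraMap ℤ HeckeAlg r, Subalgebra.algebraMap_mem _ r, ?_⟩
      rw [AlgHom.commutes]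
      rfl
    | add y z _ _ hy hz =>
      obtain ⟨t, ht, hty⟩ := hy
      obtain ⟨u, hu, huz⟩ := hz
      refine ⟨t + u, Subalgebra.add_mem _ ht hu, ?_⟩
      rw [map_add, ← hty, ← huz]
      rfl
    | mul y z _ _ hy hz =>
      obtain ⟨t, ht, hty⟩ := hy
      obtain ⟨u, hu, huz⟩ := hz
      refine ⟨t * u, Subalgebra.mul_mem _ ht hu, ?_⟩
      rw [map_mul, ← hty, ← huz]
      rfl
  obtain ⟨t, ht, htx⟩ := key
  exact ⟨t, ht, Subtype.ext htx⟩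

/-- two ring homomorphisms of `HeckeAlg` which agree at the variables outside `S` agree on the
Hecke polynomials outside `S` -/
theorem s59mindf_hom_congr (S : Set ℕ) {A : Type} [CommRing A] (f g : HeckeAlg →+* A)
    (h : ∀ ℓ : Nat.Primes, (ℓ : ℕ) ∉ S → f (MvPolynomial.X ℓ) = g (MvPolynomial.X ℓ))
    {t : HeckeAlg} (ht : t ∈ MvPolynomial.supported ℤ (outsideVars S)) : f t = g t := by
  apply MvPolynomial.hom_congr_vars
  · exact RingHom.ext_int _ _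
  · intro i hi _
    exact h i ((MvPolynomial.mem_supported.mp ht) (Finset.mem_coe.mpr hi))
  · rfl

/-- two ring homomorphisms of the Hecke algebra away from `S ⊇ primes(M)` which agree at the
`T_ℓ` are equal -/
theorem s59mindf_hom_ext (S : Set ℕ) (hMS : ∀ q : ℕ, q.Prime → q ∣ M → q ∈ S)
    {A : Type} [CommRing A] (f g : CuspForm.heckeAlgebra M 2 S →+* A)
    (h : ∀ (ℓ : ℕ) (hℓ : ℓ.Prime) (hℓN : ¬ ℓ ∣ M) (hℓS : ℓ ∉ S),
      f (CuspForm.heckeAlgebra.T hℓ hℓN hℓS) = g (CuspForm.heckeAlgebra.T hℓ hℓN hℓS)) :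
    f = g := by
  ext x
  obtain ⟨t, ht, rfl⟩ := s59mindf_evalS_surj S hMS x
  refine s59mindf_hom_congr S (f.comp (evalS M S).toRingHom) (g.comp (evalS M S).toRingHom)
    (fun ℓ hℓS => ?_) ht
  have hℓN : ¬ (ℓ : ℕ) ∣ M := fun hd => hℓS (hMS ℓ ℓ.2 hd)
  have e1 : evalS M S (MvPolynomial.X ℓ) = CuspForm.heckeAlgebra.T ℓ.2 hℓN hℓS :=
    evalS_heckeGen ℓ.2 hℓN hℓS
  show f (evalS M S (MvPolynomial.X ℓ)) = g (evalS M S (MvPolynomial.X ℓ))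
  rw [e1]
  exact h ℓ ℓ.2 hℓN hℓS

/-- **DICT-τ-FEED, `χ₀`**: the character of the Hecke algebra away from `S` with the values
`a ℓ` at the `T_ℓ`, from `hocc`. -/
theorem s59mindf_chi (S : Set ℕ) (hMS : ∀ q : ℕ, q.Prime → q ∣ M → q ∈ S)
    {A : Type} [CommRing A] (a : Nat.Primes → A)
    (hocc : ∀ t ∈ MvPolynomial.supported ℤ (outsideVars S),
      CuspForm.heckeEvalForms M 2 t = 0 → MvPolynomial.aeval a t = 0) :
    ∃ χ₀ : CuspForm.heckeAlgebra M 2 S →+* A,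
      (∀ t ∈ MvPolynomial.supported ℤ (outsideVars S),
        χ₀ (evalS M S t) = MvPolynomial.aeval a t) ∧
      ∀ (ℓ : ℕ) (hℓ : ℓ.Prime) (hℓN : ¬ ℓ ∣ M) (hℓS : ℓ ∉ S),
        χ₀ (CuspForm.heckeAlgebra.T hℓ hℓN hℓS) = a ⟨ℓ, hℓ⟩ := by
  set R₀ : Subalgebra ℤ HeckeAlg := MvPolynomial.supported ℤ (outsideVars S) with hR₀
  set e : R₀ →+* CuspForm.heckeAlgebra M 2 S :=
    (evalS M S).toRingHom.comp R₀.val.toRingHom with he
  set g₀ : R₀ →+* A := (MvPolynomial.aeval a : HeckeAlg →ₐ[ℤ] A).toRingHom.comp R₀.val.toRingHom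
    with hg₀
  have hSg : ∀ ℓ ∈ outsideVars S, ¬ ((ℓ : Nat.Primes) : ℕ) ∣ M ∧ ((ℓ : Nat.Primes) : ℕ) ∉ S :=
    fun ℓ hℓ => ⟨fun h => hℓ (hMS ℓ ℓ.2 h), hℓ⟩
  have hsurj : Function.Surjective e := by
    intro x
    obtain ⟨t, ht, htx⟩ := s59mindf_evalS_surj S hMS x
    exact ⟨⟨t, ht⟩, htx⟩
  have hk : RingHom.ker e ≤ RingHom.ker g₀ := by
    intro t ht
    rw [RingHom.mem_ker] at ht ⊢
    have ht' : evalS M S t.1 = 0 := ht
    have h1 := coe_evalS_eq (N := M) (S := S) hSg t.2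
    rw [ht', ZeroMemClass.coe_zero] at h1
    have h2 : CuspForm.heckeEvalForms M 2 t.1 = 0 := (ZeroMemClass.coe_eq_zero).1 h1.symm
    exact hocc t.1 t.2 h2
  have hχ : ∀ t ∈ MvPolynomial.supported ℤ (outsideVars S),
      e.liftOfSurjective hsurj ⟨g₀, hk⟩ (evalS M S t) = MvPolynomial.aeval a t :=
    fun t ht => RingHom.liftOfSurjective_comp_apply e hsurj ⟨g₀, hk⟩ ⟨t, ht⟩
  refine ⟨e.liftOfSurjective hsurj ⟨g₀, hk⟩, hχ, fun ℓ hℓ hℓN hℓS => ?_⟩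
  have h1 := hχ (heckeGen ⟨ℓ, hℓ⟩) ((MvPolynomial.X_mem_supported (R := ℤ)).mpr hℓS)
  rw [evalS_heckeGen hℓ hℓN hℓS] at h1
  rw [h1]
  exact MvPolynomial.aeval_X a (⟨ℓ, hℓ⟩ : Nat.Primes)

/-- the values `a ℓ` (`ℓ ∉ S`) are values of `χ₀` -/
theorem s59mindf_a_mem_range (S : Set ℕ) (hMS : ∀ q : ℕ, q.Prime → q ∣ M → q ∈ S)
    {A : Type} [CommRing A] (a : Nat.Primes → A) (χ₀ : CuspForm.heckeAlgebra M 2 S →+* A)
    (hχ : ∀ (ℓ : ℕ) (hℓ : ℓ.Prime) (hℓN : ¬ ℓ ∣ M) (hℓS : ℓ ∉ S),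
      χ₀ (CuspForm.heckeAlgebra.T hℓ hℓN hℓS) = a ⟨ℓ, hℓ⟩)
    (ℓ : Nat.Primes) (hℓS : (ℓ : ℕ) ∉ S) : a ℓ ∈ Set.range χ₀ :=
  ⟨CuspForm.heckeAlgebra.T ℓ.2 (fun hd => hℓS (hMS ℓ ℓ.2 hd)) hℓS,
    hχ ℓ ℓ.2 (fun hd => hℓS (hMS ℓ ℓ.2 hd)) hℓS⟩

/-- **DICT-τ-FEED, `hgen0`** from the generation of the base ring by values `a ℓ`, `ℓ ∉ S` -/
theorem s59mindf_hgen0 (S : Set ℕ) (hMS : ∀ q : ℕ, q.Prime → q ∣ M → q ∈ S)
    {𝒪 : Type} [CommRing 𝒪] {A : Type} [CommRing A] [Algebra 𝒪 A] (a : Nat.Primes → A)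
    (χ₀ : CuspForm.heckeAlgebra M 2 S →+* A)
    (hχ : ∀ (ℓ : ℕ) (hℓ : ℓ.Prime) (hℓN : ¬ ℓ ∣ M) (hℓS : ℓ ∉ S),
      χ₀ (CuspForm.heckeAlgebra.T hℓ hℓN hℓS) = a ⟨ℓ, hℓ⟩)
    (G : Set A) (hG : ∀ y ∈ G, ∃ ℓ : Nat.Primes, (ℓ : ℕ) ∉ S ∧ a ℓ = y)
    (hgen : Algebra.adjoin 𝒪 G = ⊤) : Algebra.adjoin 𝒪 (Set.range χ₀) = ⊤ := by
  refine top_unique ?_
  rw [← hgen]
  refine Algebra.adjoin_mono (fun y hy => ?_)
  obtain ⟨ℓ, hℓS, rfl⟩ := hG y hy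
  exact s59mindf_a_mem_range S hMS a χ₀ hχ ℓ hℓS

/-- the values of `χ₀` are integral polynomials in the `a ℓ`, `ℓ ∉ S` -/
theorem s59mindf_range_le (S : Set ℕ) (hMS : ∀ q : ℕ, q.Prime → q ∣ M → q ∈ S)
    {A : Type} [CommRing A] (a : Nat.Primes → A) (χ₀ : CuspForm.heckeAlgebra M 2 S →+* A)
    (hχ : ∀ (ℓ : ℕ) (hℓ : ℓ.Prime) (hℓN : ¬ ℓ ∣ M) (hℓS : ℓ ∉ S),
      χ₀ (CuspForm.heckeAlgebra.T hℓ hℓN hℓS) = a ⟨ℓ, hℓ⟩)
    (x : CuspForm.heckeAlgebra M 2 S) :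
    ∃ t ∈ MvPolynomial.supported ℤ (outsideVars S), χ₀ x = MvPolynomial.aeval a t := by
  obtain ⟨t, ht, rfl⟩ := s59mindf_evalS_surj S hMS x
  refine ⟨t, ht, ?_⟩
  refine s59mindf_hom_congr S (χ₀.comp (evalS M S).toRingHom)
    ((MvPolynomial.aeval a : HeckeAlg →ₐ[ℤ] A).toRingHom) (fun ℓ hℓS => ?_) ht
  have hℓN : ¬ (ℓ : ℕ) ∣ M := fun hd => hℓS (hMS ℓ ℓ.2 hd)
  have e1 : evalS M S (MvPolynomial.X ℓ) = CuspForm.heckeAlgebra.T ℓ.2 hℓN hℓS :=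
    evalS_heckeGen ℓ.2 hℓN hℓS
  show χ₀ (evalS M S (MvPolynomial.X ℓ)) = MvPolynomial.aeval a (MvPolynomial.X ℓ)
  rw [e1, hχ ℓ ℓ.2 hℓN hℓS, MvPolynomial.aeval_X]
  rfl

end Chi

section Res

variable {𝒪 : Type} [CommRing 𝒪] [IsLocalRing 𝒪]
  {T0 : Type} [CommRing T0] [IsLocalRing T0] [Algebra 𝒪 T0]

/-- a point of a local `𝒪`-algebra maps the maximal ideal in the maximal ideal -/
theorem s59mindf_point_maximal (x : T0 →ₐ[𝒪] 𝒪) {y : T0} (hy : y ∈ maximalIdeal T0) :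
    x y ∈ maximalIdeal 𝒪 := by
  by_contra hxy
  have hu : IsUnit (x y) := by
    by_contra hnu
    exact hxy ((IsLocalRing.mem_maximalIdeal _).mpr hnu)
  have hz : IsUnit (algebraMap 𝒪 T0 (x y)) := hu.map (algebraMap 𝒪 T0)
  have hker : y - algebraMap 𝒪 T0 (x y) ∈ RingHom.ker (x : T0 →+* 𝒪) := by
    rw [RingHom.mem_ker]
    show x (y - algebraMap 𝒪 T0 (x y)) = 0
    rw [map_sub, AlgHom.commutes, Algebra.algebraMap_self, RingHom.id_apply, sub_self]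
  have hne : RingHom.ker (x : T0 →+* 𝒪) ≠ ⊤ := RingHom.ker_ne_top _
  have hle := IsLocalRing.le_maximalIdeal hne
  have h1 : y - algebraMap 𝒪 T0 (x y) ∈ maximalIdeal T0 := hle hker
  have h2 : algebraMap 𝒪 T0 (x y) ∈ maximalIdeal T0 := by
    have := (maximalIdeal T0).sub_mem hy h1
    rwa [sub_sub_cancel] at this
  exact ((IsLocalRing.mem_maximalIdeal _).mp h2) hz

variable {M : ℕ} [NeZero M]

/-- **DICT-τ-FEED, `hres`**: the residual eigensystem of every point of `T0` is `θ`. -/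
theorem s59mindf_hres (S : Set ℕ) (hMS : ∀ q : ℕ, q.Prime → q ∣ M → q ∈ S)
    (θ : CuspForm.heckeAlgebra M 2 S →+* ResidueField 𝒪)
    (χ₀ : CuspForm.heckeAlgebra M 2 S →+* T0) (c : Nat.Primes → 𝒪)
    (hχ : ∀ (ℓ : ℕ) (hℓ : ℓ.Prime) (hℓN : ¬ ℓ ∣ M) (hℓS : ℓ ∉ S),
      χ₀ (CuspForm.heckeAlgebra.T hℓ hℓN hℓS) - algebraMap 𝒪 T0 (c ⟨ℓ, hℓ⟩) ∈ maximalIdeal T0)
    (hθ : ∀ (ℓ : ℕ) (hℓ : ℓ.Prime) (hℓN : ¬ ℓ ∣ M) (hℓS : ℓ ∉ S),
      θ (CuspForm.heckeAlgebra.T hℓ hℓN hℓS) = residue 𝒪 (c ⟨ℓ, hℓ⟩))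
    (x : T0 →ₐ[𝒪] 𝒪) (t : CuspForm.heckeAlgebra M 2 S) :
    residue 𝒪 (x (χ₀ t)) = θ t := by
  have key : ((residue 𝒪).comp ((x : T0 →+* 𝒪).comp χ₀)) = θ := by
    refine s59mindf_hom_ext S hMS _ _ (fun ℓ hℓ hℓN hℓS => ?_)
    rw [hθ ℓ hℓ hℓN hℓS]
    show residue 𝒪 (x (χ₀ (CuspForm.heckeAlgebra.T hℓ hℓN hℓS))) = residue 𝒪 (c ⟨ℓ, hℓ⟩)
    have h1 := s59mindf_point_maximal x (hχ ℓ hℓ hℓN hℓS)
    rw [map_sub, AlgHom.commutes, Algebra.algebraMap_self, RingHom.id_apply] at h1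
    rw [← sub_eq_zero, ← map_sub]
    exact (IsLocalRing.residue_eq_zero_iff _).mpr h1
  exact congrArg (fun f : CuspForm.heckeAlgebra M 2 S →+* ResidueField 𝒪 => f t) key

end Res

end Fermat.Agent.S59

end
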