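/-
S59, wall R1 (MIN′), leaf **DICT-τ-FEED, eigenvectors** (helper34): the passage from the
generators `T_ℓ` (`ℓ ∉ S`) to the whole Hecke algebra away from `S ⊇ primes(M)`, for the inputs
`hx₀`, `hE` of `s59minfd_stage_dict` (S59/Min/FeedStageDict.lean).

* `s59mindf_closure_T` : the `T_ℓ` (`ℓ ∤ M`, `ℓ ∉ S`) generate `heckeAlgebra M 2 S` as a ring;
* **`s59mindf_eig`** : `χ₀ T_ℓ • x = χ T_ℓ • x` for all `ℓ` gives `χ₀ h • x = χ h • x` for all `h`;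
* `s59mindf_eig_a` : the same from `a ℓ • x = ψ ℓ • x` (`χ₀ T_ℓ = a ℓ`, `χ T_ℓ = ψ ℓ`).
-/
import Fermat.Agent.S59.Min.DictFeed

set_option autoImplicit false
set_option linter.style.haveILetI false
set_option linter.unusedSectionVars false
set_option linter.unusedVariables false
set_option linter.style.longLine false

noncomputable section

namespace Fermat.Agent.S59

open IsLocalRing ModularCurve CongruenceSubgroup Fermat.Agent.S31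

section Eig

variable {M : ℕ} [NeZero M]

/-- **DICT-τ-FEED, eigenvectors**: an eigenvector for the `T_ℓ` is an eigenvector for the Hecke
algebra. -/
theorem s59mindf_eig (S : Set ℕ) (hMS : ∀ q : ℕ, q.Prime → q ∣ M → q ∈ S)
    {𝒪 : Type} [CommRing 𝒪] {T0 : Type} [CommRing T0] [Algebra 𝒪 T0]
    {Mod : Type} [AddCommGroup Mod] [Module 𝒪 Mod] [Module T0 Mod] [IsScalarTower 𝒪 T0 Mod]
    (χ₀ : CuspForm.heckeAlgebra M 2 S →+* T0) (χ : CuspForm.heckeAlgebra M 2 S →+* 𝒪) (x : Mod)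
    (hx : ∀ (ℓ : ℕ) (hℓ : ℓ.Prime) (hℓN : ¬ ℓ ∣ M) (hℓS : ℓ ∉ S),
      χ₀ (CuspForm.heckeAlgebra.T hℓ hℓN hℓS) • x = χ (CuspForm.heckeAlgebra.T hℓ hℓN hℓS) • x)
    (h : CuspForm.heckeAlgebra M 2 S) : χ₀ h • x = χ h • x := by
  -- the annihilator of `x` in `T0`
  let I : Ideal T0 :=
    { carrier := {t | t • x = 0}
      add_mem' := fun {s t} hs ht => by
        show (s + t) • x = 0
        rw [add_smul, hs, ht, add_zero]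
      zero_mem' := zero_smul T0 x
      smul_mem' := fun c {t} ht => by
        show (c • t) • x = 0
        rw [smul_eq_mul, mul_smul, ht, smul_zero] }
  have hI : ∀ t : T0, t ∈ I ↔ t • x = 0 := fun t => Iff.rfl
  have key : (Ideal.Quotient.mk I).comp χ₀ =
      (Ideal.Quotient.mk I).comp ((algebraMap 𝒪 T0).comp χ) := by
    refine s59mindf_hom_ext S hMS _ _ (fun ℓ hℓ hℓN hℓS => ?_)
    show Ideal.Quotient.mk I (χ₀ (CuspForm.heckeAlgebra.T hℓ hℓN hℓS)) =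
      Ideal.Quotient.mk I (algebraMap 𝒪 T0 (χ (CuspForm.heckeAlgebra.T hℓ hℓN hℓS)))
    rw [Ideal.Quotient.eq, hI, sub_smul, algebraMap_smul, hx ℓ hℓ hℓN hℓS, sub_self]
  have h1 : Ideal.Quotient.mk I (χ₀ h) = Ideal.Quotient.mk I (algebraMap 𝒪 T0 (χ h)) :=
    congrArg (fun f : CuspForm.heckeAlgebra M 2 S →+* T0 ⧸ I => f h) key
  rw [Ideal.Quotient.eq, hI, sub_smul, algebraMap_smul, sub_eq_zero] at h1
  exact h1

/-- the same, from the values `a ℓ` and `ψ ℓ` -/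
theorem s59mindf_eig_a (S : Set ℕ) (hMS : ∀ q : ℕ, q.Prime → q ∣ M → q ∈ S)
    {𝒪 : Type} [CommRing 𝒪] {T0 : Type} [CommRing T0] [Algebra 𝒪 T0]
    {Mod : Type} [AddCommGroup Mod] [Module 𝒪 Mod] [Module T0 Mod] [IsScalarTower 𝒪 T0 Mod]
    (a : Nat.Primes → T0) (χ₀ : CuspForm.heckeAlgebra M 2 S →+* T0)
    (hχ : ∀ (ℓ : ℕ) (hℓ : ℓ.Prime) (hℓN : ¬ ℓ ∣ M) (hℓS : ℓ ∉ S),
      χ₀ (CuspForm.heckeAlgebra.T hℓ hℓN hℓS) = a ⟨ℓ, hℓ⟩)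
    (χ : CuspForm.heckeAlgebra M 2 S →+* 𝒪) (ψ : ℕ → 𝒪)
    (hψ : ∀ (ℓ : ℕ) (hℓ : ℓ.Prime) (hℓN : ¬ ℓ ∣ M) (hℓS : ℓ ∉ S),
      χ (CuspForm.heckeAlgebra.T hℓ hℓN hℓS) = ψ ℓ)
    (x : Mod) (hx : ∀ ℓ : Nat.Primes, (ℓ : ℕ) ∉ S → a ℓ • x = ψ ℓ • x)
    (h : CuspForm.heckeAlgebra M 2 S) : χ₀ h • x = χ h • x := by
  refine s59mindf_eig S hMS χ₀ χ x (fun ℓ hℓ hℓN hℓS => ?_) h
  rw [hχ ℓ hℓ hℓN hℓS, hψ ℓ hℓ hℓN hℓS]
  exact hx ⟨ℓ, hℓ⟩ hℓS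

/-- the `T_ℓ` (`ℓ ∤ M`, `ℓ ∉ S`) generate the Hecke algebra away from `S ⊇ primes(M)` as a ring -/
theorem s59mindf_closure_T (S : Set ℕ) (hMS : ∀ q : ℕ, q.Prime → q ∣ M → q ∈ S) :
    Subring.closure {x : CuspForm.heckeAlgebra M 2 S | ∃ (ℓ : ℕ) (hℓ : ℓ.Prime) (hℓN : ¬ ℓ ∣ M)
      (hℓS : ℓ ∉ S), x = CuspForm.heckeAlgebra.T hℓ hℓN hℓS} = ⊤ := by
  set C : Subring (CuspForm.heckeAlgebra M 2 S) :=
    Subring.closure {x : CuspForm.heckeAlgebra M 2 S | ∃ (ℓ : ℕ) (hℓ : ℓ.Prime) (hℓN : ¬ ℓ ∣ M)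
      (hℓS : ℓ ∉ S), x = CuspForm.heckeAlgebra.T hℓ hℓN hℓS} with hC
  refine top_unique (fun x _ => ?_)
  obtain ⟨t, ht, rfl⟩ := s59mindf_evalS_surj S hMS x
  have hsub : MvPolynomial.supported ℤ (outsideVars S) ≤
      (subalgebraOfSubring (C.comap (evalS M S).toRingHom)) := by
    rw [MvPolynomial.supported_eq_adjoin_X]
    refine Algebra.adjoin_le ?_
    rintro _ ⟨ℓ, hℓS, rfl⟩
    have hℓN : ¬ (ℓ : ℕ) ∣ M := fun hd => hℓS (hMS ℓ ℓ.2 hd)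
    show evalS M S (MvPolynomial.X ℓ) ∈ C
    have e1 : evalS M S (MvPolynomial.X ℓ) = CuspForm.heckeAlgebra.T ℓ.2 hℓN hℓS :=
      evalS_heckeGen ℓ.2 hℓN hℓS
    rw [e1]
    exact Subring.subset_closure ⟨ℓ, ℓ.2, hℓN, hℓS, rfl⟩
  exact hsub ht

end Eig

end Fermat.Agent.S59

end
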