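/-
S59, wall R1 (MIN′), leaf **DICT-τ** (helper67; deputy helper7's dictionary note): the comparison
map from the Hecke ring `T` of a stage (prelude `CuspForm.HeckeGaloisRepDatum N S 𝒪 θ T`) to the base
Hecke ring `T0` of the K-machine.

`χ₀ : heckeAlgebra N 2 S →+* T0` (`T_ℓ ↦ a ℓ`), residually `θ` at every `𝒪`-point of `T0`, and the
`𝒪`-points of `T0` separate `T0` (`T0 ⊗ K` reduced, `𝒪` big).  Then:

* `s59mindt_exists` : there is `τ : T →ₐ[𝒪] T0` with `τ (π t) = χ₀ t`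
  (an `𝒪`-polynomial in the `π t` which dies in `T` dies at every point of `T0`: by
  `exists_point` every point of `T0` is a point of `T`);
* `s59mindt_surjective` : `τ` is surjective if `T0` is generated by `χ₀`;
* `s59mindt_isLocalHom`  : a surjection onto a local ring is local;
* `s59mindt_isEquiv`, `s59mindt_trace` : `ρ_T ⊗_τ T0 ≅ ρ0` and `τ (tr ρ_T σ) = tr ρ0 σ`, if `ρ0` is
  residually absolutely irreducible with the Frobenius characteristic polynomials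
  `X² − χ₀(T_ℓ) X + ℓ` outside a finite set;
* `s59mindt_main` : all together.
-/
import Fermat.Agent.S59.Car.Rep
import Fermat.Agent.S59.FinERes
import Fermat.Prelude.Def_CuspForm_HeckeGaloisRepDatum

set_option autoImplicit false
set_option linter.style.haveILetI false
set_option linter.unusedSectionVars false
set_option linter.unusedVariables false
set_option linter.style.longLine false

noncomputable section

namespace Fermat.Agent.S59

open IsLocalRing Polynomial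

section Tau

variable {𝒪 : Type} [CommRing 𝒪] [IsDomain 𝒪] [IsDiscreteValuationRing 𝒪]
  [IsAdicComplete (maximalIdeal 𝒪) 𝒪]
variable {N : ℕ} [NeZero N] {S : Set ℕ} {θ : CuspForm.heckeAlgebra N 2 S →+* ResidueField 𝒪}
variable {T : Type} [CommRing T] [IsLocalRing T] [IsNoetherianRing T]
  [IsAdicComplete (maximalIdeal T) T] [Algebra 𝒪 T] [IsLocalHom (algebraMap 𝒪 T)]
  [Module.Finite 𝒪 T] [Module.Free 𝒪 T]

/-- **DICT-τ, existence**: `τ : T →ₐ[𝒪] T0` with `τ ∘ π = χ₀`. -/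
theorem s59mindt_exists (H : CuspForm.HeckeGaloisRepDatum N S 𝒪 θ T)
    {T0 : Type} [CommRing T0] [Algebra 𝒪 T0]
    (χ₀ : CuspForm.heckeAlgebra N 2 S →+* T0)
    (hres : ∀ (x : T0 →ₐ[𝒪] 𝒪) (t : CuspForm.heckeAlgebra N 2 S),
      residue 𝒪 (x (χ₀ t)) = θ t)
    (hsep0 : ∀ y : T0, (∀ x : T0 →ₐ[𝒪] 𝒪, x y = 0) → y = 0) :
    ∃ τ : T →ₐ[𝒪] T0, ∀ t, τ (H.π t) = χ₀ t := by
  classical
  let PT : MvPolynomial (CuspForm.heckeAlgebra N 2 S) 𝒪 →ₐ[𝒪] T :=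
    MvPolynomial.aeval (fun t => H.π t)
  let X₀ : MvPolynomial (CuspForm.heckeAlgebra N 2 S) 𝒪 →ₐ[𝒪] T0 :=
    MvPolynomial.aeval (fun t => χ₀ t)
  have hPX : ∀ t, PT (MvPolynomial.X t) = H.π t := fun t => MvPolynomial.aeval_X _ t
  have hX₀X : ∀ t, X₀ (MvPolynomial.X t) = χ₀ t := fun t => MvPolynomial.aeval_X _ t
  have hPs : Function.Surjective PT := by
    have h1 : PT.range = ⊤ := by
      rw [← H.adjoin_range_π]
      exact (Algebra.adjoin_range_eq_range_aeval 𝒪 (fun t => H.π t)).symm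
    intro y
    have h2 : y ∈ PT.range := by rw [h1]; exact Algebra.mem_top
    exact h2
  have hker : ∀ z, PT z = 0 → X₀ z = 0 := by
    intro z hz
    apply hsep0
    intro x
    obtain ⟨ψ', hψ'⟩ := H.exists_point ((x : T0 →+* 𝒪).comp χ₀) (fun t => hres x t)
    have hcomp : x.comp X₀ = ψ'.comp PT := by
      apply MvPolynomial.algHom_ext
      intro t
      rw [AlgHom.comp_apply, AlgHom.comp_apply, hPX, hX₀X, hψ' t]
      rfl
    have h3 := DFunLike.congr_fun hcomp z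
    rw [AlgHom.comp_apply, AlgHom.comp_apply] at h3
    rw [h3, hz, map_zero]
  have hwd : ∀ z z', PT z = PT z' → X₀ z = X₀ z' := by
    intro z z' h
    have h1 : PT (z - z') = 0 := by rw [map_sub, h, sub_self]
    have h2 := hker _ h1
    rw [map_sub, sub_eq_zero] at h2
    exact h2
  let τ₀ : T → T0 := fun y => X₀ (Function.surjInv hPs y)
  have hτ₀ : ∀ z, τ₀ (PT z) = X₀ z := fun z => hwd _ _ (Function.surjInv_eq hPs (PT z))
  let τ : T →ₐ[𝒪] T0 :=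
    { toFun := τ₀
      map_one' := by
        have h := hτ₀ 1
        rw [map_one, map_one] at h
        exact h
      map_mul' := by
        intro y y'
        obtain ⟨z, rfl⟩ := hPs y
        obtain ⟨z', rfl⟩ := hPs y'
        rw [← map_mul, hτ₀, hτ₀, hτ₀, map_mul]
      map_zero' := by
        have h := hτ₀ 0
        rw [map_zero, map_zero] at h
        exact h
      map_add' := by
        intro y y'
        obtain ⟨z, rfl⟩ := hPs y
        obtain ⟨z', rfl⟩ := hPs y'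
        rw [← map_add, hτ₀, hτ₀, hτ₀, map_add]
      commutes' := by
        intro c
        have h := hτ₀ (algebraMap 𝒪 _ c)
        rw [AlgHom.commutes, AlgHom.commutes] at h
        exact h }
  refine ⟨τ, fun t => ?_⟩
  show τ₀ (H.π t) = χ₀ t
  rw [← hPX, hτ₀, hX₀X]

/-- `τ` is surjective if `T0` is generated by `χ₀` -/
theorem s59mindt_surjective (H : CuspForm.HeckeGaloisRepDatum N S 𝒪 θ T)
    {T0 : Type} [CommRing T0] [Algebra 𝒪 T0]
    (χ₀ : CuspForm.heckeAlgebra N 2 S →+* T0)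
    (hgen0 : Algebra.adjoin 𝒪 (Set.range χ₀) = ⊤)
    (τ : T →ₐ[𝒪] T0) (hτ : ∀ t, τ (H.π t) = χ₀ t) : Function.Surjective τ := by
  have h1 : Algebra.adjoin 𝒪 (Set.range χ₀) ≤ τ.range := by
    apply Algebra.adjoin_le
    rintro _ ⟨t, rfl⟩
    exact ⟨H.π t, hτ t⟩
  rw [hgen0] at h1
  intro y
  exact h1 Algebra.mem_top

/-- a surjective ring homomorphism of local rings is local -/
theorem s59mindt_isLocalHom {T0 : Type} [CommRing T0] [IsLocalRing T0] (τ : T →+* T0)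
    (hτ : Function.Surjective τ) : IsLocalHom τ :=
  Function.Surjective.isLocalHom τ hτ

/-- **DICT-τ, the representations**: `ρ_T ⊗_τ T0 ≅ ρ0`. -/
theorem s59mindt_isEquiv (H : CuspForm.HeckeGaloisRepDatum N S 𝒪 θ T)
    {T0 : Type} [CommRing T0] [IsLocalRing T0] [IsNoetherianRing T0] [Algebra 𝒪 T0]
    (χ₀ : CuspForm.heckeAlgebra N 2 S →+* T0)
    (τ : T →ₐ[𝒪] T0) (hτ : ∀ t, τ (H.π t) = χ₀ t) (hτl : IsLocalHom (τ : T →+* T0))
    (ρ0 : GaloisRepAdic T0) (habs0 : ρ0.residual.IsAbsolutelyIrreducible) (Sf : Finset ℕ)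
    (hfrob0 : ∀ (ℓ : ℕ) (hℓ : ℓ.Prime), ℓ ∉ Sf → ∃ (hℓN : ¬ ℓ ∣ N) (hℓS : ℓ ∉ S),
      ∀ A : ValuationSubring (AlgebraicClosure ℚ), A.LiesOverPrime ℓ →
      ∀ σ : AlgebraicClosure ℚ ≃ₐ[ℚ] AlgebraicClosure ℚ, A.IsFrobeniusAt σ ℓ →
        LinearMap.charpoly (ρ0.ρ σ) =
          X ^ 2 - C (χ₀ (CuspForm.heckeAlgebra.T hℓ hℓN hℓS)) * X + C ((ℓ : T0))) :
    (H.ρ.baseChangeAlong (τ : T →+* T0) hτl).IsEquiv ρ0 := by
  refine s59car_isEquiv_of_frob _ _ habs0 Sf ?_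
  intro ℓ hℓ hℓS P hP φ hφ
  obtain ⟨hℓN, hℓS', h0⟩ := hfrob0 ℓ hℓ hℓS
  rw [h0 P hP φ hφ]
  letI : Algebra T T0 := (τ : T →+* T0).toAlgebra
  have h1 : LinearMap.charpoly ((H.ρ.baseChangeAlong (τ : T →+* T0) hτl).ρ φ) =
      (LinearMap.charpoly (H.ρ.ρ φ)).map (algebraMap T T0) :=
    LinearMap.charpoly_baseChange (H.ρ.ρ φ) T0
  rw [h1, H.charpoly_frob ℓ hℓ hℓN hℓS' P hP φ hφ]
  have h2 : algebraMap T T0 = (τ : T →+* T0) := rfl
  rw [h2]
  simp only [Polynomial.map_add, Polynomial.map_sub, Polynomial.map_mul, Polynomial.map_pow,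
    Polynomial.map_X, Polynomial.map_C, Polynomial.map_natCast, map_natCast]
  have h3 : (τ : T →+* T0) (H.π (CuspForm.heckeAlgebra.T hℓ hℓN hℓS')) =
      χ₀ (CuspForm.heckeAlgebra.T hℓ hℓN hℓS') := hτ _
  rw [h3]

/-- **DICT-τ, the traces**: `τ (tr ρ_T σ) = tr ρ0 σ`. -/
theorem s59mindt_trace (H : CuspForm.HeckeGaloisRepDatum N S 𝒪 θ T)
    {T0 : Type} [CommRing T0] [IsLocalRing T0] [IsNoetherianRing T0] [Algebra 𝒪 T0]
    (τ : T →ₐ[𝒪] T0) (hτl : IsLocalHom (τ : T →+* T0))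
    (ρ0 : GaloisRepAdic T0)
    (he : (H.ρ.baseChangeAlong (τ : T →+* T0) hτl).IsEquiv ρ0)
    (σ : AlgebraicClosure ℚ ≃ₐ[ℚ] AlgebraicClosure ℚ) :
    τ (LinearMap.trace T H.ρ.V (H.ρ.ρ σ)) = LinearMap.trace T0 ρ0.V (ρ0.ρ σ) := by
  rw [← s59fe_isEquiv_trace he σ]
  exact (s59fe_trace_baseChangeAlong (τ : T →+* T0) hτl H.ρ σ).symm

/-- **DICT-τ**: the comparison map `τ : T ↠ T0`, with `τ ∘ π = χ₀`, `ρ_T ⊗_τ T0 ≅ ρ0` and
`τ (tr ρ_T σ) = tr ρ0 σ`. -/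
theorem s59mindt_main (H : CuspForm.HeckeGaloisRepDatum N S 𝒪 θ T)
    {T0 : Type} [CommRing T0] [IsLocalRing T0] [IsNoetherianRing T0] [Algebra 𝒪 T0]
    (χ₀ : CuspForm.heckeAlgebra N 2 S →+* T0)
    (hres : ∀ (x : T0 →ₐ[𝒪] 𝒪) (t : CuspForm.heckeAlgebra N 2 S),
      residue 𝒪 (x (χ₀ t)) = θ t)
    (hsep0 : ∀ y : T0, (∀ x : T0 →ₐ[𝒪] 𝒪, x y = 0) → y = 0)
    (hgen0 : Algebra.adjoin 𝒪 (Set.range χ₀) = ⊤)
    (ρ0 : GaloisRepAdic T0) (habs0 : ρ0.residual.IsAbsolutelyIrreducible) (Sf : Finset ℕ)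
    (hfrob0 : ∀ (ℓ : ℕ) (hℓ : ℓ.Prime), ℓ ∉ Sf → ∃ (hℓN : ¬ ℓ ∣ N) (hℓS : ℓ ∉ S),
      ∀ A : ValuationSubring (AlgebraicClosure ℚ), A.LiesOverPrime ℓ →
      ∀ σ : AlgebraicClosure ℚ ≃ₐ[ℚ] AlgebraicClosure ℚ, A.IsFrobeniusAt σ ℓ →
        LinearMap.charpoly (ρ0.ρ σ) =
          X ^ 2 - C (χ₀ (CuspForm.heckeAlgebra.T hℓ hℓN hℓS)) * X + C ((ℓ : T0))) :
    ∃ τ : T →ₐ[𝒪] T0, Function.Surjective τ ∧ (∀ t, τ (H.π t) = χ₀ t) ∧
      ∃ hτl : IsLocalHom (τ : T →+* T0),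
        (H.ρ.baseChangeAlong (τ : T →+* T0) hτl).IsEquiv ρ0 ∧
        ∀ σ : AlgebraicClosure ℚ ≃ₐ[ℚ] AlgebraicClosure ℚ,
          τ (LinearMap.trace T H.ρ.V (H.ρ.ρ σ)) = LinearMap.trace T0 ρ0.V (ρ0.ρ σ) := by
  obtain ⟨τ, hτ⟩ := s59mindt_exists H χ₀ hres hsep0
  have hs := s59mindt_surjective H χ₀ hgen0 τ hτ
  have hl : IsLocalHom (τ : T →+* T0) := s59mindt_isLocalHom (τ : T →+* T0) hs
  have he := s59mindt_isEquiv H χ₀ τ hτ hl ρ0 habs0 Sf hfrob0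
  exact ⟨τ, hs, hτ, hl, he, fun σ => s59mindt_trace H τ hl ρ0 he σ⟩

end Tau

end Fermat.Agent.S59

end
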