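/-
S59, wall R1 (MIN′), leaf **DICT-τ-FEED over `HkBaseOutW`** (helper34): the inputs of DICT-τ
(`s59mindt_main`, S59/Min/DictTau.lean) from a base `B : HkBaseOutW Y d σ₀ τ₀ S' a0` of the
K-machine (S59/LowK/PlanW.lean), and DICT-τ itself over `B`.

* `s59mindf_feed_htf`    : `B.T0` is `𝒪`-torsion-free (from `B.hj0`)   (`htf` of DICT-τ-SEP);
* `s59mindf_feed_noeth`  : `B.T0` is noetherian;
* **`s59mindf_feed_chi`** : `χ₀ : heckeAlgebra M 2 ↑S' →+* B.T0` with `χ₀ T_ℓ = B.a ℓ`;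
* `s59mindf_feed_hfrob0` : `hfrob0` of DICT-τ (with `Sf := S'`) from `B.hfrob`;
* **`s59mindf_feed_hres`** : `hres` of DICT-τ from `B.hcong`, if `θ T_ℓ = a_ℓ(W) mod 𝔪` and the
  primes `ℓ ∤ M`, `ℓ ∉ S'` are good for `W`;
* `s59mindf_feed_hgen0`  : `hgen0` of DICT-τ from the generation of `B.T0` by values `B.a ℓ`;
* **`s59mindf_feed_main`** : DICT-τ over `B`: for a Hecke–Galois datum `H` of level `M` away from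
  `S'` over `T`, the comparison map `τ : T ↠ B.T0` with `τ ∘ π = χ₀`, `ρ_T ⊗_τ T0 ≅ ρ0` and
  `τ (tr ρ_T σ) = tr ρ0 σ`; inputs left: `hsep0` (DICT-τ-SEP) and the generation of `B.T0`.
-/
import Fermat.Agent.S59.Min.DictFeedEig
import Fermat.Agent.S59.Min.DictTau
import Fermat.Agent.S59.LowK.PlanW

set_option autoImplicit false
set_option linter.style.haveILetI false
set_option linter.unusedSectionVars false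
set_option linter.unusedVariables false
set_option linter.style.longLine false

noncomputable section

namespace Fermat.Agent.S59.LowK

open IsLocalRing Polynomial ModularCurve Fermat.Agent.S31 Fermat.Agent.S59 Fermat.Agent.RT
  Fermat.Agent.TW Fermat.Agent.ES

section FeedW

variable {W : WeierstrassCurve ℤ} {p M : ℕ} [NeZero M] {Y : s59lk_KSetupW W p M}
  {d : ℕ} {σ₀ τ₀ : GQ} {S' : Finset ℕ} {a0 : ℕ → Matrix (Fin d) (Fin d) Y.O}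

/-- `S' ⊇ primes(M)`, as a statement on the set `↑S'` -/
theorem s59mindf_feed_hMS (B : HkBaseOutW Y d σ₀ τ₀ S' a0) :
    ∀ q : ℕ, q.Prime → q ∣ M → q ∈ (↑S' : Set ℕ) :=
  fun q hq hqM => Finset.mem_coe.mpr (B.hNS' q hq hqM)

/-- `B.T0` is torsion-free over `𝒪` -/
theorem s59mindf_feed_htf (B : HkBaseOutW Y d σ₀ τ₀ S' a0) (c : Y.O) (y : B.T0)
    (h : c • y = 0) : c = 0 ∨ y = 0 := by
  by_cases hc : c = 0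
  · exact Or.inl hc
  · right
    apply B.hj0
    rw [map_zero]
    have h1 : c • B.j0 y = 0 := by rw [← map_smul, h, map_zero]
    ext i j
    have h2 := congrFun (congrFun h1 i) j
    simp only [Matrix.smul_apply, smul_eq_mul, Matrix.zero_apply] at h2 ⊢
    exact (mul_eq_zero.mp h2).resolve_left hc

/-- `B.T0` is noetherian -/
theorem s59mindf_feed_noeth (B : HkBaseOutW Y d σ₀ τ₀ S' a0) : IsNoetherianRing B.T0 :=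
  IsNoetherianRing.of_finite Y.O B.T0

/-- **DICT-τ-FEED, `χ₀`** over `B`. -/
theorem s59mindf_feed_chi (B : HkBaseOutW Y d σ₀ τ₀ S' a0) :
    ∃ χ₀ : CuspForm.heckeAlgebra M 2 (↑S' : Set ℕ) →+* B.T0,
      (∀ t ∈ MvPolynomial.supported ℤ (outsideVars (↑S' : Set ℕ)),
        χ₀ (evalS M (↑S' : Set ℕ) t) = MvPolynomial.aeval B.a t) ∧
      ∀ (ℓ : ℕ) (hℓ : ℓ.Prime) (hℓN : ¬ ℓ ∣ M) (hℓS : ℓ ∉ (↑S' : Set ℕ)),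
        χ₀ (CuspForm.heckeAlgebra.T hℓ hℓN hℓS) = B.a ⟨ℓ, hℓ⟩ :=
  s59mindf_chi (↑S' : Set ℕ) (s59mindf_feed_hMS B) B.a B.hocc

/-- **DICT-τ-FEED, `hfrob0`** over `B` (with `Sf := S'`). -/
theorem s59mindf_feed_hfrob0 (B : HkBaseOutW Y d σ₀ τ₀ S' a0)
    (χ₀ : CuspForm.heckeAlgebra M 2 (↑S' : Set ℕ) →+* B.T0)
    (hχ : ∀ (ℓ : ℕ) (hℓ : ℓ.Prime) (hℓN : ¬ ℓ ∣ M) (hℓS : ℓ ∉ (↑S' : Set ℕ)),
      χ₀ (CuspForm.heckeAlgebra.T hℓ hℓN hℓS) = B.a ⟨ℓ, hℓ⟩) :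
    ∀ (ℓ : ℕ) (hℓ : ℓ.Prime), ℓ ∉ S' → ∃ (hℓN : ¬ ℓ ∣ M) (hℓS : ℓ ∉ (↑S' : Set ℕ)),
      ∀ A : ValuationSubring (AlgebraicClosure ℚ), A.LiesOverPrime ℓ →
      ∀ σ : AlgebraicClosure ℚ ≃ₐ[ℚ] AlgebraicClosure ℚ, A.IsFrobeniusAt σ ℓ →
        LinearMap.charpoly (B.ρ0.ρ σ) =
          X ^ 2 - C (χ₀ (CuspForm.heckeAlgebra.T hℓ hℓN hℓS)) * X + C ((ℓ : B.T0)) := by
  intro ℓ hℓ hℓS
  refine ⟨fun hd => hℓS (B.hNS' ℓ hℓ hd), fun h => hℓS (Finset.mem_coe.mp h),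
    fun A hA σ hσ => ?_⟩
  rw [hχ]
  exact B.hfrob ⟨ℓ, hℓ⟩ hℓS A hA σ hσ

/-- **DICT-τ-FEED, `hres`** over `B`. -/
theorem s59mindf_feed_hres (B : HkBaseOutW Y d σ₀ τ₀ S' a0)
    (hgood : ∀ ℓ : ℕ, ℓ.Prime → ¬ ℓ ∣ M → ℓ ∉ S' → W.IsGoodPrimeFor ℓ)
    (θ : CuspForm.heckeAlgebra M 2 (↑S' : Set ℕ) →+* ResidueField Y.O)
    (hθ : ∀ (ℓ : ℕ) (hℓ : ℓ.Prime) (hℓN : ¬ ℓ ∣ M) (hℓS : ℓ ∉ (↑S' : Set ℕ)),
      θ (CuspForm.heckeAlgebra.T hℓ hℓN hℓS) = ((W.apOfModel ℓ : ℤ) : ResidueField Y.O))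
    (χ₀ : CuspForm.heckeAlgebra M 2 (↑S' : Set ℕ) →+* B.T0)
    (hχ : ∀ (ℓ : ℕ) (hℓ : ℓ.Prime) (hℓN : ¬ ℓ ∣ M) (hℓS : ℓ ∉ (↑S' : Set ℕ)),
      χ₀ (CuspForm.heckeAlgebra.T hℓ hℓN hℓS) = B.a ⟨ℓ, hℓ⟩)
    (x : B.T0 →ₐ[Y.O] Y.O) (t : CuspForm.heckeAlgebra M 2 (↑S' : Set ℕ)) :
    residue Y.O (x (χ₀ t)) = θ t := by
  refine s59mindf_hres (↑S' : Set ℕ) (s59mindf_feed_hMS B) θ χ₀
    (fun ℓ => ((W.apOfModel (ℓ : ℕ) : ℤ) : Y.O)) (fun ℓ hℓ hℓN hℓS => ?_)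
    (fun ℓ hℓ hℓN hℓS => ?_) x t
  · rw [hχ ℓ hℓ hℓN hℓS, map_intCast]
    have hℓS' : ℓ ∉ S' := fun h => hℓS (Finset.mem_coe.mpr h)
    exact B.hcong ⟨ℓ, hℓ⟩ hℓS' (hgood ℓ hℓ hℓN hℓS')
  · rw [hθ ℓ hℓ hℓN hℓS, map_intCast]

/-- **DICT-τ-FEED, `hgen0`** over `B`, from the generation of `B.T0` by values `B.a ℓ`. -/
theorem s59mindf_feed_hgen0 (B : HkBaseOutW Y d σ₀ τ₀ S' a0)
    (χ₀ : CuspForm.heckeAlgebra M 2 (↑S' : Set ℕ) →+* B.T0)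
    (hχ : ∀ (ℓ : ℕ) (hℓ : ℓ.Prime) (hℓN : ¬ ℓ ∣ M) (hℓS : ℓ ∉ (↑S' : Set ℕ)),
      χ₀ (CuspForm.heckeAlgebra.T hℓ hℓN hℓS) = B.a ⟨ℓ, hℓ⟩)
    (G : Set B.T0) (hG : ∀ y ∈ G, ∃ ℓ : Nat.Primes, (ℓ : ℕ) ∉ S' ∧ B.a ℓ = y)
    (hgen : Algebra.adjoin Y.O G = ⊤) : Algebra.adjoin Y.O (Set.range χ₀) = ⊤ :=
  s59mindf_hgen0 (↑S' : Set ℕ) (s59mindf_feed_hMS B) B.a χ₀ hχ G
    (fun y hy => by
      obtain ⟨ℓ, hℓ, h⟩ := hG y hy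
      exact ⟨ℓ, fun h' => hℓ (Finset.mem_coe.mp h'), h⟩) hgen

/-- **DICT-τ over `B`**: the comparison map `τ : T ↠ B.T0`. -/
theorem s59mindf_feed_main (B : HkBaseOutW Y d σ₀ τ₀ S' a0)
    {θ : CuspForm.heckeAlgebra M 2 (↑S' : Set ℕ) →+* ResidueField Y.O}
    {T : Type} [CommRing T] [IsLocalRing T] [IsNoetherianRing T]
    [IsAdicComplete (maximalIdeal T) T] [Algebra Y.O T] [IsLocalHom (algebraMap Y.O T)]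
    [Module.Finite Y.O T] [Module.Free Y.O T]
    (H : CuspForm.HeckeGaloisRepDatum M (↑S' : Set ℕ) Y.O θ T)
    (hgood : ∀ ℓ : ℕ, ℓ.Prime → ¬ ℓ ∣ M → ℓ ∉ S' → W.IsGoodPrimeFor ℓ)
    (hθ : ∀ (ℓ : ℕ) (hℓ : ℓ.Prime) (hℓN : ¬ ℓ ∣ M) (hℓS : ℓ ∉ (↑S' : Set ℕ)),
      θ (CuspForm.heckeAlgebra.T hℓ hℓN hℓS) = ((W.apOfModel ℓ : ℤ) : ResidueField Y.O))
    (hsep0 : ∀ y : B.T0, (∀ x : B.T0 →ₐ[Y.O] Y.O, x y = 0) → y = 0)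
    (G : Set B.T0) (hG : ∀ y ∈ G, ∃ ℓ : Nat.Primes, (ℓ : ℕ) ∉ S' ∧ B.a ℓ = y)
    (hgen : Algebra.adjoin Y.O G = ⊤) :
    ∃ χ₀ : CuspForm.heckeAlgebra M 2 (↑S' : Set ℕ) →+* B.T0,
      (∀ (ℓ : ℕ) (hℓ : ℓ.Prime) (hℓN : ¬ ℓ ∣ M) (hℓS : ℓ ∉ (↑S' : Set ℕ)),
        χ₀ (CuspForm.heckeAlgebra.T hℓ hℓN hℓS) = B.a ⟨ℓ, hℓ⟩) ∧
      Algebra.adjoin Y.O (Set.range χ₀) = ⊤ ∧
      (∀ (x : B.T0 →ₐ[Y.O] Y.O) (t : CuspForm.heckeAlgebra M 2 (↑S' : Set ℕ)),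
        residue Y.O (x (χ₀ t)) = θ t) ∧
      ∃ τ : T →ₐ[Y.O] B.T0, Function.Surjective τ ∧ (∀ t, τ (H.π t) = χ₀ t) ∧
        ∃ hτl : IsLocalHom (τ : T →+* B.T0),
          (H.ρ.baseChangeAlong (τ : T →+* B.T0) hτl).IsEquiv B.ρ0 ∧
          ∀ σ : AlgebraicClosure ℚ ≃ₐ[ℚ] AlgebraicClosure ℚ,
            τ (LinearMap.trace T H.ρ.V (H.ρ.ρ σ)) = LinearMap.trace B.T0 B.ρ0.V (B.ρ0.ρ σ) := by
  obtain ⟨χ₀, -, hχ⟩ := s59mindf_feed_chi B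
  haveI := s59mindf_feed_noeth B
  have hres := s59mindf_feed_hres B hgood θ hθ χ₀ hχ
  have hgen0 := s59mindf_feed_hgen0 B χ₀ hχ G hG hgen
  exact ⟨χ₀, hχ, hgen0, hres,
    s59mindt_main H χ₀ hres hsep0 hgen0 B.ρ0 B.habs0 S' (s59mindf_feed_hfrob0 B χ₀ hχ)⟩

end FeedW

end Fermat.Agent.S59.LowK

end
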