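/-
S59, wall R1 (MIN′), leaf **DICT-τ-FEED, `hgen0` (EXPORT), part 2** (helper76): the Hecke side at
one setup WITH its base lattice (`S59bidData`, helper9) and WITH the generation of the base Hecke
ring by the `a ℓ`, `ℓ ∉ S'` (`s59abgGen`, S59/LowK/AbsBWGen.lean).

* `s59bgn_final_at` : the twin of the assembly of S59/Min/BaseIdFinal.lean over `StmtHkAbsBWGen p`;
* **`s59bgn_data_five`** : `5 ≤ p`, UNCONDITIONAL: `∃ D : S59bidData Y h 1, s59abgGen D.B`;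
* `s59bgn_hgen_range` : `s59abgGen D.B` in the form `hgen` of `s59bid_dict_asm` (range over the
  primes `ℓ ∤ M p`);
* `s59bgn_dict_asm` : THE DICTIONARY over the cone's base (`s59bid_dict_asm`, helper9) with `hgen`
  discharged;
* `s59bgn_feed_hgen0` : `hgen0` of DICT-τ for `χ₀` with `χ₀ T_ℓ = B.a ℓ`;
* `s59bgn_feed_main` : DICT-τ over `B` (`s59mindf_feed_main`, helper34) with the generation
  discharged (left: `hsep0`, `hθ`, `hgood`).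
-/
import Fermat.Agent.S59.Min.BaseIdFinal
import Fermat.Agent.S59.Min.BaseIdDict
import Fermat.Agent.S59.Min.DictFeedW
import Fermat.Agent.S59.LowK.AbsBWGen

set_option autoImplicit false
set_option linter.unusedSectionVars false
set_option linter.unusedVariables false
set_option linter.style.haveILetI false
set_option linter.style.longLine false

noncomputable section

namespace Fermat.Agent.S59.LowK

open IsLocalRing Polynomial Fermat.Agent.ES Fermat.Agent.S30 Fermat.Agent.W1 Fermat.Agent.TW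
open Fermat.Agent.ES1 Fermat.Agent.RT Fermat.Agent.RT.K1 Fermat.Agent.RT.K5 Fermat.Agent.RT.Prod
open Fermat.Agent.S59.LowQ ExtCitation ModularCurve ModularCurve.Period
open WeierstrassCurve WeierstrassCurve.Affine WeierstrassCurve.Affine.Point
open scoped MatrixGroups

section atY

variable {W : WeierstrassCurve ℤ} {p M : ℕ} [hp : Fact p.Prime] [NeZero M]
  (Y : s59lk_KSetupW W p M) (h : ℕ) (M₀ : ℕ) [NeZero M₀] [Fact (M₀ ∣ M)]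

/-- **The assembly over a given base, with generation** (the proof of the assembly of
S59/Min/BaseIdFinal.lean, helper9, over `StmtHkAbsBWGen p`). -/
theorem s59bgn_final_at (hcheb : Cheb.WeakChebotarev) (hB : StmtHkAbsBWGen p)
    (hRes : StmtHkResW p) (r : ℕ) (hr : 0 < r)
    (c : Fin r → HomS (gammaH M M₀ (⊤ : Subgroup (ZMod M₀)ˣ)) Y.O)
    (ac : ℕ → Matrix (Fin r) (Fin r) Y.O)
    (S₀ : Finset ℕ) (e₀ : HExpr Y.O) (ℓ₀₀ : ℕ) [NeZero ℓ₀₀]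
    (hlat : S59bidLattice Y M₀ r c S₀ e₀ ℓ₀₀)
    (S' : Finset ℕ) (hpS' : p ∈ S') (hNS' : ∀ ℓ : ℕ, ℓ.Prime → ℓ ∣ M → ℓ ∈ S')
    (𝕋₀ : Type) [CommRing 𝕋₀] (J₀ : Type) [AddCommGroup J₀] [Module 𝕋₀ J₀]
    [DistribMulAction GQ J₀] (Tr₀ : ℕ → 𝕋₀)
    (Φ0 : 𝕋₀ →+* Matrix (Fin (2 ^ h * r)) (Fin (2 ^ h * r)) Y.O)
    (hbase : HkBase p Y.ρbar M S' (2 ^ h * r) J₀ Tr₀ Φ0)
    (hS' : ∀ ℓ : ℕ, ℓ.Prime → ¬ ℓ ∣ M * p → ℓ ∉ S')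
    (hmat : ∀ (ℓ : ℕ) [NeZero ℓ], ℓ.Prime → ¬ ℓ ∣ M * p →
      (∀ i', tS M M₀ ℓ ⊤ Y.O (c i') = ∑ i, ac ℓ i i' • c i) ∧
        Φ0 (Tr₀ ℓ) = rthkcbBlock Y.O h r (ac ℓ))
    (hlev : S59bidLevels Y h (2 ^ h * r) (fun ℓ => Φ0 (Tr₀ ℓ))) :
    ∃ D : S59bidData Y h M₀, s59abgGen D.B := by
  have hd : 0 < 2 ^ h * r := Nat.mul_pos (pow_pos two_pos h) hr
  obtain ⟨⟨σ₀, τ₀, hξ⟩, hunip⟩ := hRes W M Y
  obtain ⟨B, hBgen⟩ := hB hcheb W M Y (2 ^ h * r) hd σ₀ τ₀ hξ S' hpS' hNS' 𝕋₀ J₀ Tr₀ Φ0 hbase hS'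
  have key : ∀ (n : ℕ) (qv : Fin h → ℕ),
      IsTWFamily p Y.ρbar (Y.Smin ∪ Finset.univ.image Y.r) n h qv →
      ∃ (A : Type) (_ : CommRing A) (_ : IsLocalRing A) (_ : Algebra Y.O A)
        (ιA : ResidueField Y.O →+* ResidueField A) (ρ : GaloisRepAdic A)
        (b : Module.Basis (Fin 2) A ρ.V) (β βi : ℕ → Matrix (Fin 2) (Fin 2) A)
        (π1 πχ : A →ₐ[Y.O] Matrix (Fin (2 ^ h * r)) (Fin (2 ^ h * r))
          (RttwS Y.O (Y.m h) ⧸ maximalIdeal (RttwS Y.O (Y.m h)) ^ n)),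
        TWGal p Y.ρbar Y.Smin (Finset.univ.image qv) Y.r Y.σ Y.φ Y.tχ Y.lam (Y.m h)
          (2 ^ h * r) B.j0
          (fun i => LinearMap.toMatrix B.b0 B.b0 (B.ρ0.ρ (Y.σ i)))
          (fun i => LinearMap.toMatrix B.b0 B.b0 (B.ρ0.ρ (Y.φ i))) n
          (rttwEvenQ Y.O (Y.m h) h n) ιA ρ b β βi π1 πχ ∧
        S59btrBaseTr (Y.m h) (2 ^ h * r) n B.j0 B.ρ0 ρ π1 ∧
        S59btrTrQin (Y.m h) h (2 ^ h * r) n qv ρ π1 := by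
    intro n qv hqv
    -- the module side with the inertia elements (the proof of `s59btr_modSideAt_of_concTop`)
    have hmodlev : ∃ (L : ℕ) (𝕋 : Type) (_ : CommRing 𝕋) (J : Type) (_ : AddCommGroup J)
        (_ : Module 𝕋 J) (_ : DistribMulAction GQ J) (Tr : ℕ → 𝕋)
        (Φ1 Φχ : 𝕋 →+* Matrix (Fin (2 ^ h * r)) (Fin (2 ^ h * r))
          (RthkSn Y.O (Y.m h) (n + 1))),
        HkLevel p Y.lam Y.ρbar
          (Y.Smin ∪ (Finset.univ.image qv ∪ Finset.univ.image Y.r)) Y.σ Y.tχ (Y.m h) h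
          (2 ^ h * r) (n + 1) (fun ℓ => Φ0 (Tr₀ ℓ)) L J Tr Φ1 Φχ ∧
        HkUnipJ p Y.Smin J ∧
        S59btrTrQinLevel p (Y.m h) h (2 ^ h * r) (n + 1) qv J Φ1 := by
      obtain ⟨L, M', j1, j2, j3, 𝔲, ℓ₀, j4, H', J, j5, j6, j7, Tr, b, ψ1, ψχ, hside, hUJ, hQ⟩ :=
        hlev n qv hqv
      letI := rthkcaAlg Y.O (Y.m h) (n + 1)
      haveI := rthkca_tower Y.O (Y.m h) (n + 1)
      have hconc := rthk_conc_side hside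
      have hW := rthk_conc hconc
      refine ⟨L, _, _, J, _, _, _, _, _, _, rthk_sub hW, hUJ, ?_⟩
      intro j hj
      obtain ⟨g, A, x, u, hA, hg, hx, hact, h1⟩ := hQ j hj
      have hxE : x ∈ rthksE p J := Subring.subset_closure ⟨g, hx⟩
      refine ⟨g, A, ⟨x, hxE⟩, hA, hg,
        fun k => (rthks_approx_iff _ k g ⟨x, hxE⟩).mpr (hx k), ?_⟩
      have hD := rthkcs_act_eq_D hside.stable x u hact
      have huv : ψ1 (QuotientGroup.mk u) * ψ1 (QuotientGroup.mk u)⁻¹ = 1 := by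
        rw [← map_mul, mul_inv_cancel, map_one]
      have e4 : (4 : Matrix (Fin (2 ^ h * r)) (Fin (2 ^ h * r)) (RthkSn Y.O (Y.m h) (n + 1)))
          = algebraMap (RthkSn Y.O (Y.m h) (n + 1))
              (Matrix (Fin (2 ^ h * r)) (Fin (2 ^ h * r)) (RthkSn Y.O (Y.m h) (n + 1))) 4 := by
        rw [map_ofNat]
      have key := rthkc_chi hconc.free _ hconc.act_comm ψ1 x (QuotientGroup.mk u) hD
      show rthkcPhi hconc.free _ hconc.act_comm ψ1 x ^ 2 - 4 = _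
      rw [key, ← map_pow, ← h1, e4, ← map_sub]
      congr 1
      linear_combination 4 * huv
    -- the Galois side (the proof of `s59btr_final_atQ`)
    obtain ⟨L, 𝕋, j1, J, j2, j3, j4, Tr, Φ1, Φχ, hlevel, hUJ, hQin⟩ := hmodlev
    have htrace : ∀ ℓ : ℕ, ℓ.Prime → ℓ ∉ S' →
        ∀ A : ValuationSubring (AlgebraicClosure ℚ), A.LiesOverPrime ℓ →
          ∀ τ : GQ, A.IsFrobeniusAt τ ℓ →
            B.j0 (LinearMap.trace B.T0 B.ρ0.V (B.ρ0.ρ τ)) = Φ0 (Tr₀ ℓ) := by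
      intro ℓ hℓ hℓS A hA τ hτ
      have h1 := B.hfrob ⟨ℓ, hℓ⟩ hℓS A hA τ hτ
      rw [Fermat.Agent.S31.trace_of_charpoly B.ρ0.finrank_eq (B.ρ0.ρ τ) _ _ h1]
      exact B.ha0 ⟨ℓ, hℓ⟩ hℓS
    obtain ⟨A₀, k1, k2, k3, ιA, ρ, b, φ1, φχ, hout, hbt, hex1, -⟩ :=
      s59btr_absLX hcheb p Y.hyp.hp2 Y.O Y.lam Y.half Y.hlam Y.hyp.hp𝒪 (rthk_f_halfW Y) Y.ρbar
        Y.hyp.habs Y.hyp.hdet Y.Smin (Finset.univ.image qv ∪ Finset.univ.image Y.r)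
        (fun r _ hrp hrne => hunip r hrp hrne)
        Y.ι Y.σ Y.φ Y.tχ (Y.m h) h (2 ^ h * r) (n + 1) hd (Nat.succ_pos n) σ₀ τ₀ hξ B.T0 B.j0
        B.ρ0 B.b0 B.u0 B.hdet0 B.hmat B.hu0 S' (fun ℓ => Φ0 (Tr₀ ℓ)) htrace L 𝕋 J Tr Φ1 Φχ
        hlevel hUJ
    have hdown := rthk_d_out (n := n) (Nat.le_succ n) hout
    have hbdown := s59btr_down (n := n) (Nat.le_succ n) hbt
    have hqdown := s59btr_trQin_down (n := n) (Nat.le_succ n)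
      (s59btr_trQin_of_exact hQin hex1)
    exact s59btr_packQ_std p Y.lam Y.ρbar Y.hyp.habs Y.Smin (Finset.univ.image qv) Y.r Y.r_inj
      Y.σ Y.φ Y.tχ h (2 ^ h * r) n qv B.j0 B.ρ0 _ _ ιA ρ b _ _ hdown hbdown hqdown
  exact ⟨{ r := r, hr := hr, c := c, ac := ac, S₀ := S₀, e₀ := e₀, ℓ₀₀ := ℓ₀₀, lat := hlat
           hT := fun ℓ _ hℓ hℓN => (hmat ℓ hℓ hℓN).1
           S' := S', hS' := hS', σ₀ := σ₀, τ₀ := τ₀
           a0 := fun ℓ => Φ0 (Tr₀ ℓ)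
           ha0 := fun ℓ hℓ hℓN => by
             haveI : NeZero ℓ := ⟨hℓ.ne_zero⟩
             exact (hmat ℓ hℓ hℓN).2
           B := B, levelQ := key }, hBgen⟩

end atY

/-- **The Hecke side at one setup WITH its base lattice and WITH the generation of the base Hecke
ring, `p ≥ 5`, UNCONDITIONAL**: at every setup `Y` of a squarefree level `M ≥ 2` prime to `p` at
which `W` is residually modular. -/
theorem s59bgn_data_five {W : WeierstrassCurve ℤ} {p M : ℕ} [hp : Fact p.Prime] [NeZero M]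
    [iM₀N : Fact ((1 : ℕ) ∣ M)]
    (hp5 : 5 ≤ p) (hΔ : W.Δ ≠ 0) (hsq : Squarefree M) (hpM : ¬ p ∣ M) (hM2 : 2 ≤ M)
    (hmod : W.IsResiduallyModularOfLevel p M) (Y : s59lk_KSetupW W p M) (h : ℕ) :
    ∃ D : S59bidData Y h 1, s59abgGen D.B := by
  obtain ⟨r, hr, c, ac, S₀, e₀, ℓ₀₀, iℓ₀₀, hlat, S', hpS', hNS', 𝕋₀, i1, J₀, i2, i3, i4, Tr₀, Φ0,
    hbase, hS', hmat, hlev⟩ := s59bid_top_atUW hp5 K7F.stmtFlatH K6.rtk6c4at_stmtChiJDiv5 hΔ hsq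
      hpM hM2 hmod Y h
  exact s59bgn_final_at Y h 1 Fermat.Agent.Cheb.weakChebotarev_holds (s59abg_main p)
    (stmtHkResW p) r hr c ac S₀ e₀ ℓ₀₀ hlat S' hpS' hNS' 𝕋₀ J₀ Tr₀ Φ0 hbase hS' hmat hlev

section Plug

open Fermat.Agent.S59 Fermat.Agent.S31

variable {W : WeierstrassCurve ℤ} {p M : ℕ} [hp : Fact p.Prime] [NeZero M]
  {Y : s59lk_KSetupW W p M}

/-- a prime outside `S'` does not divide `M p` -/
theorem s59bgn_not_dvd {d : ℕ} {σ₀ τ₀ : GQ} {S' : Finset ℕ}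
    {a0 : ℕ → Matrix (Fin d) (Fin d) Y.O} (B : HkBaseOutW Y d σ₀ τ₀ S' a0)
    (ℓ : Nat.Primes) (hℓ : (ℓ : ℕ) ∉ S') : ¬ (ℓ : ℕ) ∣ M * p := by
  intro hd
  rcases (Nat.Prime.dvd_mul ℓ.2).mp hd with h1 | h1
  · exact hℓ (B.hNS' ℓ ℓ.2 h1)
  · exact hℓ (((Nat.prime_dvd_prime_iff_eq ℓ.2 hp.out).mp h1) ▸ B.hpS')

/-- the generation in the form `hgen` of `s59bid_dict_asm` -/
theorem s59bgn_hgen_range {h : ℕ} {M₀ : ℕ} [NeZero M₀] [Fact (M₀ ∣ M)]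
    (D : S59bidData Y h M₀) (hD : s59abgGen D.B) :
    Algebra.adjoin Y.O
      (Set.range fun ℓ : {ℓ : Nat.Primes // ¬ (ℓ : ℕ) ∣ M * p} => D.B.a ℓ.1) = ⊤ := by
  refine top_unique ?_
  rw [← hD]
  refine Algebra.adjoin_mono ?_
  rintro y ⟨ℓ, hℓ, rfl⟩
  exact ⟨⟨ℓ, s59bgn_not_dvd D.B ℓ hℓ⟩, rfl⟩

/-- **DICT-τ-FEED, `hgen0`** over a generated base. -/
theorem s59bgn_feed_hgen0 {d : ℕ} {σ₀ τ₀ : GQ} {S' : Finset ℕ}
    {a0 : ℕ → Matrix (Fin d) (Fin d) Y.O} (B : HkBaseOutW Y d σ₀ τ₀ S' a0) (hB : s59abgGen B)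
    (χ₀ : CuspForm.heckeAlgebra M 2 (↑S' : Set ℕ) →+* B.T0)
    (hχ : ∀ (ℓ : ℕ) (hℓ : ℓ.Prime) (hℓN : ¬ ℓ ∣ M) (hℓS : ℓ ∉ (↑S' : Set ℕ)),
      χ₀ (CuspForm.heckeAlgebra.T hℓ hℓN hℓS) = B.a ⟨ℓ, hℓ⟩) :
    Algebra.adjoin Y.O (Set.range χ₀) = ⊤ :=
  s59mindf_feed_hgen0 B χ₀ hχ {y : B.T0 | ∃ ℓ : Nat.Primes, (ℓ : ℕ) ∉ S' ∧ y = B.a ℓ}
    (fun y hy => by
      obtain ⟨ℓ, hℓ, e⟩ := hy
      exact ⟨ℓ, hℓ, e.symm⟩) hB

/-- **DICT-τ over a generated base `B`**: the comparison map `τ : T ↠ B.T0`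
(`s59mindf_feed_main`, helper34, with the generation discharged). -/
theorem s59bgn_feed_main {d : ℕ} {σ₀ τ₀ : GQ} {S' : Finset ℕ}
    {a0 : ℕ → Matrix (Fin d) (Fin d) Y.O} (B : HkBaseOutW Y d σ₀ τ₀ S' a0) (hB : s59abgGen B)
    {θ : CuspForm.heckeAlgebra M 2 (↑S' : Set ℕ) →+* ResidueField Y.O}
    {T : Type} [CommRing T] [IsLocalRing T] [IsNoetherianRing T]
    [IsAdicComplete (maximalIdeal T) T] [Algebra Y.O T] [IsLocalHom (algebraMap Y.O T)]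
    [Module.Finite Y.O T] [Module.Free Y.O T]
    (H : CuspForm.HeckeGaloisRepDatum M (↑S' : Set ℕ) Y.O θ T)
    (hgood : ∀ ℓ : ℕ, ℓ.Prime → ¬ ℓ ∣ M → ℓ ∉ S' → W.IsGoodPrimeFor ℓ)
    (hθ : ∀ (ℓ : ℕ) (hℓ : ℓ.Prime) (hℓN : ¬ ℓ ∣ M) (hℓS : ℓ ∉ (↑S' : Set ℕ)),
      θ (CuspForm.heckeAlgebra.T hℓ hℓN hℓS) = ((W.apOfModel ℓ : ℤ) : ResidueField Y.O))
    (hsep0 : ∀ y : B.T0, (∀ x : B.T0 →ₐ[Y.O] Y.O, x y = 0) → y = 0) :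
    ∃ χ₀ : CuspForm.heckeAlgebra M 2 (↑S' : Set ℕ) →+* B.T0,
      (∀ (ℓ : ℕ) (hℓ : ℓ.Prime) (hℓN : ¬ ℓ ∣ M) (hℓS : ℓ ∉ (↑S' : Set ℕ)),
        χ₀ (CuspForm.heckeAlgebra.T hℓ hℓN hℓS) = B.a ⟨ℓ, hℓ⟩) ∧
      Algebra.adjoin Y.O (Set.range χ₀) = ⊤ ∧
      (∀ (x : B.T0 →ₐ[Y.O] Y.O) (t : CuspForm.heckeAlgebra M 2 (↑S' : Set ℕ)),
        residue Y.O (x (χ₀ t)) = θ t) ∧
      ∃ τ : T →ₐ[Y.O] B.T0, Function.Surjective τ ∧ (∀ t, τ (H.π t) = χ₀ t) ∧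
        ∃ hτl : IsLocalHom (τ : T →+* B.T0),
          (H.ρ.baseChangeAlong (τ : T →+* B.T0) hτl).IsEquiv B.ρ0 ∧
          ∀ σ : AlgebraicClosure ℚ ≃ₐ[ℚ] AlgebraicClosure ℚ,
            τ (LinearMap.trace T H.ρ.V (H.ρ.ρ σ)) = LinearMap.trace B.T0 B.ρ0.V (B.ρ0.ρ σ) :=
  s59mindf_feed_main B H hgood hθ hsep0 {y : B.T0 | ∃ ℓ : Nat.Primes, (ℓ : ℕ) ∉ S' ∧ y = B.a ℓ}
    (fun y hy => by
      obtain ⟨ℓ, hℓ, e⟩ := hy
      exact ⟨ℓ, hℓ, e.symm⟩) hB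

/-- **THE DICTIONARY over the cone's base** (`s59bid_dict_asm`, helper9) with `hgen` discharged. -/
theorem s59bgn_dict_asm [iM₀N : Fact ((1 : ℕ) ∣ M)] {h : ℕ} (D : S59bidData Y h 1)
    (hD : s59abgGen D.B) (hsq : Squarefree M) :
    ∃ ι' : S59bidM D.B.j0 →ₗ[Y.O] s59asmL Y.O M,
      (∀ (ℓ : Nat.Primes) (hℓ : ¬ (ℓ : ℕ) ∣ M * p) (x : S59bidM D.B.j0),
        ι' (D.B.a ℓ • x) =
          (haveI : Fact (ℓ : ℕ).Prime := ⟨ℓ.2⟩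
           s59asmT Y.O M (ℓ : ℕ) (s59bid_not_dvd_left hℓ)) (ι' x)) ∧
      (∀ (t : D.B.T0) (x y : S59bidM D.B.j0),
        s59asmB Y.O M (ι' (t • x)) (ι' y) = s59asmB Y.O M (ι' x) (ι' (t • y))) ∧
      ∀ ψ : ℕ → Y.O,
        (∀ φ : HomS (gammaH M 1 (⊤ : Subgroup (ZMod 1)ˣ)) Y.O,
          IsParabolicHom (gammaH M 1 (⊤ : Subgroup (ZMod 1)ˣ)) φ →
          (∀ (ℓ : ℕ) [NeZero ℓ] [Fact ℓ.Prime], ¬ ℓ ∣ M → ℓ ≠ p →
            tS M 1 ℓ ⊤ Y.O φ = ψ ℓ • φ) → ∃ v : Fin D.r → Y.O, φ = ∑ i, v i • D.c i) →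
        ∀ y ∈ s59asmE Y.O M p ψ, ∃ m' : S59bidM D.B.j0,
          (∀ ℓ : Nat.Primes, ¬ (ℓ : ℕ) ∣ M * p → D.B.a ℓ • m' = ψ ℓ • m') ∧ ι' m' = y :=
  s59bid_dict_asm D hsq (s59bgn_hgen_range D hD)

end Plug

end Fermat.Agent.S59.LowK

end
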