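import Fermat.Agent.S59.Min.BaseIdFinal
import Fermat.Agent.S59.Min.BaseId

/-!
# S59 wall R1, R1-BASEID: E-SPAN over the exported base lattice of the cone (helper56)

`S59/Min/BaseId.lean` (`s59minbid_espan_par`) applied (compiled and landed by helper9) to the lattice `D.lat` of the export
`S59bidData` (helper9, `S59/Min/BaseIdFinal.lean`):

* `s59minbpl_hpsi` : the hypothesis `hψ` of E-SPAN (`ψ ℓ ≡ a_ℓ(W)` mod `𝔪` for the primes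
  `ℓ ∉ D.S₀`) from the congruence of `ψ` with `W` at the good primes `r ≠ p`, `r ∤ M`
  (the unfolded `s59asmr_CongW`);
* `s59minbpl_espan` : **E-SPAN over `D`**: every joint eigenvector of the `tS ℓ` (`ℓ ∤ M`,
  `ℓ ≠ p`) with eigenvalues `ψ ℓ` is an `𝒪`-combination of the `D.c i` — literally the hypothesis
  of `s59bid_dict_asm` (third conjunct);
* `s59minbpl_espan_of_cong` : the two together.
-/

set_option autoImplicit false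
set_option linter.unusedSectionVars false
set_option linter.unusedVariables false
set_option linter.style.haveILetI false
set_option linter.style.longLine false

noncomputable section

namespace Fermat.Agent.S59.LowK

open IsLocalRing Fermat.Agent.ES1 Fermat.Agent.RT Fermat.Agent.RT.K5
open Fermat.Agent.S59 ModularCurve ModularCurve.Period
open scoped MatrixGroups

section Plug

variable {W : WeierstrassCurve ℤ} {p M : ℕ} [hp : Fact p.Prime] [NeZero M]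
  {Y : s59lk_KSetupW W p M} {h : ℕ} {M₀ : ℕ} [NeZero M₀] [Fact (M₀ ∣ M)]

/-- the hypothesis `hψ` of E-SPAN from the congruence of `ψ` with `W` -/
theorem s59minbpl_hpsi (D : S59bidData Y h M₀) (ψ : ℕ → Y.O)
    (hψW : ∀ r : ℕ, r.Prime → r ≠ p → ¬ (r : ℤ) ∣ W.Δ → ¬ r ∣ M →
      ψ r - ((W.apOfModel r : ℤ) : Y.O) ∈ maximalIdeal Y.O) :
    ∀ ℓ : ℕ, ℓ.Prime → ℓ ∉ D.S₀ → ψ ℓ - rthkinAW Y ℓ ∈ maximalIdeal Y.O :=
  fun ℓ hℓ hℓS => hψW ℓ hℓ (fun e => hℓS (by rw [e]; exact D.lat.hpS))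
    (D.lat.hgood ℓ hℓ hℓS) (fun hd => hℓS (D.lat.hNS ℓ hℓ hd))

/-- **E-SPAN over the exported lattice** -/
theorem s59minbpl_espan (D : S59bidData Y h M₀) (ψ : ℕ → Y.O)
    (hψ : ∀ ℓ : ℕ, ℓ.Prime → ℓ ∉ D.S₀ → ψ ℓ - rthkinAW Y ℓ ∈ maximalIdeal Y.O)
    (φ : HomS (gammaH M M₀ (⊤ : Subgroup (ZMod M₀)ˣ)) Y.O)
    (hφ : ∀ (ℓ : ℕ) [NeZero ℓ] [Fact ℓ.Prime], ¬ ℓ ∣ M → ℓ ≠ p →
      tS M M₀ ℓ ⊤ Y.O φ = ψ ℓ • φ) :
    ∃ v : Fin D.r → Y.O, φ = ∑ i, v i • D.c i :=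
  haveI := D.instℓ₀₀
  s59minbid_espan_par p (rthkinAW Y) D.S₀ D.lat.hpS D.ℓ₀₀ D.lat.hℓ₀ D.lat.hℓ₀S D.lat.hne
    (fun n => etaPart (thetaN (D.e₀.eval M M₀) D.ℓ₀₀ (Y.O ⧸ maximalIdeal Y.O ^ n) ⊤))
    D.lat.intr D.c D.lat.basis_n D.lat.hNS ψ hψ φ hφ

/-- **E-SPAN over the exported lattice, from the congruence with `W`**: the hypothesis of
`s59bid_dict_asm` for `ψ`. -/
theorem s59minbpl_espan_of_cong (D : S59bidData Y h M₀) (ψ : ℕ → Y.O)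
    (hψW : ∀ r : ℕ, r.Prime → r ≠ p → ¬ (r : ℤ) ∣ W.Δ → ¬ r ∣ M →
      ψ r - ((W.apOfModel r : ℤ) : Y.O) ∈ maximalIdeal Y.O) :
    ∀ φ : HomS (gammaH M M₀ (⊤ : Subgroup (ZMod M₀)ˣ)) Y.O,
      IsParabolicHom (gammaH M M₀ (⊤ : Subgroup (ZMod M₀)ˣ)) φ →
      (∀ (ℓ : ℕ) [NeZero ℓ] [Fact ℓ.Prime], ¬ ℓ ∣ M → ℓ ≠ p →
        tS M M₀ ℓ ⊤ Y.O φ = ψ ℓ • φ) → ∃ v : Fin D.r → Y.O, φ = ∑ i, v i • D.c i :=
  fun φ _ hφ => s59minbpl_espan D ψ (s59minbpl_hpsi D ψ hψW) φ hφ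

end Plug

end Fermat.Agent.S59.LowK
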