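/-
S59, wall R1 (MIN′), R1-BASEID, **DICT-ι in the literal shape of the stage** (helper9).

The dictionary over the cone's base (`s59bid_dict_asm`, `S59/Min/BaseIdDict.lean`) with

* E-SPAN plugged in (`s59minbpl_espan_of_cong`, `S59/Min/BaseIdPlug.lean`, helper56), and
* the passage from the generators `T_ℓ` to the whole Hecke algebra (`s59mindf_eig_a`,
  `S59/Min/DictFeedEig.lean`, helper34):

* `s59bidhe_main` : for the export `D : S59bidData Y h 1` of the cone (`s59bid_data_five`), a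
  system of values `ψ` congruent to `W`, ANY set `S ⊇ primes(M) ∪ {p}`, and ring homomorphisms
  `χ₀ : 𝕋 → T0` (`T_ℓ ↦ a ℓ`), `χ : 𝕋 → 𝒪` (`T_ℓ ↦ ψ ℓ`) of `𝕋 = heckeAlgebra M 2 S`:
  there is `ι' : S59bidM D.B.j0 →ₗ[𝒪] s59asmL 𝒪 M` with
    - the Hecke-equivariance at the `a ℓ`, `ℓ ∤ M p`,
    - `hB` (self-adjointness, ALL `t : T0`),
    - `hE` : every `y ∈ s59asmE 𝒪 M p ψ` is `ι' m'` with `χ₀ t • m' = χ t • m'` for ALL `t : 𝕋`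
  = the inputs `ι'`, `hB`, `hE` of `s59minfd_stage_dict` (with `L := s59asmL 𝒪 M`,
  `B := s59asmB 𝒪 M`, `E' := s59asmE 𝒪 M p ψ`, `χ := (s.πT : s.T →+* 𝒪).comp s.H.π`);
* `s59bidhe_eig` : the eigen-property for ALL `t : 𝕋` from the generators (for `x₀`).
-/
import Fermat.Agent.S59.Min.BaseIdDict
import Fermat.Agent.S59.Min.BaseIdPlug
import Fermat.Agent.S59.Min.DictFeedEig

set_option autoImplicit false
set_option linter.unusedSectionVars false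
set_option linter.unusedVariables false
set_option linter.style.haveILetI false
set_option linter.style.longLine false

noncomputable section

namespace Fermat.Agent.S59.LowK

open IsLocalRing Fermat.Agent.ES Fermat.Agent.S30 Fermat.Agent.W1 Fermat.Agent.TW
open Fermat.Agent.ES1 Fermat.Agent.RT Fermat.Agent.RT.K5 Fermat.Agent.RT.Prod
open Fermat.Agent.S59.LowQ ExtCitation ModularCurve ModularCurve.Period
open Fermat.Agent.S59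
open scoped MatrixGroups

section HE

variable {W : WeierstrassCurve ℤ} {p M : ℕ} [hp : Fact p.Prime] [NeZero M]
  [iM₀N : Fact ((1 : ℕ) ∣ M)] {Y : s59lk_KSetupW W p M} {h : ℕ}

/-- the eigen-property for the whole Hecke algebra away from `S ⊇ primes(M) ∪ {p}`, from the
generators `a ℓ`, `ℓ ∤ M p` -/
theorem s59bidhe_eig (D : S59bidData Y h 1)
    (ψ : ℕ → Y.O) (S : Set ℕ) (hMS : ∀ q : ℕ, q.Prime → q ∣ M → q ∈ S) (hpS : p ∈ S)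
    (χ₀ : CuspForm.heckeAlgebra M 2 S →+* D.B.T0)
    (hχ₀ : ∀ (ℓ : ℕ) (hℓ : ℓ.Prime) (hℓM : ¬ ℓ ∣ M) (hℓS : ℓ ∉ S),
      χ₀ (CuspForm.heckeAlgebra.T hℓ hℓM hℓS) = D.B.a ⟨ℓ, hℓ⟩)
    (χ : CuspForm.heckeAlgebra M 2 S →+* Y.O)
    (hχ : ∀ (ℓ : ℕ) (hℓ : ℓ.Prime) (hℓM : ¬ ℓ ∣ M) (hℓS : ℓ ∉ S),
      χ (CuspForm.heckeAlgebra.T hℓ hℓM hℓS) = ψ ℓ)
    (m' : S59bidM D.B.j0)
    (hm' : ∀ ℓ : Nat.Primes, ¬ (ℓ : ℕ) ∣ M * p → D.B.a ℓ • m' = ψ ℓ • m')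
    (t : CuspForm.heckeAlgebra M 2 S) : χ₀ t • m' = χ t • m' := by
  refine s59mindf_eig_a S hMS D.B.a χ₀ hχ₀ χ ψ hχ m' (fun ℓ hℓS => ?_) t
  refine hm' ℓ (s59bid_not_dvd_mul ℓ.2 (fun hd => hℓS (hMS ℓ ℓ.2 hd)) ?_)
  rintro e
  exact hℓS (e ▸ hpS)

/-- **DICT-ι over the cone's base, in the literal shape of the stage.** -/
theorem s59bidhe_main (D : S59bidData Y h 1) (hsq : Squarefree M)
    (hgen : Algebra.adjoin Y.O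
      (Set.range fun ℓ : {ℓ : Nat.Primes // ¬ (ℓ : ℕ) ∣ M * p} => D.B.a ℓ.1) = ⊤)
    (ψ : ℕ → Y.O)
    (hψW : ∀ r : ℕ, r.Prime → r ≠ p → ¬ (r : ℤ) ∣ W.Δ → ¬ r ∣ M →
      ψ r - ((W.apOfModel r : ℤ) : Y.O) ∈ maximalIdeal Y.O)
    (S : Set ℕ) (hMS : ∀ q : ℕ, q.Prime → q ∣ M → q ∈ S) (hpS : p ∈ S)
    (χ₀ : CuspForm.heckeAlgebra M 2 S →+* D.B.T0)
    (hχ₀ : ∀ (ℓ : ℕ) (hℓ : ℓ.Prime) (hℓM : ¬ ℓ ∣ M) (hℓS : ℓ ∉ S),
      χ₀ (CuspForm.heckeAlgebra.T hℓ hℓM hℓS) = D.B.a ⟨ℓ, hℓ⟩)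
    (χ : CuspForm.heckeAlgebra M 2 S →+* Y.O)
    (hχ : ∀ (ℓ : ℕ) (hℓ : ℓ.Prime) (hℓM : ¬ ℓ ∣ M) (hℓS : ℓ ∉ S),
      χ (CuspForm.heckeAlgebra.T hℓ hℓM hℓS) = ψ ℓ) :
    ∃ ι' : S59bidM D.B.j0 →ₗ[Y.O] s59asmL Y.O M,
      (∀ (ℓ : Nat.Primes) (hℓ : ¬ (ℓ : ℕ) ∣ M * p) (x : S59bidM D.B.j0),
        ι' (D.B.a ℓ • x) =
          (haveI : Fact (ℓ : ℕ).Prime := ⟨ℓ.2⟩
           s59asmT Y.O M (ℓ : ℕ) (s59bid_not_dvd_left hℓ)) (ι' x)) ∧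
      (∀ (t : D.B.T0) (x y : S59bidM D.B.j0),
        s59asmB Y.O M (ι' (t • x)) (ι' y) = s59asmB Y.O M (ι' x) (ι' (t • y))) ∧
      ∀ y ∈ s59asmE Y.O M p ψ, ∃ m' : S59bidM D.B.j0,
        (∀ t : CuspForm.heckeAlgebra M 2 S, χ₀ t • m' = χ t • m') ∧ ι' m' = y := by
  obtain ⟨ι', hT, hB, hE⟩ := s59bid_dict_asm D hsq hgen
  refine ⟨ι', hT, hB, fun y hy => ?_⟩
  obtain ⟨m', hm', rfl⟩ := hE ψ (s59minbpl_espan_of_cong D ψ hψW) y hy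
  exact ⟨m', fun t => s59bidhe_eig D ψ S hMS hpS χ₀ hχ₀ χ hχ m' hm' t, rfl⟩

end HE

end Fermat.Agent.S59.LowK

end
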