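import Fermat.Agent.S59.LowK.ConcK5W

/-!
# S59 wall R1, R1-BASEID (DICT-ι), the EXPORT of the base lattice of the cone, part 1 (helper9):
# the K5 side at the base level with its lattice

The cone (`HeckeDataW`, `S59btrHeckeDataQ`) hides its base module behind existentials.  At the
source (`rthkk5_atW`, helper22, `S59/LowK/ConcK5W.lean`) the base module is `𝒪 ^ (2 ^ h * r)` =
`2 ^ h` copies of the `𝒪`-span of a basis `c : Fin r → HomS (gammaH N M₀ ⊤) 𝒪` of the `Θ`-part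
`etaPart (thetaN (e₀.eval N M₀) ℓ₀₀ 𝒪 ⊤)` of `Hom(Γ₀(N), 𝒪)`, and `a ℓ` is the matrix of
`tS N M₀ ℓ ⊤ 𝒪` in `c`.  This file re-proves `rthkk5_atW` / `rthkk5_at5W` with the lattice in the
conclusion:

* `S59bidLattice Y M₀ r c S₀ e₀ ℓ₀₀` : the facts on the lattice: the bad set `S₀` (`p`, the
  primes of `N`; `W` good outside), the non-Eisenstein prime `ℓ₀₀ ∉ S₀`, the projector `e₀`,
  the intrinsic description `K5inIntr` of the `Θ`-part at every finite level, `c` is a basis of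
  the `Θ`-part over `𝒪` and at every finite level;
* `s59bid_k5_atW`, `s59bid_k5_at5W` : the twins.
-/

set_option autoImplicit false
set_option linter.unusedSectionVars false
set_option linter.style.haveILetI false
set_option linter.unusedVariables false
set_option linter.style.longLine false

noncomputable section

namespace Fermat.Agent.S59.LowK

open Fermat.Agent.RT Fermat.Agent.S59.LowQ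

open IsLocalRing Fermat.Agent.ES Fermat.Agent.ES1 Fermat.Agent.RT.K5 Fermat.Agent.S48
open Fermat.Agent.S30 Fermat.Agent.W1 Fermat.Agent.TW Fermat.Agent.RT.Prod Fermat.Agent.RT.K7F
open ExtCitation CongruenceSubgroup ModularCurve.Period
open scoped MatrixGroups

/-- **The base lattice of the cone**: `c` is a basis of the `Θ`-part of `Hom(Γ₀(N), 𝒪)`,
`Θ = e₀ ∘ (T_ℓ₀₀ − ℓ₀₀ − 1)`, which at every finite level is the part of the `η_{ℓ₀₀}`-part on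
which `T_ℓ − a_ℓ(W)` is nilpotent for all primes `ℓ ∉ S₀`. -/
structure S59bidLattice {W : WeierstrassCurve ℤ} {p N : ℕ} [NeZero N]
    (Y : s59lk_KSetupW W p N) (M₀ : ℕ) [NeZero M₀] [Fact (M₀ ∣ N)] (r : ℕ)
    (c : Fin r → HomS (gammaH N M₀ (⊤ : Subgroup (ZMod M₀)ˣ)) Y.O)
    (S₀ : Finset ℕ) (e₀ : HExpr Y.O) (ℓ₀₀ : ℕ) [NeZero ℓ₀₀] : Prop where
  hpS : p ∈ S₀
  hNS : ∀ ℓ : ℕ, ℓ.Prime → ℓ ∣ N → ℓ ∈ S₀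
  hgood : ∀ ℓ : ℕ, ℓ.Prime → ℓ ∉ S₀ → W.IsGoodPrimeFor ℓ
  hℓ₀ : ℓ₀₀.Prime
  hℓ₀S : ℓ₀₀ ∉ S₀
  hne : residue Y.O (rthkinAW Y ℓ₀₀) ≠ (ℓ₀₀ : ResidueField Y.O) + 1
  he₀ : e₀.IsPrimes
  intr : ∀ n : ℕ, K5inIntr N M₀ (Y.O ⧸ maximalIdeal Y.O ^ n) (rthkinAW Y) S₀ ∅ ℓ₀₀
    (etaPart (thetaN (e₀.eval N M₀) ℓ₀₀ (Y.O ⧸ maximalIdeal Y.O ^ n) ⊤))
  basis : K5IsBasis Y.O (etaPart (thetaN (e₀.eval N M₀) ℓ₀₀ Y.O ⊤)) c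
  basis_n : ∀ n : ℕ, K5IsBasis (Y.O ⧸ maximalIdeal Y.O ^ n)
    (etaPart (thetaN (e₀.eval N M₀) ℓ₀₀ (Y.O ⧸ maximalIdeal Y.O ^ n) ⊤))
    (fun i => mapS (Submodule.mkQ (maximalIdeal Y.O ^ n)).toAddMonoidHom (c i))

section base

variable {W : WeierstrassCurve ℤ} {p N : ℕ} [hp : Fact p.Prime] [NeZero N]

/-- **the K5 side at the base level `(N, M₀, ⊤)` WITH the base lattice** (twin of
`rthkk5_atW`, helper22: the proof has it). -/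
theorem s59bid_k5_atW (hcheb : Cheb.WeakChebotarev) (hflat : StmtFlatH) (hΔ : W.Δ ≠ 0)
    (hN : Squarefree N) (hmod : W.IsResiduallyModularOfLevel p N)
    (Y : s59lk_KSetupW W p N) (h : ℕ)
    (M₀ : ℕ) [iM₀ : NeZero M₀] [iM₀N : Fact (M₀ ∣ N)]
    (hNT : ∀ n : ℕ, NoTors (gammaH N M₀ (⊤ : Subgroup (ZMod M₀)ˣ))
      (Y.O ⧸ maximalIdeal Y.O ^ n))
    (hlev : K7FLevel N M₀ (⊤ : Subgroup (ZMod M₀)ˣ) p) :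
    ∃ (r : ℕ) (_ : 0 < r)
      (c : Fin r → HomS (gammaH N M₀ (⊤ : Subgroup (ZMod M₀)ˣ)) Y.O)
      (a : ℕ → Matrix (Fin r) (Fin r) Y.O)
      (S₀ : Finset ℕ) (e₀ : HExpr Y.O) (ℓ₀₀ : ℕ) (_ : NeZero ℓ₀₀)
      (_ : S59bidLattice Y M₀ r c S₀ e₀ ℓ₀₀)
      (S' : Finset ℕ) (_ : p ∈ S') (_ : ∀ ℓ : ℕ, ℓ.Prime → ℓ ∣ N → ℓ ∈ S')
      (𝕋₀ : Type) (_ : CommRing 𝕋₀) (J₀ : Type) (_ : AddCommGroup J₀) (_ : Module 𝕋₀ J₀)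
      (_ : DistribMulAction GQ J₀) (Tr₀ : ℕ → 𝕋₀)
      (Φ0 : 𝕋₀ →+* Matrix (Fin (2 ^ h * r)) (Fin (2 ^ h * r)) Y.O),
      HkBase p Y.ρbar N S' (2 ^ h * r) J₀ Tr₀ Φ0 ∧
      (∀ ℓ : ℕ, ℓ.Prime → ¬ ℓ ∣ N * p → ℓ ∉ S') ∧
      (∀ (ℓ : ℕ) [NeZero ℓ], ℓ.Prime → ¬ ℓ ∣ N * p →
        (∀ i', tS N M₀ ℓ ⊤ Y.O (c i') = ∑ i, a ℓ i i' • c i) ∧
          Φ0 (Tr₀ ℓ) = rthkcbBlock Y.O h r (a ℓ)) ∧
      ∀ (n : ℕ) (qv : Fin h → ℕ),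
        IsTWFamily p Y.ρbar (Y.Smin ∪ Finset.univ.image Y.r) n h qv →
        ∃ (e : HExpr Y.O) (ℓ₀ : ℕ) (_ : NeZero ℓ₀), e.IsPrimes ∧ ℓ₀.Prime ∧ ¬ ℓ₀ ∣ N ∧
          ℓ₀ ≠ p ∧ (∀ j, qv j ≠ ℓ₀ ∧ e.Avoids (qv j)) ∧
          K5TWCond Y.O N M₀ ℓ₀ e (List.ofFn qv) (RthkdC Y.O (n + 1)) ∧
          K5IsBasis (RthkdC Y.O (n + 1))
            (etaPart (thetaN (e.eval N M₀) ℓ₀ (RthkdC Y.O (n + 1)) ⊤))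
            (fun i => mapS (Submodule.mkQ (maximalIdeal Y.O ^ (n + 1))).toAddMonoidHom
              (c i)) := by
  -- the bad set and the nonzero eigenvector
  obtain ⟨S₀, hpS, hNS, hgood, hnz⟩ := k5nz_setup_intrW Y hΔ hmod
  -- the auxiliary prime
  obtain ⟨ℓ₀₀, hℓ₀₀, -, hℓ₀₀S, hne⟩ := rthkk5f_nonEisW Y hcheb S₀ hpS hgood ∅
  haveI : NeZero ℓ₀₀ := ⟨hℓ₀₀.ne_zero⟩
  have hℓ₀₀N : ¬ ℓ₀₀ ∣ N := fun hd => hℓ₀₀S (hNS ℓ₀₀ hℓ₀₀ hd)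
  have hne' : residue Y.O (rthkinAW Y ℓ₀₀) ≠ (ℓ₀₀ : ResidueField Y.O) + 1 :=
    rthkk5f_hneW Y hne
  -- the projector
  obtain ⟨e₀, he₀, -, hIntr₀⟩ := k5in_exists_expr N M₀ (rthkinAW Y) S₀ ∅ ℓ₀₀ hℓ₀₀ hℓ₀₀N hNT
  -- the basis
  have hyp : FreeHyp p Y.O N M₀ ℓ₀₀ ⊤ ⊤ 0 :=
    k5bs_freeHyp_top p Y.O N M₀ ℓ₀₀ Y.hyp.hp2 Y.hyp.hp𝒪 hℓ₀₀ hℓ₀₀N hNT
  obtain ⟨r, c, hc, hcn⟩ := k5bs_base p Y.O N M₀ ℓ₀₀ hyp (e₀.eval N M₀)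
  -- the rank is positive
  have hr : 0 < r := by
    obtain ⟨φ, hφ0, -, -, hker, heta⟩ := hnz M₀ 1 one_pos
    refine k5nz_rank_pos (hcn 1) ((hIntr₀ 1 φ).mpr
      ⟨(heta ℓ₀₀ hℓ₀₀ hℓ₀₀S hne).1, fun ℓ _ hℓ h1 _ => hker ℓ hℓ h1⟩) hφ0
  -- the residual relations
  have hres : RthkcbResid p Y.ρbar N M₀ (e₀.eval N M₀) ℓ₀₀ :=
    rthkk5rb_residW hcheb hN Y M₀ (hNT 1) S₀ hpS hNS hgood e₀ he₀ ℓ₀₀ hℓ₀₀ hℓ₀₀S ∅ (hIntr₀ 1)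
  -- the finite flat models
  have hmodel := rthkp_model (⊤ : Subgroup (ZMod M₀)ˣ) p hflat hlev 1
  -- the base
  have hbase := rthkcb_hkBase (p := p) Y.ρbar ((N * p).primeFactors)
    rthkk5_p_memW rthkk5_N_memW (k7ftwChar M₀ 1)
    (es1inftw_char_k7f p 1 iM₀N.out) hmodel hN e₀ he₀ ℓ₀₀ hℓ₀₀ hℓ₀₀N hc
    (hcn 1) hres h
  refine ⟨r, hr, c,
    fun ℓ => LinearMap.toMatrix (rthkcbBasis hc) (rthkcbBasis hc)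
      (rthkcbAct (rthkcb_stab (p := p) e₀ he₀ ℓ₀₀ hℓ₀₀ hℓ₀₀N Y.O) (es1inftwTr M₀ 1 ℓ)),
    S₀, e₀, ℓ₀₀, inferInstance,
    { hpS := hpS, hNS := hNS, hgood := hgood, hℓ₀ := hℓ₀₀, hℓ₀S := hℓ₀₀S, hne := hne',
      he₀ := he₀, intr := hIntr₀, basis := hc, basis_n := hcn },
    (N * p).primeFactors, rthkk5_p_memW, rthkk5_N_memW, HDAlg M₀, inferInstance,
    es1inftwJ N M₀ ⊤ p (k7ftwChar M₀ 1), inferInstance, inferInstance, inferInstance,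
    es1inftwTr M₀ 1, _, hbase, fun ℓ _ hℓN => rthkk5_not_memW ℓ hℓN, ?_, ?_⟩
  · intro ℓ _ hℓ hℓN
    refine ⟨fun i' => ?_, rfl⟩
    rw [rthkcb_tS_eq (rthkcb_stab (p := p) e₀ he₀ ℓ₀₀ hℓ₀₀ hℓ₀₀N Y.O) hc h ℓ hℓ hℓN
      ⟨0, pow_pos two_pos h⟩ i']
    refine Finset.sum_congr rfl fun i _ => ?_
    rw [rthkcbPhi_apply, if_pos rfl]
    show _ = (LinearMap.toMatrix (rthkcbBasis hc) (rthkcbBasis hc)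
      (rthkcbAct (rthkcb_stab (p := p) e₀ he₀ ℓ₀₀ hℓ₀₀ hℓ₀₀N Y.O) (es1inftwTr M₀ 1 ℓ))) i i'
        • c i
    rw [LinearMap.toMatrix_apply]
  · exact rthkk5f_familyW Y hcheb hN h M₀ hNT S₀ hpS hNS hgood e₀ he₀ ℓ₀₀ hℓ₀₀ hℓ₀₀S hne' ∅
      hIntr₀ c hcn

/-- **the K5 side at the base level, `p ≥ 5`** -/
theorem s59bid_k5_at5W (hcheb : Cheb.WeakChebotarev) (hflat : StmtFlatH) (hp5 : 5 ≤ p)
    (hΔ : W.Δ ≠ 0) (hN : Squarefree N) (hpN : ¬ p ∣ N) (hN2 : 2 ≤ N)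
    (hmod : W.IsResiduallyModularOfLevel p N)
    (Y : s59lk_KSetupW W p N) (h : ℕ)
    (M₀ : ℕ) [iM₀ : NeZero M₀] [iM₀N : Fact (M₀ ∣ N)] (hsq : Squarefree M₀) :
    ∃ (r : ℕ) (_ : 0 < r)
      (c : Fin r → HomS (gammaH N M₀ (⊤ : Subgroup (ZMod M₀)ˣ)) Y.O)
      (a : ℕ → Matrix (Fin r) (Fin r) Y.O)
      (S₀ : Finset ℕ) (e₀ : HExpr Y.O) (ℓ₀₀ : ℕ) (_ : NeZero ℓ₀₀)
      (_ : S59bidLattice Y M₀ r c S₀ e₀ ℓ₀₀)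
      (S' : Finset ℕ) (_ : p ∈ S') (_ : ∀ ℓ : ℕ, ℓ.Prime → ℓ ∣ N → ℓ ∈ S')
      (𝕋₀ : Type) (_ : CommRing 𝕋₀) (J₀ : Type) (_ : AddCommGroup J₀) (_ : Module 𝕋₀ J₀)
      (_ : DistribMulAction GQ J₀) (Tr₀ : ℕ → 𝕋₀)
      (Φ0 : 𝕋₀ →+* Matrix (Fin (2 ^ h * r)) (Fin (2 ^ h * r)) Y.O),
      HkBase p Y.ρbar N S' (2 ^ h * r) J₀ Tr₀ Φ0 ∧
      (∀ ℓ : ℕ, ℓ.Prime → ¬ ℓ ∣ N * p → ℓ ∉ S') ∧
      (∀ (ℓ : ℕ) [NeZero ℓ], ℓ.Prime → ¬ ℓ ∣ N * p →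
        (∀ i', tS N M₀ ℓ ⊤ Y.O (c i') = ∑ i, a ℓ i i' • c i) ∧
          Φ0 (Tr₀ ℓ) = rthkcbBlock Y.O h r (a ℓ)) ∧
      ∀ (n : ℕ) (qv : Fin h → ℕ),
        IsTWFamily p Y.ρbar (Y.Smin ∪ Finset.univ.image Y.r) n h qv →
        ∃ (e : HExpr Y.O) (ℓ₀ : ℕ) (_ : NeZero ℓ₀), e.IsPrimes ∧ ℓ₀.Prime ∧ ¬ ℓ₀ ∣ N ∧
          ℓ₀ ≠ p ∧ (∀ j, qv j ≠ ℓ₀ ∧ e.Avoids (qv j)) ∧
          K5TWCond Y.O N M₀ ℓ₀ e (List.ofFn qv) (RthkdC Y.O (n + 1)) ∧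
          K5IsBasis (RthkdC Y.O (n + 1))
            (etaPart (thetaN (e.eval N M₀) ℓ₀ (RthkdC Y.O (n + 1)) ⊤))
            (fun i => mapS (Submodule.mkQ (maximalIdeal Y.O ^ (n + 1))).toAddMonoidHom
              (c i)) :=
  s59bid_k5_atW hcheb hflat hΔ hN hmod Y h M₀
    (fun n => k5nt_noTors_quot hp.out hp5 Y.hyp.hp𝒪 _ n)
    (rthkp_level ⊤ p 0 hN2 iM₀N.out Y.hyp.hp2 hpN (fun h3 => by omega) hsq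
      (fun c => le_pmH ⊤ (Subgroup.mem_top _)))

end base

end Fermat.Agent.S59.LowK

end
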