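import Fermat.Agent.RT.K5.ParH
import Fermat.Agent.RT.K5.HExpr
import Fermat.Agent.S41.Plan

/-!
# S59, R1-BASEID, leaf D4: the `Θ`-part of `Hom(Γ_H(L), A)` is parabolic

`Θ = 𝔲 ∘ η` with `η = T_ℓ₀ − ℓ₀ − 1` (`thetaN`, RT/K5/NatFam.lean) and `𝔲 = e.eval L M` the
operator of a Hecke expression `e` with `e.IsPrimes`.  Since `𝔲` commutes with `η`
(`k5hx_comm_etaS`), `Θⁿ = ηⁿ ∘ 𝔲ⁿ`, hence `⋂ₙ Θⁿ V ⊆ ⋂ₙ ηⁿ V`, and the `η`-part is parabolic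
(`stmtParH` for `pⁿ A = 0`, `stmtParO` for `⋂ₙ pⁿ A = 0`).

* `s59minbp_theta_pow` : `Θⁿ = ηⁿ ∘ 𝔲ⁿ`;
* `s59minbp_etaPart_le` : `etaPart Θ ≤ etaPart η`;
* `s59minbp_parabolic_tors`, `s59minbp_parabolic_sep` : every `ψ` in the `Θ`-part is parabolic
  (coefficients killed by `pⁿ`, resp. `p`-adically separated);
* `s59minbp_parabolic_tors_top`, `s59minbp_parabolic_sep_top` : the same at `H = ⊤`
  (no hypothesis on `(ℤ/M)ˣ`);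
* `s59minbp_sep_of_local` : a noetherian local ring `𝒪` with `p ∈ 𝔪` is `p`-adically separated
  (so the `_sep` forms apply to `A = 𝒪`);
* `s59minbp_mem_Hpar_tors`, `s59minbp_mem_Hpar_sep` : transported along any identification
  `gammaH L M ⊤ ≃* Γ₀(L)` (as in `StmtTop`): the corresponding element of `HomG L A` lies in
  `S41.Hpar L A`.
-/

set_option autoImplicit false
set_option linter.style.haveILetI false
set_option linter.unusedSectionVars false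
set_option linter.unusedVariables false

noncomputable section

namespace Fermat.Agent.S59.Min

open CongruenceSubgroup Matrix
open scoped MatrixGroups
open Fermat.Agent.ES1 (gammaH diamHom pmH)
open Fermat.Agent.RT.K5
open ModularCurve.Period

section pow

variable {𝒪 : Type} [CommRing 𝒪] (L M : ℕ) [NeZero L] [hML : Fact (M ∣ L)]
  (A : Type) [AddCommGroup A] [Module 𝒪 A] (K : Subgroup (ZMod M)ˣ)

/-- `Θ = η ∘ 𝔲` in the endomorphism ring -/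
theorem s59minbp_theta_eq (e : HExpr 𝒪) (he : e.IsPrimes) (ℓ₀ : ℕ) [NeZero ℓ₀]
    (hℓ₀ : ℓ₀.Prime) :
    (show AddMonoid.End (HomS (gammaH L M K) A) from thetaN (e.eval L M) ℓ₀ A K)
      = (show AddMonoid.End (HomS (gammaH L M K) A) from etaS L M ℓ₀ K A)
        * (show AddMonoid.End (HomS (gammaH L M K) A) from ((e.eval L M).fam A).op K) := by
  refine AddMonoidHom.ext fun φ => ?_
  show ((e.eval L M).fam A).op K (etaS L M ℓ₀ K A φ)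
    = etaS L M ℓ₀ K A (((e.eval L M).fam A).op K φ)
  exact (k5hx_comm_etaS L M A K e he ℓ₀ hℓ₀ φ).symm

/-- `η` and `𝔲` commute in the endomorphism ring -/
theorem s59minbp_commute (e : HExpr 𝒪) (he : e.IsPrimes) (ℓ₀ : ℕ) [NeZero ℓ₀]
    (hℓ₀ : ℓ₀.Prime) :
    Commute (show AddMonoid.End (HomS (gammaH L M K) A) from etaS L M ℓ₀ K A)
      (show AddMonoid.End (HomS (gammaH L M K) A) from ((e.eval L M).fam A).op K) := by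
  refine AddMonoidHom.ext fun φ => ?_
  show etaS L M ℓ₀ K A (((e.eval L M).fam A).op K φ)
    = ((e.eval L M).fam A).op K (etaS L M ℓ₀ K A φ)
  exact k5hx_comm_etaS L M A K e he ℓ₀ hℓ₀ φ

/-- `Θⁿ = ηⁿ ∘ 𝔲ⁿ` -/
theorem s59minbp_theta_pow (e : HExpr 𝒪) (he : e.IsPrimes) (ℓ₀ : ℕ) [NeZero ℓ₀]
    (hℓ₀ : ℓ₀.Prime) (n : ℕ) :
    (show AddMonoid.End (HomS (gammaH L M K) A) from thetaN (e.eval L M) ℓ₀ A K) ^ n
      = (show AddMonoid.End (HomS (gammaH L M K) A) from etaS L M ℓ₀ K A) ^ n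
        * (show AddMonoid.End (HomS (gammaH L M K) A) from ((e.eval L M).fam A).op K) ^ n := by
  rw [s59minbp_theta_eq L M A K e he ℓ₀ hℓ₀,
    (s59minbp_commute L M A K e he ℓ₀ hℓ₀).mul_pow]

/-- the `Θ`-part is contained in the `η`-part -/
theorem s59minbp_etaPart_le (e : HExpr 𝒪) (he : e.IsPrimes) (ℓ₀ : ℕ) [NeZero ℓ₀]
    (hℓ₀ : ℓ₀.Prime) :
    etaPart (thetaN (e.eval L M) ℓ₀ A K) ≤ etaPart (etaS L M ℓ₀ K A) := by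
  intro ψ hψ
  unfold etaPart at hψ ⊢
  rw [AddSubgroup.mem_iInf] at hψ ⊢
  intro n
  obtain ⟨φ, hφ⟩ := hψ n
  refine ⟨((show AddMonoid.End (HomS (gammaH L M K) A) from ((e.eval L M).fam A).op K) ^ n) φ,
    ?_⟩
  rw [← hφ]
  have h := s59minbp_theta_pow L M A K e he ℓ₀ hℓ₀ n
  exact (DFunLike.congr_fun h φ).symm

end pow

section par

variable {𝒪 : Type} [CommRing 𝒪]

/-- **D4, torsion coefficients.**  `L` squarefree, `p ≠ 2`, `ℓ₀ ≠ p` prime, `ℓ₀ ∤ L`, every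
element of `(ℤ/M)ˣ` has a `p`-power in `±H`, `pⁿ A = 0`, `e.IsPrimes`: every element of the
`Θ`-part of `Hom(Γ_H(L), A)` is parabolic. -/
theorem s59minbp_parabolic_tors (p : ℕ) [Fact p.Prime] (L M ℓ₀ : ℕ) [NeZero L] [NeZero ℓ₀]
    [Fact (M ∣ L)] (H : Subgroup (ZMod M)ˣ) (A : Type) [AddCommGroup A] [Module 𝒪 A]
    (n k : ℕ) (hL : Squarefree L) (hℓ₀ : ℓ₀.Prime) (hℓ₀L : ¬ ℓ₀ ∣ L) (hp2 : p ≠ 2)
    (hℓ₀p : ℓ₀ ≠ p) (hkill : ∀ a : A, p ^ n • a = 0)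
    (hexp : ∀ u : (ZMod M)ˣ, u ^ (p ^ k) ∈ pmH H) (e : HExpr 𝒪) (he : e.IsPrimes)
    (ψ : HomS (gammaH L M H) A) (hψ : ψ ∈ etaPart (thetaN (e.eval L M) ℓ₀ A H)) :
    IsParabolicHom (gammaH L M H) ψ :=
  stmtParH p L M ℓ₀ H A n k hL hℓ₀ hℓ₀L hp2 hℓ₀p hkill hexp ψ
    (s59minbp_etaPart_le L M A H e he ℓ₀ hℓ₀ hψ)

/-- **D4, separated coefficients.**  The same when `⋂ₙ pⁿ A = 0`. -/
theorem s59minbp_parabolic_sep (p : ℕ) [Fact p.Prime] (L M ℓ₀ : ℕ) [NeZero L] [NeZero ℓ₀]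
    [Fact (M ∣ L)] (H : Subgroup (ZMod M)ˣ) (A : Type) [AddCommGroup A] [Module 𝒪 A]
    (k : ℕ) (hL : Squarefree L) (hℓ₀ : ℓ₀.Prime) (hℓ₀L : ¬ ℓ₀ ∣ L) (hp2 : p ≠ 2)
    (hℓ₀p : ℓ₀ ≠ p) (hsep : ∀ a : A, (∀ n : ℕ, ∃ b : A, a = p ^ n • b) → a = 0)
    (hexp : ∀ u : (ZMod M)ˣ, u ^ (p ^ k) ∈ pmH H) (e : HExpr 𝒪) (he : e.IsPrimes)
    (ψ : HomS (gammaH L M H) A) (hψ : ψ ∈ etaPart (thetaN (e.eval L M) ℓ₀ A H)) :
    IsParabolicHom (gammaH L M H) ψ :=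
  stmtParO p L M ℓ₀ H A k hL hℓ₀ hℓ₀L hp2 hℓ₀p hsep hexp ψ
    (s59minbp_etaPart_le L M A H e he ℓ₀ hℓ₀ hψ)

/-- at `H = ⊤` the hypothesis on `(ℤ/M)ˣ` is empty -/
theorem s59minbp_hexp_top (p M : ℕ) (u : (ZMod M)ˣ) :
    u ^ (p ^ 0) ∈ pmH (⊤ : Subgroup (ZMod M)ˣ) := by
  unfold pmH
  rw [top_sup_eq]
  exact Subgroup.mem_top _

/-- **D4 at `H = ⊤`, torsion coefficients.** -/
theorem s59minbp_parabolic_tors_top (p : ℕ) [Fact p.Prime] (L M ℓ₀ : ℕ) [NeZero L] [NeZero ℓ₀]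
    [Fact (M ∣ L)] (A : Type) [AddCommGroup A] [Module 𝒪 A]
    (n : ℕ) (hL : Squarefree L) (hℓ₀ : ℓ₀.Prime) (hℓ₀L : ¬ ℓ₀ ∣ L) (hp2 : p ≠ 2)
    (hℓ₀p : ℓ₀ ≠ p) (hkill : ∀ a : A, p ^ n • a = 0) (e : HExpr 𝒪) (he : e.IsPrimes)
    (ψ : HomS (gammaH L M (⊤ : Subgroup (ZMod M)ˣ)) A)
    (hψ : ψ ∈ etaPart (thetaN (e.eval L M) ℓ₀ A (⊤ : Subgroup (ZMod M)ˣ))) :
    IsParabolicHom (gammaH L M (⊤ : Subgroup (ZMod M)ˣ)) ψ :=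
  s59minbp_parabolic_tors p L M ℓ₀ ⊤ A n 0 hL hℓ₀ hℓ₀L hp2 hℓ₀p hkill
    (s59minbp_hexp_top p M) e he ψ hψ

/-- **D4 at `H = ⊤`, separated coefficients.** -/
theorem s59minbp_parabolic_sep_top (p : ℕ) [Fact p.Prime] (L M ℓ₀ : ℕ) [NeZero L] [NeZero ℓ₀]
    [Fact (M ∣ L)] (A : Type) [AddCommGroup A] [Module 𝒪 A]
    (hL : Squarefree L) (hℓ₀ : ℓ₀.Prime) (hℓ₀L : ¬ ℓ₀ ∣ L) (hp2 : p ≠ 2)
    (hℓ₀p : ℓ₀ ≠ p) (hsep : ∀ a : A, (∀ n : ℕ, ∃ b : A, a = p ^ n • b) → a = 0)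
    (e : HExpr 𝒪) (he : e.IsPrimes)
    (ψ : HomS (gammaH L M (⊤ : Subgroup (ZMod M)ˣ)) A)
    (hψ : ψ ∈ etaPart (thetaN (e.eval L M) ℓ₀ A (⊤ : Subgroup (ZMod M)ˣ))) :
    IsParabolicHom (gammaH L M (⊤ : Subgroup (ZMod M)ˣ)) ψ :=
  s59minbp_parabolic_sep p L M ℓ₀ ⊤ A 0 hL hℓ₀ hℓ₀L hp2 hℓ₀p hsep
    (s59minbp_hexp_top p M) e he ψ hψ

end par

section transport

variable {A : Type} [AddCommGroup A]

/-- parabolicity is transported along an identification of subgroups of `SL₂(ℤ)` which is the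
identity on matrices -/
theorem s59minbp_parabolic_comp_iff {Γ Δ : Subgroup SL(2, ℤ)} (eq : Γ ≃* Δ)
    (heq : ∀ γ : Γ, ((eq γ : Δ) : SL(2, ℤ)) = γ) (φ : Additive Δ →+ A) :
    IsParabolicHom Γ (φ.comp (MonoidHom.toAdditive eq.toMonoidHom)) ↔ IsParabolicHom Δ φ := by
  constructor
  · intro h δ hδ
    have h1 := h (eq.symm δ) (by
      have h2 := heq (eq.symm δ)
      rw [MulEquiv.apply_symm_apply] at h2
      rw [← h2]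
      exact hδ)
    have h3 : (φ.comp (MonoidHom.toAdditive eq.toMonoidHom)) (Additive.ofMul (eq.symm δ))
        = φ (Additive.ofMul (eq (eq.symm δ))) := rfl
    rw [h3, MulEquiv.apply_symm_apply] at h1
    exact h1
  · intro h γ hγ
    show φ (Additive.ofMul (eq γ)) = 0
    refine h (eq γ) ?_
    rw [heq γ]
    exact hγ

/-- `k5mt_cast` preserves (and reflects) parabolicity -/
theorem s59minbp_parabolic_cast_iff {Γ Δ : Subgroup SL(2, ℤ)} (h : Γ = Δ) (ψ : HomS Γ A) :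
    IsParabolicHom Δ (k5mt_cast A h ψ) ↔ IsParabolicHom Γ ψ := by
  subst h
  rfl

end transport

section hpar

variable {𝒪 : Type} [CommRing 𝒪]

/-- **D4 in `S41.Hpar`, torsion coefficients.**  For any identification
`eq : gammaH L M ⊤ ≃* Γ₀(L)` which is the identity on matrices (as in `StmtTop`): if the pullback
of `φ ∈ Hom(Γ₀(L), A)` lies in the `Θ`-part, then `φ ∈ Hpar L A`. -/
theorem s59minbp_mem_Hpar_tors (p : ℕ) [Fact p.Prime] (L M ℓ₀ : ℕ) [NeZero L] [NeZero ℓ₀]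
    [Fact (M ∣ L)] (A : Type) [AddCommGroup A] [Module 𝒪 A]
    (n : ℕ) (hL : Squarefree L) (hℓ₀ : ℓ₀.Prime) (hℓ₀L : ¬ ℓ₀ ∣ L) (hp2 : p ≠ 2)
    (hℓ₀p : ℓ₀ ≠ p) (hkill : ∀ a : A, p ^ n • a = 0) (e : HExpr 𝒪) (he : e.IsPrimes)
    (eq : gammaH L M (⊤ : Subgroup (ZMod M)ˣ) ≃* Gamma0 L)
    (heq : ∀ γ, ((eq γ : Gamma0 L) : SL(2, ℤ)) = γ) (φ : Fermat.Agent.S41.HomG L A)
    (hφ : φ.comp (MonoidHom.toAdditive eq.toMonoidHom)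
      ∈ etaPart (thetaN (e.eval L M) ℓ₀ A (⊤ : Subgroup (ZMod M)ˣ))) :
    φ ∈ Fermat.Agent.S41.Hpar L A := by
  show φ ∈ (parabolicHoms ℤ (Gamma0 L) A).toAddSubgroup
  rw [Submodule.mem_toAddSubgroup, mem_parabolicHoms_iff]
  exact (s59minbp_parabolic_comp_iff eq heq φ).1
    (s59minbp_parabolic_tors_top p L M ℓ₀ A n hL hℓ₀ hℓ₀L hp2 hℓ₀p hkill e he _ hφ)

/-- **D4 in `S41.Hpar`, separated coefficients.** -/
theorem s59minbp_mem_Hpar_sep (p : ℕ) [Fact p.Prime] (L M ℓ₀ : ℕ) [NeZero L] [NeZero ℓ₀]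
    [Fact (M ∣ L)] (A : Type) [AddCommGroup A] [Module 𝒪 A]
    (hL : Squarefree L) (hℓ₀ : ℓ₀.Prime) (hℓ₀L : ¬ ℓ₀ ∣ L) (hp2 : p ≠ 2)
    (hℓ₀p : ℓ₀ ≠ p) (hsep : ∀ a : A, (∀ n : ℕ, ∃ b : A, a = p ^ n • b) → a = 0)
    (e : HExpr 𝒪) (he : e.IsPrimes)
    (eq : gammaH L M (⊤ : Subgroup (ZMod M)ˣ) ≃* Gamma0 L)
    (heq : ∀ γ, ((eq γ : Gamma0 L) : SL(2, ℤ)) = γ) (φ : Fermat.Agent.S41.HomG L A)
    (hφ : φ.comp (MonoidHom.toAdditive eq.toMonoidHom)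
      ∈ etaPart (thetaN (e.eval L M) ℓ₀ A (⊤ : Subgroup (ZMod M)ˣ))) :
    φ ∈ Fermat.Agent.S41.Hpar L A := by
  show φ ∈ (parabolicHoms ℤ (Gamma0 L) A).toAddSubgroup
  rw [Submodule.mem_toAddSubgroup, mem_parabolicHoms_iff]
  exact (s59minbp_parabolic_comp_iff eq heq φ).1
    (s59minbp_parabolic_sep_top p L M ℓ₀ A hL hℓ₀ hℓ₀L hp2 hℓ₀p hsep e he _ hφ)

/-- **D4 in `S41.Hpar`, via `k5mt_cast`** (torsion coefficients). -/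
theorem s59minbp_cast_mem_Hpar_tors (p : ℕ) [Fact p.Prime] (L M ℓ₀ : ℕ) [NeZero L] [NeZero ℓ₀]
    [hML : Fact (M ∣ L)] (A : Type) [AddCommGroup A] [Module 𝒪 A]
    (n : ℕ) (hL : Squarefree L) (hℓ₀ : ℓ₀.Prime) (hℓ₀L : ¬ ℓ₀ ∣ L) (hp2 : p ≠ 2)
    (hℓ₀p : ℓ₀ ≠ p) (hkill : ∀ a : A, p ^ n • a = 0) (e : HExpr 𝒪) (he : e.IsPrimes)
    (ψ : HomS (gammaH L M (⊤ : Subgroup (ZMod M)ˣ)) A)
    (hψ : ψ ∈ etaPart (thetaN (e.eval L M) ℓ₀ A (⊤ : Subgroup (ZMod M)ˣ))) :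
    (k5mt_cast A (Fermat.Agent.ES1.gammaH_top_of_dvd hML.out) ψ : Fermat.Agent.S41.HomG L A)
      ∈ Fermat.Agent.S41.Hpar L A := by
  show _ ∈ (parabolicHoms ℤ (Gamma0 L) A).toAddSubgroup
  rw [Submodule.mem_toAddSubgroup, mem_parabolicHoms_iff]
  exact (s59minbp_parabolic_cast_iff _ ψ).2
    (s59minbp_parabolic_tors_top p L M ℓ₀ A n hL hℓ₀ hℓ₀L hp2 hℓ₀p hkill e he ψ hψ)

/-- **D4 in `S41.Hpar`, via `k5mt_cast`** (separated coefficients). -/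
theorem s59minbp_cast_mem_Hpar_sep (p : ℕ) [Fact p.Prime] (L M ℓ₀ : ℕ) [NeZero L] [NeZero ℓ₀]
    [hML : Fact (M ∣ L)] (A : Type) [AddCommGroup A] [Module 𝒪 A]
    (hL : Squarefree L) (hℓ₀ : ℓ₀.Prime) (hℓ₀L : ¬ ℓ₀ ∣ L) (hp2 : p ≠ 2)
    (hℓ₀p : ℓ₀ ≠ p) (hsep : ∀ a : A, (∀ n : ℕ, ∃ b : A, a = p ^ n • b) → a = 0)
    (e : HExpr 𝒪) (he : e.IsPrimes)
    (ψ : HomS (gammaH L M (⊤ : Subgroup (ZMod M)ˣ)) A)
    (hψ : ψ ∈ etaPart (thetaN (e.eval L M) ℓ₀ A (⊤ : Subgroup (ZMod M)ˣ))) :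
    (k5mt_cast A (Fermat.Agent.ES1.gammaH_top_of_dvd hML.out) ψ : Fermat.Agent.S41.HomG L A)
      ∈ Fermat.Agent.S41.Hpar L A := by
  show _ ∈ (parabolicHoms ℤ (Gamma0 L) A).toAddSubgroup
  rw [Submodule.mem_toAddSubgroup, mem_parabolicHoms_iff]
  exact (s59minbp_parabolic_cast_iff _ ψ).2
    (s59minbp_parabolic_sep_top p L M ℓ₀ A hL hℓ₀ hℓ₀L hp2 hℓ₀p hsep e he ψ hψ)

end hpar

section sep

/-- a noetherian local ring with `p ∈ 𝔪` is `p`-adically separated (Krull), in the form needed by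
`s59minbp_parabolic_sep` -/
theorem s59minbp_sep_of_local (p : ℕ) (𝒪 : Type) [CommRing 𝒪] [IsLocalRing 𝒪]
    [IsNoetherianRing 𝒪] (hp : (p : 𝒪) ∈ IsLocalRing.maximalIdeal 𝒪) :
    ∀ a : 𝒪, (∀ n : ℕ, ∃ b : 𝒪, a = p ^ n • b) → a = 0 := by
  intro a ha
  have hmem : a ∈ ⨅ n : ℕ, (IsLocalRing.maximalIdeal 𝒪) ^ n := by
    rw [Ideal.mem_iInf]
    intro n
    obtain ⟨b, hb⟩ := ha n
    rw [hb, nsmul_eq_mul]
    refine Ideal.mul_mem_right _ _ ?_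
    push_cast
    exact Ideal.pow_mem_pow hp n
  rw [Ideal.iInf_pow_eq_bot_of_isLocalRing _ (IsLocalRing.maximalIdeal.isMaximal 𝒪).ne_top] at hmem
  exact hmem

end sep

end Fermat.Agent.S59.Min
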