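import Fermat.Agent.S59.Min.TrQinTop
import Fermat.Agent.S59.Min.BaseIdK5

/-!
# S59 wall R1, R1-BASEID (DICT-ι), the EXPORT of the base lattice of the cone, part 2 (helper9):
# the top of the cone over a GIVEN base

* `S59bidLevels Y h d a0` : the levels of `S59btrConcTopAt Y h` (helper34) over the base
  matrices `a0 : ℕ → M_d(𝒪)`;
* `s59bid_top_atUW`       : twin of `s59tqt_top_atUW` (`5 ≤ p`, no prime `q`) which KEEPS the base: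
  `r`, the basis `c` of the `Θ`-part of `Hom(Γ₀(N), 𝒪)`, the matrices `ac ℓ` of `T_ℓ` in `c`,
  `d = 2 ^ h * r`, `Φ0 (Tr₀ ℓ) = rthkcbBlock 𝒪 h r (ac ℓ)`, the lattice facts `S59bidLattice`;
* `s59bid_concTopAt`      : the export gives `S59btrConcTopAt Y h` back.
-/

set_option autoImplicit false
set_option linter.unusedSectionVars false
set_option linter.unusedVariables false
set_option linter.style.haveILetI false
set_option linter.style.longLine false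

noncomputable section

namespace Fermat.Agent.S59.LowK

open Fermat.Agent.RT Fermat.Agent.S59.LowQ
open IsLocalRing Fermat.Agent.ES Fermat.Agent.S30 Fermat.Agent.W1 Fermat.Agent.TW
open Fermat.Agent.ES1 Fermat.Agent.RT.K5 Fermat.Agent.RT.K6 Fermat.Agent.RT.K7F
open Fermat.Agent.RT.Prod
open ExtCitation WeierstrassCurve WeierstrassCurve.Affine WeierstrassCurve.Affine.Point
open scoped MatrixGroups

/-- **The levels of the concrete cone over GIVEN base matrices** `a0 : ℕ → M_d(𝒪)`: the level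
part of `S59btrConcTopAt Y h` (`S59/Min/BaseTrQSide.lean`). -/
def S59bidLevels {W : WeierstrassCurve ℤ} {p M : ℕ} [Fact p.Prime] [NeZero M]
    (Y : s59lk_KSetupW W p M) (h d : ℕ) (a0 : ℕ → Matrix (Fin d) (Fin d) Y.O) : Prop :=
  ∀ (n : ℕ) (qv : Fin h → ℕ),
    IsTWFamily p Y.ρbar (Y.Smin ∪ Finset.univ.image Y.r) n h qv →
    ∃ (L M' : ℕ) (_ : NeZero L) (_ : NeZero M') (_ : Fact (M' ∣ L))
      (𝔲 : NatFam Y.O L M') (ℓ₀ : ℕ) (_ : NeZero ℓ₀) (H' : Subgroup (ZMod M')ˣ)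
      (J : Type) (_ : AddCommGroup J) (_ : Module (HDAlg M') J)
      (_ : DistribMulAction GQ J) (Tr : ℕ → HDAlg M')
      (b : Fin d → rthkdX 𝔲 ℓ₀ H' (n + 1))
      (ψ1 ψχ : RthkdDelta M' H' →* RthkSn Y.O (Y.m h) (n + 1)),
      HkConcSide p Y.lam Y.ρbar
        (Y.Smin ∪ (Finset.univ.image qv ∪ Finset.univ.image Y.r)) Y.σ Y.tχ (Y.m h) h d
        (n + 1) a0 L M' 𝔲 ℓ₀ H' J Tr b ψ1 ψχ ∧
      HkUnipJ p Y.Smin J ∧
      S59btrTrQinSide p (Y.m h) h (n + 1) qv L M' 𝔲 ℓ₀ H' J ψ1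

/-- a base and levels over it give the concrete contract -/
theorem s59bid_concTopAt {W : WeierstrassCurve ℤ} {p M : ℕ} [Fact p.Prime] [NeZero M]
    (Y : s59lk_KSetupW W p M) (h d : ℕ) (hd : 0 < d) (S' : Finset ℕ) (hpS' : p ∈ S')
    (hNS' : ∀ ℓ : ℕ, ℓ.Prime → ℓ ∣ M → ℓ ∈ S')
    {𝕋₀ : Type} [CommRing 𝕋₀] {J₀ : Type} [AddCommGroup J₀] [Module 𝕋₀ J₀]
    [DistribMulAction GQ J₀] (Tr₀ : ℕ → 𝕋₀) (Φ0 : 𝕋₀ →+* Matrix (Fin d) (Fin d) Y.O)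
    (hbase : HkBase p Y.ρbar M S' d J₀ Tr₀ Φ0)
    (hlev : S59bidLevels Y h d (fun ℓ => Φ0 (Tr₀ ℓ))) : S59btrConcTopAt Y h :=
  ⟨d, hd, S', hpS', hNS', 𝕋₀, inferInstance, J₀, inferInstance, inferInstance, inferInstance,
    Tr₀, Φ0, hbase, hlev⟩

/-- **The TOP of the cone over its base lattice, `5 ≤ p`** (twin of `s59tqt_top_atUW` /
`rthkf_top_atUW`): the base `(r, c, ac)`, the lattice facts, `HkBase`, the two equations of the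
base matrices, and the levels over THIS base. -/
theorem s59bid_top_atUW {W : WeierstrassCurve ℤ} {p N : ℕ} [hp : Fact p.Prime] [NeZero N]
    [iM₀N : Fact ((1 : ℕ) ∣ N)]
    (hp5 : 5 ≤ p) (hflat : StmtFlatH) (hChi : StmtChiJDiv5) (hΔ : W.Δ ≠ 0)
    (hcond : Squarefree N) (hpN : ¬ p ∣ N) (hN2 : 2 ≤ N)
    (hmod : W.IsResiduallyModularOfLevel p N) (Y : s59lk_KSetupW W p N) (h : ℕ) :
    ∃ (r : ℕ) (_ : 0 < r)
      (c : Fin r → HomS (gammaH N 1 (⊤ : Subgroup (ZMod 1)ˣ)) Y.O)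
      (ac : ℕ → Matrix (Fin r) (Fin r) Y.O)
      (S₀ : Finset ℕ) (e₀ : HExpr Y.O) (ℓ₀₀ : ℕ) (_ : NeZero ℓ₀₀)
      (_ : S59bidLattice Y 1 r c S₀ e₀ ℓ₀₀)
      (S' : Finset ℕ) (_ : p ∈ S') (_ : ∀ ℓ : ℕ, ℓ.Prime → ℓ ∣ N → ℓ ∈ S')
      (𝕋₀ : Type) (_ : CommRing 𝕋₀) (J₀ : Type) (_ : AddCommGroup J₀) (_ : Module 𝕋₀ J₀)
      (_ : DistribMulAction GQ J₀) (Tr₀ : ℕ → 𝕋₀)
      (Φ0 : 𝕋₀ →+* Matrix (Fin (2 ^ h * r)) (Fin (2 ^ h * r)) Y.O),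
      HkBase p Y.ρbar N S' (2 ^ h * r) J₀ Tr₀ Φ0 ∧
      (∀ ℓ : ℕ, ℓ.Prime → ¬ ℓ ∣ N * p → ℓ ∉ S') ∧
      (∀ (ℓ : ℕ) [NeZero ℓ], ℓ.Prime → ¬ ℓ ∣ N * p →
        (∀ i', tS N 1 ℓ ⊤ Y.O (c i') = ∑ i, ac ℓ i i' • c i) ∧
          Φ0 (Tr₀ ℓ) = rthkcbBlock Y.O h r (ac ℓ)) ∧
      S59bidLevels Y h (2 ^ h * r) (fun ℓ => Φ0 (Tr₀ ℓ)) := by
  obtain ⟨q, hq, hqN⟩ := Nat.exists_prime_and_dvd (show N ≠ 1 by omega)
  obtain ⟨r, hr, c, a, S₀, e₀, ℓ₀₀, iℓ₀₀, hlat, S', hpS', hNS', 𝕋₀, i1, J₀, i2, i3, i4, Tr₀, Φ0,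
    hbase, hS', hmat, hlev⟩ := s59bid_k5_at5W Fermat.Agent.Cheb.weakChebotarev_holds hflat hp5
      hΔ hcond hpN hN2 hmod Y h 1 squarefree_one
  refine ⟨r, hr, c, a, S₀, e₀, ℓ₀₀, iℓ₀₀, hlat, S', hpS', hNS', 𝕋₀, i1, J₀, i2, i3,
    i4, Tr₀, Φ0, hbase, hS', hmat, fun n qv hqv => ?_⟩
  have hN0 : N ≠ 0 := NeZero.ne N
  haveI iL : NeZero (N * rthkdM qv) := ⟨rthkdYL_ne_zeroW hN0 hqv⟩
  -- the K5 side (its binders are at the small modulus, which it does not use)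
  obtain ⟨e, ℓ₀, iℓ₀, heP, hℓ₀, hℓ₀N, hℓ₀p, havoid, hTW, hbasis⟩ := hlev n qv hqv
  haveI iM : NeZero (rthkfMUW Y qv) := ⟨rthkfMU_ne_zeroW hN0 hqv⟩
  haveI iML : Fact (rthkfMUW Y qv ∣ N * rthkdM qv) := ⟨rthkfMU_dvd_LW (Y := Y) (qv := qv)⟩
  -- `ℓ₀ ∤ L`
  have hℓ₀L : ¬ ℓ₀ ∣ N * rthkdM qv := by
    intro hd
    rcases (Nat.Prime.dvd_mul hℓ₀).mp hd with h1 | h1
    · exact hℓ₀N h1
    · obtain ⟨j, -, hj⟩ := Finset.mem_image.mp (rthkdY_dvd_prod_qvW hqv hℓ₀ h1)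
      exact (havoid j).1 hj
  -- the twisted expression
  have hQ : ∀ q' ∈ List.ofFn qv, q'.Prime ∧ ¬ q' ∣ N ∧ q' ≠ ℓ₀ ∧ e.Avoids q' := by
    intro q' hq'
    rw [List.mem_ofFn] at hq'
    obtain ⟨j, rfl⟩ := hq'
    exact ⟨(hqv.2.1 j).1, rthkf_qv_not_dvdW hqv j, (havoid j).1, (havoid j).2⟩
  have hnd : (List.ofFn qv).Nodup := List.nodup_ofFn.mpr hqv.1
  have hEP : (e.twist (List.ofFn qv)).IsPrimes :=
    HExpr.isPrimes_twist heP (fun q' hq' => (hQ q' hq').1)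
  -- `FreeHyp`
  have hidx := rthkf_freeHyp_indexUW (Y := Y) (qv := qv) (n := n) hp5 hN0 hpN hq hqN hqv
  have hyp : FreeHyp p Y.O (N * rthkdM qv) (rthkfMUW Y qv) ℓ₀ (rthkfHUW Y qv n) ⊤
      (h * (n + 1) + Fintype.card Y.ι) :=
    k5nt_freeHyp hp.out hp5 Y.hyp.hp𝒪 _ _ ℓ₀ hℓ₀ hℓ₀L le_top _ hidx
  -- `free` and `base`
  obtain ⟨b, free, hbmat⟩ := rthkcf_X p Y.O N 1 ℓ₀ e hℓ₀ hℓ₀N (List.ofFn qv) h
    (List.length_ofFn) hnd hQ (N * rthkdM qv) (rthkfMUW Y qv) rthkf_prod_ofFnW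
    (rthkfHUW Y qv n) _ hyp (n + 1) (Nat.succ_pos n) hTW c hbasis
  -- the characters
  obtain ⟨ψ1, ψχ, hcong, haug, htrT, htrQ, hside⟩ := s59tqt_final_oddUW p W N hcond hpN (Or.inl hp5)
    Y h n qv hqv iL iM iML ((e.twist (List.ofFn qv)).eval (N * rthkdM qv)
      (rthkfMUW Y qv)) ℓ₀ iℓ₀
  have hst := rthkd_hst (O := Y.O) (L := N * rthkdM qv) (M := rthkfMUW Y qv) p
    (e.twist (List.ofFn qv)) hEP ℓ₀ hℓ₀ hℓ₀L (rthkfHUW Y qv n) (n + 1)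
  have hk : ∀ x : Fin h ⊕ Y.ι,
      (Sum.elim (fun _ => n + 1) (fun _ => 1) : Fin h ⊕ Y.ι → ℕ) x ≤ n + 1 := by
    rintro (j | i)
    · exact le_rfl
    · exact Nat.succ_le_succ (Nat.zero_le n)
  have hfaith := rthkd_faith (O := Y.O) (p := p) (L := N * rthkdM qv)
    (M := rthkfMUW Y qv) (H' := rthkfHUW Y qv n)
    (rthksE p (es1inftwJ (N * rthkdM qv) (rthkfMUW Y qv) (rthkfHUW Y qv n) p
        (k7ftwChar (rthkfMUW Y qv) (rthkdE p (n + 1))))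
      (𝕋 := HDAlg (rthkfMUW Y qv)) : Set (HDAlg (rthkfMUW Y qv)))
    (k7ftwChar (rthkfMUW Y qv) (rthkdE p (n + 1))) Y.hyp.hp𝒪
    (e.twist (List.ofFn qv)) hEP ℓ₀ hℓ₀ hℓ₀L (rthkf_sqfree_LW hcond hqv) Y.hyp.hp2 hℓ₀p (n + 1)
    (fun u => by
      rw [rthkd_pmH (hp.out.odd_of_ne_two Y.hyp.hp2)]
      exact rthkd_pow_mem_H hk u)
    (n + 1) (k5nt_noTors_quot hp.out hp5 Y.hyp.hp𝒪 _ (n + 1)) hst
  have hℓN : ∀ ℓ : ℕ, ℓ.Prime → ¬ ℓ ∣ (N * rthkdM qv) * p → ¬ ℓ ∣ N * p :=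
    fun ℓ hℓ hℓL hd => hℓL (by
      rcases (Nat.Prime.dvd_mul hℓ).mp hd with h1 | h1
      · exact Dvd.dvd.mul_right (Dvd.dvd.mul_right h1 _) _
      · exact Dvd.dvd.mul_left h1 _)
  have hΔ' : ∀ δ : RthkdDelta (rthkfMUW Y qv) (rthkfHUW Y qv n),
      δ ^ p ^ (n + 1) = 1 := by
    intro δ
    obtain ⟨u, rfl⟩ := QuotientGroup.mk_surjective δ
    rw [← QuotientGroup.mk_pow, QuotientGroup.eq_one_iff,
      rthkd_pmH (hp.out.odd_of_ne_two Y.hyp.hp2)]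
    exact rthkd_pow_mem_H hk u
  -- the field `base`
  have hbaseF : ∀ ℓ : ℕ, ℓ.Prime → ¬ ℓ ∣ (N * rthkdM qv) * p →
      rthkmMat free (1 : RthkdDelta (rthkfMUW Y qv) (rthkfHUW Y qv n) →* RthkdC Y.O (n + 1))
        (rthkdAct p ((e.twist (List.ofFn qv)).eval (N * rthkdM qv) (rthkfMUW Y qv)) ℓ₀
          (rthkfHUW Y qv n) (n + 1) hst
          (es1inftwTr (rthkfMUW Y qv) (rthkdE p (n + 1)) ℓ))
        = (Φ0 (Tr₀ ℓ)).map (algebraMap Y.O (RthkdC Y.O (n + 1))) := by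
    intro ℓ hℓ hℓL
    haveI : NeZero ℓ := ⟨hℓ.ne_zero⟩
    obtain ⟨ha, hΦ⟩ := hmat ℓ hℓ (hℓN ℓ hℓ hℓL)
    rw [hΦ]
    refine hbmat ℓ hℓ (rthkf_not_mem_QW hℓL) (a ℓ) ha _ (fun x => ?_)
    refine ⟨((ZMod.unitOfCoprime ℓ (rthkf_coprime_MUW (Y := Y) hℓ hℓL))⁻¹
      ^ rthkdE p (n + 1)), ?_⟩
    rw [rthkdAct_coe]
    exact es1infev_twTr (rthkdE p (n + 1))
      (by
        have := rthkd_two_E (p := p) (hp.out.odd_of_ne_two Y.hyp.hp2) (n + 1)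
        have hpos : 0 < p ^ (n + 1) := pow_pos hp.out.pos _
        omega)
      hℓ hℓL (rthkf_coprime_MUW (Y := Y) hℓ hℓL) _
  -- the field `resid`
  have hres := rthkra_resid_field (ρbar := Y.ρbar) (a0 := fun ℓ => Φ0 (Tr₀ ℓ))
    (Tr := es1inftwTr (rthkfMUW Y qv) (rthkdE p (n + 1))) hst free Y.hyp.hp𝒪
    (n + 1) hΔ' hbaseF
    (fun ℓ hℓ hℓL A hA τ hτ => hbase.resid ℓ hℓ (hS' ℓ hℓ (hℓN ℓ hℓ hℓL)) A hA τ hτ)
  refine ⟨N * rthkdM qv, rthkfMUW Y qv, iL, iM, iML,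
    (e.twist (List.ofFn qv)).eval (N * rthkdM qv) (rthkfMUW Y qv), ℓ₀, iℓ₀,
    rthkfHUW Y qv n,
    es1inftwJ (N * rthkdM qv) (rthkfMUW Y qv) (rthkfHUW Y qv n) p
      (k7ftwChar (rthkfMUW Y qv) (rthkdE p (n + 1))),
    inferInstance, inferInstance, inferInstance,
    es1inftwTr (rthkfMUW Y qv) (rthkdE p (n + 1)), b, ψ1, ψχ, ?_,
    rthkf_unip_atUW hp5 hChi hcond hpN hN2 Y hqv, hside⟩
  exact
    { pkg := rthkp_pkg (L := N * rthkdM qv) (M := rthkfMUW Y qv)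
        (rthkfHUW Y qv n) p (rthkdE p (n + 1)) (rthkp_one_le_half p (n + 1) hp.out.pos)
        (rthkd_pow_E_mem (hp.out.odd_of_ne_two Y.hyp.hp2) hk)
      primes := rthkdY_primesW hqv
      model := rthkp_model (L := N * rthkdM qv) (M := rthkfMUW Y qv)
        (rthkfHUW Y qv n) p hflat
        (rthkf_k7fLevelUW (Y := Y) (qv := qv) (n := n) hp5 hcond hN0 hpN hq hqN hqv)
        (rthkdE p (n + 1))
      stable := hst
      free := free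
      faith := by
        obtain ⟨n₀, hn₀⟩ := hfaith
        refine ⟨n₀, fun t ht hkill ψ hψ => ?_⟩
        have h0 := hn₀ t ht hkill
        have h1 : rthkdAct p _ ℓ₀ (rthkfHUW Y qv n) (n + 1) hst t ⟨ψ, hψ⟩ = 0 := by
          rw [h0]
          rfl
        exact congrArg Subtype.val h1
      resid := hres
      cong := hcong
      aug := haug
      trT := htrT
      trQ := htrQ
      base := hbaseF }

end Fermat.Agent.S59.LowK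

end
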