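/-
S59, wall R1 (helper34): R1-BASETR, step 3 of the plumbing: the Hecke side for `W` WITH THE BASE
TRACES.

`HeckeDataW Y h` (`S59/LowK/FinalPlanW.lean`) records at every Taylor–Wiles level a `Prod.TWGal`,
whose `base_T0` says only `∀ u, ∃ t0, (π1 u mod 𝔞) = j0 t0`.  Here:

* `S59btrHeckeData Y h` : a `HeckeDataW Y h` together with, at every level, the SAME kind of
  datum and in addition `S59btrBaseTr`: `(π1 (tr ρ g)) mod 𝔞 = j0 (tr ρ0 g)` for every `g`;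
* `S59btrStmtHecke p`   : the twin of `StmtHeckeW p`;
* `s59btr_final`        : the twin of `rthk_finalW` (same inputs, minus the two which are proved
                          here in the stronger form: `s59btr_absL`, `s59btr_pack_std`);
* `s59btr_final_inst`   : `StmtHkAbsBW p → StmtHkModSideW p → S59btrStmtHecke p`;
* `s59btr_hecke_inst`   : `StmtHkAbsBW p → StmtHkConcTopW p → S59btrStmtHecke p`;
* `s59btr_heckeW`       : `S59btrStmtHecke p → StmtHeckeW p`.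

So every route to `StmtHeckeW p` through `rthk_final_instW` / `rthkct_hecke_instW` gives
`S59btrStmtHecke p` from the SAME inputs.  Nothing landed is edited.
-/
import Fermat.Agent.S59.Min.BaseTrPack
import Fermat.Agent.S59.LowK.FinalW
import Fermat.Agent.S59.LowK.PackW

set_option autoImplicit false
set_option linter.unusedSectionVars false
set_option linter.unusedVariables false
set_option linter.style.longLine false

noncomputable section

namespace Fermat.Agent.S59.LowK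

open IsLocalRing Polynomial Fermat.Agent.ES Fermat.Agent.S30 Fermat.Agent.W1 Fermat.Agent.TW
open Fermat.Agent.RT Fermat.Agent.RT.K1 Fermat.Agent.RT.Prod Fermat.Agent.S59.LowQ ExtCitation
open WeierstrassCurve WeierstrassCurve.Affine WeierstrassCurve.Affine.Point

/-- **The Hecke side with the base traces**: a `HeckeDataW Y h` together with levels which carry
`S59btrBaseTr`. -/
structure S59btrHeckeData {W : WeierstrassCurve ℤ} {p M : ℕ} [NeZero M]
    (Y : s59lk_KSetupW W p M) (h : ℕ) : Type 1 where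
  /-- the underlying Hecke data -/
  D : HeckeDataW Y h
  /-- the levels, with the base traces -/
  levelB : ∀ (n : ℕ) (qv : Fin h → ℕ),
    IsTWFamily p Y.ρbar (Y.Smin ∪ Finset.univ.image Y.r) n h qv →
    ∃ (A : Type) (_ : CommRing A) (_ : IsLocalRing A) (_ : Algebra Y.O A)
      (ιA : ResidueField Y.O →+* ResidueField A) (ρ : GaloisRepAdic A)
      (b : Module.Basis (Fin 2) A ρ.V) (β βi : ℕ → Matrix (Fin 2) (Fin 2) A)
      (π1 πχ : A →ₐ[Y.O] Matrix (Fin D.d) (Fin D.d)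
        (RttwS Y.O (Y.m h) ⧸ maximalIdeal (RttwS Y.O (Y.m h)) ^ n)),
      TWGal p Y.ρbar Y.Smin (Finset.univ.image qv) Y.r Y.σ Y.φ Y.tχ Y.lam (Y.m h) D.d D.j0
        (fun i => LinearMap.toMatrix D.b0 D.b0 (D.ρ0.ρ (Y.σ i)))
        (fun i => LinearMap.toMatrix D.b0 D.b0 (D.ρ0.ρ (Y.φ i))) n (rttwEvenQ Y.O (Y.m h) h n)
        ιA ρ b β βi π1 πχ ∧
      S59btrBaseTr (Y.m h) D.d n D.j0 D.ρ0 ρ π1

/-- **HECKE for `W` with the base traces** (the twin of `StmtHeckeW p`). -/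
def S59btrStmtHecke (p : ℕ) : Prop :=
  ∀ [Fact p.Prime] (W : WeierstrassCurve ℤ) (M q : ℕ) [NeZero M], W.Δ ≠ 0 →
    W.IsSemistableModel → W.ModRepIsIrreducible p → Squarefree M → ¬ p ∣ M → q.Prime →
    q ≠ p → q ∣ M → s59lq_Unram W p q → W.IsResiduallyModularOfLevel p M →
    (∀ r : ℕ, r.Prime → r ≠ p → r ∣ M → s59lq_Unram W p r → s59lq_IsTrivialPrime W p r) →
    ∀ (Y : s59lk_KSetupW W p M) (h : ℕ), Nonempty (S59btrHeckeData Y h)

/-- the twin implies the original -/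
theorem s59btr_heckeW (p : ℕ) (H : S59btrStmtHecke p) : StmtHeckeW p := by
  intro _ W M q _ hΔ hss hirr hsq hpM hq hqp hqM hunr hmod htriv Y h
  obtain ⟨X⟩ := H W M q hΔ hss hirr hsq hpM hq hqp hqM hunr hmod htriv Y h
  exact ⟨X.D⟩

/-- **HECKE-final for `W`, with the base traces** (the proof of `rthk_finalW`, with
`s59btr_absL`, `s59btr_down`, `s59btr_pack_std` in the place of `stmtHkAbsLW`, `rthk_d_out`,
`stmtHkPackW`). -/
theorem s59btr_final (p : ℕ) (hcheb : Cheb.WeakChebotarev) (hB : StmtHkAbsBW p)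
    (hRes : StmtHkResW p) (hMod : StmtHkModSideW p) : S59btrStmtHecke p := by
  intro _ W M q _ hΔ hss hirr hsq hpM hq hqp hqM hunr hmod htriv Y h
  obtain ⟨⟨σ₀, τ₀, hξ⟩, hunip⟩ := hRes W M Y
  obtain ⟨d, hd, S', hpS', hNS', 𝕋₀, i1, J₀, i2, i3, i4, Tr₀, Φ0, hbase, hlev⟩ :=
    hMod W M q hΔ hss hirr hsq hpM hq hqp hqM hunr hmod htriv Y h
  obtain ⟨B⟩ := hB hcheb W M Y d hd σ₀ τ₀ hξ S' hpS' hNS' 𝕋₀ J₀ Tr₀ Φ0 hbase
  have key : ∀ (n : ℕ) (qv : Fin h → ℕ),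
      IsTWFamily p Y.ρbar (Y.Smin ∪ Finset.univ.image Y.r) n h qv →
      ∃ (A : Type) (_ : CommRing A) (_ : IsLocalRing A) (_ : Algebra Y.O A)
        (ιA : ResidueField Y.O →+* ResidueField A) (ρ : GaloisRepAdic A)
        (b : Module.Basis (Fin 2) A ρ.V) (β βi : ℕ → Matrix (Fin 2) (Fin 2) A)
        (π1 πχ : A →ₐ[Y.O] Matrix (Fin d) (Fin d)
          (RttwS Y.O (Y.m h) ⧸ maximalIdeal (RttwS Y.O (Y.m h)) ^ n)),
        TWGal p Y.ρbar Y.Smin (Finset.univ.image qv) Y.r Y.σ Y.φ Y.tχ Y.lam (Y.m h) d B.j0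
          (fun i => LinearMap.toMatrix B.b0 B.b0 (B.ρ0.ρ (Y.σ i)))
          (fun i => LinearMap.toMatrix B.b0 B.b0 (B.ρ0.ρ (Y.φ i))) n
          (rttwEvenQ Y.O (Y.m h) h n) ιA ρ b β βi π1 πχ ∧
        S59btrBaseTr (Y.m h) d n B.j0 B.ρ0 ρ π1 := by
    intro n qv hqv
    obtain ⟨L, 𝕋, j1, J, j2, j3, j4, Tr, Φ1, Φχ, hlevel, hUJ⟩ := hlev n qv hqv
    have htrace : ∀ ℓ : ℕ, ℓ.Prime → ℓ ∉ S' →
        ∀ A : ValuationSubring (AlgebraicClosure ℚ), A.LiesOverPrime ℓ →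
          ∀ τ : GQ, A.IsFrobeniusAt τ ℓ →
            B.j0 (LinearMap.trace B.T0 B.ρ0.V (B.ρ0.ρ τ)) = Φ0 (Tr₀ ℓ) := by
      intro ℓ hℓ hℓS A hA τ hτ
      have h1 := B.hfrob ⟨ℓ, hℓ⟩ hℓS A hA τ hτ
      rw [Fermat.Agent.S31.trace_of_charpoly B.ρ0.finrank_eq (B.ρ0.ρ τ) _ _ h1]
      exact B.ha0 ⟨ℓ, hℓ⟩ hℓS
    obtain ⟨A₀, k1, k2, k3, ιA, ρ, b, φ1, φχ, hout, hbt⟩ :=
      s59btr_absL hcheb p Y.hyp.hp2 Y.O Y.lam Y.half Y.hlam Y.hyp.hp𝒪 (rthk_f_halfW Y) Y.ρbar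
        Y.hyp.habs Y.hyp.hdet Y.Smin (Finset.univ.image qv ∪ Finset.univ.image Y.r)
        (fun r _ hrp hrne => hunip r hrp hrne)
        Y.ι Y.σ Y.φ Y.tχ (Y.m h) h d (n + 1) hd (Nat.succ_pos n) σ₀ τ₀ hξ B.T0 B.j0 B.ρ0 B.b0
        B.u0 B.hdet0 B.hmat B.hu0 S' (fun ℓ => Φ0 (Tr₀ ℓ)) htrace L 𝕋 J Tr Φ1 Φχ hlevel hUJ
    have hdown := rthk_d_out (n := n) (Nat.le_succ n) hout
    have hbdown := s59btr_down (n := n) (Nat.le_succ n) hbt
    exact s59btr_pack_std p Y.lam Y.ρbar Y.hyp.habs Y.Smin (Finset.univ.image qv) Y.r Y.r_inj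
      Y.σ Y.φ Y.tχ h d n B.j0 B.ρ0 _ _ ιA ρ b _ _ hdown hbdown
  refine ⟨{ D := { d := d, hd := hd, T0 := B.T0, j0 := B.j0, hj0 := B.hj0, ρ0 := B.ρ0,
                   b0 := B.b0, hdet0 := B.hdet0, ι0 := B.ι0, hres0 := B.hres0,
                   habs0 := B.habs0, S' := S', hpS' := B.hpS', hNS' := B.hNS', a := B.a,
                   hocc := B.hocc, hcong := B.hcong, hfrob := B.hfrob, level := ?_ }
            levelB := key }⟩
  intro n qv hqv
  obtain ⟨A, c1, c2, c3, ιA, ρ, b, β, βi, π1, πχ, hT, -⟩ := key n qv hqv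
  exact ⟨A, c1, c2, c3, ιA, ρ, b, β, βi, π1, πχ, hT⟩

/-- **HECKE-asm for `W` with the base traces**, from HK-ABS-B and the module side (the twin of
`rthk_final_instW`). -/
theorem s59btr_final_inst (p : ℕ) (hB : StmtHkAbsBW p) (hMod : StmtHkModSideW p) :
    S59btrStmtHecke p :=
  s59btr_final p Fermat.Agent.Cheb.weakChebotarev_holds hB (stmtHkResW p) hMod

/-- **HECKE-asm for `W` with the base traces**, from the concrete contract (the twin of
`rthkct_hecke_instW`). -/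
theorem s59btr_hecke_inst (p : ℕ) (hB : StmtHkAbsBW p) (hTop : StmtHkConcTopW p) :
    S59btrStmtHecke p :=
  s59btr_final_inst p hB (rthkct_modSideW p hTop)

end Fermat.Agent.S59.LowK

end
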