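/-
S59, wall R1 (helper34): R1-BASETR, step 1 of the plumbing.

The Galois side of a Taylor–Wiles level (`RT.HkOut`, then `Prod.TWGal`) records of the base only
`base_T0 : ∀ u, ∃ t0, (φ1 u mod 𝔞) = j0 t0`.  The patching argument of R1 (`s59minasm_lev`,
hypothesis `hbase`) needs the EXACT base value at the traces:

  `S59btrBaseTr` : `(φ1 (tr ρ g)) mod 𝔞 = j0 (tr ρ0 g)` for every `g`.

This is proved INSIDE `stmtHkAbsLW_of` (`S59/LowK/AbsLW.lean`, the `have hcompat`) but not exported.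
Here: the same theorem with the extra conjunct (`s59btr_absL`); the proof is the proof of
`stmtHkAbsLW_of`, verbatim, with `hcompat` returned.  Nothing landed is edited.
-/
import Fermat.Agent.S59.LowK.AbsLW

set_option autoImplicit false
set_option linter.unusedSectionVars false
set_option linter.unusedVariables false
set_option linter.style.haveILetI false
set_option linter.style.longLine false
set_option maxHeartbeats 1000000

namespace Fermat.Agent.S59.LowK

open IsLocalRing Fermat.Agent.ES Fermat.Agent.S30 Fermat.Agent.W1 Fermat.Agent.TW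
open Fermat.Agent.RT Fermat.Agent.RT.Prod ExtCitation

/-- **Base-trace compatibility** at level `n`: modulo the augmentation ideal `𝔞` the action `φ1`
of the trace of `ρ` is the base action `j0` of the trace of the base representation `ρ0`. -/
def S59btrBaseTr {O : Type} [CommRing O] [IsLocalRing O] (m d n : ℕ)
    {T0 : Type} [CommRing T0] [IsLocalRing T0] [Algebra O T0]
    (j0 : T0 →ₐ[O] Matrix (Fin d) (Fin d) O) (ρ0 : GaloisRepAdic T0)
    {A : Type} [CommRing A] [IsLocalRing A] [Algebra O A] (ρ : GaloisRepAdic A)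
    (φ1 : A →ₐ[O] Matrix (Fin d) (Fin d) (RthkSn O m n)) : Prop :=
  ∀ g : GQ, (φ1 (LinearMap.trace A ρ.V (ρ.ρ g))).map (Ideal.Quotient.factor
        (le_sup_right : maximalIdeal (RttwS O m) ^ n ≤
          rttwAug O m ⊔ maximalIdeal (RttwS O m) ^ n)) =
      rttwBaseRed m d n (j0 (LinearMap.trace T0 ρ0.V (ρ0.ρ g)))

/-- **HK-ABS-L for a general `Smin`, with the base traces** (the statement of `StmtHkAbsLW` with
the extra conjunct `S59btrBaseTr`). -/
def S59btrStmtAbsL : Prop :=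
  Cheb.WeakChebotarev →
  ∀ (p : ℕ) [Fact p.Prime], p ≠ 2 →
  ∀ (O : Type) [CommRing O] [IsDomain O] [IsDiscreteValuationRing O]
    [IsAdicComplete (maximalIdeal O) O] [Finite (ResidueField O)]
    (lam half : O), maximalIdeal O = Ideal.span {lam} → (p : O) ∈ maximalIdeal O →
    2 * half = 1 →
  ∀ (ρbar : ResidualGaloisRep (ResidueField O)), ρbar.IsAbsolutelyIrreducible →
    (GaloisRepAdic.ofResidualGaloisRep ρbar).DetIsCyclotomic p →
  ∀ (Smin QT : Finset ℕ),
    (∀ q ∈ Smin, q.Prime → q ≠ p →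
      ∀ P : ValuationSubring (AlgebraicClosure ℚ), P.LiesOverPrime q →
        ∀ s ∈ P.inertiaSubgroupIn ℚ,
          LinearMap.charpoly (ρbar.ρ s) = (Polynomial.X - 1) ^ 2) →
  ∀ (ι : Type) [Fintype ι] (σ φ : ι → GQ) (tχ : ι → O) (m h d n : ℕ), 0 < d → 0 < n →
  ∀ (σ₀ τ₀ : GQ),
    rtk7Xi (fun g => LinearMap.trace (ResidueField O) ρbar.V (ρbar.ρ g)) complexConjugation
      (residue O half) σ₀ τ₀ ≠ 0 →
  ∀ (T0 : Type) [CommRing T0] [IsLocalRing T0] [Algebra O T0] [Module.Finite O T0]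
    (j0 : T0 →ₐ[O] Matrix (Fin d) (Fin d) O) (ρ0 : GaloisRepAdic T0)
    (b0 : Module.Basis (Fin 2) T0 ρ0.V) (u0 : T0),
    ρ0.DetIsCyclotomic p →
    (∀ g, LinearMap.toMatrix b0 b0 (ρ0.ρ g) =
      rtk7Mat (fun g => LinearMap.trace T0 ρ0.V (ρ0.ρ g)) complexConjugation
        (algebraMap O T0 half) σ₀ τ₀ u0 g) →
    u0 * rtk7Xi (fun g => LinearMap.trace T0 ρ0.V (ρ0.ρ g)) complexConjugation
        (algebraMap O T0 half) σ₀ τ₀ = 1 →
  ∀ (S' : Finset ℕ) (a0 : ℕ → Matrix (Fin d) (Fin d) O),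
    (∀ ℓ : ℕ, ℓ.Prime → ℓ ∉ S' →
      ∀ P : ValuationSubring (AlgebraicClosure ℚ), P.LiesOverPrime ℓ →
        ∀ τ : GQ, P.IsFrobeniusAt τ ℓ → j0 (LinearMap.trace T0 ρ0.V (ρ0.ρ τ)) = a0 ℓ) →
  ∀ (L : ℕ) (𝕋 : Type) [CommRing 𝕋] (J : Type) [AddCommGroup J] [Module 𝕋 J]
    [DistribMulAction GQ J] (Tr : ℕ → 𝕋)
    (Φ1 Φχ : 𝕋 →+* Matrix (Fin d) (Fin d) (RthkSn O m n)),
    HkLevel p lam ρbar (Smin ∪ QT) σ tχ m h d n a0 L J Tr Φ1 Φχ →
    HkUnipJ p Smin J →
    ∃ (A₀ : Type) (_ : CommRing A₀) (_ : IsLocalRing A₀) (_ : Algebra O A₀)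
      (ιA : ResidueField O →+* ResidueField A₀) (ρ : GaloisRepAdic A₀)
      (b : Module.Basis (Fin 2) A₀ ρ.V)
      (φ1 φχ : A₀ →ₐ[O] Matrix (Fin d) (Fin d) (RthkSn O m n)),
      HkOut p lam ρbar Smin QT σ φ tχ m h d n j0
        (fun i => LinearMap.toMatrix b0 b0 (ρ0.ρ (σ i)))
        (fun i => LinearMap.toMatrix b0 b0 (ρ0.ρ (φ i))) ιA ρ b φ1 φχ ∧
      S59btrBaseTr m d n j0 ρ0 ρ φ1

/-- **HK-ABS-L for a general `Smin`, with the base traces**, from the sub-pieces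
(the proof of `stmtHkAbsLW_of`; the extra conjunct is its internal `hcompat`). -/
theorem s59btr_absL_of (hRes : StmtHkLRes) (hTr : StmtHkLTrCont) (hPow : StmtHkLPowLe)
    (hNil : StmtHkLNilp) : S59btrStmtAbsL := by
  intro hcheb p _ hp2 O _ _ _ _ _ lam half hlam hpO hhalf ρbar habs hdetbar Smin QT hSmin ι _ σ φ
    tχ m h d n hd hn σ₀ τ₀ hξ T0 _ _ _ _ j0 ρ0 b0 u0 hdet0 hmat0 hu0 S' a0 ha0 L 𝕋 _ J _ _ _ Tr
    Φ1 Φχ HL hUJ
  classical
  have hpp : p.Prime := Fact.out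
  -- the ring
  have hSnfin : Finite (RthkSn O m n) := rthk_l_sn_finite O m n
  have hSnnt : Nontrivial (RthkSn O m n) := rthk_l_sn_nontrivial O m n hn
  haveI : Nonempty (Fin d) := ⟨⟨0, hd⟩⟩
  have hpair : ∀ (x : 𝕋) (c : O),
      IsNilpotent (Φ1 x - algebraMap O (Matrix (Fin d) (Fin d) (RthkSn O m n)) c) →
      IsNilpotent (Φχ x - algebraMap O (Matrix (Fin d) (Fin d) (RthkSn O m n)) c) →
      IsNilpotent ((Φ1.prod Φχ) x
        - algebraMap O (Matrix (Fin d) (Fin d) (RthkSn O m n) ×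
          Matrix (Fin d) (Fin d) (RthkSn O m n)) c) := by
    rintro x c ⟨k1, h1⟩ ⟨k2, h2⟩
    refine ⟨k1 + k2, Prod.ext ?_ ?_⟩
    · show (Φ1 x - algebraMap O _ c) ^ (k1 + k2) = 0
      rw [pow_add, h1, zero_mul]
    · show (Φχ x - algebraMap O _ c) ^ (k1 + k2) = 0
      rw [pow_add, h2, mul_zero]
  have hnilΨ : ∀ x : 𝕋, ∃ c : O, IsNilpotent ((Φ1.prod Φχ) x
      - algebraMap O (Matrix (Fin d) (Fin d) (RthkSn O m n) ×
          Matrix (Fin d) (Fin d) (RthkSn O m n)) c) := by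
    intro x
    obtain ⟨c, h1, h2⟩ := HL.nil x
    exact ⟨c, hpair x c h1 h2⟩
  have hlamΨ : ∀ c ∈ maximalIdeal O, IsNilpotent (algebraMap O
      (Matrix (Fin d) (Fin d) (RthkSn O m n) × Matrix (Fin d) (Fin d) (RthkSn O m n)) c) := by
    intro c hc
    refine ⟨n, Prod.ext ?_ ?_⟩
    · exact rthk_l_mat_pow m n _ le_rfl d c hc
    · exact rthk_l_mat_pow m n _ le_rfl d c hc
  obtain ⟨A₀, _, _, _, φA, π, hfin, hφinj, hφπ, hgen, hlh, hsurj, hmem, hmemπ⟩ :=
    rthk_l_ring O (Matrix (Fin d) (Fin d) (RthkSn O m n) × Matrix (Fin d) (Fin d) (RthkSn O m n))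
      𝕋 (Φ1.prod Φχ) hnilΨ hlamΨ
  have hπ1 : ∀ x, (φA (π x)).1 = Φ1 x := fun x => by rw [hφπ]; rfl
  have hπχ : ∀ x, (φA (π x)).2 = Φχ x := fun x => by rw [hφπ]; rfl
  haveI : IsLocalHom (algebraMap O A₀) := hlh
  have hmO : ∀ c ∈ maximalIdeal O, algebraMap O A₀ c ∈ maximalIdeal A₀ := by
    intro c hc
    rw [hmem, ← IsNilpotent.map_iff (f := φA) hφinj, AlgHom.commutes]
    exact hlamΨ c hc
  have hpA : (p : A₀) ∈ maximalIdeal A₀ := by
    have := hmO (p : O) hpO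
    rwa [map_natCast] at this
  have hi2 : 2 * algebraMap O A₀ half = 1 := by
    rw [← map_ofNat (algebraMap O A₀) 2, ← map_mul, hhalf, map_one]
  -- faithfulness
  have hfaith : ∃ n₀ : ℕ, ∀ h ∈ (⊤ : Subring 𝕋),
      (∀ x : J, p ^ n₀ • x = 0 → h • x = 0) → π h = 0 := by
    obtain ⟨n₀, hn₀⟩ := HL.faith
    refine ⟨n₀, fun h _ hh => ?_⟩
    obtain ⟨e1, e2⟩ := hn₀ h hh
    apply hφinj
    rw [hφπ, map_zero]
    exact Prod.ext e1 e2
  -- the residual representation
  obtain ⟨hR1, hR2, hR3, hR4⟩ := hRes (ResidueField O) (ResidueField A₀)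
    (ResidueField.map (algebraMap O A₀)) ρbar
  have hιA : ∀ x : O, ResidueField.map (algebraMap O A₀) (residue O x)
      = residue A₀ (algebraMap O A₀ x) := fun x => rfl
  have hirr := hR1 habs
  have hp0 : (p : ResidueField O) = 0 := by
    have h1 := hdetbar.1
    have hbot : maximalIdeal (ResidueField O) = ⊥ :=
      (Ideal.eq_bot_or_top _).resolve_right (Ideal.IsMaximal.ne_top inferInstance)
    rw [hbot, Ideal.mem_bot] at h1
    exact h1
  have hdet' : ∀ (σ : GQ) (a : ℕ), (∀ μ : AlgebraicClosure ℚ, μ ^ p = 1 → σ μ = μ ^ a) →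
      LinearMap.det ((ρbar.baseChangeAlong (ResidueField.map (algebraMap O A₀))).ρ σ)
        = (a : ResidueField A₀) := by
    intro σ a ha
    have h1 := hdetbar.2 1 σ a (fun μ hμ => ha μ (by rwa [pow_one] at hμ))
    rw [pow_one, hp0, Ideal.span_singleton_eq_bot.mpr rfl, Ideal.mem_bot, sub_eq_zero] at h1
    rw [hR3]
    have h2 : LinearMap.det (ρbar.ρ σ) = (a : ResidueField O) := h1
    rw [h2, map_natCast]
  have hunitO : ∀ c : O, IsNilpotent (algebraMap O (Matrix (Fin d) (Fin d) (RthkSn O m n)) c) →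
      c ∈ maximalIdeal O := by
    intro c hc
    rw [mem_maximalIdeal]
    intro hcu
    exact hc.not_isUnit (hcu.map _)
  have hfrob' : ∀ ℓ : ℕ, ℓ.Prime → ℓ ∉ Smin ∪ QT →
      ∀ P : ValuationSubring (AlgebraicClosure ℚ), P.LiesOverPrime ℓ →
        ∀ τ : GQ, P.IsFrobeniusAt τ ℓ →
          residue A₀ (π (Tr ℓ)) = LinearMap.trace (ResidueField A₀)
            (ρbar.baseChangeAlong (ResidueField.map (algebraMap O A₀))).V
            ((ρbar.baseChangeAlong (ResidueField.map (algebraMap O A₀))).ρ τ) := by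
    intro ℓ hℓ hℓS P hP τ hτ
    obtain ⟨c, hc, hcn⟩ := HL.resid ℓ hℓ (HL.primes ℓ hℓ hℓS) P hP τ hτ
    obtain ⟨c', hc1, hc2⟩ := HL.nil (Tr ℓ)
    have hcc : c' - c ∈ maximalIdeal O := by
      apply hunitO
      have e : algebraMap O (Matrix (Fin d) (Fin d) (RthkSn O m n)) (c' - c)
          = (Φ1 (Tr ℓ) - algebraMap O _ c) - (Φ1 (Tr ℓ) - algebraMap O _ c') := by
        rw [map_sub]; abel
      rw [e]
      refine Commute.isNilpotent_sub ?_ hcn hc1
      exact Commute.sub_left ((Commute.refl _).sub_right (Algebra.commute_algebraMap_right c' _))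
        (Algebra.commute_algebraMap_left c _)
    have h1 : π (Tr ℓ) - algebraMap O A₀ c ∈ maximalIdeal A₀ := by
      have e : π (Tr ℓ) - algebraMap O A₀ c
          = (π (Tr ℓ) - algebraMap O A₀ c') + algebraMap O A₀ (c' - c) := by
        rw [map_sub]; ring
      rw [e]
      exact Ideal.add_mem _ (hmemπ (Tr ℓ) c' (hpair _ _ hc1 hc2)) (hmO _ hcc)
    have h2 := (residue_eq_zero_iff _).mpr h1
    rw [map_sub, sub_eq_zero] at h2
    rw [h2, ← hιA, hc, hR2]
  have hξ' : rtk7Xi (fun g => LinearMap.trace (ResidueField A₀)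
        (ρbar.baseChangeAlong (ResidueField.map (algebraMap O A₀))).V
        ((ρbar.baseChangeAlong (ResidueField.map (algebraMap O A₀))).ρ g)) complexConjugation
      (residue A₀ (algebraMap O A₀ half)) σ₀ τ₀ ≠ 0 := by
    have e : (fun g => LinearMap.trace (ResidueField A₀)
        (ρbar.baseChangeAlong (ResidueField.map (algebraMap O A₀))).V
        ((ρbar.baseChangeAlong (ResidueField.map (algebraMap O A₀))).ρ g))
        = fun g => ResidueField.map (algebraMap O A₀)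
            (LinearMap.trace (ResidueField O) ρbar.V (ρbar.ρ g)) := funext hR2
    rw [e, ← hιA, ← rtk7m_map_Xi]
    exact (map_ne_zero _).mpr hξ
  obtain ⟨t, u, ρ, b, hu, hmat, htr, htfrob, hexact, hrest, hdetcyc, hann, hflat, hunr, hresid⟩ :=
    stmtK7Main hcheb p L hp2 𝕋 J Tr HL.pkg (Smin ∪ QT) HL.primes ⊤
      (fun _ _ _ => Subring.mem_top _) HL.model A₀ hpA (algebraMap O A₀ half) hi2 π hfaith
      (ρbar.baseChangeAlong (ResidueField.map (algebraMap O A₀))) hirr hdet' hfrob' σ₀ τ₀ hξ'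
  have hfinI : Finite A₀ := hfin
  -- `t` is the trace
  have htA : t = fun g => LinearMap.trace A₀ ρ.V (ρ.ρ g) := funext fun g => (htr g).symm
  -- `A₀` is generated by the traces
  have hπmem : ∀ x : 𝕋, π x ∈ Algebra.adjoin O {y | ∃ g, y = LinearMap.trace A₀ ρ.V (ρ.ρ g)} := by
    intro x
    have hx : x ∈ Subring.closure {x : 𝕋 | ∃ g : GQ,
        ∀ k, Rtk7bApprox p J (fun n g => ((cycE p n g : ℕ) : 𝕋)) k g x} :=
      HL.gen ▸ Subring.mem_top x
    induction hx using Subring.closure_induction with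
    | mem x hx =>
      obtain ⟨g, hg⟩ := hx
      rw [← hexact g x (Subring.mem_top _) hg, ← htr g]
      exact Algebra.subset_adjoin ⟨g, rfl⟩
    | zero => rw [map_zero]; exact zero_mem _
    | one => rw [map_one]; exact one_mem _
    | add x y _ _ hx hy => rw [map_add]; exact add_mem hx hy
    | neg x _ hx => rw [map_neg]; exact neg_mem hx
    | mul x y _ _ hx hy => rw [map_mul]; exact mul_mem hx hy
  have hgenT : Algebra.adjoin O {y | ∃ g, y = LinearMap.trace A₀ ρ.V (ρ.ρ g)} = ⊤ := by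
    rw [eq_top_iff, ← hgen]
    refine Algebra.adjoin_le ?_
    rintro _ ⟨x, rfl⟩
    exact hπmem x
  -- the two homomorphisms to `M_d(S ⧸ (𝔞 ⊔ 𝔪 ^ n))`
  have hfac : ∀ r : O, Ideal.Quotient.factor
        (le_sup_right : maximalIdeal (RttwS O m) ^ n ≤
          rttwAug O m ⊔ maximalIdeal (RttwS O m) ^ n)
        (algebraMap O (RthkSn O m n) r)
      = algebraMap O (RttwS O m ⧸ (rttwAug O m ⊔ maximalIdeal (RttwS O m) ^ n)) r :=
    fun r => rfl
  have hfR_alg : ∀ r : O,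
      ((RingHom.mapMatrix (Ideal.Quotient.factor
        (le_sup_right : maximalIdeal (RttwS O m) ^ n ≤
          rttwAug O m ⊔ maximalIdeal (RttwS O m) ^ n))).comp
        (((AlgHom.fst O _ _).comp φA : A₀ →ₐ[O] Matrix (Fin d) (Fin d) (RthkSn O m n)) :
          A₀ →+* Matrix (Fin d) (Fin d) (RthkSn O m n))) (algebraMap O A₀ r)
      = algebraMap O (Matrix (Fin d) (Fin d)
          (RttwS O m ⧸ (rttwAug O m ⊔ maximalIdeal (RttwS O m) ^ n))) r := by
    intro r
    rw [RingHom.comp_apply, RingHom.coe_coe, AlgHom.commutes]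
    exact rthk_l_map_algebraMap _ hfac d r
  have hgR_alg : ∀ r : O,
      ((RingHom.mapMatrix (algebraMap O
          (RttwS O m ⧸ (rttwAug O m ⊔ maximalIdeal (RttwS O m) ^ n)))).comp
        (j0 : T0 →+* Matrix (Fin d) (Fin d) O)) (algebraMap O T0 r)
      = algebraMap O (Matrix (Fin d) (Fin d)
          (RttwS O m ⧸ (rttwAug O m ⊔ maximalIdeal (RttwS O m) ^ n))) r := by
    intro r
    rw [RingHom.comp_apply, RingHom.coe_coe, AlgHom.commutes]
    exact rthk_l_map_algebraMap _ (fun _ => rfl) d r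
  -- the traces are compatible
  have hi2₀ : 2 * algebraMap O T0 half = 1 := by
    rw [← map_ofNat (algebraMap O T0) 2, ← map_mul, hhalf, map_one]
  have hlamO : lam ∈ maximalIdeal O := by
    rw [hlam]
    exact Ideal.subset_span rfl
  have hcompat : ∀ x : GQ,
      ((RingHom.mapMatrix (Ideal.Quotient.factor
        (le_sup_right : maximalIdeal (RttwS O m) ^ n ≤
          rttwAug O m ⊔ maximalIdeal (RttwS O m) ^ n))).comp
        (((AlgHom.fst O _ _).comp φA : A₀ →ₐ[O] Matrix (Fin d) (Fin d) (RthkSn O m n)) :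
          A₀ →+* Matrix (Fin d) (Fin d) (RthkSn O m n)))
        (LinearMap.trace A₀ ρ.V (ρ.ρ x))
      = ((RingHom.mapMatrix (algebraMap O
          (RttwS O m ⧸ (rttwAug O m ⊔ maximalIdeal (RttwS O m) ^ n)))).comp
        (j0 : T0 →+* Matrix (Fin d) (Fin d) O)) (LinearMap.trace T0 ρ0.V (ρ0.ρ x)) := by
    refine rthk_c_trace' _ _ (LinearMap.det.comp ρ.ρ) (LinearMap.det.comp ρ0.ρ)
      (fun g => LinearMap.trace A₀ ρ.V (ρ.ρ g)) (fun g => LinearMap.trace T0 ρ0.V (ρ0.ρ g))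
      (rthk_l_trace_one ρ) (rthk_l_trace_pseudo ρ) (rthk_l_trace_one ρ0)
      (rthk_l_trace_pseudo ρ0) ?_ ?_ ((Smin ∪ QT) ∪ S') ?_ hcheb
    · intro σ'
      exact rthk_l_det_compat ρ ρ0 hdetcyc hdet0 _ _ n
        (rthk_l_mat_natCast m n _ le_sup_right d p hpO) σ'
    · obtain ⟨k, hk⟩ := hNil A₀
      obtain ⟨E₁, hE₁fin, hE₁⟩ := hTr A₀ ρ k
      obtain ⟨k', hk'⟩ := hPow O lam hlam T0 n
      obtain ⟨E₂, hE₂fin, hE₂⟩ := hTr T0 ρ0 k'
      obtain ⟨F, hFfin, -, hE₁F, hE₂F, -⟩ := Fermat.Agent.S31.exists_galois_hull E₁ E₂ E₁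
      refine ⟨F, hFfin, fun σ' hσ' x => ⟨?_, ?_⟩⟩
      · have h1 := hE₁ σ' (fun a ha => hσ' a (hE₁F ha)) x
        rw [hk, Ideal.mem_bot, sub_eq_zero] at h1
        rw [h1]
      · have h1 := hk' (hE₂ σ' (fun a ha => hσ' a (hE₂F ha)) x)
        obtain ⟨y, hy⟩ := Ideal.mem_span_singleton'.mp h1
        rw [← sub_eq_zero, ← map_sub, ← hy, map_mul, hgR_alg, map_pow,
          rthk_l_mat_pow m n _ le_sup_right d lam hlamO, mul_zero]
    · intro ℓ hℓ hℓS P hP τ hτ
      have hℓ1 : ℓ ∉ Smin ∪ QT := fun h => hℓS (Finset.mem_union_left _ h)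
      have hℓ2 : ℓ ∉ S' := fun h => hℓS (Finset.mem_union_right _ h)
      have e1 : ((RingHom.mapMatrix (Ideal.Quotient.factor
          (le_sup_right : maximalIdeal (RttwS O m) ^ n ≤
            rttwAug O m ⊔ maximalIdeal (RttwS O m) ^ n))).comp
          (((AlgHom.fst O _ _).comp φA : A₀ →ₐ[O] Matrix (Fin d) (Fin d) (RthkSn O m n)) :
            A₀ →+* Matrix (Fin d) (Fin d) (RthkSn O m n)))
          (LinearMap.trace A₀ ρ.V (ρ.ρ τ))
          = ((φA (π (Tr ℓ))).1).map (Ideal.Quotient.factor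
          (le_sup_right : maximalIdeal (RttwS O m) ^ n ≤
            rttwAug O m ⊔ maximalIdeal (RttwS O m) ^ n)) := by
        rw [htr, htfrob ℓ hℓ hℓ1 P hP τ hτ]
        rfl
      rw [e1, hπ1, HL.base ℓ hℓ (HL.primes ℓ hℓ hℓ1), ← ha0 ℓ hℓ hℓ2 P hP τ hτ]
      rfl
  have hcompatM : ∀ (x : GQ) (a c : Fin 2),
      ((φA (LinearMap.toMatrix b b (ρ.ρ x) a c)).1).map (Ideal.Quotient.factor
        (le_sup_right : maximalIdeal (RttwS O m) ^ n ≤
          rttwAug O m ⊔ maximalIdeal (RttwS O m) ^ n))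
      = rttwBaseRed m d n (j0 (LinearMap.toMatrix b0 b0 (ρ0.ρ x) a c)) := by
    intro x a c
    rw [hmat x, hmat0 x]
    have hu' : u * rtk7Xi (fun g => LinearMap.trace A₀ ρ.V (ρ.ρ g)) complexConjugation
        (algebraMap O A₀ half) σ₀ τ₀ = 1 := by rw [← htA]; exact hu
    have key := rthk_c_mat_of_trace _ _ (fun g => LinearMap.trace A₀ ρ.V (ρ.ρ g))
      (fun g => LinearMap.trace T0 ρ0.V (ρ0.ρ g)) complexConjugation hcompat
      (algebraMap O A₀ half) (algebraMap O T0 half) hi2 hi2₀ σ₀ τ₀ u u0 hu' hu0 x a c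
    rw [htA]
    exact key
  refine ⟨A₀, inferInstance, inferInstance, inferInstance, ResidueField.map (algebraMap O A₀), ρ,
    b, (AlgHom.fst O _ _).comp φA, (AlgHom.snd O _ _).comp φA, ?_, fun g => hcompat g⟩
  refine
    { finite := hfin
      resAlg := ⟨hlh, hsurj⟩
      hιA := hιA
      flat := ⟨⟨hdetcyc, hflat, fun q hq hqS => hunr q hq (HL.primes q hq hqS)⟩, ?_⟩
      ann := hann
      res := hresid
      gen := hgenT
      scalY1 := ?_
      scalYχ := ?_
      tr1 := ?_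
      trχ := ?_
      cong := ?_
      base_sig := fun i a c => hcompatM (σ i) a c
      base_phi := fun i a c => hcompatM (φ i) a c
      base_T0 := ?_ }
  · -- unipotent at the primes of `Smin`
    intro q hqS hq hqp
    by_cases hnd : p ∣ q ^ 2 - 1
    · -- the non-rigid primes: from the module side
      intro P hP s hs
      have happ : ∀ k, Rtk7bApprox p J (fun n g => ((cycE p n g : ℕ) : 𝕋)) k s 2 := by
        intro k x hx
        exact hkabslw_approx p hq hqp P hP s hs (hUJ q hqS hq hqp hnd P hP s hs) k x hx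
      have htr2 : LinearMap.trace A₀ ρ.V (ρ.ρ s) = 2 := by
        rw [htr, hexact s 2 (Subring.mem_top _) happ, map_ofNat]
      haveI : IsNoetherianRing A₀ := isNoetherian_of_finite A₀ A₀
      have hd1 : LinearMap.det (ρ.ρ s) = 1 := rtk7u_det_eq_one ρ hpp hq hqp hdetcyc P hP s hs
      rw [← rtk7u_mat_charpoly, Matrix.charpoly_fin_two, rtk7u_mat_det, hd1, rtk7u_mat_trace,
        htr2, map_ofNat, map_one]
      ring
    · -- the rigid primes: K7-U2
      have hun := hSmin q hqS hq hqp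
      refine stmtK7U2 p q hpp hq hqp hnd A₀ ρ hdetcyc ?_
      intro P hP s hs
      obtain ⟨e⟩ := hresid
      have hconj : (ρbar.baseChangeAlong (ResidueField.map (algebraMap O A₀))).ρ s
          = e.toLinearEquiv.conj (ρ.residual.ρ s) := by
        refine LinearMap.ext fun y => ?_
        rw [LinearEquiv.conj_apply, LinearMap.comp_apply, LinearMap.comp_apply,
          LinearEquiv.coe_coe, LinearEquiv.coe_coe, e.map_apply, LinearEquiv.apply_symm_apply]
      rw [← LinearEquiv.charpoly_conj e.toLinearEquiv, ← hconj, hR4, hun P hP s hs]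
      simp only [Polynomial.map_pow, Polynomial.map_sub, Polynomial.map_X, Polynomial.map_one]
  · intro j hj
    obtain ⟨g, x, -, e1, -⟩ := HL.trQ j hj
    refine ⟨π x ^ 2 - 4, ?_⟩
    rw [map_sub, map_pow, map_ofNat]
    exact (congrArg (fun z => z ^ 2 - 4) (hπ1 x)).trans e1
  · intro j hj
    obtain ⟨g, x, -, -, e2⟩ := HL.trQ j hj
    refine ⟨π x ^ 2 - 4, ?_⟩
    rw [map_sub, map_pow, map_ofNat]
    exact (congrArg (fun z => z ^ 2 - 4) (hπχ x)).trans e2
  · intro i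
    obtain ⟨x, hx, e1, -⟩ := HL.trT i
    rw [htr, hexact (σ i) x (Subring.mem_top _) hx]
    exact (hπ1 x).trans e1
  · intro i
    obtain ⟨x, hx, -, e2⟩ := HL.trT i
    rw [htr, hexact (σ i) x (Subring.mem_top _) hx]
    exact (hπχ x).trans e2
  · -- `cong`
    intro a
    refine rthk_l_ringHom_ext
      ((RingHom.mapMatrix (Ideal.Quotient.factor
        (le_sup_right : maximalIdeal (RttwS O m) ^ n ≤
          rttwLam m lam ⊔ maximalIdeal (RttwS O m) ^ n))).comp
        (((AlgHom.fst O _ _).comp φA : A₀ →ₐ[O] Matrix (Fin d) (Fin d) (RthkSn O m n)) :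
          A₀ →+* Matrix (Fin d) (Fin d) (RthkSn O m n)))
      ((RingHom.mapMatrix (Ideal.Quotient.factor
        (le_sup_right : maximalIdeal (RttwS O m) ^ n ≤
          rttwLam m lam ⊔ maximalIdeal (RttwS O m) ^ n))).comp
        (((AlgHom.snd O _ _).comp φA : A₀ →ₐ[O] Matrix (Fin d) (Fin d) (RthkSn O m n)) :
          A₀ →+* Matrix (Fin d) (Fin d) (RthkSn O m n)))
      (Set.range π) hgen ?_ ?_ a
    · intro r
      rw [RingHom.comp_apply, RingHom.comp_apply, RingHom.coe_coe, RingHom.coe_coe,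
        AlgHom.commutes, AlgHom.commutes]
    · rintro _ ⟨x, rfl⟩
      have := HL.cong x
      rw [← hπ1 x, ← hπχ x] at this
      exact this
  · -- `base_T0`
    intro a
    refine rthk_l_exists_of_gen
      ((RingHom.mapMatrix (Ideal.Quotient.factor
        (le_sup_right : maximalIdeal (RttwS O m) ^ n ≤
          rttwAug O m ⊔ maximalIdeal (RttwS O m) ^ n))).comp
        (((AlgHom.fst O _ _).comp φA : A₀ →ₐ[O] Matrix (Fin d) (Fin d) (RthkSn O m n)) :
          A₀ →+* Matrix (Fin d) (Fin d) (RthkSn O m n)))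
      ((RingHom.mapMatrix (algebraMap O
          (RttwS O m ⧸ (rttwAug O m ⊔ maximalIdeal (RttwS O m) ^ n)))).comp
        (j0 : T0 →+* Matrix (Fin d) (Fin d) O))
      {y | ∃ g, y = LinearMap.trace A₀ ρ.V (ρ.ρ g)} hgenT ?_ ?_ a
    · intro r
      rw [hfR_alg, hgR_alg]
    · rintro _ ⟨g, rfl⟩
      exact ⟨LinearMap.trace T0 ρ0.V (ρ0.ρ g), hcompat g⟩

/-- **HK-ABS-L for a general `Smin`, with the base traces**, UNCONDITIONAL. -/
theorem s59btr_absL : S59btrStmtAbsL :=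
  s59btr_absL_of stmtHkLRes stmtHkLTrCont stmtHkLPowLe stmtHkLNilp

/-- the twin implies the original -/
theorem s59btr_absL_weaken (H : S59btrStmtAbsL) : StmtHkAbsLW := by
  intro hcheb p _ hp2 O _ _ _ _ _ lam half hlam hpO hhalf ρbar habs hdetbar Smin QT hSmin ι _ σ φ
    tχ m h d n hd hn σ₀ τ₀ hξ T0 _ _ _ _ j0 ρ0 b0 u0 hdet0 hmat0 hu0 S' a0 ha0 L 𝕋 _ J _ _ _ Tr
    Φ1 Φχ HL hUJ
  obtain ⟨A₀, k1, k2, k3, ιA, ρ, b, φ1, φχ, hout, -⟩ :=
    H hcheb p hp2 O lam half hlam hpO hhalf ρbar habs hdetbar Smin QT hSmin ι σ φ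
      tχ m h d n hd hn σ₀ τ₀ hξ T0 j0 ρ0 b0 u0 hdet0 hmat0 hu0 S' a0 ha0 L 𝕋 J Tr Φ1 Φχ HL hUJ
  exact ⟨A₀, k1, k2, k3, ιA, ρ, b, φ1, φχ, hout⟩

end Fermat.Agent.S59.LowK
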