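/-
S59, wall R1 (helper34): R1-BASETR / TRQIN, the CONTRACT between the module side and the Galois
side for the inertia elements at the Taylor–Wiles primes (gap found by helper63).

`HkLevel.trQ` / `HkOut.scalY1` say `∃ g x, … Φ1 x ^ 2 - 4 = X_j ^ 2` with `g` ARBITRARY; R1-HENSEL
needs `g ∈ I_P`, `P ∣ q_j`.  Definitions only (light file):

* `S59btrTrQinLevel` : MODULE side: for every Taylor–Wiles index `j` an element `g` of an inertia
  group over `qv j` with an exact representative `x` such that `Φ1 x ^ 2 - 4 = X_j ^ 2`;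
* `S59btrTrQin`      : GALOIS side: the same with `φ1 (tr ρ g)` in the place of `Φ1 x`;
* `S59btrModSideAt`  : the body of `HkModSideAtW Y h` with the extra output `S59btrTrQinLevel`.
-/
import Fermat.Agent.S59.LowK.PlanW

set_option autoImplicit false
set_option linter.unusedSectionVars false
set_option linter.unusedVariables false
set_option linter.style.longLine false

namespace Fermat.Agent.S59.LowK

open IsLocalRing Fermat.Agent.ES Fermat.Agent.S30 Fermat.Agent.W1 Fermat.Agent.TW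
open Fermat.Agent.RT Fermat.Agent.RT.Prod Fermat.Agent.S59.LowQ ExtCitation

/-- **MODULE side, inertia at the Taylor–Wiles primes**: for every index `j < h` there are a place
`A` over `qv j`, an element `g` of its inertia group and an exact representative `x ∈ 𝕋` of `g`
with `Φ1 x ^ 2 - 4 = X_j ^ 2`. -/
def S59btrTrQinLevel {O : Type} [CommRing O] [IsLocalRing O] (p : ℕ) [Fact p.Prime]
    (m h d n : ℕ) (qv : Fin h → ℕ) {𝕋 : Type} [CommRing 𝕋] (J : Type) [AddCommGroup J]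
    [Module 𝕋 J] [DistribMulAction GQ J]
    (Φ1 : 𝕋 →+* Matrix (Fin d) (Fin d) (RthkSn O m n)) : Prop :=
  ∀ (j : Fin m) (hj : (j : ℕ) < h),
    ∃ (g : GQ) (A : ValuationSubring (AlgebraicClosure ℚ)) (x : 𝕋),
      A.LiesOverPrime (qv ⟨j, hj⟩) ∧ g ∈ A.inertiaSubgroupIn ℚ ∧
      (∀ k, Rtk7bApprox p J (fun n g => ((cycE p n g : ℕ) : 𝕋)) k g x) ∧
      Φ1 x ^ 2 - 4 = algebraMap (RthkSn O m n) (Matrix (Fin d) (Fin d) (RthkSn O m n))
        (Ideal.Quotient.mk _ (MvPowerSeries.X j) ^ 2)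

/-- **GALOIS side, inertia at the Taylor–Wiles primes**: for every index `j < h` there are a place
`A` over `qv j` and an element `g` of its inertia group with `φ1 (tr ρ g) ^ 2 - 4 = X_j ^ 2`. -/
def S59btrTrQin {O : Type} [CommRing O] [IsLocalRing O] (m h d n : ℕ) (qv : Fin h → ℕ)
    {A₀ : Type} [CommRing A₀] [IsLocalRing A₀] [Algebra O A₀] (ρ : GaloisRepAdic A₀)
    (φ1 : A₀ →ₐ[O] Matrix (Fin d) (Fin d) (RthkSn O m n)) : Prop :=
  ∀ (j : Fin m) (hj : (j : ℕ) < h),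
    ∃ (g : GQ) (A : ValuationSubring (AlgebraicClosure ℚ)),
      A.LiesOverPrime (qv ⟨j, hj⟩) ∧ g ∈ A.inertiaSubgroupIn ℚ ∧
      φ1 (LinearMap.trace A₀ ρ.V (ρ.ρ g)) ^ 2 - 4 =
        algebraMap (RthkSn O m n) (Matrix (Fin d) (Fin d) (RthkSn O m n))
          (Ideal.Quotient.mk _ (MvPowerSeries.X j) ^ 2)

/-- **The module side at one setup, with the inertia elements**: the body of `HkModSideAtW Y h`
(`S59/LowK/HeckeNW.lean`) with the extra output `S59btrTrQinLevel` at every level. -/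
def S59btrModSideAt {W : WeierstrassCurve ℤ} {p M : ℕ} [Fact p.Prime] [NeZero M]
    (Y : s59lk_KSetupW W p M) (h : ℕ) : Prop :=
    ∃ (d : ℕ) (_ : 0 < d) (S' : Finset ℕ) (_ : p ∈ S')
      (_ : ∀ ℓ : ℕ, ℓ.Prime → ℓ ∣ M → ℓ ∈ S')
      (𝕋₀ : Type) (_ : CommRing 𝕋₀) (J₀ : Type) (_ : AddCommGroup J₀) (_ : Module 𝕋₀ J₀)
      (_ : DistribMulAction GQ J₀) (Tr₀ : ℕ → 𝕋₀)
      (Φ0 : 𝕋₀ →+* Matrix (Fin d) (Fin d) Y.O),
      HkBase p Y.ρbar M S' d J₀ Tr₀ Φ0 ∧
      ∀ (n : ℕ) (qv : Fin h → ℕ),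
        IsTWFamily p Y.ρbar (Y.Smin ∪ Finset.univ.image Y.r) n h qv →
        ∃ (L : ℕ) (𝕋 : Type) (_ : CommRing 𝕋) (J : Type) (_ : AddCommGroup J)
          (_ : Module 𝕋 J) (_ : DistribMulAction GQ J) (Tr : ℕ → 𝕋)
          (Φ1 Φχ : 𝕋 →+* Matrix (Fin d) (Fin d) (RthkSn Y.O (Y.m h) (n + 1))),
          HkLevel p Y.lam Y.ρbar
            (Y.Smin ∪ (Finset.univ.image qv ∪ Finset.univ.image Y.r)) Y.σ Y.tχ (Y.m h) h d
            (n + 1) (fun ℓ => Φ0 (Tr₀ ℓ)) L J Tr Φ1 Φχ ∧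
          HkUnipJ p Y.Smin J ∧
          S59btrTrQinLevel p (Y.m h) h d (n + 1) qv J Φ1

end Fermat.Agent.S59.LowK
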