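/-
S59, wall R1 (helper34): R1-BASETR / TRQIN, Galois half, step 2: `rthk_d_out` and HECKE-PACK for the
inertia elements at the Taylor–Wiles primes.

* `s59btr_trQin_down` : `S59btrTrQin` at level `n'` gives it at level `n ≤ n'`;
* `s59btr_packX`      : the proof of `Prod.rtha_pack`, verbatim, which also returns the structure
                        map `ψ : A₀ → A` with `tr ρ = ψ (tr ρ₀)`, `π1 ∘ ψ = φ1`, `πχ ∘ ψ = φχ`
                        (so EVERY statement about `φ1 (tr ρ₀ g)` passes to `π1 (tr ρ g)`);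
* `s59btr_packQ_std`  : `HkOut`, `S59btrBaseTr`, `S59btrTrQin` over `A₀` ⇒
                        `∃ A …, TWGal ∧ S59btrBaseTr ∧ S59btrTrQin`, with `m = h + 4 |ι|`.
-/
import Fermat.Agent.S59.Min.BaseTrPack
import Fermat.Agent.S59.Min.BaseTrQDefs

set_option autoImplicit false
set_option linter.style.haveILetI false
set_option linter.unusedSectionVars false
set_option linter.unusedVariables false
set_option linter.style.longLine false

namespace Fermat.Agent.S59.LowK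

open IsLocalRing Fermat.Agent.TW Fermat.Agent.RT Fermat.Agent.RT.K1 Fermat.Agent.RT.Prod
  ExtCitation

section Pack

variable {O : Type} [CommRing O] [IsLocalRing O] {ι : Type} [Fintype ι]

/-- **`S59btrTrQin` at level `n'` gives `S59btrTrQin` at level `n ≤ n'`.** -/
theorem s59btr_trQin_down {m h d n n' : ℕ} (hn : n ≤ n') {qv : Fin h → ℕ}
    {A : Type} [CommRing A] [IsLocalRing A] [Algebra O A] {ρ : GaloisRepAdic A}
    {φ1 : A →ₐ[O] Matrix (Fin d) (Fin d) (RthkSn O m n')}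
    (H : S59btrTrQin m h d n' qv ρ φ1) :
    S59btrTrQin m h d n qv ρ ((rthkdProjM (O := O) m hn d).comp φ1) := by
  intro j hj
  obtain ⟨g, P, hP, hg, e⟩ := H j hj
  refine ⟨g, P, hP, hg, ?_⟩
  have e' := congrArg (rthkdProjM (O := O) m hn d) e
  rw [map_sub, map_pow, map_ofNat, rthkdProjM_scalar, map_pow, rthkdProj_mk] at e'
  rw [AlgHom.comp_apply]
  exact e'

variable {A₀ : Type} [CommRing A₀] [IsLocalRing A₀] [Algebra O A₀]

/-- **HECKE-PACK with the structure map.**  The proof of `Prod.rtha_pack`, verbatim, which in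
addition returns the structure map `ψ : A₀ → A = A₀[z] ⧸ (z) ^ (n + 1)` with
`tr ρ = ψ (tr ρ₀)`, `π1 ∘ ψ = φ1`, `πχ ∘ ψ = φχ`. -/
theorem s59btr_packX (p : ℕ) [Fact p.Prime] (lam : O) (ρbar : ResidualGaloisRep (ResidueField O))
    (habs : ρbar.IsAbsolutelyIrreducible)
    (Smin Q : Finset ℕ) (r : ι → ℕ) (hr : Function.Injective r) (σ φ : ι → RtpaG) (tχ : ι → O)
    (m h d n : ℕ) (ev : ι × Fin 4 → Fin m) (hev : ∀ j : Fin m, h ≤ (j : ℕ) → ∃ x, ev x = j)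
    {T0 : Type} [CommRing T0] [Algebra O T0] (j0 : T0 →ₐ[O] Matrix (Fin d) (Fin d) O)
    (Sig0 Phi0 : ι → Matrix (Fin 2) (Fin 2) T0)
    (ιA₀ : ResidueField O →+* ResidueField A₀)
    (ρ₀ : GaloisRepAdic A₀) (b₀ : Module.Basis (Fin 2) A₀ ρ₀.V)
    (φ1 φχ : A₀ →ₐ[O] Matrix (Fin d) (Fin d) (RthkSn O m n))
    (H : HkOut p lam ρbar Smin (Q ∪ Finset.univ.image r) σ φ tχ m h d n j0 Sig0 Phi0 ιA₀ ρ₀ b₀
      φ1 φχ) :
    ∃ (A : Type) (_ : CommRing A) (_ : IsLocalRing A) (_ : Algebra O A)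
      (ιA : ResidueField O →+* ResidueField A) (ρ : GaloisRepAdic A)
      (b : Module.Basis (Fin 2) A ρ.V) (β βi : ℕ → Matrix (Fin 2) (Fin 2) A)
      (π1 πχ : A →ₐ[O] Matrix (Fin d) (Fin d) (RttwS O m ⧸ maximalIdeal (RttwS O m) ^ n)),
      TWGal p ρbar Smin Q r σ φ tχ lam m d j0 Sig0 Phi0 n (rttwEvenQ O m h n) ιA ρ b β βi
        π1 πχ ∧
      ∃ ψ : A₀ →ₐ[O] A,
        (∀ g : RtpaG, LinearMap.trace A ρ.V (ρ.ρ g) = ψ (LinearMap.trace A₀ ρ₀.V (ρ₀.ρ g))) ∧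
        (∀ a, π1 (ψ a) = φ1 a) ∧ (∀ a, πχ (ψ a) = φχ a) := by
  classical
  haveI := H.finite
  have hN : n + 1 ≠ 0 := Nat.succ_ne_zero n
  have hψ : IsLocalHom ((IsScalarTower.toAlgHom O A₀ (RthaFr A₀ (ι × Fin 4) (n + 1)) :
      A₀ →ₐ[O] RthaFr A₀ (ι × Fin 4) (n + 1)) : A₀ →+* RthaFr A₀ (ι × Fin 4) (n + 1)) :=
    rtha_isLocalHom_algebraMap hN
  haveI hfinA : Finite (RthaFr A₀ (ι × Fin 4) (n + 1)) := rtha_finite
  have hres : Fermat.Agent.S53.IsResAlg O (RthaFr A₀ (ι × Fin 4) (n + 1)) :=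
    rtha_isResAlg n H.resAlg
  haveI : IsLocalHom (algebraMap O (RthaFr A₀ (ι × Fin 4) (n + 1))) := hres.isLocalHom
  have hιA : ∀ x : O, ResidueField.map (algebraMap O (RthaFr A₀ (ι × Fin 4) (n + 1)))
      (residue O x) = residue _ (algebraMap O (RthaFr A₀ (ι × Fin 4) (n + 1)) x) :=
    fun x => rfl
  have hv := rthl_prod_eq_zero' O m n (n + 1) (Nat.le_succ n) ev
  obtain ⟨π1, hπ1a, hπ1Z⟩ := rthl_exists_lift (N := n + 1) φ1
    (fun k : ι × Fin 4 => Ideal.Quotient.mk (maximalIdeal (RttwS O m) ^ n)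
      (MvPowerSeries.X (ev k))) hv
  obtain ⟨πχ, hπχa, hπχZ⟩ := rthl_exists_lift (N := n + 1) φχ
    (fun k : ι × Fin 4 => Ideal.Quotient.mk (maximalIdeal (RttwS O m) ^ n)
      (MvPowerSeries.X (ev k))) hv
  -- traces
  have htr : ∀ g : RtpaG, LinearMap.trace (RthaFr A₀ (ι × Fin 4) (n + 1))
      (rthbRep _ hψ ρ₀ b₀).V ((rthbRep _ hψ ρ₀ b₀).ρ g) =
        algebraMap A₀ (RthaFr A₀ (ι × Fin 4) (n + 1)) (LinearMap.trace A₀ ρ₀.V (ρ₀.ρ g)) :=
    fun g => rthb_trace _ hψ ρ₀ b₀ g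
  -- scalars
  have hscal : ∀ (π : RthaFr A₀ (ι × Fin 4) (n + 1) →ₐ[O] Matrix (Fin d) (Fin d)
      (RttwS O m ⧸ maximalIdeal (RttwS O m) ^ n))
      (φ' : A₀ →ₐ[O] Matrix (Fin d) (Fin d) (RthkSn O m n)),
      (∀ a, π (algebraMap A₀ (RthaFr A₀ (ι × Fin 4) (n + 1)) a) = φ' a) →
      (∀ k, π (rthaZ A₀ (n + 1) k) = algebraMap (RthkSn O m n) _
        (Ideal.Quotient.mk (maximalIdeal (RttwS O m) ^ n) (MvPowerSeries.X (ev k)))) →
      (∀ j : Fin m, (j : ℕ) < h → ∃ a : A₀,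
        φ' a = algebraMap (RthkSn O m n) (Matrix (Fin d) (Fin d) (RthkSn O m n))
          (Ideal.Quotient.mk _ (MvPowerSeries.X j) ^ 2)) →
      ∀ c ∈ rttwEvenQ O m h n, ∃ u : RthaFr A₀ (ι × Fin 4) (n + 1),
        π u = algebraMap _ (Matrix (Fin d) (Fin d)
          (RttwS O m ⧸ maximalIdeal (RttwS O m) ^ n)) c := by
    intro π φ' hπa hπZ hY c hc
    refine rtha_scal O m h n π ?_ c hc
    rintro y (⟨i, hi, rfl⟩ | ⟨j, hj, rfl⟩)
    · obtain ⟨a, ha⟩ := hY i hi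
      refine ⟨algebraMap A₀ _ a, ?_⟩
      rw [hπa, ha]
      congr 1
    · obtain ⟨x, rfl⟩ := hev j hj
      exact ⟨rthaZ A₀ (n + 1) x, hπZ x⟩
  -- the base
  have hbase : ∀ (i : ι) (g : RtpaG) (a c : Fin 2),
      (π1 (rtpaFr (rthbRep _ hψ ρ₀ b₀) (rthbBasis _ hψ ρ₀ b₀) (rthaBeta A₀ (n + 1) r)
        (fun ℓ => (rthaBeta A₀ (n + 1) r ℓ)⁻¹) (r i) g a c)).map (Ideal.Quotient.factor
        (le_sup_right : maximalIdeal (RttwS O m) ^ n ≤
          rttwAug O m ⊔ maximalIdeal (RttwS O m) ^ n)) =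
      (φ1 (LinearMap.toMatrix b₀ b₀ (ρ₀.ρ g) a c)).map (Ideal.Quotient.factor
        (le_sup_right : maximalIdeal (RttwS O m) ^ n ≤
          rttwAug O m ⊔ maximalIdeal (RttwS O m) ^ n)) := by
    intro i g a c
    rw [← hπ1a]
    refine rtha_kills' π1 ev hπ1Z _ _ ?_
    have h1 : (rthaAug (A₀ := A₀) (κ := ι × Fin 4) hN).toRingHom.mapMatrix
        (rtpaFr (rthbRep _ hψ ρ₀ b₀) (rthbBasis _ hψ ρ₀ b₀) (rthaBeta A₀ (n + 1) r)
          (fun ℓ => (rthaBeta A₀ (n + 1) r ℓ)⁻¹) (r i) g) =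
        LinearMap.toMatrix b₀ b₀ (ρ₀.ρ g) := by
      unfold rtpaFr
      rw [map_mul, map_mul, rthb_toMatrix]
      simp only []
      rw [rthaBeta_apply A₀ (n + 1) hr i, rthaAug_B_inv, rthaAug_B, one_mul, mul_one]
      ext a' c'
      rw [RingHom.mapMatrix_apply, Matrix.map_apply, Matrix.map_apply]
      exact rthaAug_algebraMap hN _
    have h2 := congrFun (congrFun h1 a) c
    rwa [RingHom.mapMatrix_apply, Matrix.map_apply] at h2
  refine ⟨RthaFr A₀ (ι × Fin 4) (n + 1), inferInstance, inferInstance, inferInstance,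
    ResidueField.map (algebraMap O (RthaFr A₀ (ι × Fin 4) (n + 1))),
    rthbRep _ hψ ρ₀ b₀, rthbBasis _ hψ ρ₀ b₀, rthaBeta A₀ (n + 1) r,
    fun ℓ => (rthaBeta A₀ (n + 1) r ℓ)⁻¹, π1, πχ, ?_,
    IsScalarTower.toAlgHom O A₀ (RthaFr A₀ (ι × Fin 4) (n + 1)), fun g => htr g,
    fun a => hπ1a a, fun a => hπχa a⟩
  refine
    { finite := hfinA
      resAlg := hres
      hιA := hιA
      flat := rthb_twFlat _ hψ ρ₀ b₀ p Smin _ H.flat H.ann
      res := rthb_res ρbar habs ιA₀ H.hιA _ hιA _ hψ ρ₀ b₀ H.res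
      framing := ?_
      gen := ?_
      scal1 := hscal π1 φ1 hπ1a hπ1Z H.scalY1
      scalχ := hscal πχ φχ hπχa hπχZ H.scalYχ
      tr1 := fun i => by rw [htr, hπ1a]; exact H.tr1 i
      trχ := fun i => by rw [htr, hπχa]; exact H.trχ i
      cong := ?_
      base_sig := fun i a c => (hbase i (σ i) a c).trans (H.base_sig i a c)
      base_phi := fun i a c => (hbase i (φ i) a c).trans (H.base_phi i a c)
      base_T0 := ?_ }
  · intro ℓ hℓ
    obtain ⟨i, -, rfl⟩ := Finset.mem_image.mp hℓ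
    show rthaBeta A₀ (n + 1) r (r i) * (rthaBeta A₀ (n + 1) r (r i))⁻¹ = 1 ∧
      ∀ a c, (rthaBeta A₀ (n + 1) r (r i) - 1) a c ∈ maximalIdeal _
    rw [rthaBeta_apply A₀ (n + 1) hr i]
    exact ⟨rthaB_mul_inv hN i, fun a c => rthaB_sub_one_mem n i a c⟩
  · rw [eq_top_iff, ← rtha_adjoin_eq_top (O := O) (A₀ := A₀) (κ := ι × Fin 4) (N := n + 1) _
      H.gen]
    refine Algebra.adjoin_le ?_
    rintro y (⟨t, ⟨g, rfl⟩, rfl⟩ | ⟨⟨i, k⟩, rfl⟩)
    · exact Algebra.subset_adjoin (Or.inl ⟨g, (htr g).symm⟩)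
    · obtain ⟨a, c, e, he, hZ⟩ := rthaZ_eq_entry (A₀ := A₀) (N := n + 1) i k
      rw [hZ]
      refine Subalgebra.sub_mem _ (Algebra.subset_adjoin (Or.inr ⟨r i,
        Finset.mem_image_of_mem r (Finset.mem_univ i), a, c, ?_⟩)) ?_
      · rw [rthaBeta_apply A₀ (n + 1) hr i]
      · rcases he with rfl | rfl
        · exact zero_mem _
        · exact one_mem _
  · intro u
    have hc := rtha_ringHom_ext
      ((RingHom.mapMatrix (Ideal.Quotient.factor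
        (le_sup_right : maximalIdeal (RttwS O m) ^ n ≤
          rttwLam m lam ⊔ maximalIdeal (RttwS O m) ^ n))).comp π1.toRingHom)
      ((RingHom.mapMatrix (Ideal.Quotient.factor
        (le_sup_right : maximalIdeal (RttwS O m) ^ n ≤
          rttwLam m lam ⊔ maximalIdeal (RttwS O m) ^ n))).comp πχ.toRingHom)
      (fun a => by
        have := H.cong a
        rw [← hπ1a, ← hπχa] at this
        exact this)
      (fun k => by
        have h1 := hπ1Z k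
        have h2 := hπχZ k
        show (π1 (rthaZ A₀ (n + 1) k)).map _ = (πχ (rthaZ A₀ (n + 1) k)).map _
        rw [h1, h2]) u
    exact hc
  · intro u
    obtain ⟨t0, ht0⟩ := H.base_T0 (rthaAug hN u)
    refine ⟨t0, ?_⟩
    rw [rtha_kills' π1 ev hπ1Z u _ rfl, hπ1a]
    exact ht0

/-- **HECKE-PACK with the base traces and the inertia elements**, with `m = h + 4 |ι|`. -/
theorem s59btr_packQ_std (p : ℕ) [Fact p.Prime] (lam : O)
    (ρbar : ResidualGaloisRep (ResidueField O)) (habs : ρbar.IsAbsolutelyIrreducible)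
    (Smin Q : Finset ℕ) (r : ι → ℕ) (hr : Function.Injective r) (σ φ : ι → RtpaG) (tχ : ι → O)
    (h d n : ℕ) (qv : Fin h → ℕ)
    {T0 : Type} [CommRing T0] [IsLocalRing T0] [Algebra O T0]
    (j0 : T0 →ₐ[O] Matrix (Fin d) (Fin d) O) (ρ0 : GaloisRepAdic T0)
    (Sig0 Phi0 : ι → Matrix (Fin 2) (Fin 2) T0)
    (ιA₀ : ResidueField O →+* ResidueField A₀)
    (ρ₀ : GaloisRepAdic A₀) (b₀ : Module.Basis (Fin 2) A₀ ρ₀.V)
    (φ1 φχ : A₀ →ₐ[O] Matrix (Fin d) (Fin d) (RthkSn O (h + 4 * Fintype.card ι) n))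
    (H : HkOut p lam ρbar Smin (Q ∪ Finset.univ.image r) σ φ tχ (h + 4 * Fintype.card ι) h d n
      j0 Sig0 Phi0 ιA₀ ρ₀ b₀ φ1 φχ)
    (HB : S59btrBaseTr (h + 4 * Fintype.card ι) d n j0 ρ0 ρ₀ φ1)
    (HQ : S59btrTrQin (h + 4 * Fintype.card ι) h d n qv ρ₀ φ1) :
    ∃ (A : Type) (_ : CommRing A) (_ : IsLocalRing A) (_ : Algebra O A)
      (ιA : ResidueField O →+* ResidueField A) (ρ : GaloisRepAdic A)
      (b : Module.Basis (Fin 2) A ρ.V) (β βi : ℕ → Matrix (Fin 2) (Fin 2) A)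
      (π1 πχ : A →ₐ[O] Matrix (Fin d) (Fin d)
        (RttwS O (h + 4 * Fintype.card ι) ⧸
          maximalIdeal (RttwS O (h + 4 * Fintype.card ι)) ^ n)),
      TWGal p ρbar Smin Q r σ φ tχ lam (h + 4 * Fintype.card ι) d j0 Sig0 Phi0 n
        (rttwEvenQ O (h + 4 * Fintype.card ι) h n) ιA ρ b β βi π1 πχ ∧
      S59btrBaseTr (h + 4 * Fintype.card ι) d n j0 ρ0 ρ π1 ∧
      S59btrTrQin (h + 4 * Fintype.card ι) h d n qv ρ π1 := by
  obtain ⟨A, c1, c2, c3, ιA, ρ, b, β, βi, π1, πχ, hT, ψ, htr, hπ1, hπχ⟩ :=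
    s59btr_packX p lam ρbar habs Smin Q r hr σ φ tχ (h + 4 * Fintype.card ι) h d n (rthaEv ι h)
      (rthaEv_surj h) j0 Sig0 Phi0 ιA₀ ρ₀ b₀ φ1 φχ H
  refine ⟨A, c1, c2, c3, ιA, ρ, b, β, βi, π1, πχ, hT, ?_, ?_⟩
  · intro g
    rw [htr, hπ1]
    exact HB g
  · intro j hj
    obtain ⟨g, P, hP, hg, e⟩ := HQ j hj
    refine ⟨g, P, hP, hg, ?_⟩
    rw [htr, hπ1]
    exact e

end Pack

end Fermat.Agent.S59.LowK
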