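/-
S59, wall R1 (helper34): R1-BASETR / TRQIN, Galois half, step 3: the Hecke side at ONE setup `Y`
(no prime `q`: twin of helper9's `rthk_final_atW`, `S59/LowK/HeckeNW.lean`) with the base traces
AND the inertia elements at the Taylor–Wiles primes.

* `S59btrHeckeDataQ Y h` : a `HeckeDataW Y h` together with levels
                           `TWGal ∧ S59btrBaseTr ∧ S59btrTrQin`;
* `s59btr_final_atQ`     : `S59btrModSideAt Y h → Nonempty (S59btrHeckeDataQ Y h)`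
                           (HK-ABS-B, HK-RES, weak Chebotarev as hypotheses);
* `s59btr_hecke_atQ`     : the same with the proved inputs filled in;
* `s59btr_modSideAt_weaken` : `S59btrModSideAt Y h → HkModSideAtW Y h`.

What the consumer (ASM-FEED) gets at every level `n` and every Taylor–Wiles family `qv`:
`(π1 (tr ρ g)) mod 𝔞 = j0 (tr ρ0 g)` for all `g`, and for every `j < h` an element `g_j` of an
inertia group over `qv j` with `π1 (tr ρ g_j) ^ 2 - 4 = X_j ^ 2`.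
-/
import Fermat.Agent.S59.Min.BaseTrQL
import Fermat.Agent.S59.Min.BaseTrQPack
import Fermat.Agent.S59.LowK.HeckeNW

set_option autoImplicit false
set_option linter.unusedSectionVars false
set_option linter.unusedVariables false
set_option linter.style.longLine false

noncomputable section

namespace Fermat.Agent.S59.LowK

open IsLocalRing Polynomial Fermat.Agent.ES Fermat.Agent.S30 Fermat.Agent.W1 Fermat.Agent.TW
open Fermat.Agent.RT Fermat.Agent.RT.K1 Fermat.Agent.RT.Prod Fermat.Agent.S59.LowQ ExtCitation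
open WeierstrassCurve WeierstrassCurve.Affine WeierstrassCurve.Affine.Point

/-- **The Hecke side with the base traces and the inertia elements.** -/
structure S59btrHeckeDataQ {W : WeierstrassCurve ℤ} {p M : ℕ} [NeZero M]
    (Y : s59lk_KSetupW W p M) (h : ℕ) : Type 1 where
  /-- the underlying Hecke data -/
  D : HeckeDataW Y h
  /-- the levels, with the base traces and the inertia elements -/
  levelQ : ∀ (n : ℕ) (qv : Fin h → ℕ),
    IsTWFamily p Y.ρbar (Y.Smin ∪ Finset.univ.image Y.r) n h qv →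
    ∃ (A : Type) (_ : CommRing A) (_ : IsLocalRing A) (_ : Algebra Y.O A)
      (ιA : ResidueField Y.O →+* ResidueField A) (ρ : GaloisRepAdic A)
      (b : Module.Basis (Fin 2) A ρ.V) (β βi : ℕ → Matrix (Fin 2) (Fin 2) A)
      (π1 πχ : A →ₐ[Y.O] Matrix (Fin D.d) (Fin D.d)
        (RttwS Y.O (Y.m h) ⧸ maximalIdeal (RttwS Y.O (Y.m h)) ^ n)),
      TWGal p Y.ρbar Y.Smin (Finset.univ.image qv) Y.r Y.σ Y.φ Y.tχ Y.lam (Y.m h) D.d D.j0
        (fun i => LinearMap.toMatrix D.b0 D.b0 (D.ρ0.ρ (Y.σ i)))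
        (fun i => LinearMap.toMatrix D.b0 D.b0 (D.ρ0.ρ (Y.φ i))) n (rttwEvenQ Y.O (Y.m h) h n)
        ιA ρ b β βi π1 πχ ∧
      S59btrBaseTr (Y.m h) D.d n D.j0 D.ρ0 ρ π1 ∧
      S59btrTrQin (Y.m h) h D.d n qv ρ π1

section atY

variable {W : WeierstrassCurve ℤ} {p M : ℕ} [hp : Fact p.Prime] [NeZero M]
  (Y : s59lk_KSetupW W p M) (h : ℕ)

/-- the module side with the inertia elements gives the module side -/
theorem s59btr_modSideAt_weaken (hMod : S59btrModSideAt Y h) : HkModSideAtW Y h := by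
  obtain ⟨d, hd, S', hpS', hNS', 𝕋₀, i1, J₀, i2, i3, i4, Tr₀, Φ0, hbase, hlev⟩ := hMod
  refine ⟨d, hd, S', hpS', hNS', 𝕋₀, i1, J₀, i2, i3, i4, Tr₀, Φ0, hbase, ?_⟩
  intro n qv hqv
  obtain ⟨L, 𝕋, j1, J, j2, j3, j4, Tr, Φ1, Φχ, hlevel, hUJ, -⟩ := hlev n qv hqv
  exact ⟨L, 𝕋, j1, J, j2, j3, j4, Tr, Φ1, Φχ, hlevel, hUJ⟩

/-- **HECKE-final at one setup, with the base traces and the inertia elements** (the proof of
`rthk_final_atW`). -/
theorem s59btr_final_atQ (hcheb : Cheb.WeakChebotarev) (hB : StmtHkAbsBW p)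
    (hRes : StmtHkResW p) (hMod : S59btrModSideAt Y h) :
    Nonempty (S59btrHeckeDataQ Y h) := by
  obtain ⟨⟨σ₀, τ₀, hξ⟩, hunip⟩ := hRes W M Y
  obtain ⟨d, hd, S', hpS', hNS', 𝕋₀, i1, J₀, i2, i3, i4, Tr₀, Φ0, hbase, hlev⟩ := hMod
  obtain ⟨B⟩ := hB hcheb W M Y d hd σ₀ τ₀ hξ S' hpS' hNS' 𝕋₀ J₀ Tr₀ Φ0 hbase
  have key : ∀ (n : ℕ) (qv : Fin h → ℕ),
      IsTWFamily p Y.ρbar (Y.Smin ∪ Finset.univ.image Y.r) n h qv →
      ∃ (A : Type) (_ : CommRing A) (_ : IsLocalRing A) (_ : Algebra Y.O A)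
        (ιA : ResidueField Y.O →+* ResidueField A) (ρ : GaloisRepAdic A)
        (b : Module.Basis (Fin 2) A ρ.V) (β βi : ℕ → Matrix (Fin 2) (Fin 2) A)
        (π1 πχ : A →ₐ[Y.O] Matrix (Fin d) (Fin d)
          (RttwS Y.O (Y.m h) ⧸ maximalIdeal (RttwS Y.O (Y.m h)) ^ n)),
        TWGal p Y.ρbar Y.Smin (Finset.univ.image qv) Y.r Y.σ Y.φ Y.tχ Y.lam (Y.m h) d B.j0
          (fun i => LinearMap.toMatrix B.b0 B.b0 (B.ρ0.ρ (Y.σ i)))
          (fun i => LinearMap.toMatrix B.b0 B.b0 (B.ρ0.ρ (Y.φ i))) n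
          (rttwEvenQ Y.O (Y.m h) h n) ιA ρ b β βi π1 πχ ∧
        S59btrBaseTr (Y.m h) d n B.j0 B.ρ0 ρ π1 ∧
        S59btrTrQin (Y.m h) h d n qv ρ π1 := by
    intro n qv hqv
    obtain ⟨L, 𝕋, j1, J, j2, j3, j4, Tr, Φ1, Φχ, hlevel, hUJ, hQin⟩ := hlev n qv hqv
    have htrace : ∀ ℓ : ℕ, ℓ.Prime → ℓ ∉ S' →
        ∀ A : ValuationSubring (AlgebraicClosure ℚ), A.LiesOverPrime ℓ →
          ∀ τ : GQ, A.IsFrobeniusAt τ ℓ →
            B.j0 (LinearMap.trace B.T0 B.ρ0.V (B.ρ0.ρ τ)) = Φ0 (Tr₀ ℓ) := by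
      intro ℓ hℓ hℓS A hA τ hτ
      have h1 := B.hfrob ⟨ℓ, hℓ⟩ hℓS A hA τ hτ
      rw [Fermat.Agent.S31.trace_of_charpoly B.ρ0.finrank_eq (B.ρ0.ρ τ) _ _ h1]
      exact B.ha0 ⟨ℓ, hℓ⟩ hℓS
    obtain ⟨A₀, k1, k2, k3, ιA, ρ, b, φ1, φχ, hout, hbt, hex1, -⟩ :=
      s59btr_absLX hcheb p Y.hyp.hp2 Y.O Y.lam Y.half Y.hlam Y.hyp.hp𝒪 (rthk_f_halfW Y) Y.ρbar
        Y.hyp.habs Y.hyp.hdet Y.Smin (Finset.univ.image qv ∪ Finset.univ.image Y.r)
        (fun r _ hrp hrne => hunip r hrp hrne)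
        Y.ι Y.σ Y.φ Y.tχ (Y.m h) h d (n + 1) hd (Nat.succ_pos n) σ₀ τ₀ hξ B.T0 B.j0 B.ρ0 B.b0
        B.u0 B.hdet0 B.hmat B.hu0 S' (fun ℓ => Φ0 (Tr₀ ℓ)) htrace L 𝕋 J Tr Φ1 Φχ hlevel hUJ
    have hdown := rthk_d_out (n := n) (Nat.le_succ n) hout
    have hbdown := s59btr_down (n := n) (Nat.le_succ n) hbt
    have hqdown := s59btr_trQin_down (n := n) (Nat.le_succ n)
      (s59btr_trQin_of_exact hQin hex1)
    exact s59btr_packQ_std p Y.lam Y.ρbar Y.hyp.habs Y.Smin (Finset.univ.image qv) Y.r Y.r_inj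
      Y.σ Y.φ Y.tχ h d n qv B.j0 B.ρ0 _ _ ιA ρ b _ _ hdown hbdown hqdown
  refine ⟨{ D := { d := d, hd := hd, T0 := B.T0, j0 := B.j0, hj0 := B.hj0, ρ0 := B.ρ0,
                   b0 := B.b0, hdet0 := B.hdet0, ι0 := B.ι0, hres0 := B.hres0,
                   habs0 := B.habs0, S' := S', hpS' := B.hpS', hNS' := B.hNS', a := B.a,
                   hocc := B.hocc, hcong := B.hcong, hfrob := B.hfrob, level := ?_ }
            levelQ := key }⟩
  intro n qv hqv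
  obtain ⟨A, c1, c2, c3, ιA, ρ, b, β, βi, π1, πχ, hT, -, -⟩ := key n qv hqv
  exact ⟨A, c1, c2, c3, ιA, ρ, b, β, βi, π1, πχ, hT⟩

/-- **HECKE at one setup with the base traces and the inertia elements**, with HK-ABS-B, HK-RES
and weak Chebotarev filled in. -/
theorem s59btr_hecke_atQ (hMod : S59btrModSideAt Y h) : Nonempty (S59btrHeckeDataQ Y h) :=
  s59btr_final_atQ Y h Fermat.Agent.Cheb.weakChebotarev_holds (stmtHkAbsBW p) (stmtHkResW p) hMod

end atY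

end Fermat.Agent.S59.LowK

end
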