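/-
S59, wall R1 (helper34): R1-BASETR / TRQIN, MODULE half, the MIDDLE: from the concrete side
(`HkConcSide` on `Hom(Γ_{H'}(L), C)`) to the module side (`HkLevel`), carrying the inertia
elements at the Taylor–Wiles primes.

* `S59btrTrQinSide` : CONCRETE side: the `ψ1`-part of the field `trQ` of `HkConcSide`, with the
  information that `g` lies in an inertia group over `qv j` (it is there at the source:
  `hgin` of `rthkt_chars_tr_oddW`, `S59/LowK/ConcTrW.lean`, dropped in its last line);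
* `S59btrConcTopAt Y h` : the body of `HkConcTopAtW Y h` (`S59/LowK/HeckeNW.lean`) with the extra
  output `S59btrTrQinSide` at every level;
* `s59btr_modSideAt_of_concTop : S59btrConcTopAt Y h → S59btrModSideAt Y h`
  (the proof of `rthkct_modSide_atW`; the element `g` and its exact representative `x` are the
  same at every step `rthk_conc_side`, `rthk_conc`, `rthk_sub`);
* `s59btr_hecke_of_concTop : S59btrConcTopAt Y h → Nonempty (S59btrHeckeDataQ Y h)`.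
-/
import Fermat.Agent.S59.Min.BaseTrQFinal

set_option autoImplicit false
set_option linter.unusedSectionVars false
set_option linter.unusedVariables false
set_option linter.style.haveILetI false
set_option linter.style.longLine false

noncomputable section

namespace Fermat.Agent.S59.LowK

open IsLocalRing Fermat.Agent.ES Fermat.Agent.S30 Fermat.Agent.W1 Fermat.Agent.TW
open Fermat.Agent.ES1 Fermat.Agent.RT Fermat.Agent.RT.K5 Fermat.Agent.RT.Prod
open Fermat.Agent.S59.LowQ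
open ExtCitation WeierstrassCurve WeierstrassCurve.Affine WeierstrassCurve.Affine.Point
open scoped MatrixGroups

/-- **CONCRETE side, inertia at the Taylor–Wiles primes**: the `ψ1`-part of `HkConcSide.trQ`
with `g` in an inertia group over `qv j`. -/
def S59btrTrQinSide {O : Type} [CommRing O] [IsLocalRing O] (p : ℕ) [Fact p.Prime]
    (m h n : ℕ) (qv : Fin h → ℕ)
    (L M : ℕ) [NeZero L] [NeZero M] [hML : Fact (M ∣ L)] (𝔲 : NatFam O L M) (ℓ₀ : ℕ)
    [NeZero ℓ₀] (H' : Subgroup (ZMod M)ˣ)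
    (J : Type) [AddCommGroup J] [Module (HDAlg M) J] [DistribMulAction GQ J]
    (ψ1 : RthkdDelta M H' →* RthkSn O m n) : Prop :=
  ∀ (j : Fin m) (hj : (j : ℕ) < h),
    ∃ (g : GQ) (A : ValuationSubring (AlgebraicClosure ℚ)) (x : HDAlg M) (u : (ZMod M)ˣ),
      A.LiesOverPrime (qv ⟨j, hj⟩) ∧ g ∈ A.inertiaSubgroupIn ℚ ∧
      (∀ k, Rtk7bApprox p J (fun n g => ((cycE p n g : ℕ) : HDAlg M)) k g x) ∧
      (∀ ψ ∈ etaPart (thetaN 𝔲 ℓ₀ (RthkdC O n) H'),
        es1infHomEval L M H' hML.out p (RthkdC O n) x ψ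
          = diamU L M H' (RthkdC O n) u ψ + diamU L M H' (RthkdC O n) u⁻¹ ψ) ∧
      ψ1 (QuotientGroup.mk u) - ψ1 (QuotientGroup.mk u)⁻¹
        = Ideal.Quotient.mk _ (MvPowerSeries.X j)

/-- the body of `HkConcTopAtW Y h` with the extra output `S59btrTrQinSide` -/
def S59btrConcTopAt {W : WeierstrassCurve ℤ} {p M : ℕ} [Fact p.Prime] [NeZero M]
    (Y : s59lk_KSetupW W p M) (h : ℕ) : Prop :=
    ∃ (d : ℕ) (_ : 0 < d) (S' : Finset ℕ) (_ : p ∈ S')
      (_ : ∀ ℓ : ℕ, ℓ.Prime → ℓ ∣ M → ℓ ∈ S')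
      (𝕋₀ : Type) (_ : CommRing 𝕋₀) (J₀ : Type) (_ : AddCommGroup J₀) (_ : Module 𝕋₀ J₀)
      (_ : DistribMulAction GQ J₀) (Tr₀ : ℕ → 𝕋₀)
      (Φ0 : 𝕋₀ →+* Matrix (Fin d) (Fin d) Y.O),
      HkBase p Y.ρbar M S' d J₀ Tr₀ Φ0 ∧
      ∀ (n : ℕ) (qv : Fin h → ℕ),
        IsTWFamily p Y.ρbar (Y.Smin ∪ Finset.univ.image Y.r) n h qv →
        ∃ (L M' : ℕ) (_ : NeZero L) (_ : NeZero M') (_ : Fact (M' ∣ L))
          (𝔲 : NatFam Y.O L M') (ℓ₀ : ℕ) (_ : NeZero ℓ₀) (H' : Subgroup (ZMod M')ˣ)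
          (J : Type) (_ : AddCommGroup J) (_ : Module (HDAlg M') J)
          (_ : DistribMulAction GQ J) (Tr : ℕ → HDAlg M')
          (b : Fin d → rthkdX 𝔲 ℓ₀ H' (n + 1))
          (ψ1 ψχ : RthkdDelta M' H' →* RthkSn Y.O (Y.m h) (n + 1)),
          HkConcSide p Y.lam Y.ρbar
            (Y.Smin ∪ (Finset.univ.image qv ∪ Finset.univ.image Y.r)) Y.σ Y.tχ (Y.m h) h d
            (n + 1) (fun ℓ => Φ0 (Tr₀ ℓ)) L M' 𝔲 ℓ₀ H' J Tr b ψ1 ψχ ∧
          HkUnipJ p Y.Smin J ∧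
          S59btrTrQinSide p (Y.m h) h (n + 1) qv L M' 𝔲 ℓ₀ H' J ψ1

section atY

variable {W : WeierstrassCurve ℤ} {p M : ℕ} [hp : Fact p.Prime] [NeZero M]
  (Y : s59lk_KSetupW W p M) (h : ℕ)

/-- the concrete contract with the inertia elements gives the concrete contract -/
theorem s59btr_concTopAt_weaken (hTop : S59btrConcTopAt Y h) : HkConcTopAtW Y h := by
  obtain ⟨d, hd, S', hpS', hNS', 𝕋₀, i1, J₀, i2, i3, i4, Tr₀, Φ0, hbase, hlev⟩ := hTop
  refine ⟨d, hd, S', hpS', hNS', 𝕋₀, i1, J₀, i2, i3, i4, Tr₀, Φ0, hbase, ?_⟩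
  intro n qv hqv
  obtain ⟨L, M', j1, j2, j3, 𝔲, ℓ₀, j4, H', J, j5, j6, j7, Tr, b, ψ1, ψχ, hside, hUJ, -⟩ :=
    hlev n qv hqv
  exact ⟨L, M', j1, j2, j3, 𝔲, ℓ₀, j4, H', J, j5, j6, j7, Tr, b, ψ1, ψχ, hside, hUJ⟩

/-- **HK-CONC at one setup, with the inertia elements**: the concrete contract gives the module
side (the proof of `rthkct_modSide_atW`). -/
theorem s59btr_modSideAt_of_concTop (hTop : S59btrConcTopAt Y h) : S59btrModSideAt Y h := by
  obtain ⟨d, hd, S', hpS', hNS', 𝕋₀, i1, J₀, i2, i3, i4, Tr₀, Φ0, hbase, hlev⟩ := hTop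
  refine ⟨d, hd, S', hpS', hNS', 𝕋₀, i1, J₀, i2, i3, i4, Tr₀, Φ0, hbase, ?_⟩
  intro n qv hqv
  obtain ⟨L, M', j1, j2, j3, 𝔲, ℓ₀, j4, H', J, j5, j6, j7, Tr, b, ψ1, ψχ, hside, hUJ, hQ⟩ :=
    hlev n qv hqv
  letI := rthkcaAlg Y.O (Y.m h) (n + 1)
  haveI := rthkca_tower Y.O (Y.m h) (n + 1)
  have hconc := rthk_conc_side hside
  have hW := rthk_conc hconc
  refine ⟨L, _, _, J, _, _, _, _, _, _, rthk_sub hW, hUJ, ?_⟩
  intro j hj
  obtain ⟨g, A, x, u, hA, hg, hx, hact, h1⟩ := hQ j hj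
  have hxE : x ∈ rthksE p J := Subring.subset_closure ⟨g, hx⟩
  refine ⟨g, A, ⟨x, hxE⟩, hA, hg,
    fun k => (rthks_approx_iff _ k g ⟨x, hxE⟩).mpr (hx k), ?_⟩
  have hD := rthkcs_act_eq_D hside.stable x u hact
  have huv : ψ1 (QuotientGroup.mk u) * ψ1 (QuotientGroup.mk u)⁻¹ = 1 := by
    rw [← map_mul, mul_inv_cancel, map_one]
  have e4 : (4 : Matrix (Fin d) (Fin d) (RthkSn Y.O (Y.m h) (n + 1)))
      = algebraMap (RthkSn Y.O (Y.m h) (n + 1))
          (Matrix (Fin d) (Fin d) (RthkSn Y.O (Y.m h) (n + 1))) 4 := by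
    rw [map_ofNat]
  have key := rthkc_chi hconc.free _ hconc.act_comm ψ1 x (QuotientGroup.mk u) hD
  show rthkcPhi hconc.free _ hconc.act_comm ψ1 x ^ 2 - 4 = _
  rw [key, ← map_pow, ← h1, e4, ← map_sub]
  congr 1
  linear_combination 4 * huv

/-- **HECKE at one setup with the base traces and the inertia elements, from the concrete
contract.** -/
theorem s59btr_hecke_of_concTop (hTop : S59btrConcTopAt Y h) :
    Nonempty (S59btrHeckeDataQ Y h) :=
  s59btr_hecke_atQ Y h (s59btr_modSideAt_of_concTop Y h hTop)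

end atY

end Fermat.Agent.S59.LowK

end
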