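import Fermat.Agent.S59.LowK.ConcFinalUNW
import Fermat.Agent.S59.Min.BaseTrQSide

/-!
# S59 wall R1, TRQIN, MODULE half, the TOP (helper9): the concrete cone at one setup WITH the
inertia elements at the Taylor–Wiles primes

`HkConcSide.trQ` says `∃ g x u, …` with `g` ARBITRARY; R1-HENSEL needs `g ∈ I_A`, `A ∣ q_j`
(gap found by helper63; contract `S59/Min/BaseTrQDefs.lean`, helper34).  The proofs of the cone
have this information (`rthkt_exists_gens`: `hgin`).  This file exports it at the TOP of the cone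
(`p ≥ 5`, no level-lowering prime `q`, big modulus):

(the side-car `S59btrTrQinSide` and the contract `S59btrConcTopAt Y h` are helper34's,
`S59/Min/BaseTrQSide.lean`, with the MIDDLE `s59btr_hecke_of_concTop`):

* `s59tqt_chars_tr_oddW`  : twin of `rthkt_chars_tr_oddW` (helper97) with the side-car;
* `s59tqt_final_oddUW`    : twin of `rthkt_final_oddUW` with the side-car;
* `s59tqt_top_atUW`       : `5 ≤ p → … → S59btrConcTopAt Y h` (twin of `rthkf_top_atUW`);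
* **`s59tqt_top_five`**   : UNCONDITIONAL: `5 ≤ p`, `W.Δ ≠ 0`, `Squarefree M`, `¬ p ∣ M`, `2 ≤ M`,
                            `W` residually modular of level `M` ⇒ `S59btrConcTopAt Y h`;
* **`s59tqt_heckeQ_five`** : the same hypotheses ⇒ `Nonempty (S59btrHeckeDataQ Y h)`: the Hecke
                            side with `TWGal ∧ S59btrBaseTr ∧ S59btrTrQin` at every level;
* `S59tqtStmtHeckeQN p`, `s59tqt_stmtHeckeQN_of_five_le` : the `∀`-form (twin of `StmtHeckeNW p`).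
-/

set_option autoImplicit false
set_option linter.unusedSectionVars false
set_option linter.unusedVariables false
set_option linter.style.haveILetI false
set_option linter.style.longLine false

noncomputable section

namespace Fermat.Agent.S59.LowK

open Fermat.Agent.RT Fermat.Agent.S59.LowQ
open IsLocalRing Fermat.Agent.ES Fermat.Agent.S30 Fermat.Agent.W1 Fermat.Agent.TW
open Fermat.Agent.ES1 Fermat.Agent.RT.K5 Fermat.Agent.RT.K6 Fermat.Agent.RT.K7F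
open Fermat.Agent.RT.Prod
open ExtCitation WeierstrassCurve WeierstrassCurve.Affine WeierstrassCurve.Affine.Point
open scoped MatrixGroups


section Package

variable {W : WeierstrassCurve ℤ} {p N : ℕ} [hp : Fact p.Prime] (Y : s59lk_KSetupW W p N)
  {n h : ℕ} {qv : Fin h → ℕ}
  {L M : ℕ} [NeZero L] [NeZero M] [hML : Fact (M ∣ L)]

/-- **the fields `cong`, `aug`, `trT`, `trQ` of `HkConcSide` WITH the inertia elements at the
Taylor–Wiles primes** (twin of `rthkt_chars_tr_oddW`, helper97: the proof has them). -/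
theorem s59tqt_chars_tr_oddW (h5 : 5 ≤ p ∨ (5 - p) ∣ L)
    (hTW : IsTWFamily p Y.ρbar (Y.Smin ∪ Finset.univ.image Y.r) n h qv)
    (hM : ∀ x, Sum.elim qv Y.r x ∣ M) (hL2 : ∀ x, ¬ Sum.elim qv Y.r x ^ 2 ∣ L) (hpL : ¬ p ∣ L)
    (𝔲 : NatFam Y.O L M) (ℓ₀ : ℕ) [NeZero ℓ₀] :
    ∃ ψ1 ψχ : RthkdDelta M (rthkdH p (Sum.elim qv Y.r) (rthkciExp h Y.ι (n + 1)) M hM) →*
        RthkSn Y.O (Y.m h) (n + 1),
      (∀ δ, Ideal.Quotient.factor
          (le_sup_right : maximalIdeal (RttwS Y.O (Y.m h)) ^ (n + 1) ≤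
            rttwLam (Y.m h) Y.lam ⊔ maximalIdeal (RttwS Y.O (Y.m h)) ^ (n + 1)) (ψ1 δ) =
        Ideal.Quotient.factor
          (le_sup_right : maximalIdeal (RttwS Y.O (Y.m h)) ^ (n + 1) ≤
            rttwLam (Y.m h) Y.lam ⊔ maximalIdeal (RttwS Y.O (Y.m h)) ^ (n + 1)) (ψχ δ)) ∧
      (∀ δ, Ideal.Quotient.factor
          (le_sup_right : maximalIdeal (RttwS Y.O (Y.m h)) ^ (n + 1) ≤
            rttwAug Y.O (Y.m h) ⊔ maximalIdeal (RttwS Y.O (Y.m h)) ^ (n + 1)) (ψ1 δ) = 1) ∧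
      (∀ i, ∃ (x : HDAlg M) (u : (ZMod M)ˣ),
        (∀ k, Rtk7bApprox p
          (es1inftwJ L M (rthkdH p (Sum.elim qv Y.r) (rthkciExp h Y.ι (n + 1)) M hM) p
            (k7ftwChar M (rthkdE p (n + 1))))
          (fun n g => ((cycE p n g : ℕ) : HDAlg M)) k (Y.σ i) x) ∧
        (∀ ψ ∈ etaPart (thetaN 𝔲 ℓ₀ (RthkdC Y.O (n + 1))
            (rthkdH p (Sum.elim qv Y.r) (rthkciExp h Y.ι (n + 1)) M hM)),
          es1infHomEval L M (rthkdH p (Sum.elim qv Y.r) (rthkciExp h Y.ι (n + 1)) M hM)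
              hML.out p (RthkdC Y.O (n + 1)) x ψ
            = diamU L M (rthkdH p (Sum.elim qv Y.r) (rthkciExp h Y.ι (n + 1)) M hM)
                (RthkdC Y.O (n + 1)) u ψ
              + diamU L M (rthkdH p (Sum.elim qv Y.r) (rthkciExp h Y.ι (n + 1)) M hM)
                (RthkdC Y.O (n + 1)) u⁻¹ ψ) ∧
        ψ1 (QuotientGroup.mk u) = 1 ∧
        ψχ (QuotientGroup.mk u) + ψχ (QuotientGroup.mk u)⁻¹
          = algebraMap Y.O (RthkSn Y.O (Y.m h) (n + 1)) (2 * Y.tχ i)) ∧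
      (∀ j : Fin (Y.m h), (j : ℕ) < h → ∃ (g : GQ) (x : HDAlg M) (u : (ZMod M)ˣ),
        (∀ k, Rtk7bApprox p
          (es1inftwJ L M (rthkdH p (Sum.elim qv Y.r) (rthkciExp h Y.ι (n + 1)) M hM) p
            (k7ftwChar M (rthkdE p (n + 1))))
          (fun n g => ((cycE p n g : ℕ) : HDAlg M)) k g x) ∧
        (∀ ψ ∈ etaPart (thetaN 𝔲 ℓ₀ (RthkdC Y.O (n + 1))
            (rthkdH p (Sum.elim qv Y.r) (rthkciExp h Y.ι (n + 1)) M hM)),
          es1infHomEval L M (rthkdH p (Sum.elim qv Y.r) (rthkciExp h Y.ι (n + 1)) M hM)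
              hML.out p (RthkdC Y.O (n + 1)) x ψ
            = diamU L M (rthkdH p (Sum.elim qv Y.r) (rthkciExp h Y.ι (n + 1)) M hM)
                (RthkdC Y.O (n + 1)) u ψ
              + diamU L M (rthkdH p (Sum.elim qv Y.r) (rthkciExp h Y.ι (n + 1)) M hM)
                (RthkdC Y.O (n + 1)) u⁻¹ ψ) ∧
        ψ1 (QuotientGroup.mk u) - ψ1 (QuotientGroup.mk u)⁻¹
          = Ideal.Quotient.mk (maximalIdeal (RttwS Y.O (Y.m h)) ^ (n + 1))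
              (MvPowerSeries.X j) ∧
        ψχ (QuotientGroup.mk u) - ψχ (QuotientGroup.mk u)⁻¹
          = Ideal.Quotient.mk (maximalIdeal (RttwS Y.O (Y.m h)) ^ (n + 1))
              (MvPowerSeries.X j)) ∧
      S59btrTrQinSide p (Y.m h) h (n + 1) qv L M 𝔲 ℓ₀
        (rthkdH p (Sum.elim qv Y.r) (rthkciExp h Y.ι (n + 1)) M hM)
        (es1inftwJ L M (rthkdH p (Sum.elim qv Y.r) (rthkciExp h Y.ι (n + 1)) M hM) p
          (k7ftwChar M (rthkdE p (n + 1)))) ψ1 := by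
  have hM0 : M ≠ 0 := NeZero.ne M
  have hp2 : p ≠ 2 := Y.hyp.hp2
  have hvp := rthkt_v_primeW Y hTW
  have hv := rthkt_v_injW Y hTW
  have hp1 := rthkt_p_dvdW Y hTW
  have hM2 : ∀ x, ¬ Sum.elim qv Y.r x ^ 2 ∣ M := fun x hd => hL2 x (hd.trans hML.out)
  -- the generators
  obtain ⟨g, hgσ, hgin, hγ1, hγ2⟩ := rthkt_exists_gens M (p := p) Y.r Y.σ Y.φ
    (fun i => Y.r_prime i) Y.hloc qv (fun j => (hTW.2.1 j).1) hv hM hM2 hp1
    (rthkdE p (n + 1)) (rthkt_coprime_EW hp.out hp2 (Nat.succ_le_succ (Nat.zero_le n)))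
  -- the characters
  obtain ⟨ψ1, ψχ, hcong, haug, hT, hQ⟩ := rthkt_chars_existsW Y hTW hM0 hM
    (fun x => Fermat.Agent.S42.cycloChar M (g x) ^ rthkdE p (n + 1)) hγ1 hγ2
  refine ⟨ψ1, ψχ, hcong, haug, fun i => ?_, fun j hj => ?_, fun j hj => ?_⟩
  · obtain ⟨A, hA, hg⟩ := hgin (Sum.inr i)
    obtain ⟨h1, h2⟩ := rthkt_op_oddW Y h5 hTW hM hL2 hpL (Sum.inr i) A hA _ hg
    rw [hgσ i] at h1 h2
    have h3 := hT i
    simp only [hgσ i] at h3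
    exact ⟨_, _, h1, fun ψ _ => h2 _ ψ, h3.1, h3.2⟩
  · obtain ⟨A, hA, hg⟩ := hgin (Sum.inl ⟨j, hj⟩)
    obtain ⟨h1, h2⟩ := rthkt_op_oddW Y h5 hTW hM hL2 hpL (Sum.inl ⟨j, hj⟩) A hA _ hg
    have h3 := hQ j hj
    exact ⟨_, _, _, h1, fun ψ _ => h2 _ ψ, h3.1, h3.2⟩
  · obtain ⟨A, hA, hg⟩ := hgin (Sum.inl ⟨j, hj⟩)
    obtain ⟨h1, h2⟩ := rthkt_op_oddW Y h5 hTW hM hL2 hpL (Sum.inl ⟨j, hj⟩) A hA _ hg
    have h3 := hQ j hj
    exact ⟨_, A, _, _, hA, hg, h1, fun ψ _ => h2 _ ψ, h3.1⟩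

end Package

/-- **The K6 side at the big modulus with the inertia elements** (twin of `rthkt_final_oddUW`). -/
theorem s59tqt_final_oddUW (p : ℕ) [Fact p.Prime] (W : WeierstrassCurve ℤ) (N : ℕ) [NeZero N]
    (hN : Squarefree N) (hpN : ¬ p ∣ N) (h5 : 5 ≤ p ∨ (5 - p) ∣ N)
    (Y : s59lk_KSetupW W p N) (h n : ℕ) (qv : Fin h → ℕ)
    (hqv : IsTWFamily p Y.ρbar (Y.Smin ∪ Finset.univ.image Y.r) n h qv)
    (i1 : NeZero (N * rthkdM qv)) (i2 : NeZero (rthkfMUW Y qv))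
    (i3 : Fact (rthkfMUW Y qv ∣ N * rthkdM qv))
    (𝔲 : NatFam Y.O (N * rthkdM qv) (rthkfMUW Y qv)) (ℓ₀ : ℕ) (i5 : NeZero ℓ₀) :
    ∃ ψ1 ψχ : RthkdDelta (rthkfMUW Y qv) (rthkfHUW Y qv n) →*
        RthkSn Y.O (Y.m h) (n + 1),
      (∀ δ, Ideal.Quotient.factor
          (le_sup_right : maximalIdeal (RttwS Y.O (Y.m h)) ^ (n + 1) ≤
            rttwLam (Y.m h) Y.lam ⊔ maximalIdeal (RttwS Y.O (Y.m h)) ^ (n + 1)) (ψ1 δ) =
        Ideal.Quotient.factor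
          (le_sup_right : maximalIdeal (RttwS Y.O (Y.m h)) ^ (n + 1) ≤
            rttwLam (Y.m h) Y.lam ⊔ maximalIdeal (RttwS Y.O (Y.m h)) ^ (n + 1)) (ψχ δ)) ∧
      (∀ δ, Ideal.Quotient.factor
          (le_sup_right : maximalIdeal (RttwS Y.O (Y.m h)) ^ (n + 1) ≤
            rttwAug Y.O (Y.m h) ⊔ maximalIdeal (RttwS Y.O (Y.m h)) ^ (n + 1)) (ψ1 δ) = 1) ∧
      (∀ i, ∃ (x : HDAlg (rthkfMUW Y qv))
          (u : (ZMod (rthkfMUW Y qv))ˣ),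
        (∀ k, Rtk7bApprox p
          (es1inftwJ (N * rthkdM qv) (rthkfMUW Y qv) (rthkfHUW Y qv n) p
            (k7ftwChar (rthkfMUW Y qv) (rthkdE p (n + 1))))
          (fun n g => ((cycE p n g : ℕ) : HDAlg (rthkfMUW Y qv))) k
          (Y.σ i) x) ∧
        (∀ ψ ∈ etaPart (thetaN 𝔲 ℓ₀ (RthkdC Y.O (n + 1)) (rthkfHUW Y qv n)),
          es1infHomEval (N * rthkdM qv) (rthkfMUW Y qv) (rthkfHUW Y qv n)
              (Fact.out) p (RthkdC Y.O (n + 1)) x ψ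
            = diamU (N * rthkdM qv) (rthkfMUW Y qv) (rthkfHUW Y qv n)
                (RthkdC Y.O (n + 1)) u ψ
              + diamU (N * rthkdM qv) (rthkfMUW Y qv) (rthkfHUW Y qv n)
                (RthkdC Y.O (n + 1)) u⁻¹ ψ) ∧
        ψ1 (QuotientGroup.mk u) = 1 ∧
        ψχ (QuotientGroup.mk u) + ψχ (QuotientGroup.mk u)⁻¹
          = algebraMap Y.O (RthkSn Y.O (Y.m h) (n + 1)) (2 * Y.tχ i)) ∧
      (∀ j : Fin (Y.m h), (j : ℕ) < h → ∃ (g : GQ)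
          (x : HDAlg (rthkfMUW Y qv))
          (u : (ZMod (rthkfMUW Y qv))ˣ),
        (∀ k, Rtk7bApprox p
          (es1inftwJ (N * rthkdM qv) (rthkfMUW Y qv) (rthkfHUW Y qv n) p
            (k7ftwChar (rthkfMUW Y qv) (rthkdE p (n + 1))))
          (fun n g => ((cycE p n g : ℕ) : HDAlg (rthkfMUW Y qv))) k g x) ∧
        (∀ ψ ∈ etaPart (thetaN 𝔲 ℓ₀ (RthkdC Y.O (n + 1)) (rthkfHUW Y qv n)),
          es1infHomEval (N * rthkdM qv) (rthkfMUW Y qv) (rthkfHUW Y qv n)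
              (Fact.out) p (RthkdC Y.O (n + 1)) x ψ
            = diamU (N * rthkdM qv) (rthkfMUW Y qv) (rthkfHUW Y qv n)
                (RthkdC Y.O (n + 1)) u ψ
              + diamU (N * rthkdM qv) (rthkfMUW Y qv) (rthkfHUW Y qv n)
                (RthkdC Y.O (n + 1)) u⁻¹ ψ) ∧
        ψ1 (QuotientGroup.mk u) - ψ1 (QuotientGroup.mk u)⁻¹
          = Ideal.Quotient.mk _ (MvPowerSeries.X j) ∧
        ψχ (QuotientGroup.mk u) - ψχ (QuotientGroup.mk u)⁻¹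
          = Ideal.Quotient.mk _ (MvPowerSeries.X j)) ∧
      S59btrTrQinSide p (Y.m h) h (n + 1) qv (N * rthkdM qv) (rthkfMUW Y qv) 𝔲 ℓ₀
        (rthkfHUW Y qv n)
        (es1inftwJ (N * rthkdM qv) (rthkfMUW Y qv) (rthkfHUW Y qv n) p
          (k7ftwChar (rthkfMUW Y qv) (rthkdE p (n + 1)))) ψ1 :=
  s59tqt_chars_tr_oddW (L := N * rthkdM qv) (M := rthkfMUW Y qv) Y
    (rthkt_h5_LW h5 _) hqv (rthkfMU_dvdW Y qv)
    (fun x => rthkt_not_sq_dvd_LW Y hN hqv (rthkt_v_primeW Y hqv x))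
    (rthkt_p_not_dvd_LW Y hpN hqv) 𝔲 ℓ₀


/-- **HK-CONC at one setup with the inertia elements, the final glue at the big modulus,
`5 ≤ p`** (twin of `rthkf_top_atUW`; no prime `q`). -/
theorem s59tqt_top_atUW {W : WeierstrassCurve ℤ} {p N : ℕ} [hp : Fact p.Prime] [NeZero N]
    (hp5 : 5 ≤ p) (hflat : StmtFlatH) (hChi : StmtChiJDiv5) (hΔ : W.Δ ≠ 0)
    (hcond : Squarefree N) (hpN : ¬ p ∣ N) (hN2 : 2 ≤ N)
    (hmod : W.IsResiduallyModularOfLevel p N) (Y : s59lk_KSetupW W p N) (h : ℕ) :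
    S59btrConcTopAt Y h := by
  obtain ⟨q, hq, hqN⟩ := Nat.exists_prime_and_dvd (show N ≠ 1 by omega)
  haveI iM₀ : NeZero (1 : ℕ) := ⟨one_ne_zero⟩
  haveI iM₀N : Fact ((1 : ℕ) ∣ N) := ⟨one_dvd N⟩
  obtain ⟨r, hr, c, a, S', hpS', hNS', 𝕋₀, i1, J₀, i2, i3, i4, Tr₀, Φ0, hbase, hS', hmat,
    hlev⟩ := rthkk5_at5W Fermat.Agent.Cheb.weakChebotarev_holds hflat hp5 hΔ hcond hpN hN2
      hmod Y h 1 squarefree_one
  refine ⟨2 ^ h * r, Nat.mul_pos (pow_pos two_pos h) hr, S', hpS', hNS', 𝕋₀, i1, J₀, i2, i3,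
    i4, Tr₀, Φ0, hbase, fun n qv hqv => ?_⟩
  have hN0 : N ≠ 0 := NeZero.ne N
  haveI iL : NeZero (N * rthkdM qv) := ⟨rthkdYL_ne_zeroW hN0 hqv⟩
  -- the K5 side (its binders are at the small modulus, which it does not use)
  obtain ⟨e, ℓ₀, iℓ₀, heP, hℓ₀, hℓ₀N, hℓ₀p, havoid, hTW, hbasis⟩ := hlev n qv hqv
  haveI iM : NeZero (rthkfMUW Y qv) := ⟨rthkfMU_ne_zeroW hN0 hqv⟩
  haveI iML : Fact (rthkfMUW Y qv ∣ N * rthkdM qv) := ⟨rthkfMU_dvd_LW (Y := Y) (qv := qv)⟩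
  -- `ℓ₀ ∤ L`
  have hℓ₀L : ¬ ℓ₀ ∣ N * rthkdM qv := by
    intro hd
    rcases (Nat.Prime.dvd_mul hℓ₀).mp hd with h1 | h1
    · exact hℓ₀N h1
    · obtain ⟨j, -, hj⟩ := Finset.mem_image.mp (rthkdY_dvd_prod_qvW hqv hℓ₀ h1)
      exact (havoid j).1 hj
  -- the twisted expression
  have hQ : ∀ q' ∈ List.ofFn qv, q'.Prime ∧ ¬ q' ∣ N ∧ q' ≠ ℓ₀ ∧ e.Avoids q' := by
    intro q' hq'
    rw [List.mem_ofFn] at hq'
    obtain ⟨j, rfl⟩ := hq'
    exact ⟨(hqv.2.1 j).1, rthkf_qv_not_dvdW hqv j, (havoid j).1, (havoid j).2⟩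
  have hnd : (List.ofFn qv).Nodup := List.nodup_ofFn.mpr hqv.1
  have hEP : (e.twist (List.ofFn qv)).IsPrimes :=
    HExpr.isPrimes_twist heP (fun q' hq' => (hQ q' hq').1)
  -- `FreeHyp`
  have hidx := rthkf_freeHyp_indexUW (Y := Y) (qv := qv) (n := n) hp5 hN0 hpN hq hqN hqv
  have hyp : FreeHyp p Y.O (N * rthkdM qv) (rthkfMUW Y qv) ℓ₀ (rthkfHUW Y qv n) ⊤
      (h * (n + 1) + Fintype.card Y.ι) :=
    k5nt_freeHyp hp.out hp5 Y.hyp.hp𝒪 _ _ ℓ₀ hℓ₀ hℓ₀L le_top _ hidx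
  -- `free` and `base`
  obtain ⟨b, free, hbmat⟩ := rthkcf_X p Y.O N 1 ℓ₀ e hℓ₀ hℓ₀N (List.ofFn qv) h
    (List.length_ofFn) hnd hQ (N * rthkdM qv) (rthkfMUW Y qv) rthkf_prod_ofFnW
    (rthkfHUW Y qv n) _ hyp (n + 1) (Nat.succ_pos n) hTW c hbasis
  -- the characters
  obtain ⟨ψ1, ψχ, hcong, haug, htrT, htrQ, hside⟩ := s59tqt_final_oddUW p W N hcond hpN (Or.inl hp5)
    Y h n qv hqv iL iM iML ((e.twist (List.ofFn qv)).eval (N * rthkdM qv)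
      (rthkfMUW Y qv)) ℓ₀ iℓ₀
  have hst := rthkd_hst (O := Y.O) (L := N * rthkdM qv) (M := rthkfMUW Y qv) p
    (e.twist (List.ofFn qv)) hEP ℓ₀ hℓ₀ hℓ₀L (rthkfHUW Y qv n) (n + 1)
  have hk : ∀ x : Fin h ⊕ Y.ι,
      (Sum.elim (fun _ => n + 1) (fun _ => 1) : Fin h ⊕ Y.ι → ℕ) x ≤ n + 1 := by
    rintro (j | i)
    · exact le_rfl
    · exact Nat.succ_le_succ (Nat.zero_le n)
  have hfaith := rthkd_faith (O := Y.O) (p := p) (L := N * rthkdM qv)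
    (M := rthkfMUW Y qv) (H' := rthkfHUW Y qv n)
    (rthksE p (es1inftwJ (N * rthkdM qv) (rthkfMUW Y qv) (rthkfHUW Y qv n) p
        (k7ftwChar (rthkfMUW Y qv) (rthkdE p (n + 1))))
      (𝕋 := HDAlg (rthkfMUW Y qv)) : Set (HDAlg (rthkfMUW Y qv)))
    (k7ftwChar (rthkfMUW Y qv) (rthkdE p (n + 1))) Y.hyp.hp𝒪
    (e.twist (List.ofFn qv)) hEP ℓ₀ hℓ₀ hℓ₀L (rthkf_sqfree_LW hcond hqv) Y.hyp.hp2 hℓ₀p (n + 1)
    (fun u => by
      rw [rthkd_pmH (hp.out.odd_of_ne_two Y.hyp.hp2)]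
      exact rthkd_pow_mem_H hk u)
    (n + 1) (k5nt_noTors_quot hp.out hp5 Y.hyp.hp𝒪 _ (n + 1)) hst
  have hℓN : ∀ ℓ : ℕ, ℓ.Prime → ¬ ℓ ∣ (N * rthkdM qv) * p → ¬ ℓ ∣ N * p :=
    fun ℓ hℓ hℓL hd => hℓL (by
      rcases (Nat.Prime.dvd_mul hℓ).mp hd with h1 | h1
      · exact Dvd.dvd.mul_right (Dvd.dvd.mul_right h1 _) _
      · exact Dvd.dvd.mul_left h1 _)
  have hΔ' : ∀ δ : RthkdDelta (rthkfMUW Y qv) (rthkfHUW Y qv n),
      δ ^ p ^ (n + 1) = 1 := by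
    intro δ
    obtain ⟨u, rfl⟩ := QuotientGroup.mk_surjective δ
    rw [← QuotientGroup.mk_pow, QuotientGroup.eq_one_iff,
      rthkd_pmH (hp.out.odd_of_ne_two Y.hyp.hp2)]
    exact rthkd_pow_mem_H hk u
  -- the field `base`
  have hbaseF : ∀ ℓ : ℕ, ℓ.Prime → ¬ ℓ ∣ (N * rthkdM qv) * p →
      rthkmMat free (1 : RthkdDelta (rthkfMUW Y qv) (rthkfHUW Y qv n) →* RthkdC Y.O (n + 1))
        (rthkdAct p ((e.twist (List.ofFn qv)).eval (N * rthkdM qv) (rthkfMUW Y qv)) ℓ₀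
          (rthkfHUW Y qv n) (n + 1) hst
          (es1inftwTr (rthkfMUW Y qv) (rthkdE p (n + 1)) ℓ))
        = (Φ0 (Tr₀ ℓ)).map (algebraMap Y.O (RthkdC Y.O (n + 1))) := by
    intro ℓ hℓ hℓL
    haveI : NeZero ℓ := ⟨hℓ.ne_zero⟩
    obtain ⟨ha, hΦ⟩ := hmat ℓ hℓ (hℓN ℓ hℓ hℓL)
    rw [hΦ]
    refine hbmat ℓ hℓ (rthkf_not_mem_QW hℓL) (a ℓ) ha _ (fun x => ?_)
    refine ⟨((ZMod.unitOfCoprime ℓ (rthkf_coprime_MUW (Y := Y) hℓ hℓL))⁻¹
      ^ rthkdE p (n + 1)), ?_⟩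
    rw [rthkdAct_coe]
    exact es1infev_twTr (rthkdE p (n + 1))
      (by
        have := rthkd_two_E (p := p) (hp.out.odd_of_ne_two Y.hyp.hp2) (n + 1)
        have hpos : 0 < p ^ (n + 1) := pow_pos hp.out.pos _
        omega)
      hℓ hℓL (rthkf_coprime_MUW (Y := Y) hℓ hℓL) _
  -- the field `resid`
  have hres := rthkra_resid_field (ρbar := Y.ρbar) (a0 := fun ℓ => Φ0 (Tr₀ ℓ))
    (Tr := es1inftwTr (rthkfMUW Y qv) (rthkdE p (n + 1))) hst free Y.hyp.hp𝒪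
    (n + 1) hΔ' hbaseF
    (fun ℓ hℓ hℓL A hA τ hτ => hbase.resid ℓ hℓ (hS' ℓ hℓ (hℓN ℓ hℓ hℓL)) A hA τ hτ)
  refine ⟨N * rthkdM qv, rthkfMUW Y qv, iL, iM, iML,
    (e.twist (List.ofFn qv)).eval (N * rthkdM qv) (rthkfMUW Y qv), ℓ₀, iℓ₀,
    rthkfHUW Y qv n,
    es1inftwJ (N * rthkdM qv) (rthkfMUW Y qv) (rthkfHUW Y qv n) p
      (k7ftwChar (rthkfMUW Y qv) (rthkdE p (n + 1))),
    inferInstance, inferInstance, inferInstance,
    es1inftwTr (rthkfMUW Y qv) (rthkdE p (n + 1)), b, ψ1, ψχ, ?_,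
    rthkf_unip_atUW hp5 hChi hcond hpN hN2 Y hqv, hside⟩
  exact
    { pkg := rthkp_pkg (L := N * rthkdM qv) (M := rthkfMUW Y qv)
        (rthkfHUW Y qv n) p (rthkdE p (n + 1)) (rthkp_one_le_half p (n + 1) hp.out.pos)
        (rthkd_pow_E_mem (hp.out.odd_of_ne_two Y.hyp.hp2) hk)
      primes := rthkdY_primesW hqv
      model := rthkp_model (L := N * rthkdM qv) (M := rthkfMUW Y qv)
        (rthkfHUW Y qv n) p hflat
        (rthkf_k7fLevelUW (Y := Y) (qv := qv) (n := n) hp5 hcond hN0 hpN hq hqN hqv)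
        (rthkdE p (n + 1))
      stable := hst
      free := free
      faith := by
        obtain ⟨n₀, hn₀⟩ := hfaith
        refine ⟨n₀, fun t ht hkill ψ hψ => ?_⟩
        have h0 := hn₀ t ht hkill
        have h1 : rthkdAct p _ ℓ₀ (rthkfHUW Y qv n) (n + 1) hst t ⟨ψ, hψ⟩ = 0 := by
          rw [h0]
          rfl
        exact congrArg Subtype.val h1
      resid := hres
      cong := hcong
      aug := haug
      trT := htrT
      trQ := htrQ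
      base := hbaseF }

/-- **The TOP of the TRQIN module half, `p ≥ 5`, UNCONDITIONAL** (K7-FLAT and K6 filled in): at
every setup `Y` of a squarefree level `M ≥ 2` prime to `p` at which `W` is residually modular, the
concrete cone with the inertia elements at the Taylor–Wiles primes. -/
theorem s59tqt_top_five {W : WeierstrassCurve ℤ} {p M : ℕ} [hp : Fact p.Prime] [NeZero M]
    (hp5 : 5 ≤ p) (hΔ : W.Δ ≠ 0) (hsq : Squarefree M) (hpM : ¬ p ∣ M) (hM2 : 2 ≤ M)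
    (hmod : W.IsResiduallyModularOfLevel p M) (Y : s59lk_KSetupW W p M) (h : ℕ) :
    S59btrConcTopAt Y h :=
  s59tqt_top_atUW hp5 K7F.stmtFlatH K6.rtk6c4at_stmtChiJDiv5 hΔ hsq hpM hM2 hmod Y h

/-- **HECKE at one setup with the base traces and the inertia elements, `p ≥ 5`,
UNCONDITIONAL**: every level is `TWGal ∧ S59btrBaseTr ∧ S59btrTrQin`. -/
theorem s59tqt_heckeQ_five {W : WeierstrassCurve ℤ} {p M : ℕ} [hp : Fact p.Prime] [NeZero M]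
    (hp5 : 5 ≤ p) (hΔ : W.Δ ≠ 0) (hsq : Squarefree M) (hpM : ¬ p ∣ M) (hM2 : 2 ≤ M)
    (hmod : W.IsResiduallyModularOfLevel p M) (Y : s59lk_KSetupW W p M) (h : ℕ) :
    Nonempty (S59btrHeckeDataQ Y h) :=
  s59btr_hecke_of_concTop Y h (s59tqt_top_five hp5 hΔ hsq hpM hM2 hmod Y h)

/-- **HECKE for `W` with the base traces and the inertia elements, without the prime `q`**
(twin of `StmtHeckeNW p`). -/
def S59tqtStmtHeckeQN (p : ℕ) : Prop :=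
  ∀ [Fact p.Prime] (W : WeierstrassCurve ℤ) (M : ℕ) [NeZero M], W.Δ ≠ 0 →
    W.IsSemistableModel → W.ModRepIsIrreducible p → Squarefree M → ¬ p ∣ M → 2 ≤ M →
    W.IsResiduallyModularOfLevel p M →
    ∀ (Y : s59lk_KSetupW W p M) (h : ℕ), Nonempty (S59btrHeckeDataQ Y h)

/-- **`5 ≤ p`: UNCONDITIONAL.** -/
theorem s59tqt_stmtHeckeQN_of_five_le (p : ℕ) (hp5 : 5 ≤ p) : S59tqtStmtHeckeQN p := by
  intro _ W M _ hΔ hss hirr hsq hpM hM2 hmod Y h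
  exact s59tqt_heckeQ_five hp5 hΔ hsq hpM hM2 hmod Y h

end Fermat.Agent.S59.LowK

end
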