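/-
S59, wall R1 (helper34): R1-HK-MIN = the levels of the Hecke side at a setup WITHOUT trivial
primes, in the LITERAL shape of the hypothesis `hHk` of `s59minfd_base` (helper67,
`S59/Min/FeedTop.lean`).

`S59btrHeckeDataQ Y h` has its levels over `S = 𝒪⟦X_1 … X_m⟧`, `m = Y.m h = h + 4 |Y.ι|`
(`4` framing variables for every trivial prime).  At the MINIMAL level (every prime of the level
is in `Smin`) there are no trivial primes: `Y.ι` is empty, `m = h`, and the levels are over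
`𝒪⟦X_1 … X_h⟧` = one variable for every Taylor–Wiles prime, as the patching argument wants.

* `s59btr_isEmpty_of_min`  : every prime of `M` in `Y.Smin` ⇒ `IsEmpty Y.ι`;
* `s59btr_image_r_of_isEmpty` : `IsEmpty Y.ι` ⇒ `Finset.univ.image Y.r = ∅`  (`hr` of the feed);
* `s59btr_m_of_isEmpty`    : `IsEmpty Y.ι` ⇒ `Y.m h = h`;
* `s59btr_hHk_cast`        : the transport of ONE level along `m = h`;
* `s59btr_hHk_min`         : `IsEmpty Y.ι`, `X : S59btrHeckeDataQ Y h` ⇒ `hHk` of `s59minfd_base`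
                             for `(X.D.d, X.D.T0, X.D.j0, X.D.ρ0)`;
* `s59btr_hHk_min_five`    : the same, `5 ≤ p`, UNCONDITIONAL (helper9's `s59tqt_heckeQ_five`).
-/
import Fermat.Agent.S59.Min.TrQinTop

set_option autoImplicit false
set_option linter.unusedSectionVars false
set_option linter.unusedVariables false
set_option linter.style.longLine false

noncomputable section

namespace Fermat.Agent.S59.LowK

open IsLocalRing Polynomial Fermat.Agent.ES Fermat.Agent.S30 Fermat.Agent.W1 Fermat.Agent.TW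
open Fermat.Agent.RT Fermat.Agent.RT.K1 Fermat.Agent.RT.Prod Fermat.Agent.S59.LowQ ExtCitation
open WeierstrassCurve WeierstrassCurve.Affine WeierstrassCurve.Affine.Point

section Setup

variable {W : WeierstrassCurve ℤ} {p M : ℕ} (Y : s59lk_KSetupW W p M)

/-- at a level all of whose primes are in `Smin` there are no trivial primes -/
theorem s59btr_isEmpty_of_min (hM : ∀ ℓ : ℕ, ℓ.Prime → ℓ ∣ M → ℓ ∈ Y.Smin) : IsEmpty Y.ι := by
  refine ⟨fun i => ?_⟩
  have h1 : Y.r i ∈ Finset.univ.image Y.r := Finset.mem_image_of_mem Y.r (Finset.mem_univ i)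
  obtain ⟨hpr, hdvd, hnot⟩ := (Y.hr (Y.r i)).mp h1
  exact hnot (hM _ hpr hdvd)

/-- no trivial primes: the set of the trivial primes is empty -/
theorem s59btr_image_r_of_isEmpty (hι : IsEmpty Y.ι) : Finset.univ.image Y.r = ∅ := by
  rw [Finset.univ_eq_empty, Finset.image_empty]

/-- no trivial primes: one variable for every Taylor–Wiles prime -/
theorem s59btr_m_of_isEmpty (hι : IsEmpty Y.ι) (h : ℕ) : Y.m h = h := by
  show h + 4 * Fintype.card Y.ι = h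
  rw [Fintype.card_eq_zero, Nat.mul_zero, Nat.add_zero]

end Setup

section Cast

variable {O : Type} [CommRing O] [IsLocalRing O] {ι : Type} [Fintype ι]

/-- **the transport of one level along `m = h`**: a level over `𝒪⟦X_1 … X_m⟧` with
`S59btrBaseTr` and `S59btrTrQin` is, for `m = h`, a level in the shape of `hHk`. -/
theorem s59btr_hHk_cast {p : ℕ} {ρbar : ResidualGaloisRep (ResidueField O)}
    {Smin Q : Finset ℕ} {rt : ι → ℕ} {σ φ : ι → RtpaG} {tχ : ι → O} {lam : O} {m h d n : ℕ}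
    (hm : m = h) {qv : Fin h → ℕ}
    {T0 : Type} [CommRing T0] [IsLocalRing T0] [Algebra O T0]
    {j0 : T0 →ₐ[O] Matrix (Fin d) (Fin d) O} {ρ0 : GaloisRepAdic T0}
    {Sig0 Phi0 : ι → Matrix (Fin 2) (Fin 2) T0}
    (hlev : ∃ (A : Type) (_ : CommRing A) (_ : IsLocalRing A) (_ : Algebra O A)
      (ιA : ResidueField O →+* ResidueField A) (ρ : GaloisRepAdic A)
      (b : Module.Basis (Fin 2) A ρ.V) (β βi : ℕ → Matrix (Fin 2) (Fin 2) A)
      (π1 πχ : A →ₐ[O] Matrix (Fin d) (Fin d)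
        (RttwS O m ⧸ maximalIdeal (RttwS O m) ^ n)),
      TWGal p ρbar Smin Q rt σ φ tχ lam m d j0 Sig0 Phi0 n (rttwEvenQ O m h n)
        ιA ρ b β βi π1 πχ ∧
      S59btrBaseTr m d n j0 ρ0 ρ π1 ∧ S59btrTrQin m h d n qv ρ π1) :
    ∃ (E : Set (RttwS O h ⧸ maximalIdeal (RttwS O h) ^ n))
      (A : Type) (_ : CommRing A) (_ : IsLocalRing A) (_ : Algebra O A)
      (ιA : ResidueField O →+* ResidueField A) (ρ : GaloisRepAdic A)
      (b : Module.Basis (Fin 2) A ρ.V) (β βi : ℕ → Matrix (Fin 2) (Fin 2) A)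
      (π1 πχ : A →ₐ[O] Matrix (Fin d) (Fin d)
        (RttwS O h ⧸ maximalIdeal (RttwS O h) ^ n)),
      TWGal p ρbar Smin Q rt σ φ tχ lam h d j0 Sig0 Phi0 n E ιA ρ b β βi π1 πχ ∧
      (∀ g : RtpaG, (π1 (LinearMap.trace A ρ.V (ρ.ρ g))).map (Ideal.Quotient.factor
          (le_sup_right : maximalIdeal (RttwS O h) ^ n ≤
            rttwAug O h ⊔ maximalIdeal (RttwS O h) ^ n)) =
        rttwBaseRed h d n (j0 (LinearMap.trace T0 ρ0.V (ρ0.ρ g)))) ∧
      ∀ j : Fin h, ∃ (g : RtpaG) (P : ValuationSubring (AlgebraicClosure ℚ)),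
        P.LiesOverPrime (qv j) ∧ g ∈ P.inertiaSubgroupIn ℚ ∧
        π1 (LinearMap.trace A ρ.V (ρ.ρ g)) ^ 2 - 4 =
          algebraMap (RttwS O h ⧸ maximalIdeal (RttwS O h) ^ n)
            (Matrix (Fin d) (Fin d) (RttwS O h ⧸ maximalIdeal (RttwS O h) ^ n))
            (Ideal.Quotient.mk _ (MvPowerSeries.X j) ^ 2) := by
  subst hm
  obtain ⟨A, c1, c2, c3, ιA, ρ, b, β, βi, π1, πχ, hT, hB, hQ⟩ := hlev
  refine ⟨rttwEvenQ O m m n, A, c1, c2, c3, ιA, ρ, b, β, βi, π1, πχ, hT, fun g => hB g,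
    fun j => ?_⟩
  obtain ⟨g, P, hP, hg, e⟩ := hQ j j.isLt
  exact ⟨g, P, hP, hg, e⟩

end Cast

section Min

variable {W : WeierstrassCurve ℤ} {p M : ℕ} [NeZero M] (Y : s59lk_KSetupW W p M) (h : ℕ)

/-- **R1-HK-MIN**: at a setup without trivial primes the levels of `S59btrHeckeDataQ Y h` are the
hypothesis `hHk` of `s59minfd_base` (with `r := h`, `S := Y.Smin ∪ Finset.univ.image Y.r`,
`rt := Y.r`, `d := X.D.d`, `j0 := X.D.j0`, `ρ0 := X.D.ρ0`). -/
theorem s59btr_hHk_min (hι : IsEmpty Y.ι) (X : S59btrHeckeDataQ Y h) :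
    ∀ (n : ℕ) (qv : Fin h → ℕ),
      IsTWFamily p Y.ρbar (Y.Smin ∪ Finset.univ.image Y.r) n h qv →
      ∃ (E : Set (RttwS Y.O h ⧸ maximalIdeal (RttwS Y.O h) ^ n))
        (A : Type) (_ : CommRing A) (_ : IsLocalRing A) (_ : Algebra Y.O A)
        (ιA : ResidueField Y.O →+* ResidueField A) (ρ : GaloisRepAdic A)
        (b : Module.Basis (Fin 2) A ρ.V) (β βi : ℕ → Matrix (Fin 2) (Fin 2) A)
        (π1 πχ : A →ₐ[Y.O] Matrix (Fin X.D.d) (Fin X.D.d)
          (RttwS Y.O h ⧸ maximalIdeal (RttwS Y.O h) ^ n)),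
        TWGal p Y.ρbar Y.Smin (Finset.univ.image qv) Y.r Y.σ Y.φ Y.tχ Y.lam h X.D.d X.D.j0
          (fun i => LinearMap.toMatrix X.D.b0 X.D.b0 (X.D.ρ0.ρ (Y.σ i)))
          (fun i => LinearMap.toMatrix X.D.b0 X.D.b0 (X.D.ρ0.ρ (Y.φ i))) n E
          ιA ρ b β βi π1 πχ ∧
        (∀ g : RtpaG, (π1 (LinearMap.trace A ρ.V (ρ.ρ g))).map (Ideal.Quotient.factor
            (le_sup_right : maximalIdeal (RttwS Y.O h) ^ n ≤
              rttwAug Y.O h ⊔ maximalIdeal (RttwS Y.O h) ^ n)) =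
          rttwBaseRed h X.D.d n (X.D.j0 (LinearMap.trace X.D.T0 X.D.ρ0.V (X.D.ρ0.ρ g)))) ∧
        ∀ j : Fin h, ∃ (g : RtpaG) (P : ValuationSubring (AlgebraicClosure ℚ)),
          P.LiesOverPrime (qv j) ∧ g ∈ P.inertiaSubgroupIn ℚ ∧
          π1 (LinearMap.trace A ρ.V (ρ.ρ g)) ^ 2 - 4 =
            algebraMap (RttwS Y.O h ⧸ maximalIdeal (RttwS Y.O h) ^ n)
              (Matrix (Fin X.D.d) (Fin X.D.d) (RttwS Y.O h ⧸ maximalIdeal (RttwS Y.O h) ^ n))
              (Ideal.Quotient.mk _ (MvPowerSeries.X j) ^ 2) := by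
  intro n qv hqv
  exact s59btr_hHk_cast (s59btr_m_of_isEmpty Y hι h) (X.levelQ n qv hqv)

/-- **R1-HK-MIN, `5 ≤ p`, UNCONDITIONAL**: at a setup `Y` of squarefree level `M ≥ 2` prime to
`p` all of whose primes are in `Y.Smin`, for a curve `W` which is residually modular of level
`M`: there are Hecke data whose levels are the hypothesis `hHk` of `s59minfd_base`. -/
theorem s59btr_hHk_min_five [hp : Fact p.Prime] (hp5 : 5 ≤ p) (hΔ : W.Δ ≠ 0)
    (hsq : Squarefree M) (hpM : ¬ p ∣ M) (hM2 : 2 ≤ M)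
    (hmod : W.IsResiduallyModularOfLevel p M)
    (hM : ∀ ℓ : ℕ, ℓ.Prime → ℓ ∣ M → ℓ ∈ Y.Smin) :
    ∃ X : S59btrHeckeDataQ Y h, Finset.univ.image Y.r = ∅ ∧
      ∀ (n : ℕ) (qv : Fin h → ℕ),
      IsTWFamily p Y.ρbar (Y.Smin ∪ Finset.univ.image Y.r) n h qv →
      ∃ (E : Set (RttwS Y.O h ⧸ maximalIdeal (RttwS Y.O h) ^ n))
        (A : Type) (_ : CommRing A) (_ : IsLocalRing A) (_ : Algebra Y.O A)
        (ιA : ResidueField Y.O →+* ResidueField A) (ρ : GaloisRepAdic A)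
        (b : Module.Basis (Fin 2) A ρ.V) (β βi : ℕ → Matrix (Fin 2) (Fin 2) A)
        (π1 πχ : A →ₐ[Y.O] Matrix (Fin X.D.d) (Fin X.D.d)
          (RttwS Y.O h ⧸ maximalIdeal (RttwS Y.O h) ^ n)),
        TWGal p Y.ρbar Y.Smin (Finset.univ.image qv) Y.r Y.σ Y.φ Y.tχ Y.lam h X.D.d X.D.j0
          (fun i => LinearMap.toMatrix X.D.b0 X.D.b0 (X.D.ρ0.ρ (Y.σ i)))
          (fun i => LinearMap.toMatrix X.D.b0 X.D.b0 (X.D.ρ0.ρ (Y.φ i))) n E
          ιA ρ b β βi π1 πχ ∧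
        (∀ g : RtpaG, (π1 (LinearMap.trace A ρ.V (ρ.ρ g))).map (Ideal.Quotient.factor
            (le_sup_right : maximalIdeal (RttwS Y.O h) ^ n ≤
              rttwAug Y.O h ⊔ maximalIdeal (RttwS Y.O h) ^ n)) =
          rttwBaseRed h X.D.d n (X.D.j0 (LinearMap.trace X.D.T0 X.D.ρ0.V (X.D.ρ0.ρ g)))) ∧
        ∀ j : Fin h, ∃ (g : RtpaG) (P : ValuationSubring (AlgebraicClosure ℚ)),
          P.LiesOverPrime (qv j) ∧ g ∈ P.inertiaSubgroupIn ℚ ∧
          π1 (LinearMap.trace A ρ.V (ρ.ρ g)) ^ 2 - 4 =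
            algebraMap (RttwS Y.O h ⧸ maximalIdeal (RttwS Y.O h) ^ n)
              (Matrix (Fin X.D.d) (Fin X.D.d) (RttwS Y.O h ⧸ maximalIdeal (RttwS Y.O h) ^ n))
              (Ideal.Quotient.mk _ (MvPowerSeries.X j) ^ 2) := by
  obtain ⟨X⟩ := s59tqt_heckeQ_five hp5 hΔ hsq hpM hM2 hmod Y h
  have hι := s59btr_isEmpty_of_min Y hM
  exact ⟨X, s59btr_image_r_of_isEmpty Y hι, s59btr_hHk_min Y h hι X⟩

end Min

end Fermat.Agent.S59.LowK

end
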