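/-
S59, wall R1 (MIN′), leaf R1-CTRL (helper43): the CONTROL map `R_Q → R_∅`.

Two deformation problems `𝒟₀` (minimal, "∅") and `𝒟Q` (Taylor–Wiles level `Q`) for the same
absolutely irreducible `ρbar`, with universal rings `D₀`, `DQ` (prelude `DeformationRingData`).

* `s59min_ctrl_baseChange_comp` : base change of a `GaloisRepAdic` along a composite is the
  composite of the base changes (up to equivalence).
* `s59min_ctrl_exists` : if the universal deformation of type `𝒟₀` is of type `𝒟Q`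
  (`hmono : 𝒟Q D₀.ρ`; e.g. `𝒟₀ ⇒ 𝒟Q`), there is a local `𝒪`-algebra map `φ : R_Q → R_∅` with
  `ρ_Q ⊗_φ R_∅ ≅ ρ_∅`.
* `s59min_ctrl_surjective` : every such `φ` is SURJECTIVE, provided `𝒟₀` passes to the base
  changes of `ρ_∅` along the surjections `R_∅ → k[ε]` (`TW.TwTanBC D₀`, the hypothesis of
  `TW.twtan_exists_surjective`).  Proof: a functional `ℓ ≠ 0` on the relative cotangent space of
  `R_∅` vanishing on the image of `𝔪_{R_Q}` gives two DIFFERENT tangent vectors `u, u₀` of `R_∅`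
  with `u ∘ φ = u₀ ∘ φ`, hence with equivalent deformations — against the uniqueness in the
  universal property of `R_∅` (`TW.twtan_eq_of_isEquiv`).  So `φ(𝔪_{R_Q})` spans the cotangent
  space; Nakayama (`TW.psj_maximalIdeal_le`) and completeness of `R_Q` finish.
* `s59min_ctrl` : both together.  `s59min_ctrl_comp` : `ψ := φ ∘ γ : 𝒪⟦X⟧ → R_∅` is surjective for
  every surjection `γ : 𝒪⟦X₁..X_r⟧ → R_Q` (the `ψ` of the prelude's `Algebra.PatchingLevel`).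
-/
import Fermat.Agent.TW.Tan

set_option autoImplicit false
set_option linter.unusedSectionVars false
set_option linter.unusedVariables false
set_option linter.style.longLine false
set_option linter.style.haveILetI false

noncomputable section

namespace Fermat.Agent.S59

open IsLocalRing Fermat.Agent.S53 Fermat.Agent.TW

section Comp

variable {A B C : Type} [CommRing A] [IsLocalRing A] [CommRing B] [IsLocalRing B]
  [CommRing C] [IsLocalRing C]

/-- equal matrix representations give equivalent `ofMatrix` -/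
theorem s59min_ctrl_ofMatrix_congr {r r' : Gal →* M2 A} (h : r = r') (hr : MatCont A r)
    (hr' : MatCont A r') : (ofMatrix r hr).IsEquiv (ofMatrix r' hr') := by
  subst h
  exact ⟨GaloisRepAdic.Equiv.refl _⟩

/-- equal ring homomorphisms give equivalent base changes -/
theorem s59min_ctrl_baseChange_congr {g g' : A →+* B} (h : g = g') (hg : IsLocalHom g)
    (hg' : IsLocalHom g') (ρ : GaloisRepAdic A) :
    (ρ.baseChangeAlong g hg).IsEquiv (ρ.baseChangeAlong g' hg') := by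
  subst h
  exact ⟨GaloisRepAdic.Equiv.refl _⟩

/-- **base change along a composite** -/
theorem s59min_ctrl_baseChange_comp (φ : A →+* B) (hφ : IsLocalHom φ) (u : B →+* C)
    (hu : IsLocalHom u) (huφ : IsLocalHom (u.comp φ)) (ρ : GaloisRepAdic A) :
    ((ρ.baseChangeAlong φ hφ).baseChangeAlong u hu).IsEquiv
      (ρ.baseChangeAlong (u.comp φ) huφ) := by
  obtain ⟨r, hr, ⟨e⟩⟩ := exists_ofMatrix_isEquiv ρ
  have e1 : GaloisRepAdic.Equiv (ρ.baseChangeAlong φ hφ)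
      (ofMatrix (mapRep φ r) (hr.map φ hφ)) :=
    (e.baseChangeAlong φ hφ).trans (ofMatrixBaseChangeEquiv φ hφ r hr)
  have e2 : GaloisRepAdic.Equiv ((ρ.baseChangeAlong φ hφ).baseChangeAlong u hu)
      (ofMatrix (mapRep u (mapRep φ r)) ((hr.map φ hφ).map u hu)) :=
    (e1.baseChangeAlong u hu).trans (ofMatrixBaseChangeEquiv u hu _ _)
  have e3 : GaloisRepAdic.Equiv (ρ.baseChangeAlong (u.comp φ) huφ)
      (ofMatrix (mapRep (u.comp φ) r) (hr.map (u.comp φ) huφ)) :=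
    (e.baseChangeAlong (u.comp φ) huφ).trans (ofMatrixBaseChangeEquiv (u.comp φ) huφ r hr)
  have hmap : mapRep u (mapRep φ r) = mapRep (u.comp φ) r := by
    apply MonoidHom.ext
    intro σ
    ext i j
    rfl
  obtain ⟨e4⟩ := s59min_ctrl_ofMatrix_congr hmap ((hr.map φ hφ).map u hu)
    (hr.map (u.comp φ) huφ)
  exact ⟨(e2.trans e4).trans e3.symm⟩

end Comp

section Main

variable {𝒪 : Type} [CommRing 𝒪] [IsDomain 𝒪] [IsDiscreteValuationRing 𝒪]
  [IsAdicComplete (maximalIdeal 𝒪) 𝒪] [Finite (ResidueField 𝒪)]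
variable {ρbar : ResidualGaloisRep (ResidueField 𝒪)}
  {𝒟₀ 𝒟Q : ∀ ⦃A : Type⦄ [CommRing A] [IsLocalRing A] [Algebra 𝒪 A], GaloisRepAdic A → Prop}

/-- **R1-CTRL, existence**: the control map `R_Q → R_∅`. -/
theorem s59min_ctrl_exists (D₀ : GaloisRep.DeformationRingData 𝒪 ρbar 𝒟₀)
    (DQ : GaloisRep.DeformationRingData 𝒪 ρbar 𝒟Q) (hmono : 𝒟Q D₀.ρ) :
    ∃ φ : DQ.R →ₐ[𝒪] D₀.R, ∃ hφ : IsLocalHom (φ : DQ.R →+* D₀.R),
      (DQ.ρ.baseChangeAlong (φ : DQ.R →+* D₀.R) hφ).IsEquiv D₀.ρ := by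
  obtain ⟨φ, ⟨hφ, he⟩, -⟩ :=
    DQ.universal D₀.R D₀.residue_surjective D₀.ρ hmono D₀.residual_isEquiv
  exact ⟨φ, hφ, he⟩

/-- the two tangent vectors attached to `ℓ` and to `0` agree after `φ` when `ℓ` kills the image of
the maximal ideal -/
theorem s59min_ctrl_tangent_comp {R R' : Type} [CommRing R] [IsLocalRing R] [Algebra 𝒪 R]
    [CommRing R'] [IsLocalRing R'] [Algebra 𝒪 R']
    (hresR : Function.Surjective (residue R ∘ algebraMap 𝒪 R)) (hA : IsResAlg 𝒪 R')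
    (φ : R →ₐ[𝒪] R') (ℓ : Module.Dual (ResidueField 𝒪) (TangentCot 𝒪 R'))
    (hℓ : ∀ m : maximalIdeal R, ℓ (tangentMk 𝒪 R' (φ m)) = 0) (a : R) :
    (tangentOfDual hA ℓ).1 (φ a) = (tangentOfDual hA 0).1 (φ a) := by
  obtain ⟨c, hc⟩ := psj_exists_sub_mem hresR a
  have h1 : tangentMk 𝒪 R' (φ a) = tangentMk 𝒪 R' (φ (a - algebraMap 𝒪 R c)) := by
    rw [map_sub, map_sub, φ.commutes, tangentMk_algebraMap, sub_zero]
  have h2 : ℓ (tangentMk 𝒪 R' (φ a)) = 0 := by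
    rw [h1]
    exact hℓ ⟨_, hc⟩
  refine TrivSqZeroExt.ext ?_ ?_
  · show (TrivSqZeroExt.inl (tangentRes hA (φ a)) +
      TrivSqZeroExt.inr (ℓ (tangentMk 𝒪 R' (φ a))) : DualNumber (ResidueField 𝒪)).fst =
      (TrivSqZeroExt.inl (tangentRes hA (φ a)) +
        TrivSqZeroExt.inr ((0 : Module.Dual (ResidueField 𝒪) (TangentCot 𝒪 R'))
          (tangentMk 𝒪 R' (φ a))) : DualNumber (ResidueField 𝒪)).fst
    simp
  · rw [tangentOfDual_apply_snd, tangentOfDual_apply_snd, h2]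
    simp

/-- **R1-CTRL, surjectivity**: the control map `R_Q → R_∅` is onto. -/
theorem s59min_ctrl_surjective (D₀ : GaloisRep.DeformationRingData 𝒪 ρbar 𝒟₀)
    (DQ : GaloisRep.DeformationRingData 𝒪 ρbar 𝒟Q) (hbc : TwTanBC D₀)
    (φ : DQ.R →ₐ[𝒪] D₀.R) (hφ : IsLocalHom (φ : DQ.R →+* D₀.R))
    (he : (DQ.ρ.baseChangeAlong (φ : DQ.R →+* D₀.R) hφ).IsEquiv D₀.ρ) :
    Function.Surjective φ := by
  classical
  letI : Algebra 𝒪 (DualNumber (ResidueField 𝒪)) := dnAlg 𝒪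
  have hres := D₀.residue_surjective
  have hresQ := DQ.residue_surjective
  have hA : IsResAlg 𝒪 D₀.R := psj_isResAlg hres
  haveI : Module.Finite (ResidueField 𝒪) (TangentCot 𝒪 D₀.R) := psj_finite_tangentCot hres
  have hε : IsTestRing 𝒪 (DualNumber (ResidueField 𝒪)) := isTestRing_dualNumber
  have hεR : IsResAlg 𝒪 (DualNumber (ResidueField 𝒪)) := hε.isResAlg
  -- the family of the images of the maximal ideal
  obtain ⟨y, hy_def⟩ : ∃ y : maximalIdeal DQ.R → D₀.R,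
      ∀ m, y m = (φ : DQ.R →+* D₀.R) (m : DQ.R) := ⟨fun m => φ m, fun _ => rfl⟩
  have hy : ∀ m, y m ∈ maximalIdeal D₀.R := by
    intro m
    rw [hy_def, IsLocalRing.mem_maximalIdeal]
    intro hu
    have hm : (m : DQ.R) ∈ maximalIdeal DQ.R := m.2
    rw [IsLocalRing.mem_maximalIdeal] at hm
    exact hm (hφ.map_nonunit (m : DQ.R) hu)
  -- STEP 1: the classes of the `y m` span the cotangent space
  have hspan : Submodule.span (ResidueField 𝒪)
      (Set.range fun m => tangentMk 𝒪 D₀.R (y m)) = ⊤ := by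
    by_contra hne
    obtain ⟨ℓ, hℓ0, hℓ⟩ := Submodule.exists_le_ker_of_lt_top _ (lt_top_iff_ne_top.2 hne)
    have hℓy : ∀ m : maximalIdeal DQ.R, ℓ (tangentMk 𝒪 D₀.R (φ m)) = 0 := fun m => by
      have h0 : ℓ (tangentMk 𝒪 D₀.R (y m)) = 0 :=
        LinearMap.mem_ker.1 (hℓ (Submodule.subset_span ⟨m, rfl⟩))
      rw [hy_def m] at h0
      exact h0
    set u : TangentHom 𝒪 D₀.R := tangentOfDual hA ℓ with hu_def
    set u₀ : TangentHom 𝒪 D₀.R := tangentOfDual hA 0 with hu₀_def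
    have husurj : Function.Surjective u.1 := twtan_tangentOfDual_surjective hA ℓ hℓ0
    have hq : IsLocalHom ((tangentAlgHom u : D₀.R →ₐ[𝒪] DualNumber (ResidueField 𝒪)) :
        D₀.R →+* DualNumber (ResidueField 𝒪)) := hεR.isLocalHom_ringHom (tangentAlgHom u)
    have hq₀ : IsLocalHom ((tangentAlgHom u₀ : D₀.R →ₐ[𝒪] DualNumber (ResidueField 𝒪)) :
        D₀.R →+* DualNumber (ResidueField 𝒪)) := hεR.isLocalHom_ringHom (tangentAlgHom u₀)
    have h𝒟 : 𝒟₀ (D₀.ρ.baseChangeAlong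
        ((tangentAlgHom u : D₀.R →ₐ[𝒪] DualNumber (ResidueField 𝒪)) :
          D₀.R →+* DualNumber (ResidueField 𝒪)) hq) := hbc (tangentAlgHom u) hq husurj
    -- the two composites with `φ` coincide
    have hcomp : ((tangentAlgHom u : D₀.R →ₐ[𝒪] DualNumber (ResidueField 𝒪)) :
        D₀.R →+* DualNumber (ResidueField 𝒪)).comp (φ : DQ.R →+* D₀.R) =
        ((tangentAlgHom u₀ : D₀.R →ₐ[𝒪] DualNumber (ResidueField 𝒪)) :
          D₀.R →+* DualNumber (ResidueField 𝒪)).comp (φ : DQ.R →+* D₀.R) := by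
      apply RingHom.ext
      intro a
      exact s59min_ctrl_tangent_comp hresQ hA φ ℓ hℓy a
    have hqφ : IsLocalHom (((tangentAlgHom u : D₀.R →ₐ[𝒪] DualNumber (ResidueField 𝒪)) :
        D₀.R →+* DualNumber (ResidueField 𝒪)).comp (φ : DQ.R →+* D₀.R)) :=
      hεR.isLocalHom_ringHom ((tangentAlgHom u).comp φ)
    have hq₀φ : IsLocalHom (((tangentAlgHom u₀ : D₀.R →ₐ[𝒪] DualNumber (ResidueField 𝒪)) :
        D₀.R →+* DualNumber (ResidueField 𝒪)).comp (φ : DQ.R →+* D₀.R)) :=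
      hεR.isLocalHom_ringHom ((tangentAlgHom u₀).comp φ)
    -- chain of equivalences
    obtain ⟨e⟩ := he
    have E1 : (D₀.ρ.baseChangeAlong ((tangentAlgHom u : D₀.R →ₐ[𝒪] DualNumber (ResidueField 𝒪)) :
        D₀.R →+* DualNumber (ResidueField 𝒪)) hq).IsEquiv
        ((DQ.ρ.baseChangeAlong (φ : DQ.R →+* D₀.R) hφ).baseChangeAlong _ hq) :=
      ⟨(e.baseChangeAlong _ hq).symm⟩
    have E2 := s59min_ctrl_baseChange_comp (φ : DQ.R →+* D₀.R) hφ _ hq hqφ DQ.ρ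
    have E3 := s59min_ctrl_baseChange_congr hcomp hqφ hq₀φ DQ.ρ
    have E4 := GaloisRepAdic_isEquiv_symm
      (s59min_ctrl_baseChange_comp (φ : DQ.R →+* D₀.R) hφ _ hq₀ hq₀φ DQ.ρ)
    have E5 : ((DQ.ρ.baseChangeAlong (φ : DQ.R →+* D₀.R) hφ).baseChangeAlong _ hq₀).IsEquiv
        (D₀.ρ.baseChangeAlong ((tangentAlgHom u₀ : D₀.R →ₐ[𝒪] DualNumber (ResidueField 𝒪)) :
          D₀.R →+* DualNumber (ResidueField 𝒪)) hq₀) :=
      ⟨e.baseChangeAlong _ hq₀⟩
    have E := GaloisRepAdic_isEquiv_trans (GaloisRepAdic_isEquiv_trans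
      (GaloisRepAdic_isEquiv_trans (GaloisRepAdic_isEquiv_trans E1 E2) E3) E4) E5
    have h1 := twtan_eq_of_isEquiv D₀ (tangentAlgHom u) (tangentAlgHom u₀) hq hq₀ h𝒟 E
    have h2 : tangentOfDual hA ℓ = tangentOfDual hA 0 := by
      apply Subtype.ext
      apply RingHom.ext
      intro a
      have := congrArg (fun q : @AlgHom 𝒪 D₀.R (DualNumber (ResidueField 𝒪)) _ _ _ _ (dnAlg 𝒪) =>
        (q : D₀.R →+* DualNumber (ResidueField 𝒪)) a) h1
      exact this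
    exact hℓ0 (tangentOfDual_injective hA h2)
  -- STEP 2: Nakayama
  have hgen := psj_gen_of_span_eq_top hres y hy hspan
  have hnak : maximalIdeal D₀.R ≤
      Ideal.span (Set.range y) ⊔ (maximalIdeal 𝒪).map (algebraMap 𝒪 D₀.R) := by
    refine Submodule.le_of_le_smul_of_le_jacobson_bot (I := maximalIdeal D₀.R)
      (IsNoetherian.noetherian _) ?_ ?_
    · rw [IsLocalRing.jacobson_eq_maximalIdeal ⊥ bot_ne_top]
    · rw [smul_eq_mul, ← pow_two]
      exact hgen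
  -- STEP 3: `𝔪_{R_∅} = 𝔪_{R_Q} R_∅`
  have hspan_le : Ideal.span (Set.range y) ≤ (maximalIdeal DQ.R).map (φ : DQ.R →+* D₀.R) := by
    rw [Ideal.span_le]
    rintro _ ⟨m, rfl⟩
    rw [hy_def]
    exact Ideal.mem_map_of_mem _ m.2
  have h𝒪_le : (maximalIdeal 𝒪).map (algebraMap 𝒪 D₀.R) ≤ (maximalIdeal DQ.R).map (φ : DQ.R →+* D₀.R) := by
    rw [Ideal.map_le_iff_le_comap]
    intro c hc
    rw [Ideal.mem_comap]
    have h1 : algebraMap 𝒪 D₀.R c = (φ : DQ.R →+* D₀.R) (algebraMap 𝒪 DQ.R c) :=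
      (φ.commutes c).symm
    rw [h1]
    exact Ideal.mem_map_of_mem _ (psj_algebraMap_mem hresQ hc)
  have hmax_le : maximalIdeal D₀.R ≤ (maximalIdeal DQ.R).map (φ : DQ.R →+* D₀.R) :=
    hnak.trans (sup_le hspan_le h𝒪_le)
  have hmap_le : (maximalIdeal DQ.R).map (φ : DQ.R →+* D₀.R) ≤ maximalIdeal D₀.R := by
    rw [Ideal.map_le_iff_le_comap]
    intro m hm
    rw [Ideal.mem_comap]
    have h0 := hy ⟨m, hm⟩
    rw [hy_def] at h0
    exact h0
  -- STEP 4: completeness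
  haveI haus : IsHausdorff ((maximalIdeal DQ.R).map (φ : DQ.R →+* D₀.R)) D₀.R := by
    refine IsHausdorff.of_le_jacobson _ D₀.R ?_
    rw [IsLocalRing.jacobson_eq_maximalIdeal ⊥ bot_ne_top]
    exact hmap_le
  have hsurj : Function.Surjective (φ : DQ.R →+* D₀.R) := by
    refine surjective_of_mk_map_comp_surjective (I := maximalIdeal DQ.R) (φ : DQ.R →+* D₀.R) ?_
    intro z
    obtain ⟨x, rfl⟩ := Ideal.Quotient.mk_surjective z
    obtain ⟨c, hc⟩ := psj_exists_sub_mem hres x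
    refine ⟨algebraMap 𝒪 DQ.R c, ?_⟩
    rw [RingHom.comp_apply, Ideal.Quotient.eq]
    have h1 : (φ : DQ.R →+* D₀.R) (algebraMap 𝒪 DQ.R c) = algebraMap 𝒪 D₀.R c := φ.commutes c
    rw [h1, ← neg_sub]
    exact neg_mem (hmax_le hc)
  exact hsurj

/-- **R1-CTRL**: the control map `R_Q → R_∅` exists and is surjective. -/
theorem s59min_ctrl (D₀ : GaloisRep.DeformationRingData 𝒪 ρbar 𝒟₀)
    (DQ : GaloisRep.DeformationRingData 𝒪 ρbar 𝒟Q) (hmono : 𝒟Q D₀.ρ) (hbc : TwTanBC D₀) :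
    ∃ φ : DQ.R →ₐ[𝒪] D₀.R, Function.Surjective φ ∧
      ∃ hφ : IsLocalHom (φ : DQ.R →+* D₀.R),
        (DQ.ρ.baseChangeAlong (φ : DQ.R →+* D₀.R) hφ).IsEquiv D₀.ρ := by
  obtain ⟨φ, hφ, he⟩ := s59min_ctrl_exists D₀ DQ hmono
  exact ⟨φ, s59min_ctrl_surjective D₀ DQ hbc φ hφ he, hφ, he⟩

/-- **R1-CTRL, the `ψ` of a patching level**: for every surjection `γ : 𝒪⟦X₁..X_r⟧ → R_Q`
(S56) the composite `ψ = φ ∘ γ : 𝒪⟦X₁..X_r⟧ → R_∅` is a surjective `𝒪`-algebra map and the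
universal deformation of level `Q` specialises along `φ` to the one of level `∅`. -/
theorem s59min_ctrl_comp (D₀ : GaloisRep.DeformationRingData 𝒪 ρbar 𝒟₀)
    (DQ : GaloisRep.DeformationRingData 𝒪 ρbar 𝒟Q) (hmono : 𝒟Q D₀.ρ) (hbc : TwTanBC D₀)
    {r : ℕ} (γ : MvPowerSeries (Fin r) 𝒪 →ₐ[𝒪] DQ.R) (hγ : Function.Surjective γ) :
    ∃ φ : DQ.R →ₐ[𝒪] D₀.R, Function.Surjective (φ.comp γ) ∧ Function.Surjective φ ∧
      ∃ hφ : IsLocalHom (φ : DQ.R →+* D₀.R),
        (DQ.ρ.baseChangeAlong (φ : DQ.R →+* D₀.R) hφ).IsEquiv D₀.ρ := by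
  obtain ⟨φ, hφs, hφ, he⟩ := s59min_ctrl D₀ DQ hmono hbc
  exact ⟨φ, hφs.comp hγ, hφs, hφ, he⟩

end Main

end Fermat.Agent.S59

end
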