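/-
S59, wall R1, leaf HENSEL (helper63), algebra part (Mathlib only).

* `s59hens_pow_entries` : powers of a `2 × 2` matrix `T ≡ 1 mod 𝔫` with off-diagonal entries in `I`
  (`I 𝔫 ≤ J ≤ 𝔫`, `I ≤ 𝔫`): `(T^m)₀₁ ≡ m T₀₁`, `(T^m)₁₀ ≡ m T₁₀ mod J`.
* `s59hens_offdiag` : `F = diag(a, d)`, `a − d` a unit, `q ≡ 1 mod 𝔫`, `T ≡ 1 mod 𝔫`,
  `F T = T^q F`  ⇒  `T₀₁, T₁₀ ∈ 𝔫^k` for every `k` (the tame relation forces inertia to be diagonal
  in the Frobenius eigenbasis).
* `s59hens_pow_p` : `U ≡ 1 mod 𝔫`, `p ∈ 𝔫` ⇒ `U^(p^e) ≡ 1 mod 𝔫^(e+1)` (the congruence kernel is a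
  `p`-group).
* `s59hens_diag` : over a Henselian local ring a `2 × 2` matrix whose characteristic polynomial has
  two distinct roots in the residue field is diagonalisable: `M g = g diag(a, d)`, `a − d` a unit.
-/
import Mathlib

set_option autoImplicit false
set_option linter.style.longLine false
set_option linter.unusedVariables false
set_option linter.unusedSectionVars false

namespace Fermat.Agent.S59

open Matrix Polynomial

section Pow

variable {B : Type*} [CommRing B]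

/-- entries of a product of `2 × 2` matrices -/
theorem s59hens_mul_apply (X Y : Matrix (Fin 2) (Fin 2) B) (i j : Fin 2) :
    (X * Y) i j = X i 0 * Y 0 j + X i 1 * Y 1 j := by
  rw [Matrix.mul_apply, Fin.sum_univ_two]

/-- **powers modulo `J`** -/
theorem s59hens_pow_entries (I J 𝔫 : Ideal B) (hI𝔫 : I * 𝔫 ≤ J) (hI : I ≤ 𝔫) (hJ : J ≤ 𝔫)
    (T : Matrix (Fin 2) (Fin 2) B) (h00 : T 0 0 - 1 ∈ 𝔫) (h11 : T 1 1 - 1 ∈ 𝔫)
    (h01 : T 0 1 ∈ I) (h10 : T 1 0 ∈ I) (m : ℕ) :
    (T ^ m) 0 0 - 1 ∈ 𝔫 ∧ (T ^ m) 1 1 - 1 ∈ 𝔫 ∧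
      (T ^ m) 0 1 - (m : B) * T 0 1 ∈ J ∧ (T ^ m) 1 0 - (m : B) * T 1 0 ∈ J := by
  induction m with
  | zero =>
    simp only [pow_zero, Matrix.one_apply_eq, sub_self, Nat.cast_zero, zero_mul, sub_zero]
    refine ⟨𝔫.zero_mem, 𝔫.zero_mem, ?_, ?_⟩
    · rw [Matrix.one_apply_ne (by decide)]; exact J.zero_mem
    · rw [Matrix.one_apply_ne (by decide)]; exact J.zero_mem
  | succ m ih =>
    obtain ⟨i00, i11, i01, i10⟩ := ih
    have p01 : (T ^ m) 0 1 ∈ 𝔫 := by
      have e : (T ^ m) 0 1 = ((T ^ m) 0 1 - (m : B) * T 0 1) + (m : B) * T 0 1 := by ring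
      rw [e]
      exact 𝔫.add_mem (hJ i01) (𝔫.mul_mem_left _ (hI h01))
    have p10 : (T ^ m) 1 0 ∈ 𝔫 := by
      have e : (T ^ m) 1 0 = ((T ^ m) 1 0 - (m : B) * T 1 0) + (m : B) * T 1 0 := by ring
      rw [e]
      exact 𝔫.add_mem (hJ i10) (𝔫.mul_mem_left _ (hI h10))
    have hmul : ∀ {x y : B}, x ∈ I → y ∈ 𝔫 → x * y ∈ J := fun hx hy =>
      hI𝔫 (Ideal.mul_mem_mul hx hy)
    rw [pow_succ]
    refine ⟨?_, ?_, ?_, ?_⟩
    · rw [s59hens_mul_apply]
      have e : (T ^ m) 0 0 * T 0 0 + (T ^ m) 0 1 * T 1 0 - 1 =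
          ((T ^ m) 0 0 - 1) * T 0 0 + (T 0 0 - 1) + (T ^ m) 0 1 * T 1 0 := by ring
      rw [e]
      exact 𝔫.add_mem (𝔫.add_mem (𝔫.mul_mem_right _ i00) h00) (𝔫.mul_mem_right _ p01)
    · rw [s59hens_mul_apply]
      have e : (T ^ m) 1 0 * T 0 1 + (T ^ m) 1 1 * T 1 1 - 1 =
          (T ^ m) 1 0 * T 0 1 + (((T ^ m) 1 1 - 1) * T 1 1 + (T 1 1 - 1)) := by ring
      rw [e]
      exact 𝔫.add_mem (𝔫.mul_mem_right _ p10) (𝔫.add_mem (𝔫.mul_mem_right _ i11) h11)
    · rw [s59hens_mul_apply]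
      have e : (T ^ m) 0 0 * T 0 1 + (T ^ m) 0 1 * T 1 1 - ((m + 1 : ℕ) : B) * T 0 1 =
          T 0 1 * ((T ^ m) 0 0 - 1) + ((T ^ m) 0 1 - (m : B) * T 0 1) * T 1 1 +
            (m : B) * (T 0 1 * (T 1 1 - 1)) := by
        push_cast
        ring
      rw [e]
      exact J.add_mem (J.add_mem (hmul h01 i00) (J.mul_mem_right _ i01))
        (J.mul_mem_left _ (hmul h01 h11))
    · rw [s59hens_mul_apply]
      have e : (T ^ m) 1 0 * T 0 0 + (T ^ m) 1 1 * T 1 0 - ((m + 1 : ℕ) : B) * T 1 0 =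
          ((T ^ m) 1 0 - (m : B) * T 1 0) * T 0 0 + (m : B) * (T 1 0 * (T 0 0 - 1)) +
            T 1 0 * ((T ^ m) 1 1 - 1) := by
        push_cast
        ring
      rw [e]
      exact J.add_mem (J.add_mem (J.mul_mem_right _ i10) (J.mul_mem_left _ (hmul h10 h00)))
        (hmul h10 i11)

/-- **the tame relation forces `T` to be diagonal**: `F = diag(a, d)` with `a − d` a unit,
`q ≡ 1 mod 𝔫`, `T ≡ 1 mod 𝔫` and `F T = T^q F`.  Then the off-diagonal entries of `T` lie in every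
power of `𝔫`. -/
theorem s59hens_offdiag (𝔫 : Ideal B) (a d : B) (had : IsUnit (a - d)) (q : ℕ)
    (hq : (q : B) - 1 ∈ 𝔫) (T : Matrix (Fin 2) (Fin 2) B)
    (hT : ∀ i j, (T - 1) i j ∈ 𝔫)
    (hrel : Matrix.diagonal ![a, d] * T = T ^ q * Matrix.diagonal ![a, d]) (k : ℕ) :
    T 0 1 ∈ 𝔫 ^ k ∧ T 1 0 ∈ 𝔫 ^ k := by
  have h00 : T 0 0 - 1 ∈ 𝔫 := by
    have := hT 0 0
    rwa [Matrix.sub_apply, Matrix.one_apply_eq] at this
  have h11 : T 1 1 - 1 ∈ 𝔫 := by
    have := hT 1 1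
    rwa [Matrix.sub_apply, Matrix.one_apply_eq] at this
  have h01 : T 0 1 ∈ 𝔫 := by
    have := hT 0 1
    rwa [Matrix.sub_apply, Matrix.one_apply_ne (by decide), sub_zero] at this
  have h10 : T 1 0 ∈ 𝔫 := by
    have := hT 1 0
    rwa [Matrix.sub_apply, Matrix.one_apply_ne (by decide), sub_zero] at this
  -- the two entries of the relation
  have r01 : a * T 0 1 = (T ^ q) 0 1 * d := by
    have := congrFun (congrFun hrel 0) 1
    rw [s59hens_mul_apply, s59hens_mul_apply] at this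
    simpa using this
  have r10 : d * T 1 0 = (T ^ q) 1 0 * a := by
    have := congrFun (congrFun hrel 1) 0
    rw [s59hens_mul_apply, s59hens_mul_apply] at this
    simpa using this
  induction k with
  | zero => simp
  | succ k ih =>
    rcases Nat.eq_zero_or_pos k with hk | hk
    · subst hk
      rw [zero_add, pow_one]
      exact ⟨h01, h10⟩
    · obtain ⟨k01, k10⟩ := ih
      have hI : 𝔫 ^ k ≤ 𝔫 := Ideal.pow_le_self (Nat.pos_iff_ne_zero.1 hk)
      have hJ : 𝔫 ^ (k + 1) ≤ 𝔫 := Ideal.pow_le_self (Nat.succ_ne_zero k)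
      have hI𝔫 : 𝔫 ^ k * 𝔫 ≤ 𝔫 ^ (k + 1) := by rw [pow_succ]
      obtain ⟨-, -, p01, p10⟩ := s59hens_pow_entries (𝔫 ^ k) (𝔫 ^ (k + 1)) 𝔫 hI𝔫 hI hJ T
        h00 h11 k01 k10 q
      have hmul : ∀ {x y : B}, x ∈ 𝔫 ^ k → y ∈ 𝔫 → x * y ∈ 𝔫 ^ (k + 1) := fun hx hy =>
        hI𝔫 (Ideal.mul_mem_mul hx hy)
      obtain ⟨u, hu⟩ := had
      constructor
      · have e : (a - d) * T 0 1 =
            ((T ^ q) 0 1 - (q : B) * T 0 1) * d + d * (T 0 1 * ((q : B) - 1)) := by
          have : (a - d) * T 0 1 = a * T 0 1 - d * T 0 1 := by ring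
          rw [this, r01]
          ring
        have hmem : (a - d) * T 0 1 ∈ 𝔫 ^ (k + 1) := by
          rw [e]
          exact Ideal.add_mem _ (Ideal.mul_mem_right _ _ p01)
            (Ideal.mul_mem_left _ _ (hmul k01 hq))
        have e2 : T 0 1 = ((u⁻¹ : Bˣ) : B) * ((a - d) * T 0 1) := by
          rw [← hu, ← mul_assoc, Units.inv_mul, one_mul]
        rw [e2]
        exact Ideal.mul_mem_left _ _ hmem
      · have e : (a - d) * T 1 0 =
            -(((T ^ q) 1 0 - (q : B) * T 1 0) * a + a * (T 1 0 * ((q : B) - 1))) +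
              (a * T 1 0 - d * T 1 0 + ((T ^ q) 1 0 * a - a * T 1 0)) := by ring
        have e' : (a - d) * T 1 0 =
            -(((T ^ q) 1 0 - (q : B) * T 1 0) * a + a * (T 1 0 * ((q : B) - 1))) := by
          have h1 : a * T 1 0 - d * T 1 0 + ((T ^ q) 1 0 * a - a * T 1 0) = 0 := by
            rw [← r10]
            ring
          rw [e, h1, add_zero]
        have hmem : (a - d) * T 1 0 ∈ 𝔫 ^ (k + 1) := by
          rw [e']
          exact (Ideal.neg_mem_iff _).2 (Ideal.add_mem _ (Ideal.mul_mem_right _ _ p10)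
            (Ideal.mul_mem_left _ _ (hmul k10 hq)))
        have e2 : T 1 0 = ((u⁻¹ : Bˣ) : B) * ((a - d) * T 1 0) := by
          rw [← hu, ← mul_assoc, Units.inv_mul, one_mul]
        rw [e2]
        exact Ideal.mul_mem_left _ _ hmem

/-- products of matrices with entries in ideals -/
theorem s59hens_mul_mem (I J K : Ideal B) (hIJ : I * J ≤ K) (X Y : Matrix (Fin 2) (Fin 2) B)
    (hX : ∀ i j, X i j ∈ I) (hY : ∀ i j, Y i j ∈ J) (i j : Fin 2) : (X * Y) i j ∈ K := by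
  rw [s59hens_mul_apply]
  exact K.add_mem (hIJ (Ideal.mul_mem_mul (hX i 0) (hY 0 j)))
    (hIJ (Ideal.mul_mem_mul (hX i 1) (hY 1 j)))

/-- a matrix `≡ 1 mod 𝔫` has all its powers `≡ 1 mod 𝔫` -/
theorem s59hens_pow_sub_one_mem (𝔫 : Ideal B) (U : Matrix (Fin 2) (Fin 2) B)
    (hU : ∀ i j, (U - 1) i j ∈ 𝔫) (m : ℕ) (i j : Fin 2) : (U ^ m - 1) i j ∈ 𝔫 := by
  induction m generalizing i j with
  | zero =>
    rw [pow_zero, sub_self]
    exact 𝔫.zero_mem
  | succ m ih =>
    have e : U ^ (m + 1) - 1 = (U ^ m - 1) * U + (U - 1) := by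
      rw [pow_succ, sub_mul, one_mul]
      abel
    rw [e, Matrix.add_apply, s59hens_mul_apply]
    exact 𝔫.add_mem (𝔫.add_mem (𝔫.mul_mem_right _ (ih i 0)) (𝔫.mul_mem_right _ (ih i 1)))
      (hU i j)

/-- `∑_{i < p} U^i ≡ 0 mod 𝔫` if `U ≡ 1 mod 𝔫` and `p ∈ 𝔫` -/
theorem s59hens_geom_mem (𝔫 : Ideal B) (p : ℕ) (hp : (p : B) ∈ 𝔫)
    (U : Matrix (Fin 2) (Fin 2) B) (hU : ∀ i j, (U - 1) i j ∈ 𝔫) (i j : Fin 2) :
    (∑ l ∈ Finset.range p, U ^ l) i j ∈ 𝔫 := by
  have e : (∑ l ∈ Finset.range p, U ^ l) =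
      (∑ l ∈ Finset.range p, (U ^ l - 1)) + (p : B) • (1 : Matrix (Fin 2) (Fin 2) B) := by
    rw [Finset.sum_sub_distrib, Finset.sum_const, Finset.card_range, Nat.cast_smul_eq_nsmul]
    abel
  rw [e, Matrix.add_apply, Matrix.sum_apply, Matrix.smul_apply, smul_eq_mul]
  exact 𝔫.add_mem (𝔫.sum_mem fun l _ => s59hens_pow_sub_one_mem 𝔫 U hU l i j)
    (𝔫.mul_mem_right _ hp)

/-- **the congruence kernel is a `p`-group**: `U ≡ 1 mod 𝔫`, `p ∈ 𝔫` ⇒
`U^(p^e) ≡ 1 mod 𝔫^(e+1)`. -/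
theorem s59hens_pow_p (𝔫 : Ideal B) (p : ℕ) (hp : (p : B) ∈ 𝔫)
    (U : Matrix (Fin 2) (Fin 2) B) (hU : ∀ i j, (U - 1) i j ∈ 𝔫) (e : ℕ) (i j : Fin 2) :
    (U ^ (p ^ e) - 1) i j ∈ 𝔫 ^ (e + 1) := by
  induction e generalizing i j with
  | zero =>
    rw [pow_zero, pow_one, pow_one]
    exact hU i j
  | succ e ih =>
    have h1 : U ^ (p ^ (e + 1)) - 1 =
        (U ^ (p ^ e) - 1) * ∑ l ∈ Finset.range p, (U ^ (p ^ e)) ^ l := by
      rw [mul_geom_sum, ← pow_mul, ← pow_succ]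
    rw [h1]
    have hV : ∀ i j, (U ^ (p ^ e) - 1) i j ∈ 𝔫 := fun i j =>
      s59hens_pow_sub_one_mem 𝔫 U hU _ i j
    exact s59hens_mul_mem (𝔫 ^ (e + 1)) 𝔫 (𝔫 ^ (e + 1 + 1))
      (le_of_eq (pow_succ 𝔫 (e + 1)).symm) _ _ ih
      (fun i j => s59hens_geom_mem 𝔫 p hp _ hV i j) i j

end Pow

section Diag

variable {A : Type*} [CommRing A] [IsLocalRing A]

open IsLocalRing

/-- **Hensel**: a `2 × 2` matrix over a Henselian local ring whose characteristic polynomial has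
two distinct roots `α ≠ β` in the residue field is diagonalisable, `M g = g diag(a, d)` with
`a ↦ α`, `d ↦ β`. -/
theorem s59hens_diag
    (hH : ∀ f : A[X], f.Monic → ∀ a₀ : A, f.eval a₀ ∈ maximalIdeal A →
      IsUnit (f.derivative.eval a₀) → ∃ a : A, f.IsRoot a ∧ a - a₀ ∈ maximalIdeal A)
    (M : Matrix (Fin 2) (Fin 2) A) (α β : ResidueField A) (hαβ : α ≠ β)
    (htr : residue A M.trace = α + β) (hdet : residue A M.det = α * β) :
    ∃ (g : Matrix (Fin 2) (Fin 2) A) (a d : A), IsUnit g ∧ IsUnit (a - d) ∧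
      M * g = g * Matrix.diagonal ![a, d] ∧ residue A a = α ∧ residue A d = β := by
  classical
  obtain ⟨a₀, ha₀⟩ := residue_surjective α
  set t := M.trace with ht
  set δ := M.det with hδ
  let f : A[X] := X ^ 2 - C t * X + C δ
  have hfm : f.Monic := by
    have h1 : f = X ^ 2 + (-(C t * X) + C δ) := by
      show X ^ 2 - C t * X + C δ = _
      ring
    rw [h1]
    refine Polynomial.monic_X_pow_add (n := 2) ?_
    refine lt_of_le_of_lt (Polynomial.degree_add_le _ _) (max_lt ?_ ?_)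
    · rw [Polynomial.degree_neg]
      exact lt_of_le_of_lt (Polynomial.degree_C_mul_X_le t) (by norm_num)
    · exact lt_of_le_of_lt Polynomial.degree_C_le (by norm_num)
  have hev : ∀ x : A, f.eval x = x ^ 2 - t * x + δ := by
    intro x
    simp only [f, eval_add, eval_sub, eval_pow, eval_X, eval_mul, eval_C]
  have hder : ∀ x : A, f.derivative.eval x = 2 * x - t := by
    intro x
    simp only [f, derivative_add, derivative_sub, derivative_X_pow, derivative_mul, derivative_C,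
      derivative_X, eval_add, eval_sub, eval_mul, eval_C, eval_X, eval_pow, zero_mul, mul_one,
      zero_add, add_zero, Nat.cast_ofNat, eval_ofNat]
    ring
  have h1 : f.eval a₀ ∈ maximalIdeal A := by
    rw [← residue_eq_zero_iff, hev, map_add, map_sub, map_pow, map_mul, htr, hdet, ha₀]
    ring
  have h2 : IsUnit (f.derivative.eval a₀) := by
    rw [hder]
    by_contra hc
    have h3 : residue A (2 * a₀ - t) = 0 := (residue_eq_zero_iff _).2 ((mem_maximalIdeal _).2 hc)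
    rw [map_sub, map_mul, htr, ha₀, map_ofNat] at h3
    apply hαβ
    linear_combination h3
  obtain ⟨a, hroot, haa₀⟩ := hH f hfm a₀ h1 h2
  have hra : residue A a = α := by
    rw [← ha₀, ← sub_eq_zero, ← map_sub]
    exact (residue_eq_zero_iff _).2 haa₀
  have hroot' : a ^ 2 - t * a + δ = 0 := by
    have := hroot
    rw [Polynomial.IsRoot.def, hev] at this
    exact this
  obtain ⟨d, hd⟩ : ∃ d : A, d = t - a := ⟨_, rfl⟩
  have hrd : residue A d = β := by
    rw [hd, map_sub, htr, hra]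
    ring
  have had : IsUnit (a - d) := by
    by_contra hc
    have h3 : residue A (a - d) = 0 := (residue_eq_zero_iff _).2 ((mem_maximalIdeal _).2 hc)
    rw [map_sub, hra, hrd] at h3
    exact hαβ (sub_eq_zero.1 h3)
  -- the entries
  have htE : t = M 0 0 + M 1 1 := by
    rw [ht, Matrix.trace_fin_two]
  have hδE : δ = M 0 0 * M 1 1 - M 0 1 * M 1 0 := by
    rw [hδ, Matrix.det_fin_two]
  have hsum : (M 0 0 - d) + (M 1 1 - d) = a - d := by
    rw [hd, htE]
    ring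
  have hu : IsUnit (M 0 0 - d) ∨ IsUnit (M 1 1 - d) := by
    by_contra hc
    push Not at hc
    have h3 : (M 0 0 - d) + (M 1 1 - d) ∈ maximalIdeal A :=
      Ideal.add_mem _ ((mem_maximalIdeal _).2 hc.1) ((mem_maximalIdeal _).2 hc.2)
    rw [hsum] at h3
    exact (mem_maximalIdeal _).1 h3 had
  rcases hu with hu | hu
  · refine ⟨!![M 0 0 - d, M 0 1; M 1 0, M 1 1 - a], a, d, ?_, had, ?_, hra, hrd⟩
    · rw [Matrix.isUnit_iff_isUnit_det, Matrix.det_fin_two_of]
      have e : (M 0 0 - d) * (M 1 1 - a) - M 0 1 * M 1 0 = (M 0 0 - d) * (d - a) := by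
        rw [hd, htE]
        rw [htE, hδE] at hroot'
        first
          | linear_combination hroot'
          | linear_combination (-1 : A) * hroot'
      rw [e]
      exact hu.mul (by
        have : d - a = -(a - d) := by ring
        rw [this]
        exact had.neg)
    · rw [htE, hδE] at hroot'
      ext i j
      fin_cases i <;> fin_cases j <;>
        simp [s59hens_mul_apply, Matrix.diagonal] <;>
        (rw [hd, htE]
         first
           | ring1
           | linear_combination hroot'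
           | linear_combination (-1 : A) * hroot')
  · refine ⟨!![M 0 1, M 0 0 - a; M 1 1 - d, M 1 0], a, d, ?_, had, ?_, hra, hrd⟩
    · rw [Matrix.isUnit_iff_isUnit_det, Matrix.det_fin_two_of]
      have e : M 0 1 * M 1 0 - (M 0 0 - a) * (M 1 1 - d) = (M 1 1 - d) * (a - d) := by
        rw [hd, htE]
        rw [htE, hδE] at hroot'
        first
          | linear_combination hroot'
          | linear_combination (-1 : A) * hroot'
      rw [e]
      exact hu.mul had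
    · rw [htE, hδE] at hroot'
      ext i j
      fin_cases i <;> fin_cases j <;>
        simp [s59hens_mul_apply, Matrix.diagonal] <;>
        (rw [hd, htE]
         first
           | ring1
           | linear_combination hroot'
           | linear_combination (-1 : A) * hroot')

end Diag

end Fermat.Agent.S59
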