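/-
S59, wall R1, leaf **HENSEL** (helper63): the inertia group at a Taylor–Wiles prime acts
diagonally in the Frobenius eigenbasis.

`A` a noetherian local ring with residue characteristic `p`, `ρ : G_ℚ → GL₂(A)` continuous,
`q ≠ p` a prime with `q ≡ 1 mod 𝔪`, `P` a place of `ℚ̄` over `q`, `φ` a Frobenius at `P`.

* `s59hens_inertia_diag` : if `r φ = diag(a, d)` with `a − d` a unit and `r σ ≡ 1 mod 𝔪` for
  `σ ∈ I_P`, then `r σ` is diagonal for every `σ ∈ I_P`
  (tame inertia `s59selt_global` modulo every `𝔪ⁿ`: the image of `I_P` is cyclic, generated by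
  `T` with `F T F⁻¹ = T^q`; `s59hens_offdiag`; Krull).
* `s59hens_main` : `A` Henselian, `ρ̄` unramified at `q`, `ρ̄(φ)` with distinct eigenvalues `α ≠ β`
  in the residue field ⇒ there are `g ∈ GL₂(A)`, `a ↦ α`, `d ↦ β` with `g⁻¹ ρ(φ) g = diag(a, d)` and
  `g⁻¹ ρ(σ) g` diagonal for all `σ ∈ I_P`.
* `s59hens_chi` : for `ρ` with cyclotomic determinant: for every `σ ∈ I_P` there is `χ ∈ Aˣ` with
  `tr ρ(σ) = χ + χ⁻¹`, and `ψ χ = 1` for every local homomorphism `ψ : A → B` such that `ρ ⊗_ψ B`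
  is unramified at `q`  (= leaf (c) of helper34's R1-LG BYPASS v2).
-/
import Fermat.Agent.S59.Min.HenselAlg
import Fermat.Agent.S59.SelTame
import Fermat.Agent.S59.SelLocalTools

set_option autoImplicit false
set_option linter.style.longLine false
set_option linter.unusedVariables false
set_option linter.unusedSectionVars false
set_option linter.style.haveILetI false

namespace Fermat.Agent.S59

open IsLocalRing Polynomial Fermat.Agent.S53

/-- `ℚ̄` -/
local notation "Qbar" => AlgebraicClosure ℚ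

/-- `G_ℚ` -/
local notation "GalQ" => (AlgebraicClosure ℚ ≃ₐ[ℚ] AlgebraicClosure ℚ)

section Core

variable {A : Type} [CommRing A] [IsLocalRing A] [IsNoetherianRing A]

/-- reduction of matrices modulo an ideal: a matrix all of whose entries lie in `I` maps to `0` -/
theorem s59hens_map_mk_eq_one (I : Ideal A) (X : M2 A) (h : ∀ i j, (X - 1) i j ∈ I) :
    (Ideal.Quotient.mk I).mapMatrix X = 1 := by
  ext i j
  have h1 := h i j
  rw [Matrix.sub_apply, ← Ideal.Quotient.eq] at h1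
  rw [RingHom.mapMatrix_apply, Matrix.map_apply, h1, Matrix.one_apply, Matrix.one_apply]
  split_ifs
  · exact map_one _
  · exact map_zero _

/-- **inertia is diagonal in the Frobenius eigenbasis** (matrix form) -/
theorem s59hens_inertia_diag (p : ℕ) (hp : p.Prime) (hpA : (p : A) ∈ maximalIdeal A)
    (q : ℕ) (hq : q.Prime) (hqp : q ≠ p) (hq1 : (q : A) - 1 ∈ maximalIdeal A)
    (r : GalQ →* M2 A) (hcont : MatCont A r)
    (P : ValuationSubring Qbar) (hP : P.LiesOverPrime q) (φ : GalQ) (hφ : P.IsFrobeniusAt φ q)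
    (a d : A) (had : IsUnit (a - d)) (hF : r φ = Matrix.diagonal ![a, d])
    (hone : ∀ σ ∈ P.inertiaSubgroupIn ℚ, ∀ i j, (r σ - 1) i j ∈ maximalIdeal A) :
    ∀ σ ∈ P.inertiaSubgroupIn ℚ, r σ 0 1 = 0 ∧ r σ 1 0 = 0 := by
  classical
  -- modulo `𝔪 ^ n`
  have key : ∀ n : ℕ, ∀ σ ∈ P.inertiaSubgroupIn ℚ,
      r σ 0 1 ∈ maximalIdeal A ^ n ∧ r σ 1 0 ∈ maximalIdeal A ^ n := by
    intro n
    set I : Ideal A := maximalIdeal A ^ n with hI
    set π : A →+* A ⧸ I := Ideal.Quotient.mk I with hπ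
    set 𝔫 : Ideal (A ⧸ I) := (maximalIdeal A).map π with h𝔫
    have h𝔫n : 𝔫 ^ n = ⊥ := by
      rw [h𝔫, ← Ideal.map_pow, ← hI, hπ, Ideal.map_quotient_self]
    have hmem𝔫 : ∀ x : A, x ∈ maximalIdeal A → π x ∈ 𝔫 := fun x hx => Ideal.mem_map_of_mem π hx
    obtain ⟨L, hL, hLM⟩ := hcont n
    haveI := hL
    -- the reduced representation
    let R : GalQ →* M2 (A ⧸ I) :=
      ((π.mapMatrix : M2 A →+* M2 (A ⧸ I)) : M2 A →* M2 (A ⧸ I)).comp r
    have hR : ∀ σ, R σ = π.mapMatrix (r σ) := fun σ => rfl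
    have hRent : ∀ σ i j, R σ i j = π (r σ i j) := fun σ i j => rfl
    have hR1 : ∀ σ ∈ P.inertiaSubgroupIn ℚ, ∀ i j, (R σ - 1) i j ∈ 𝔫 := by
      intro σ hσ i j
      have h1 := hmem𝔫 _ (hone σ hσ i j)
      have h2 : (R σ - 1) i j = π ((r σ - 1) i j) := by
        rw [Matrix.sub_apply, Matrix.sub_apply, map_sub, hRent, Matrix.one_apply, Matrix.one_apply]
        split_ifs
        · rw [map_one]
        · rw [map_zero]
      rw [h2]
      exact h1
    let hJ : ↥(P.inertiaSubgroupIn ℚ) →* (M2 (A ⧸ I))ˣ :=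
      R.toHomUnits.comp (P.inertiaSubgroupIn ℚ).subtype
    have hJv : ∀ y : ↥(P.inertiaSubgroupIn ℚ), ((hJ y : (M2 (A ⧸ I))ˣ) : M2 (A ⧸ I)) = R y :=
      fun y => rfl
    obtain ⟨t, ht⟩ := s59selt_global hq P hP L (J := ↥(P.inertiaSubgroupIn ℚ))
      (P.inertiaSubgroupIn ℚ).subtype (fun y => y.2)
    have hB : ∀ b : ↥hJ.range, ∃ e : ℕ, b ^ p ^ e = 1 := by
      rintro ⟨b, y, rfl⟩
      refine ⟨n, ?_⟩
      apply Subtype.ext
      apply Units.ext
      show ((hJ y : (M2 (A ⧸ I))ˣ) : M2 (A ⧸ I)) ^ p ^ n = 1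
      rw [hJv]
      have h1 : ∀ i j, (R y ^ p ^ n - 1) i j ∈ 𝔫 ^ (n + 1) :=
        s59hens_pow_p 𝔫 p (by
          have := hmem𝔫 _ hpA
          rwa [map_natCast] at this) (R y) (hR1 y y.2) n
      have h2 : 𝔫 ^ (n + 1) = ⊥ := by rw [pow_succ, h𝔫n, Ideal.bot_mul]
      rw [← sub_eq_zero]
      ext i j
      have h3 := h1 i j
      rw [h2, Ideal.mem_bot] at h3
      exact h3
    have hh : ∀ y : ↥(P.inertiaSubgroupIn ℚ),
        (P.inertiaSubgroupIn ℚ).subtype y ∈ L.fixingSubgroup → hJ.rangeRestrict y = 1 := by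
      intro y hy
      have hy' : ∀ z ∈ L, (y : GalQ) z = z := fun z hz =>
        (IntermediateField.mem_fixingSubgroup_iff L _).1 hy z hz
      apply Subtype.ext
      apply Units.ext
      show ((hJ y : (M2 (A ⧸ I))ˣ) : M2 (A ⧸ I)) = 1
      rw [hJv, hR]
      exact s59hens_map_mk_eq_one I _ (hLM _ hy')
    obtain ⟨h1, h2⟩ := ht p hp hqp ↥hJ.range hJ.rangeRestrict hB hh
    -- the generator and the relation
    have hconj_mem : φ * (t : GalQ) * φ⁻¹ ∈ P.inertiaSubgroupIn ℚ :=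
      s59sellt_conj_frob q P φ hφ _ t.2
    have h3 := h2 ⟨φ * (t : GalQ) * φ⁻¹, hconj_mem⟩ φ hφ rfl
    have h3' : R (φ * (t : GalQ) * φ⁻¹) = R t ^ q := by
      have := congrArg (fun b : ↥hJ.range => (((b : (M2 (A ⧸ I))ˣ)) : M2 (A ⧸ I))) h3
      simp only [SubmonoidClass.coe_pow, Units.val_pow_eq_pow_val] at this
      exact this
    have hrel : Matrix.diagonal ![π a, π d] * R t = R t ^ q * Matrix.diagonal ![π a, π d] := by
      have hRφ : R φ = Matrix.diagonal ![π a, π d] := by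
        rw [hR, hF]
        ext i j
        fin_cases i <;> fin_cases j <;> simp [Matrix.diagonal]
      rw [← hRφ, ← h3', ← map_mul, ← map_mul]
      congr 1
      group
    have hadπ : IsUnit (π a - π d) := by
      rw [← map_sub]
      exact had.map π
    have hqπ : ((q : ℕ) : A ⧸ I) - 1 ∈ 𝔫 := by
      have := hmem𝔫 _ hq1
      rwa [map_sub, map_natCast, map_one] at this
    obtain ⟨o01, o10⟩ := s59hens_offdiag 𝔫 (π a) (π d) hadπ q hqπ (R t) (hR1 t t.2) hrel n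
    rw [h𝔫n, Ideal.mem_bot] at o01 o10
    -- `R t` is diagonal, hence all its powers
    have hdiag : ∀ m : ℕ, (R t ^ m) 0 1 = 0 ∧ (R t ^ m) 1 0 = 0 := by
      intro m
      induction m with
      | zero =>
        rw [pow_zero]
        exact ⟨Matrix.one_apply_ne (by decide), Matrix.one_apply_ne (by decide)⟩
      | succ m ih =>
        rw [pow_succ, s59hens_mul_apply, s59hens_mul_apply, ih.1, ih.2, o01, o10]
        simp
    intro σ hσ
    obtain ⟨m, hm⟩ := h1 ⟨σ, hσ⟩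
    have hm' : R σ = R t ^ m := by
      have := congrArg (fun b : ↥hJ.range => (((b : (M2 (A ⧸ I))ˣ)) : M2 (A ⧸ I))) hm
      simp only [SubmonoidClass.coe_pow, Units.val_pow_eq_pow_val] at this
      exact this
    have e01 : π (r σ 0 1) = 0 := by
      rw [← hRent, hm']
      exact (hdiag m).1
    have e10 : π (r σ 1 0) = 0 := by
      rw [← hRent, hm']
      exact (hdiag m).2
    exact ⟨Ideal.Quotient.eq_zero_iff_mem.1 e01, Ideal.Quotient.eq_zero_iff_mem.1 e10⟩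
  -- Krull
  have hbot := Ideal.iInf_pow_eq_bot_of_isLocalRing (maximalIdeal A)
    (maximalIdeal.isMaximal A).ne_top
  intro σ hσ
  constructor
  · have h1 : r σ 0 1 ∈ ⨅ n : ℕ, maximalIdeal A ^ n :=
      (Ideal.mem_iInf).2 fun n => (key n σ hσ).1
    rwa [hbot, Ideal.mem_bot] at h1
  · have h1 : r σ 1 0 ∈ ⨅ n : ℕ, maximalIdeal A ^ n :=
      (Ideal.mem_iInf).2 fun n => (key n σ hσ).2
    rwa [hbot, Ideal.mem_bot] at h1

end Core

section Rep

variable {A : Type} [CommRing A] [IsLocalRing A]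

/-- the Hensel property of a complete local ring, in the form used by `s59hens_diag` -/
theorem s59hens_hensel [IsAdicComplete (maximalIdeal A) A] :
    ∀ f : A[X], f.Monic → ∀ a₀ : A, f.eval a₀ ∈ maximalIdeal A →
      IsUnit (f.derivative.eval a₀) → ∃ a : A, f.IsRoot a ∧ a - a₀ ∈ maximalIdeal A :=
  fun f hf a₀ h₁ h₂ =>
    HenselianRing.is_henselian f hf a₀ h₁ (h₂.map (Ideal.Quotient.mk (maximalIdeal A)))

/-- `ρ̄` unramified at `q` ⇒ `M σ ≡ 1 mod 𝔪` for `σ` in an inertia group over `q` -/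
theorem s59hens_resid_one (ρ : GaloisRepAdic A) (b : Module.Basis (Fin 2) A ρ.V) (q : ℕ)
    (hunr : ρ.residual.IsUnramifiedAt q)
    (P : ValuationSubring Qbar) (hP : P.LiesOverPrime q) (σ : GalQ)
    (hσ : σ ∈ P.inertiaSubgroupIn ℚ) (i j : Fin 2) :
    (matOfBasis ρ b σ - 1) i j ∈ maximalIdeal A := by
  have h1 : (ρ.ρ σ).baseChange (ResidueField A) = 1 := hunr P hP σ hσ
  have h2 := LinearMap.toMatrix_baseChange (A := ResidueField A) (ρ.ρ σ) b b
  rw [h1] at h2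
  have h3 : (LinearMap.toMatrix b b (ρ.ρ σ)).map (algebraMap A (ResidueField A)) = 1 := by
    rw [← h2]
    exact LinearMap.toMatrix_one _
  have h4 := congrFun (congrFun h3 i) j
  rw [Matrix.map_apply, ResidueField.algebraMap_eq] at h4
  rw [← residue_eq_zero_iff, Matrix.sub_apply, map_sub, matOfBasis_apply, h4, Matrix.one_apply,
    Matrix.one_apply]
  split_ifs
  · rw [map_one, sub_self]
  · rw [map_zero, sub_self]

/-- the residue of trace and determinant of `M φ` from the characteristic polynomial of `ρ̄(φ)` -/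
theorem s59hens_resid_charpoly (ρ : GaloisRepAdic A) (b : Module.Basis (Fin 2) A ρ.V) (φ : GalQ)
    (α β : ResidueField A)
    (hchar : LinearMap.charpoly (ρ.residual.ρ φ) = (X - C α) * (X - C β)) :
    residue A (matOfBasis ρ b φ).trace = α + β ∧ residue A (matOfBasis ρ b φ).det = α * β := by
  have h1 : LinearMap.charpoly ((ρ.ρ φ).baseChange (ResidueField A)) = (X - C α) * (X - C β) :=
    hchar
  rw [LinearMap.charpoly_baseChange, ← LinearMap.charpoly_toMatrix (ρ.ρ φ) b,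
    Matrix.charpoly_fin_two, ResidueField.algebraMap_eq] at h1
  rw [matOfBasis_apply]
  have e : (X - C α) * (X - C β) = X ^ 2 - C (α + β) * X + C (α * β) := by
    rw [C_add, C_mul]
    ring
  rw [e] at h1
  simp only [Polynomial.map_add, Polynomial.map_sub, Polynomial.map_mul, Polynomial.map_pow,
    Polynomial.map_X, Polynomial.map_C] at h1
  constructor
  · have := congrArg (fun f : (ResidueField A)[X] => f.coeff 1) h1
    simp [Polynomial.coeff_C, Polynomial.coeff_X_pow] at this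
    have h2 := congrArg Neg.neg this
    rw [neg_neg, neg_add, neg_neg, neg_neg] at h2
    rw [h2, add_comm]
  · have := congrArg (fun f : (ResidueField A)[X] => f.coeff 0) h1
    simpa [Polynomial.coeff_X, Polynomial.coeff_C, Polynomial.coeff_X_pow] using this

/-- `q ≡ 1 mod p` ⇒ `q − 1 ∈ 𝔪` -/
theorem s59hens_q_sub_one (p : ℕ) (hpA : (p : A) ∈ maximalIdeal A) (q : ℕ) (hq : q.Prime)
    (h : p ∣ q - 1) : (q : A) - 1 ∈ maximalIdeal A := by
  obtain ⟨k, hk⟩ := h
  have h1 : q = p * k + 1 := by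
    have := hq.one_lt
    omega
  have h2 : (q : A) - 1 = (p : A) * (k : A) := by
    rw [h1]
    push_cast
    ring
  rw [h2]
  exact Ideal.mul_mem_right _ _ hpA

/-- **HENSEL, Galois form**: in a suitable basis (conjugate `u` of the standard one) the Frobenius
`φ` at a Taylor–Wiles prime is `diag(a, d)` with `a ↦ α`, `d ↦ β`, and the whole inertia group is
diagonal. -/
theorem s59hens_main [IsNoetherianRing A] [IsAdicComplete (maximalIdeal A) A]
    (p : ℕ) (hp : p.Prime) (hpA : (p : A) ∈ maximalIdeal A)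
    (q : ℕ) (hq : q.Prime) (hqp : q ≠ p) (hq1 : (q : A) - 1 ∈ maximalIdeal A)
    (ρ : GaloisRepAdic A) (hunr : ρ.residual.IsUnramifiedAt q)
    (P : ValuationSubring Qbar) (hP : P.LiesOverPrime q) (φ : GalQ) (hφ : P.IsFrobeniusAt φ q)
    (α β : ResidueField A) (hαβ : α ≠ β)
    (hchar : LinearMap.charpoly (ρ.residual.ρ φ) = (X - C α) * (X - C β)) :
    ∃ (u : (M2 A)ˣ) (a d : A), IsUnit (a - d) ∧ residue A a = α ∧ residue A d = β ∧
      conjRep u (matOfBasis ρ (someBasis ρ)) φ = Matrix.diagonal ![a, d] ∧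
      ∀ σ ∈ P.inertiaSubgroupIn ℚ,
        conjRep u (matOfBasis ρ (someBasis ρ)) σ 0 1 = 0 ∧
        conjRep u (matOfBasis ρ (someBasis ρ)) σ 1 0 = 0 := by
  set b := someBasis ρ with hb
  set r := matOfBasis ρ b with hr
  obtain ⟨htr, hdet⟩ := s59hens_resid_charpoly ρ b φ α β hchar
  obtain ⟨g, a, d, hg, had, hMg, ha, hd⟩ :=
    s59hens_diag s59hens_hensel (r φ) α β hαβ htr hdet
  obtain ⟨v, rfl⟩ := hg
  have hF : conjRep v⁻¹ r φ = Matrix.diagonal ![a, d] := by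
    rw [conjRep_apply, inv_inv, mul_assoc, hMg, ← mul_assoc, Units.inv_mul, one_mul]
  refine ⟨v⁻¹, a, d, had, ha, hd, hF, ?_⟩
  refine s59hens_inertia_diag p hp hpA q hq hqp hq1 (conjRep v⁻¹ r)
    ((matOfBasis_cont ρ b).conj v⁻¹) P hP φ hφ a d had hF ?_
  intro σ hσ i j
  have h2 : conjRep v⁻¹ r σ - 1 = ((v⁻¹ : (M2 A)ˣ) : M2 A) * (r σ - 1) * (v : M2 A) := by
    rw [conjRep_apply, inv_inv, mul_sub, sub_mul, mul_one, Units.inv_mul]
  rw [h2]
  exact matrix_mul_mem_ideal_right _ (matrix_mul_mem_ideal_left _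
    (fun i j => s59hens_resid_one ρ b q hunr P hP σ hσ i j)) i j

/-- **the character `χ` of the inertia group at a Taylor–Wiles prime** (leaf (c) of R1-LG
BYPASS v2): `χ : I_P → Aˣ` is a homomorphism with `tr ρ(σ) = χ(σ) + χ(σ)⁻¹`, `χ ≡ 1 mod 𝔪`, and
`ψ ∘ χ = 1` for every local homomorphism `ψ : A → B` such that `ρ ⊗_ψ B` is unramified at `q`. -/
theorem s59hens_chi [IsNoetherianRing A] [IsAdicComplete (maximalIdeal A) A]
    (p : ℕ) (hp : p.Prime) (q : ℕ) (hq : q.Prime) (hqp : q ≠ p) (hq1 : p ∣ q - 1)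
    (ρ : GaloisRepAdic A) (hdet : ρ.DetIsCyclotomic p) (hunr : ρ.residual.IsUnramifiedAt q)
    (P : ValuationSubring Qbar) (hP : P.LiesOverPrime q) (φ : GalQ) (hφ : P.IsFrobeniusAt φ q)
    (α β : ResidueField A) (hαβ : α ≠ β)
    (hchar : LinearMap.charpoly (ρ.residual.ρ φ) = (X - C α) * (X - C β)) :
    ∃ χ : ↥(P.inertiaSubgroupIn ℚ) →* Aˣ,
      (∀ σ : ↥(P.inertiaSubgroupIn ℚ),
        LinearMap.trace A ρ.V (ρ.ρ (σ : GalQ)) = ((χ σ : Aˣ) : A) + (((χ σ)⁻¹ : Aˣ) : A)) ∧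
      (∀ σ : ↥(P.inertiaSubgroupIn ℚ), ((χ σ : Aˣ) : A) - 1 ∈ maximalIdeal A) ∧
      ∀ (B : Type) [CommRing B] [IsLocalRing B] (ψ : A →+* B) (hψ : IsLocalHom ψ),
        (ρ.baseChangeAlong ψ hψ).IsUnramifiedAt q →
          ∀ σ : ↥(P.inertiaSubgroupIn ℚ), ψ ((χ σ : Aˣ) : A) = 1 := by
  obtain ⟨u, a, d, had, ha, hd, hF, hdiag⟩ := s59hens_main p hp hdet.1 q hq hqp
    (s59hens_q_sub_one p hdet.1 q hq hq1) ρ hunr P hP φ hφ α β hαβ hchar
  set b := someBasis ρ with hb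
  set r := conjRep u (matOfBasis ρ b) with hr
  have hconj : ∀ σ, r σ = (u : M2 A) * matOfBasis ρ b σ * ((u⁻¹ : (M2 A)ˣ) : M2 A) :=
    fun σ => conjRep_apply u _ σ
  -- determinant and trace
  have hdet1 : ∀ σ ∈ P.inertiaSubgroupIn ℚ, r σ 0 0 * r σ 1 1 = 1 := by
    intro σ hσ
    have h1 : (r σ).det = 1 := by
      rw [hconj, Matrix.det_mul, Matrix.det_mul, mul_right_comm, ← Matrix.det_mul, Units.mul_inv,
        Matrix.det_one, one_mul, s59sellt_det]
      exact s59sellt_det_inertia p q hp hq hqp ρ hdet P hP σ hσ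
    rw [Matrix.det_fin_two, (hdiag σ hσ).1, zero_mul, sub_zero] at h1
    exact h1
  have htrace : ∀ σ, (r σ).trace = LinearMap.trace A ρ.V (ρ.ρ σ) := by
    intro σ
    rw [hconj, Matrix.trace_mul_comm, ← mul_assoc, Units.inv_mul, one_mul, s59sellt_trace]
  -- the character
  let χ : ↥(P.inertiaSubgroupIn ℚ) →* Aˣ := MonoidHom.mk'
    (fun σ => Units.mk (r σ 0 0) (r σ 1 1) (hdet1 σ σ.2)
      (by rw [mul_comm]; exact hdet1 σ σ.2))
    (by
      intro σ τ
      apply Units.ext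
      show r ((σ * τ : ↥(P.inertiaSubgroupIn ℚ)) : GalQ) 0 0 = r σ 0 0 * r τ 0 0
      rw [Subgroup.coe_mul, map_mul, s59hens_mul_apply, (hdiag σ σ.2).1, zero_mul, add_zero])
  have hχ : ∀ σ : ↥(P.inertiaSubgroupIn ℚ), ((χ σ : Aˣ) : A) = r σ 0 0 := fun σ => rfl
  have hχi : ∀ σ : ↥(P.inertiaSubgroupIn ℚ), (((χ σ)⁻¹ : Aˣ) : A) = r σ 1 1 := fun σ => rfl
  refine ⟨χ, ?_, ?_, ?_⟩
  · intro σ
    rw [hχ, hχi, ← htrace, Matrix.trace_fin_two]
  · intro σ
    rw [hχ]
    have h2 : r σ - 1 = (u : M2 A) * (matOfBasis ρ b σ - 1) * ((u⁻¹ : (M2 A)ˣ) : M2 A) := by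
      rw [hconj, mul_sub, sub_mul, mul_one, Units.mul_inv]
    have h3 : (r σ - 1) 0 0 ∈ maximalIdeal A := by
      rw [h2]
      exact matrix_mul_mem_ideal_right _ (matrix_mul_mem_ideal_left _
        (fun i j => s59hens_resid_one ρ b q hunr P hP σ σ.2 i j)) 0 0
    rw [Matrix.sub_apply, Matrix.one_apply_eq] at h3
    exact h3
  · intro B _ _ ψ hψ hB σ
    rw [hχ]
    have h1 : (matOfBasis ρ b σ).map ψ = 1 := s59sellt_map_eq_one ρ ψ hψ q hB b P hP σ σ.2
    have h2 : ψ.mapMatrix (r σ) = 1 := by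
      rw [hconj, map_mul, map_mul]
      have : ψ.mapMatrix (matOfBasis ρ b σ) = 1 := h1
      rw [this, mul_one, ← map_mul, Units.mul_inv, map_one]
    have h3 := congrFun (congrFun h2 0) 0
    rw [RingHom.mapMatrix_apply, Matrix.map_apply, Matrix.one_apply_eq] at h3
    exact h3

end Rep

section Deform

variable {𝒪 : Type} [CommRing 𝒪] [IsLocalRing 𝒪]
variable {A : Type} [CommRing A] [IsLocalRing A] [Algebra 𝒪 A] [IsLocalHom (algebraMap 𝒪 A)]

/-- a lift of `ρ̄` has residual representation unramified at `q` if `ρ̄` is -/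
theorem s59hens_lift_unr (ρbar : ResidualGaloisRep (ResidueField 𝒪)) (ρ : GaloisRepAdic A)
    (hlift : ρ.residual.IsEquiv
      (ρbar.baseChangeAlong (IsLocalRing.ResidueField.map (algebraMap 𝒪 A))))
    (q : ℕ) (hunr : ρbar.IsUnramifiedAt q) : ρ.residual.IsUnramifiedAt q := by
  obtain ⟨e⟩ := hlift
  intro P hP σ hσ
  have h1 : ρbar.ρ σ = 1 := hunr P hP σ hσ
  refine LinearMap.ext fun x => ?_
  apply e.toLinearEquiv.injective
  rw [e.map_apply]
  letI : Algebra (ResidueField 𝒪) (ResidueField A) :=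
    (IsLocalRing.ResidueField.map (algebraMap 𝒪 A)).toAlgebra
  show ((ρbar.ρ σ).baseChange (ResidueField A)) (e.toLinearEquiv x) = _
  rw [h1, LinearMap.baseChange_one]
  rfl

/-- a lift of `ρ̄` has the characteristic polynomials of `ρ̄` -/
theorem s59hens_lift_charpoly (ρbar : ResidualGaloisRep (ResidueField 𝒪)) (ρ : GaloisRepAdic A)
    (hlift : ρ.residual.IsEquiv
      (ρbar.baseChangeAlong (IsLocalRing.ResidueField.map (algebraMap 𝒪 A))))
    (φ : GalQ) (α β : ResidueField 𝒪)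
    (hchar : LinearMap.charpoly (ρbar.ρ φ) = (X - C α) * (X - C β)) :
    LinearMap.charpoly (ρ.residual.ρ φ) =
      (X - C (IsLocalRing.ResidueField.map (algebraMap 𝒪 A) α)) *
        (X - C (IsLocalRing.ResidueField.map (algebraMap 𝒪 A) β)) := by
  obtain ⟨e⟩ := hlift
  letI : Algebra (ResidueField 𝒪) (ResidueField A) :=
    (IsLocalRing.ResidueField.map (algebraMap 𝒪 A)).toAlgebra
  have h1 : e.toLinearEquiv.conj (ρ.residual.ρ φ) =
      (ρbar.baseChangeAlong (IsLocalRing.ResidueField.map (algebraMap 𝒪 A))).ρ φ := by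
    refine LinearMap.ext fun x => ?_
    rw [LinearEquiv.conj_apply_apply, e.map_apply, LinearEquiv.apply_symm_apply]
  have h2 := LinearEquiv.charpoly_conj e.toLinearEquiv (ρ.residual.ρ φ)
  rw [h1] at h2
  rw [← h2]
  show LinearMap.charpoly ((ρbar.ρ φ).baseChange (ResidueField A)) = _
  rw [LinearMap.charpoly_baseChange, hchar]
  simp only [Polynomial.map_mul, Polynomial.map_sub, Polynomial.map_X, Polynomial.map_C]
  rfl

/-- **HENSEL for a deformation of `ρ̄`** (the form used for `A = R_Q`, `ρ = ρ_Q`): at a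
Taylor–Wiles prime `q` (`q ≡ 1 mod p`, `ρ̄` unramified at `q`, `ρ̄(Frob_q)` with distinct
eigenvalues) there is a character `χ : I_P → Aˣ` with `tr ρ(σ) = χ(σ) + χ(σ)⁻¹`, `χ ≡ 1 mod 𝔪`
and `ψ ∘ χ = 1` whenever `ρ ⊗_ψ B` is unramified at `q`. -/
theorem s59hens_chi_lift [IsNoetherianRing A] [IsAdicComplete (maximalIdeal A) A]
    (p : ℕ) (hp : p.Prime) (q : ℕ) (hq : q.Prime) (hqp : q ≠ p) (hq1 : p ∣ q - 1)
    (ρbar : ResidualGaloisRep (ResidueField 𝒪)) (ρ : GaloisRepAdic A)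
    (hlift : ρ.residual.IsEquiv
      (ρbar.baseChangeAlong (IsLocalRing.ResidueField.map (algebraMap 𝒪 A))))
    (hdet : ρ.DetIsCyclotomic p) (hunr : ρbar.IsUnramifiedAt q)
    (P : ValuationSubring Qbar) (hP : P.LiesOverPrime q) (φ : GalQ) (hφ : P.IsFrobeniusAt φ q)
    (hchar : ∃ α β : ResidueField 𝒪, α ≠ β ∧
      LinearMap.charpoly (ρbar.ρ φ) = (X - C α) * (X - C β)) :
    ∃ χ : ↥(P.inertiaSubgroupIn ℚ) →* Aˣ,
      (∀ σ : ↥(P.inertiaSubgroupIn ℚ),
        LinearMap.trace A ρ.V (ρ.ρ (σ : GalQ)) = ((χ σ : Aˣ) : A) + (((χ σ)⁻¹ : Aˣ) : A)) ∧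
      (∀ σ : ↥(P.inertiaSubgroupIn ℚ), ((χ σ : Aˣ) : A) - 1 ∈ maximalIdeal A) ∧
      ∀ (B : Type) [CommRing B] [IsLocalRing B] (ψ : A →+* B) (hψ : IsLocalHom ψ),
        (ρ.baseChangeAlong ψ hψ).IsUnramifiedAt q →
          ∀ σ : ↥(P.inertiaSubgroupIn ℚ), ψ ((χ σ : Aˣ) : A) = 1 := by
  obtain ⟨α, β, hαβ, hc⟩ := hchar
  exact s59hens_chi p hp q hq hqp hq1 ρ hdet (s59hens_lift_unr ρbar ρ hlift q hunr) P hP φ hφ
    _ _ (fun h => hαβ ((IsLocalRing.ResidueField.map (algebraMap 𝒪 A)).injective h))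
    (s59hens_lift_charpoly ρbar ρ hlift φ α β hc)

end Deform

end Fermat.Agent.S59
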