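/-
S59, wall R1, leaf R1-BASETR, algebraic half (helper63): **homomorphisms out of a universal
deformation ring are determined by the traces** ("`R_Q` is generated by traces", in the form that
is used).

`D : DeformationRingData 𝒪 ρbar 𝒟`, `B` a complete noetherian local `𝒪`-algebra with residue field
`k`, `f g : D.R →ₐ[𝒪] B` local.

* `s59trx_isEquiv` : `f (tr ρ σ) = g (tr ρ σ)` for all `σ` ⇒ `ρ ⊗_g B ≅ ρ ⊗_f B` (Carayol).
* `s59trx_hom_ext` : if moreover `ρ ⊗_f B` is of type `𝒟`, then `f = g`.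
* `s59trx_hom_ext_frob` : the same with the traces of Frobenius elements outside a finite set only
  (for representations with cyclotomic determinant).
-/
import Fermat.Agent.S59.Car.Rep
import Fermat.Agent.S59.HGD.Abs
import Fermat.Agent.S59.FinERes
import Fermat.Agent.TW.BC

set_option autoImplicit false
set_option linter.style.longLine false
set_option linter.unusedVariables false
set_option linter.unusedSectionVars false

namespace Fermat.Agent.S59

open IsLocalRing Fermat.Agent.S53 Fermat.Agent.TW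

/-- `G_ℚ` -/
local notation "GalQ" => (AlgebraicClosure ℚ ≃ₐ[ℚ] AlgebraicClosure ℚ)

section TraceExt

variable {𝒪 : Type} [CommRing 𝒪] [IsDomain 𝒪] [IsDiscreteValuationRing 𝒪]
  [IsAdicComplete (maximalIdeal 𝒪) 𝒪]
variable {ρbar : ResidualGaloisRep (ResidueField 𝒪)}
  {𝒟 : ∀ ⦃A : Type⦄ [CommRing A] [IsLocalRing A] [Algebra 𝒪 A], GaloisRepAdic A → Prop}

/-- the residual representation of a base change of the universal deformation -/
theorem s59trx_residual (D : GaloisRep.DeformationRingData 𝒪 ρbar 𝒟)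
    (B : Type) [CommRing B] [IsLocalRing B] [Algebra 𝒪 B] [IsLocalHom (algebraMap 𝒪 B)]
    (f : D.R →ₐ[𝒪] B) (hf : IsLocalHom (f : D.R →+* B)) :
    (D.ρ.baseChangeAlong (f : D.R →+* B) hf).residual.IsEquiv
      (ρbar.baseChangeAlong (ResidueField.map (algebraMap 𝒪 B))) := by
  obtain ⟨Dat⟩ := nonempty_rigidDatum (𝒪 := 𝒪) ρbar D.absIrr
  exact twtan_residual_baseChange (A := D.R) (B := B) Dat
    (ResidueField.map (algebraMap 𝒪 D.R)) (fun _ => rfl)
    (ResidueField.map (algebraMap 𝒪 B)) (fun _ => rfl) f hf D.ρ D.residual_isEquiv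

/-- two base changes of the universal deformation with the same traces are equivalent -/
theorem s59trx_isEquiv (D : GaloisRep.DeformationRingData 𝒪 ρbar 𝒟)
    (B : Type) [CommRing B] [IsLocalRing B] [Algebra 𝒪 B] [IsLocalHom (algebraMap 𝒪 B)]
    (f g : D.R →ₐ[𝒪] B) (hf : IsLocalHom (f : D.R →+* B)) (hg : IsLocalHom (g : D.R →+* B))
    (htr : ∀ σ : GalQ, f (LinearMap.trace D.R D.ρ.V (D.ρ.ρ σ)) =
      g (LinearMap.trace D.R D.ρ.V (D.ρ.ρ σ))) :
    (D.ρ.baseChangeAlong (g : D.R →+* B) hg).IsEquiv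
      (D.ρ.baseChangeAlong (f : D.R →+* B) hf) := by
  refine s59car_isEquiv_of_trace _ _ ?_ ?_
  · exact s59hgd_absIrr_of_isEquiv (s59trx_residual D B f hf)
      (s59hgd_absIrr_baseChangeAlong _ D.absIrr _)
  · intro σ
    rw [s59fe_trace_baseChangeAlong, s59fe_trace_baseChangeAlong]
    exact (htr σ).symm

/-- **homomorphisms out of a universal deformation ring are determined by the traces** -/
theorem s59trx_hom_ext (D : GaloisRep.DeformationRingData 𝒪 ρbar 𝒟)
    (B : Type) [CommRing B] [IsLocalRing B] [IsNoetherianRing B]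
    [IsAdicComplete (maximalIdeal B) B] [Algebra 𝒪 B] [IsLocalHom (algebraMap 𝒪 B)]
    (hB : Function.Surjective (residue B ∘ algebraMap 𝒪 B))
    (f g : D.R →ₐ[𝒪] B) (hf : IsLocalHom (f : D.R →+* B)) (hg : IsLocalHom (g : D.R →+* B))
    (h𝒟 : 𝒟 (D.ρ.baseChangeAlong (f : D.R →+* B) hf))
    (htr : ∀ σ : GalQ, f (LinearMap.trace D.R D.ρ.V (D.ρ.ρ σ)) =
      g (LinearMap.trace D.R D.ρ.V (D.ρ.ρ σ))) :
    f = g := by
  obtain ⟨φ₀, -, huniq⟩ := D.universal B hB _ h𝒟 (s59trx_residual D B f hf)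
  have h1 : f = φ₀ := huniq f ⟨hf, ⟨GaloisRepAdic.Equiv.refl _⟩⟩
  have h2 : g = φ₀ := huniq g ⟨hg, s59trx_isEquiv D B f g hf hg htr⟩
  rw [h1, h2]

/-- two base changes of the universal deformation (of cyclotomic determinant) with the same traces
at the Frobenius elements outside a finite set are equivalent -/
theorem s59trx_isEquiv_frob {p : ℕ} (hp : p.Prime)
    (D : GaloisRep.DeformationRingData 𝒪 ρbar 𝒟) (hdet : D.ρ.DetIsCyclotomic p)
    (B : Type) [CommRing B] [IsLocalRing B] [IsNoetherianRing B]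
    [Algebra 𝒪 B] [IsLocalHom (algebraMap 𝒪 B)]
    (f g : D.R →ₐ[𝒪] B) (hf : IsLocalHom (f : D.R →+* B)) (hg : IsLocalHom (g : D.R →+* B))
    (S : Finset ℕ)
    (htr : ∀ ℓ : ℕ, ℓ.Prime → ℓ ∉ S →
      ∀ P : ValuationSubring (AlgebraicClosure ℚ), P.LiesOverPrime ℓ →
      ∀ φ : GalQ, P.IsFrobeniusAt φ ℓ →
        f (LinearMap.trace D.R D.ρ.V (D.ρ.ρ φ)) = g (LinearMap.trace D.R D.ρ.V (D.ρ.ρ φ))) :
    (D.ρ.baseChangeAlong (g : D.R →+* B) hg).IsEquiv
      (D.ρ.baseChangeAlong (f : D.R →+* B) hf) := by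
  refine s59car_isEquiv_of_frob _ _ ?_ (insert p S) ?_
  · exact s59hgd_absIrr_of_isEquiv (s59trx_residual D B f hf)
      (s59hgd_absIrr_baseChangeAlong _ D.absIrr _)
  · intro ℓ hℓ hℓS P hP φ hφ
    have hℓp : ℓ ≠ p := fun h => hℓS (h ▸ Finset.mem_insert_self _ _)
    have hℓS' : ℓ ∉ S := fun h => hℓS (Finset.mem_insert_of_mem h)
    have h' : (f : D.R →+* B) (LinearMap.trace D.R D.ρ.V (D.ρ.ρ φ)) =
        (g : D.R →+* B) (LinearMap.trace D.R D.ρ.V (D.ρ.ρ φ)) := htr ℓ hℓ hℓS' P hP φ hφ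
    rw [s59car_charpoly, s59car_charpoly, s59fe_trace_baseChangeAlong,
      s59fe_trace_baseChangeAlong, h',
      s59car_det_frob hp _ (twbc_detIsCyclotomic _ hg D.ρ p hdet) hℓ hℓp P hP φ hφ,
      s59car_det_frob hp _ (twbc_detIsCyclotomic _ hf D.ρ p hdet) hℓ hℓp P hP φ hφ]

/-- **homomorphisms out of a universal deformation ring (cyclotomic determinant) are determined
by the traces of the Frobenius elements outside a finite set** -/
theorem s59trx_hom_ext_frob {p : ℕ} (hp : p.Prime)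
    (D : GaloisRep.DeformationRingData 𝒪 ρbar 𝒟) (hdet : D.ρ.DetIsCyclotomic p)
    (B : Type) [CommRing B] [IsLocalRing B] [IsNoetherianRing B]
    [IsAdicComplete (maximalIdeal B) B] [Algebra 𝒪 B] [IsLocalHom (algebraMap 𝒪 B)]
    (hB : Function.Surjective (residue B ∘ algebraMap 𝒪 B))
    (f g : D.R →ₐ[𝒪] B) (hf : IsLocalHom (f : D.R →+* B)) (hg : IsLocalHom (g : D.R →+* B))
    (h𝒟 : 𝒟 (D.ρ.baseChangeAlong (f : D.R →+* B) hf))
    (S : Finset ℕ)
    (htr : ∀ ℓ : ℕ, ℓ.Prime → ℓ ∉ S →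
      ∀ P : ValuationSubring (AlgebraicClosure ℚ), P.LiesOverPrime ℓ →
      ∀ φ : GalQ, P.IsFrobeniusAt φ ℓ →
        f (LinearMap.trace D.R D.ρ.V (D.ρ.ρ φ)) = g (LinearMap.trace D.R D.ρ.V (D.ρ.ρ φ))) :
    f = g := by
  obtain ⟨φ₀, -, huniq⟩ := D.universal B hB _ h𝒟 (s59trx_residual D B f hf)
  have h1 : f = φ₀ := huniq f ⟨hf, ⟨GaloisRepAdic.Equiv.refl _⟩⟩
  have h2 : g = φ₀ := huniq g ⟨hg, s59trx_isEquiv_frob hp D hdet B f g hf hg S htr⟩
  rw [h1, h2]

end TraceExt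

end Fermat.Agent.S59
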