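/-
S59, wall R1 (MIN′), leaf **ASM-FEED** (helper67; deputy helper7's note "R1-ASM v2 leaves").

The hypotheses of ASM-ALG (`s59minasm_lev`, S59/Min/AsmAlg.lean) at ONE Taylor–Wiles level, from
the landed leaves:

* `κ : R_Q ↠ R_∅`                       — R1-CTRL  (`s59min_ctrl`, S59/Min/Ctrl.lean);
* `θ : R_Q → M_d(P ⧸ 𝔪^k)`, `hnil`      — R1-RT-LEV (`s59minrt_of_twGal_min`, S59/Min/RtLev.lean);
* `c_j := χ_j(g_j) − χ_j(g_j)⁻¹ ∈ 𝔪_{R_Q}` — HENSEL (`s59hens_chi_lift`, S59/Min/Hensel.lean):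
  `c_j² = tr ρ_Q(g_j)² − 4`, and `ψ(c_j) = 0` for every local `ψ` with `ρ_Q ⊗_ψ B` unramified at
  `q_j`; in particular `κ(c_j) = 0` (`ρ_∅` is unramified at `q_j ∉ Smin`).

What is left as HYPOTHESES (the two exports owed by the Hecke side):

* `htrQ`  : `θ(tr ρ_Q(g_j))² − 4 = X_j²` for inertia elements `g_j` at a place over `q_j`
  (K6 at the Taylor–Wiles primes, `HkConcSide.trQ`);
* `hbase` : `Θ(κ x) ≡ θ(x)` modulo the augmentation (R1-BASETR).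

Statements:

* `s59minfd_twFlat_mono`, `s59minfd_unr_of_twFlat` : `𝒟_∅ ⇒ 𝒟_Q`, and `𝒟_∅ ⇒` unramified off `Smin`;
* `s59minfd_tw_prime`   : the arithmetic of a Taylor–Wiles prime from `TWHyp` + `IsTWFamily`;
* `s59minfd_exists_c`   : the element `c` of a universal deformation ring (cyclotomic determinant);
* `s59minfd_sq`         : `htrQ ⇒ hsq` of ASM-ALG;
* `s59minfd_base_dict`  : the base statement in the shape of `TWGal.base_T0` (`Quotient.factor`,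
  `rttwBaseRed`) gives it in the shape of ASM-ALG (`Ideal.quotientMap … constantCoeff`);
* `s59minfd_lev_of_kappa` : ASM-FEED for a given control map `κ`;
* `s59minfd_lev`        : ASM-FEED, `κ` from R1-CTRL, the primes from `TWHyp` + `IsTWFamily`;
* `s59minfd_lev_of_twGal` : the same with `θ` from a `TWGal` (no trivial primes).
-/
import Fermat.Agent.S59.Min.AsmAlg
import Fermat.Agent.S59.Min.Ctrl
import Fermat.Agent.S59.Min.RtLev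
import Fermat.Agent.S59.Min.Hensel
import Fermat.Agent.S59.Min.TraceExt
import Fermat.Agent.S59.SelFin
import Fermat.Agent.Common.FrobExists

set_option autoImplicit false
set_option linter.style.haveILetI false
set_option linter.unusedSectionVars false
set_option linter.unusedVariables false
set_option linter.style.longLine false

noncomputable section

namespace Fermat.Agent.S59

open IsLocalRing Fermat.Agent.TW Fermat.Agent.RT Fermat.Agent.RT.Prod Fermat.Agent.S53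
  Fermat.Agent.RT.Even

section Dict

variable {𝒪 : Type} [CommRing 𝒪]

/-- `𝒟_∅ ⇒ 𝒟_Q` -/
theorem s59minfd_twFlat_mono (p : ℕ) (Smin Q : Finset ℕ)
    {A : Type} [CommRing A] [IsLocalRing A] [Algebra 𝒪 A] {ρ : GaloisRepAdic A}
    (h : twFlat 𝒪 p Smin ∅ ρ) : twFlat 𝒪 p Smin Q ρ := by
  refine ⟨⟨h.1.1, h.1.2.1, fun l hl hlS => h.1.2.2 l hl fun hl' => hlS ?_⟩, h.2⟩
  rw [Finset.union_empty] at hl'
  exact Finset.mem_union_left _ hl'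

/-- a representation of type `𝒟_∅` is unramified outside `Smin` -/
theorem s59minfd_unr_of_twFlat (p : ℕ) (Smin : Finset ℕ)
    {A : Type} [CommRing A] [IsLocalRing A] [Algebra 𝒪 A] {ρ : GaloisRepAdic A}
    (h : twFlat 𝒪 p Smin ∅ ρ) {q : ℕ} (hq : q.Prime) (hqS : q ∉ Smin) : ρ.IsUnramifiedAt q :=
  h.1.2.2 q hq (by rw [Finset.union_empty]; exact hqS)

end Dict

section TWPrime

variable {𝒪 : Type} [CommRing 𝒪] [IsDomain 𝒪] [IsDiscreteValuationRing 𝒪]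
  [IsAdicComplete (maximalIdeal 𝒪) 𝒪] [Finite (ResidueField 𝒪)]

/-- the arithmetic of a Taylor–Wiles prime -/
theorem s59minfd_tw_prime {p : ℕ} {ρbar : ResidualGaloisRep (ResidueField 𝒪)} {S Smin : Finset ℕ}
    (H : TWHyp 𝒪 p ρbar S Smin) {n r : ℕ} {qv : Fin r → ℕ} (hfam : IsTWFamily p ρbar S n r qv)
    (j : Fin r) :
    (qv j).Prime ∧ qv j ≠ p ∧ p ∣ qv j - 1 ∧ qv j ∉ Smin ∧ ρbar.IsUnramifiedAt (qv j) := by
  obtain ⟨-, h2, -⟩ := hfam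
  obtain ⟨hq, hqS, hdvd⟩ := h2 j
  have hqSmin : qv j ∉ Smin := fun h => hqS (H.hSmin h)
  have hqp : qv j ≠ p := fun h => hqSmin (h ▸ H.hpSmin)
  refine ⟨hq, hqp, (dvd_pow_self p (Nat.succ_ne_zero n)).trans hdvd, hqSmin, ?_⟩
  by_contra hne
  exact hqSmin ((H.hmin (qv j) hq hqp).2 hne)

end TWPrime

section Elt

variable {𝒪 : Type} [CommRing 𝒪] [IsDomain 𝒪] [IsDiscreteValuationRing 𝒪]
  [IsAdicComplete (maximalIdeal 𝒪) 𝒪]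
variable {ρbar : ResidualGaloisRep (ResidueField 𝒪)}
  {𝒟 : ∀ ⦃A : Type⦄ [CommRing A] [IsLocalRing A] [Algebra 𝒪 A], GaloisRepAdic A → Prop}

/-- **the element `c = χ(g) − χ(g)⁻¹`** of a universal deformation ring (cyclotomic determinant)
at an inertia element `g` over a Taylor–Wiles prime `q`: `c ∈ 𝔪`, `c² = tr ρ(g)² − 4`, and `c`
dies under every local homomorphism `ψ` with `ρ ⊗_ψ B` unramified at `q`. -/
theorem s59minfd_exists_c (D : GaloisRep.DeformationRingData 𝒪 ρbar 𝒟)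
    (p : ℕ) (hp : p.Prime) (hdet : D.ρ.DetIsCyclotomic p)
    (q : ℕ) (hq : q.Prime) (hqp : q ≠ p) (hq1 : p ∣ q - 1) (hunr : ρbar.IsUnramifiedAt q)
    (P : ValuationSubring (AlgebraicClosure ℚ)) (hP : P.LiesOverPrime q)
    (hchar : ∀ φ : AlgebraicClosure ℚ ≃ₐ[ℚ] AlgebraicClosure ℚ, P.IsFrobeniusAt φ q →
      ∃ α β : ResidueField 𝒪, α ≠ β ∧ LinearMap.charpoly (ρbar.ρ φ) =
        (Polynomial.X - Polynomial.C α) * (Polynomial.X - Polynomial.C β))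
    (g : AlgebraicClosure ℚ ≃ₐ[ℚ] AlgebraicClosure ℚ) (hg : g ∈ P.inertiaSubgroupIn ℚ) :
    ∃ c : D.R, c ∈ maximalIdeal D.R ∧
      c * c = LinearMap.trace D.R D.ρ.V (D.ρ.ρ g) * LinearMap.trace D.R D.ρ.V (D.ρ.ρ g) - 4 ∧
      ∀ (B : Type) [CommRing B] [IsLocalRing B] (ψ : D.R →+* B) (hψ : IsLocalHom ψ),
        (D.ρ.baseChangeAlong ψ hψ).IsUnramifiedAt q → ψ c = 0 := by
  obtain ⟨φ, hφ⟩ := Fermat.Agent.Common.exists_isFrobeniusAt_of_liesOverPrime q hq P hP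
  obtain ⟨χ, h1, h2, h3⟩ := s59hens_chi_lift p hp q hq hqp hq1 ρbar D.ρ D.residual_isEquiv hdet
    hunr P hP φ hφ (hchar φ hφ)
  have hinv : ∀ σ : ↥(P.inertiaSubgroupIn ℚ),
      (((χ σ)⁻¹ : D.Rˣ) : D.R) = ((χ σ⁻¹ : D.Rˣ) : D.R) := fun σ => by rw [map_inv]
  have huv : ∀ σ : ↥(P.inertiaSubgroupIn ℚ),
      ((χ σ : D.Rˣ) : D.R) * (((χ σ)⁻¹ : D.Rˣ) : D.R) = 1 := fun σ => Units.mul_inv _
  refine ⟨((χ ⟨g, hg⟩ : D.Rˣ) : D.R) - (((χ ⟨g, hg⟩)⁻¹ : D.Rˣ) : D.R), ?_, ?_, ?_⟩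
  · have e : ((χ ⟨g, hg⟩ : D.Rˣ) : D.R) - (((χ ⟨g, hg⟩)⁻¹ : D.Rˣ) : D.R) =
        (((χ ⟨g, hg⟩ : D.Rˣ) : D.R) - 1) - (((χ (⟨g, hg⟩ : ↥(P.inertiaSubgroupIn ℚ))⁻¹ : D.Rˣ) : D.R) - 1) := by
      rw [hinv]; ring
    rw [e]
    exact Ideal.sub_mem _ (h2 ⟨g, hg⟩) (h2 (⟨g, hg⟩ : ↥(P.inertiaSubgroupIn ℚ))⁻¹)
  · have ht := h1 ⟨g, hg⟩
    have ht' : LinearMap.trace D.R D.ρ.V (D.ρ.ρ g) =
        ((χ ⟨g, hg⟩ : D.Rˣ) : D.R) + (((χ ⟨g, hg⟩)⁻¹ : D.Rˣ) : D.R) := ht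
    rw [ht']
    linear_combination (-4 : D.R) * huv ⟨g, hg⟩
  · intro B _ _ ψ hψ hu
    rw [map_sub, hinv, h3 B ψ hψ hu ⟨g, hg⟩, h3 B ψ hψ hu (⟨g, hg⟩ : ↥(P.inertiaSubgroupIn ℚ))⁻¹,
      sub_self]

end Elt

section Lev

variable {𝒪 : Type} [CommRing 𝒪] [IsDomain 𝒪] [IsDiscreteValuationRing 𝒪]
  [IsAdicComplete (maximalIdeal 𝒪) 𝒪]

/-- `htrQ ⇒ hsq` : from `c² = t² − 4` and `θ(t)² − 4 = X_j²` (the shape of `HkConcSide.trQ`) the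
hypothesis `hsq` of ASM-ALG. -/
theorem s59minfd_sq {r d k : ℕ} {RQ : Type} [CommRing RQ] [Algebra 𝒪 RQ]
    (θ : RQ →ₐ[𝒪] Matrix (Fin d) (Fin d)
      (MvPowerSeries (Fin r) 𝒪 ⧸ maximalIdeal (MvPowerSeries (Fin r) 𝒪) ^ k))
    (j : Fin r) (t c : RQ) (hc : c * c = t * t - 4)
    (htrQ : θ t ^ 2 - 4 =
      algebraMap (MvPowerSeries (Fin r) 𝒪 ⧸ maximalIdeal (MvPowerSeries (Fin r) 𝒪) ^ k)
        (Matrix (Fin d) (Fin d)
          (MvPowerSeries (Fin r) 𝒪 ⧸ maximalIdeal (MvPowerSeries (Fin r) 𝒪) ^ k))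
        (Ideal.Quotient.mk _ (MvPowerSeries.X j) ^ 2)) :
    θ c * θ c = algebraMap (MvPowerSeries (Fin r) 𝒪)
      (Matrix (Fin d) (Fin d)
        (MvPowerSeries (Fin r) 𝒪 ⧸ maximalIdeal (MvPowerSeries (Fin r) 𝒪) ^ k))
      (MvPowerSeries.X j * MvPowerSeries.X j) := by
  have h4 : θ 4 = 4 := map_ofNat θ 4
  rw [← map_mul, hc, map_sub, map_mul, h4, ← pow_two, htrQ]
  ext a b
  rw [Matrix.algebraMap_matrix_apply, Matrix.algebraMap_matrix_apply]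
  split_ifs
  · rw [Ideal.Quotient.algebraMap_eq, Algebra.algebraMap_self, RingHom.id_apply, map_mul, pow_two]
  · rfl

/-- the base statement in the shape of `TWGal.base_T0` / `HkOut.base_*` (`Quotient.factor`,
`rttwBaseRed`) gives the shape of ASM-ALG (`Ideal.quotientMap … constantCoeff`) -/
theorem s59minfd_base_dict {r d k : ℕ}
    (u : Matrix (Fin d) (Fin d) (RttwS 𝒪 r ⧸ maximalIdeal (RttwS 𝒪 r) ^ k))
    (t : Matrix (Fin d) (Fin d) 𝒪)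
    (h : u.map (Ideal.Quotient.factor
        (le_sup_right : maximalIdeal (RttwS 𝒪 r) ^ k ≤
          rttwAug 𝒪 r ⊔ maximalIdeal (RttwS 𝒪 r) ^ k)) = rttwBaseRed r d k t) :
    t.map (Ideal.Quotient.mk (maximalIdeal 𝒪 ^ k)) =
      u.map (Ideal.quotientMap (maximalIdeal 𝒪 ^ k)
        (MvPowerSeries.constantCoeff (σ := Fin r) (R := 𝒪)) (s59pt_eps_pow k)) := by
  have hle : rttwAug 𝒪 r ⊔ maximalIdeal (RttwS 𝒪 r) ^ k ≤
      RingHom.ker ((Ideal.Quotient.mk (maximalIdeal 𝒪 ^ k)).comp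
        (MvPowerSeries.constantCoeff (σ := Fin r) (R := 𝒪))) := by
    refine sup_le ?_ ?_
    · intro x hx
      have hx' : MvPowerSeries.constantCoeff (σ := Fin r) (R := 𝒪) x = 0 := hx
      rw [RingHom.mem_ker, RingHom.comp_apply, hx', map_zero]
    · intro x hx
      rw [RingHom.mem_ker, RingHom.comp_apply]
      exact Ideal.Quotient.eq_zero_iff_mem.2 (s59pt_eps_pow k hx)
  let e : RttwS 𝒪 r ⧸ (rttwAug 𝒪 r ⊔ maximalIdeal (RttwS 𝒪 r) ^ k) →+* 𝒪 ⧸ maximalIdeal 𝒪 ^ k :=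
    Ideal.Quotient.lift _ ((Ideal.Quotient.mk (maximalIdeal 𝒪 ^ k)).comp
      (MvPowerSeries.constantCoeff (σ := Fin r) (R := 𝒪))) (fun x hx => hle hx)
  ext a b
  have h1 : e ((u.map (Ideal.Quotient.factor
        (le_sup_right : maximalIdeal (RttwS 𝒪 r) ^ k ≤
          rttwAug 𝒪 r ⊔ maximalIdeal (RttwS 𝒪 r) ^ k))) a b) = e (rttwBaseRed r d k t a b) := by
    rw [h]
  rw [Matrix.map_apply, Matrix.map_apply]
  obtain ⟨y, hy⟩ := Ideal.Quotient.mk_surjective (u a b)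
  rw [Matrix.map_apply, ← hy, Ideal.Quotient.factor_mk] at h1
  rw [← hy, Ideal.quotientMap_mk]
  have h2 : e (Ideal.Quotient.mk _ y) = Ideal.Quotient.mk (maximalIdeal 𝒪 ^ k)
      (MvPowerSeries.constantCoeff (σ := Fin r) (R := 𝒪) y) := rfl
  have h3 : e (rttwBaseRed r d k t a b) = Ideal.Quotient.mk (maximalIdeal 𝒪 ^ k) (t a b) := by
    have h4 : rttwBaseRed r d k t a b = Ideal.Quotient.mk _ (algebraMap 𝒪 (RttwS 𝒪 r) (t a b)) := by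
      unfold rttwBaseRed
      rw [Matrix.map_apply, IsScalarTower.algebraMap_apply 𝒪 (RttwS 𝒪 r)
        (RttwS 𝒪 r ⧸ (rttwAug 𝒪 r ⊔ maximalIdeal (RttwS 𝒪 r) ^ k)),
        Ideal.Quotient.algebraMap_eq]
    rw [h4]
    show Ideal.Quotient.mk (maximalIdeal 𝒪 ^ k)
      (MvPowerSeries.constantCoeff (σ := Fin r) (R := 𝒪) (algebraMap 𝒪 (RttwS 𝒪 r) (t a b))) = _
    rw [MvPowerSeries.algebraMap_apply, Algebra.algebraMap_self, RingHom.id_apply,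
      MvPowerSeries.constantCoeff_C]
  rw [← h3, ← h1, h2]

end Lev

section Feed

variable {𝒪 : Type} [CommRing 𝒪] [IsDomain 𝒪] [IsDiscreteValuationRing 𝒪]
  [IsAdicComplete (maximalIdeal 𝒪) 𝒪]
variable {ρbar : ResidualGaloisRep (ResidueField 𝒪)}

/-- **ASM-FEED for a given control map `κ`**: the even level `k` of `S59/Min/EvenOfLim.lean` from
the universal rings `R_∅`, `R_Q`, a presentation `γ : 𝒪⟦X₁..X_r⟧ ↠ R_Q`, the control map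
`κ : R_Q ↠ R_∅`, the action `θ` at level `k`, and the two exports `htrQ`, `hbase`. -/
theorem s59minfd_lev_of_kappa {p : ℕ} (hp : p.Prime) {Smin : Finset ℕ} {r : ℕ} (qv : Fin r → ℕ)
    (D₀ : GaloisRep.DeformationRingData 𝒪 ρbar (twFlat 𝒪 p Smin ∅))
    (DQ : GaloisRep.DeformationRingData 𝒪 ρbar (twFlat 𝒪 p Smin (Finset.univ.image qv)))
    {M : Type} [AddCommGroup M] [Module D₀.R M] [Module 𝒪 M] [IsScalarTower 𝒪 D₀.R M] {d : ℕ}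
    (m : Module.Basis (Fin d) 𝒪 M) (k : ℕ)
    (γ : MvPowerSeries (Fin r) 𝒪 →ₐ[𝒪] DQ.R) (hγ : Function.Surjective γ)
    (κ : DQ.R →ₐ[𝒪] D₀.R) (hκs : Function.Surjective κ)
    (hκ : IsLocalHom (κ : DQ.R →+* D₀.R))
    (hκe : (DQ.ρ.baseChangeAlong (κ : DQ.R →+* D₀.R) hκ).IsEquiv D₀.ρ)
    (hq : ∀ j, (qv j).Prime ∧ qv j ≠ p ∧ p ∣ qv j - 1 ∧ qv j ∉ Smin ∧
      ρbar.IsUnramifiedAt (qv j))
    (P : Fin r → ValuationSubring (AlgebraicClosure ℚ)) (hP : ∀ j, (P j).LiesOverPrime (qv j))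
    (hchar : ∀ j, ∀ φ : AlgebraicClosure ℚ ≃ₐ[ℚ] AlgebraicClosure ℚ,
      (P j).IsFrobeniusAt φ (qv j) →
      ∃ α β : ResidueField 𝒪, α ≠ β ∧ LinearMap.charpoly (ρbar.ρ φ) =
        (Polynomial.X - Polynomial.C α) * (Polynomial.X - Polynomial.C β))
    (g : Fin r → (AlgebraicClosure ℚ ≃ₐ[ℚ] AlgebraicClosure ℚ))
    (hg : ∀ j, g j ∈ (P j).inertiaSubgroupIn ℚ)
    (θ : DQ.R →ₐ[𝒪] Matrix (Fin d) (Fin d)
      (MvPowerSeries (Fin r) 𝒪 ⧸ maximalIdeal (MvPowerSeries (Fin r) 𝒪) ^ k))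
    (hnil : ∃ N, ∀ x ∈ maximalIdeal DQ.R ^ N, θ x = 0)
    (htrQ : ∀ j, θ (LinearMap.trace DQ.R DQ.ρ.V (DQ.ρ.ρ (g j))) ^ 2 - 4 =
      algebraMap (MvPowerSeries (Fin r) 𝒪 ⧸ maximalIdeal (MvPowerSeries (Fin r) 𝒪) ^ k)
        (Matrix (Fin d) (Fin d)
          (MvPowerSeries (Fin r) 𝒪 ⧸ maximalIdeal (MvPowerSeries (Fin r) 𝒪) ^ k))
        (Ideal.Quotient.mk _ (MvPowerSeries.X j) ^ 2))
    (hbase : ∀ x : DQ.R, (s59ptTheta m (κ x)).map (Ideal.Quotient.mk (maximalIdeal 𝒪 ^ k)) =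
      (θ x).map (Ideal.quotientMap (maximalIdeal 𝒪 ^ k)
        (MvPowerSeries.constantCoeff (σ := Fin r) (R := 𝒪)) (s59pt_eps_pow k))) :
    ∃ ρ φ ψ, S59ptLevE (maximalIdeal (MvPowerSeries (Fin r) 𝒪)) (maximalIdeal D₀.R)
      (maximalIdeal 𝒪) (MvPowerSeries.constantCoeff (σ := Fin r) (R := 𝒪))
      (fun k => s59pt_eps_pow k)
      (s59ptTheta m) (MvPowerSeries.X : Fin r → MvPowerSeries (Fin r) 𝒪)
      (rtevSq (σ := Fin r) (O := 𝒪)) k ρ φ ψ := by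
  choose c hc1 hc2 hc3 using fun j => s59minfd_exists_c DQ p hp DQ.isOfType.1.1 (qv j) (hq j).1
    (hq j).2.1 (hq j).2.2.1 (hq j).2.2.2.2 (P j) (hP j) (hchar j) (g j) (hg j)
  exact s59minasm_lev m k γ hγ κ hκs θ hnil c hc1
    (fun j => s59minfd_sq θ j _ (c j) (hc2 j) (htrQ j))
    (fun j => hc3 j D₀.R (κ : DQ.R →+* D₀.R) hκ
      (s59self_isUnramifiedAt_of_isEquiv hκe (qv j)
        (s59minfd_unr_of_twFlat p Smin D₀.isOfType (hq j).1 (hq j).2.2.2.1)))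
    hbase

/-- **ASM-FEED**: the same with `κ` from R1-CTRL (`s59min_ctrl`) and the arithmetic of the primes
from `TWHyp` + `IsTWFamily` (S56).  `hbase` is asked for every control map. -/
theorem s59minfd_lev [Finite (ResidueField 𝒪)] {p : ℕ} (hp : p.Prime) {S Smin : Finset ℕ}
    (H : TWHyp 𝒪 p ρbar S Smin) {n r : ℕ} {qv : Fin r → ℕ} (hfam : IsTWFamily p ρbar S n r qv)
    (D₀ : GaloisRep.DeformationRingData 𝒪 ρbar (twFlat 𝒪 p Smin ∅)) (hbc : TwTanBC D₀)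
    (DQ : GaloisRep.DeformationRingData 𝒪 ρbar (twFlat 𝒪 p Smin (Finset.univ.image qv)))
    {M : Type} [AddCommGroup M] [Module D₀.R M] [Module 𝒪 M] [IsScalarTower 𝒪 D₀.R M] {d : ℕ}
    (m : Module.Basis (Fin d) 𝒪 M) (k : ℕ)
    (γ : MvPowerSeries (Fin r) 𝒪 →ₐ[𝒪] DQ.R) (hγ : Function.Surjective γ)
    (P : Fin r → ValuationSubring (AlgebraicClosure ℚ)) (hP : ∀ j, (P j).LiesOverPrime (qv j))
    (g : Fin r → (AlgebraicClosure ℚ ≃ₐ[ℚ] AlgebraicClosure ℚ))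
    (hg : ∀ j, g j ∈ (P j).inertiaSubgroupIn ℚ)
    (θ : DQ.R →ₐ[𝒪] Matrix (Fin d) (Fin d)
      (MvPowerSeries (Fin r) 𝒪 ⧸ maximalIdeal (MvPowerSeries (Fin r) 𝒪) ^ k))
    (hnil : ∃ N, ∀ x ∈ maximalIdeal DQ.R ^ N, θ x = 0)
    (htrQ : ∀ j, θ (LinearMap.trace DQ.R DQ.ρ.V (DQ.ρ.ρ (g j))) ^ 2 - 4 =
      algebraMap (MvPowerSeries (Fin r) 𝒪 ⧸ maximalIdeal (MvPowerSeries (Fin r) 𝒪) ^ k)
        (Matrix (Fin d) (Fin d)
          (MvPowerSeries (Fin r) 𝒪 ⧸ maximalIdeal (MvPowerSeries (Fin r) 𝒪) ^ k))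
        (Ideal.Quotient.mk _ (MvPowerSeries.X j) ^ 2))
    (hbase : ∀ (κ : DQ.R →ₐ[𝒪] D₀.R) (hκ : IsLocalHom (κ : DQ.R →+* D₀.R)),
      (DQ.ρ.baseChangeAlong (κ : DQ.R →+* D₀.R) hκ).IsEquiv D₀.ρ →
      ∀ x : DQ.R, (s59ptTheta m (κ x)).map (Ideal.Quotient.mk (maximalIdeal 𝒪 ^ k)) =
        (θ x).map (Ideal.quotientMap (maximalIdeal 𝒪 ^ k)
          (MvPowerSeries.constantCoeff (σ := Fin r) (R := 𝒪)) (s59pt_eps_pow k))) :
    ∃ ρ φ ψ, S59ptLevE (maximalIdeal (MvPowerSeries (Fin r) 𝒪)) (maximalIdeal D₀.R)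
      (maximalIdeal 𝒪) (MvPowerSeries.constantCoeff (σ := Fin r) (R := 𝒪))
      (fun k => s59pt_eps_pow k)
      (s59ptTheta m) (MvPowerSeries.X : Fin r → MvPowerSeries (Fin r) 𝒪)
      (rtevSq (σ := Fin r) (O := 𝒪)) k ρ φ ψ := by
  obtain ⟨κ, hκs, hκ, hκe⟩ := s59min_ctrl D₀ DQ
    (s59minfd_twFlat_mono p Smin (Finset.univ.image qv) D₀.isOfType) hbc
  exact s59minfd_lev_of_kappa hp qv D₀ DQ m k γ hγ κ hκs hκ hκe
    (fun j => s59minfd_tw_prime H hfam j) P hP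
    (fun j φ hφ => hfam.2.2 j (P j) (hP j) φ hφ) g hg θ hnil htrQ (hbase κ hκ hκe)

/-- **ASM-FEED from a `TWGal`** (no trivial primes, `m = r` variables, level `n = k`): `θ = π1 ∘ f`
with `f : R_Q → A` from the universal property (R1-RT-LEV); `htrQ` is asked for `π1` and the traces
of the representation over `A`, `hbase` for every control map `κ` and every classifying map `f`. -/
theorem s59minfd_lev_of_twGal [Finite (ResidueField 𝒪)] {p : ℕ} (hp : p.Prime)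
    {S Smin : Finset ℕ} (H : TWHyp 𝒪 p ρbar S Smin) {n r : ℕ} {qv : Fin r → ℕ}
    (hfam : IsTWFamily p ρbar S n r qv)
    (D₀ : GaloisRep.DeformationRingData 𝒪 ρbar (twFlat 𝒪 p Smin ∅)) (hbc : TwTanBC D₀)
    (DQ : GaloisRep.DeformationRingData 𝒪 ρbar (twFlat 𝒪 p Smin (Finset.univ.image qv)))
    {M : Type} [AddCommGroup M] [Module D₀.R M] [Module 𝒪 M] [IsScalarTower 𝒪 D₀.R M] {d : ℕ}
    (m : Module.Basis (Fin d) 𝒪 M) (k : ℕ)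
    (γ : MvPowerSeries (Fin r) 𝒪 →ₐ[𝒪] DQ.R) (hγ : Function.Surjective γ)
    {ι : Type} [Fintype ι] {rt : ι → ℕ} {σ φ : ι → RtpaG} {tχ : ι → 𝒪} {lam : 𝒪}
    {T0 : Type} [CommRing T0] [Algebra 𝒪 T0] {j0 : T0 →ₐ[𝒪] Matrix (Fin d) (Fin d) 𝒪}
    {Sig0 Phi0 : ι → Matrix (Fin 2) (Fin 2) T0}
    {E : Set (RttwS 𝒪 r ⧸ maximalIdeal (RttwS 𝒪 r) ^ k)}
    {A : Type} [CommRing A] [IsLocalRing A] [Algebra 𝒪 A]
    {ιA : ResidueField 𝒪 →+* ResidueField A}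
    {ρ : GaloisRepAdic A} {b : Module.Basis (Fin 2) A ρ.V}
    {β βi : ℕ → Matrix (Fin 2) (Fin 2) A}
    {π1 πχ : A →ₐ[𝒪] Matrix (Fin d) (Fin d) (RttwS 𝒪 r ⧸ maximalIdeal (RttwS 𝒪 r) ^ k)}
    (HG : TWGal p ρbar Smin (Finset.univ.image qv) rt σ φ tχ lam r d j0 Sig0 Phi0 k E ιA ρ b β βi
      π1 πχ)
    (hr : Finset.univ.image rt = ∅)
    (P : Fin r → ValuationSubring (AlgebraicClosure ℚ)) (hP : ∀ j, (P j).LiesOverPrime (qv j))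
    (g : Fin r → (AlgebraicClosure ℚ ≃ₐ[ℚ] AlgebraicClosure ℚ))
    (hg : ∀ j, g j ∈ (P j).inertiaSubgroupIn ℚ)
    (htrQ : ∀ j, π1 (LinearMap.trace A ρ.V (ρ.ρ (g j))) ^ 2 - 4 =
      algebraMap (RttwS 𝒪 r ⧸ maximalIdeal (RttwS 𝒪 r) ^ k)
        (Matrix (Fin d) (Fin d) (RttwS 𝒪 r ⧸ maximalIdeal (RttwS 𝒪 r) ^ k))
        (Ideal.Quotient.mk _ (MvPowerSeries.X j) ^ 2))
    (hbase : ∀ (κ : DQ.R →ₐ[𝒪] D₀.R) (hκ : IsLocalHom (κ : DQ.R →+* D₀.R)),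
      (DQ.ρ.baseChangeAlong (κ : DQ.R →+* D₀.R) hκ).IsEquiv D₀.ρ →
      ∀ (f : DQ.R →ₐ[𝒪] A) (hf : IsLocalHom (f : DQ.R →+* A)),
      (DQ.ρ.baseChangeAlong (f : DQ.R →+* A) hf).IsEquiv ρ →
      ∀ x : DQ.R, (s59ptTheta m (κ x)).map (Ideal.Quotient.mk (maximalIdeal 𝒪 ^ k)) =
        (π1 (f x)).map (Ideal.quotientMap (maximalIdeal 𝒪 ^ k)
          (MvPowerSeries.constantCoeff (σ := Fin r) (R := 𝒪)) (s59pt_eps_pow k))) :
    ∃ ρ' φ' ψ', S59ptLevE (maximalIdeal (MvPowerSeries (Fin r) 𝒪)) (maximalIdeal D₀.R)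
      (maximalIdeal 𝒪) (MvPowerSeries.constantCoeff (σ := Fin r) (R := 𝒪))
      (fun k => s59pt_eps_pow k)
      (s59ptTheta m) (MvPowerSeries.X : Fin r → MvPowerSeries (Fin r) 𝒪)
      (rtevSq (σ := Fin r) (O := 𝒪)) k ρ' φ' ψ' := by
  obtain ⟨f, θ, hθ, ⟨hf, hfe⟩, htr, hnil⟩ := s59minrt_of_twGal_min HG hr DQ
  subst hθ
  refine s59minfd_lev hp H hfam D₀ hbc DQ m k γ hγ P hP g hg (π1.comp f) hnil
    (fun j => ?_) (fun κ hκ hκe x => hbase κ hκ hκe f hf hfe x)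
  rw [htr (g j)]
  exact htrQ j

end Feed

section Base

variable {𝒪 : Type} [CommRing 𝒪] [IsDomain 𝒪] [IsDiscreteValuationRing 𝒪]
  [IsAdicComplete (maximalIdeal 𝒪) 𝒪]
variable {ρbar : ResidualGaloisRep (ResidueField 𝒪)}
  {𝒟₀ 𝒟Q : ∀ ⦃A : Type⦄ [CommRing A] [IsLocalRing A] [Algebra 𝒪 A], GaloisRepAdic A → Prop}

/-- the control map is compatible with the traces -/
theorem s59minfd_kappa_trace (D₀ : GaloisRep.DeformationRingData 𝒪 ρbar 𝒟₀)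
    (DQ : GaloisRep.DeformationRingData 𝒪 ρbar 𝒟Q)
    (κ : DQ.R →ₐ[𝒪] D₀.R) (hκ : IsLocalHom (κ : DQ.R →+* D₀.R))
    (hκe : (DQ.ρ.baseChangeAlong (κ : DQ.R →+* D₀.R) hκ).IsEquiv D₀.ρ)
    (σ : AlgebraicClosure ℚ ≃ₐ[ℚ] AlgebraicClosure ℚ) :
    κ (LinearMap.trace DQ.R DQ.ρ.V (DQ.ρ.ρ σ)) = LinearMap.trace D₀.R D₀.ρ.V (D₀.ρ.ρ σ) := by
  rw [← s59fe_isEquiv_trace hκe σ]
  exact (s59fe_trace_baseChangeAlong (κ : DQ.R →+* D₀.R) hκ DQ.ρ σ).symm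

/-- **R1-BASETR, final step** (hom-ext, `s59trx_hom_ext`): two maps `R_Q → B` into a COMMUTATIVE
complete local `𝒪`-algebra — `f₀ ∘ κ` through `R_∅` and `g` through the Hecke side — with the same
traces are equal, as soon as `ρ_Q ⊗_g B` is of type `𝒟_Q`. -/
theorem s59minfd_hom_eq_of_tr (D₀ : GaloisRep.DeformationRingData 𝒪 ρbar 𝒟₀)
    (DQ : GaloisRep.DeformationRingData 𝒪 ρbar 𝒟Q)
    (κ : DQ.R →ₐ[𝒪] D₀.R) (hκ : IsLocalHom (κ : DQ.R →+* D₀.R))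
    (hκe : (DQ.ρ.baseChangeAlong (κ : DQ.R →+* D₀.R) hκ).IsEquiv D₀.ρ)
    (B : Type) [CommRing B] [IsLocalRing B] [IsNoetherianRing B]
    [IsAdicComplete (maximalIdeal B) B] [Algebra 𝒪 B] [IsLocalHom (algebraMap 𝒪 B)]
    (hB : Function.Surjective (residue B ∘ algebraMap 𝒪 B))
    (f₀ : D₀.R →ₐ[𝒪] B) (hf₀ : IsLocalHom (f₀ : D₀.R →+* B))
    (g : DQ.R →ₐ[𝒪] B) (hg : IsLocalHom (g : DQ.R →+* B))
    (h𝒟 : 𝒟Q (DQ.ρ.baseChangeAlong (g : DQ.R →+* B) hg))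
    (htr : ∀ σ : AlgebraicClosure ℚ ≃ₐ[ℚ] AlgebraicClosure ℚ,
      g (LinearMap.trace DQ.R DQ.ρ.V (DQ.ρ.ρ σ)) =
        f₀ (LinearMap.trace D₀.R D₀.ρ.V (D₀.ρ.ρ σ))) :
    ∀ x : DQ.R, f₀ (κ x) = g x := by
  have hfκ : IsLocalHom ((f₀.comp κ : DQ.R →ₐ[𝒪] B) : DQ.R →+* B) := by
    haveI := hκ
    haveI := hf₀
    exact RingHom.isLocalHom_comp (f₀ : D₀.R →+* B) (κ : DQ.R →+* D₀.R)
  have h := s59trx_hom_ext DQ B hB g (f₀.comp κ) hg hfκ h𝒟 (fun σ => by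
    rw [htr σ, AlgHom.comp_apply, s59minfd_kappa_trace D₀ DQ κ hκ hκe σ])
  intro x
  rw [h]
  rfl

/-- the same for the flat conditions, with `f₀` and `κ` SURJECTIVE: no hypothesis on the type
(`twFlat` passes to surjective base changes). -/
theorem s59minfd_hom_eq_of_tr_flat {p : ℕ} {Smin Q₀ Q : Finset ℕ}
    (D₀ : GaloisRep.DeformationRingData 𝒪 ρbar (twFlat 𝒪 p Smin Q₀))
    (DQ : GaloisRep.DeformationRingData 𝒪 ρbar (twFlat 𝒪 p Smin Q))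
    (κ : DQ.R →ₐ[𝒪] D₀.R) (hκs : Function.Surjective κ)
    (hκ : IsLocalHom (κ : DQ.R →+* D₀.R))
    (hκe : (DQ.ρ.baseChangeAlong (κ : DQ.R →+* D₀.R) hκ).IsEquiv D₀.ρ)
    (B : Type) [CommRing B] [IsLocalRing B] [IsNoetherianRing B]
    [IsAdicComplete (maximalIdeal B) B] [Algebra 𝒪 B] [IsLocalHom (algebraMap 𝒪 B)]
    (hB : Function.Surjective (residue B ∘ algebraMap 𝒪 B))
    (f₀ : D₀.R →ₐ[𝒪] B) (hf₀s : Function.Surjective f₀)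
    (hf₀ : IsLocalHom (f₀ : D₀.R →+* B))
    (g : DQ.R →ₐ[𝒪] B) (hg : IsLocalHom (g : DQ.R →+* B))
    (htr : ∀ σ : AlgebraicClosure ℚ ≃ₐ[ℚ] AlgebraicClosure ℚ,
      g (LinearMap.trace DQ.R DQ.ρ.V (DQ.ρ.ρ σ)) =
        f₀ (LinearMap.trace D₀.R D₀.ρ.V (D₀.ρ.ρ σ))) :
    ∀ x : DQ.R, f₀ (κ x) = g x := by
  have hfκ : IsLocalHom ((f₀.comp κ : DQ.R →ₐ[𝒪] B) : DQ.R →+* B) := by
    haveI := hκ
    haveI := hf₀
    exact RingHom.isLocalHom_comp (f₀ : D₀.R →+* B) (κ : DQ.R →+* D₀.R)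
  have hsurj : Function.Surjective (f₀.comp κ) := hf₀s.comp hκs
  have h𝒟 := s59self_flat_bc 𝒪 p Smin Q DQ.R B (f₀.comp κ) hfκ hsurj DQ.ρ DQ.isOfType
  have h := s59trx_hom_ext DQ B hB (f₀.comp κ) g hfκ hg h𝒟 (fun σ => by
    rw [htr σ, AlgHom.comp_apply, s59minfd_kappa_trace D₀ DQ κ hκ hκe σ])
  intro x
  rw [← h]
  rfl

/-- **`hbase` of ASM-ALG from the traces**: if the two actions `Θ ∘ κ` (through `R_∅`) and `θ`
(through the Hecke side at level `Q`) modulo `𝔪^k` and the augmentation both factor through a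
commutative complete local `𝒪`-algebra `B` (`jB : B → M_d(𝒪 ⧸ 𝔪^k)`, e.g. the image of the minimal
Hecke algebra), compatibly on the traces, then they agree. -/
theorem s59minfd_hbase_of_tr {p : ℕ} {Smin Q₀ Q : Finset ℕ}
    (D₀ : GaloisRep.DeformationRingData 𝒪 ρbar (twFlat 𝒪 p Smin Q₀))
    (DQ : GaloisRep.DeformationRingData 𝒪 ρbar (twFlat 𝒪 p Smin Q))
    (κ : DQ.R →ₐ[𝒪] D₀.R) (hκs : Function.Surjective κ)
    (hκ : IsLocalHom (κ : DQ.R →+* D₀.R))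
    (hκe : (DQ.ρ.baseChangeAlong (κ : DQ.R →+* D₀.R) hκ).IsEquiv D₀.ρ)
    {M : Type} [AddCommGroup M] [Module D₀.R M] [Module 𝒪 M] [IsScalarTower 𝒪 D₀.R M] {d : ℕ}
    (m : Module.Basis (Fin d) 𝒪 M) (k r : ℕ)
    (θ : DQ.R →ₐ[𝒪] Matrix (Fin d) (Fin d)
      (MvPowerSeries (Fin r) 𝒪 ⧸ maximalIdeal (MvPowerSeries (Fin r) 𝒪) ^ k))
    (B : Type) [CommRing B] [IsLocalRing B] [IsNoetherianRing B]
    [IsAdicComplete (maximalIdeal B) B] [Algebra 𝒪 B] [IsLocalHom (algebraMap 𝒪 B)]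
    (hB : Function.Surjective (residue B ∘ algebraMap 𝒪 B))
    (jB : B →+* Matrix (Fin d) (Fin d) (𝒪 ⧸ maximalIdeal 𝒪 ^ k))
    (f₀ : D₀.R →ₐ[𝒪] B) (hf₀s : Function.Surjective f₀)
    (hf₀ : IsLocalHom (f₀ : D₀.R →+* B))
    (hj₀ : ∀ y : D₀.R, jB (f₀ y) = (s59ptTheta m y).map (Ideal.Quotient.mk (maximalIdeal 𝒪 ^ k)))
    (g : DQ.R →ₐ[𝒪] B) (hg : IsLocalHom (g : DQ.R →+* B))
    (hjg : ∀ x : DQ.R, jB (g x) = (θ x).map (Ideal.quotientMap (maximalIdeal 𝒪 ^ k)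
      (MvPowerSeries.constantCoeff (σ := Fin r) (R := 𝒪)) (s59pt_eps_pow k)))
    (htr : ∀ σ : AlgebraicClosure ℚ ≃ₐ[ℚ] AlgebraicClosure ℚ,
      g (LinearMap.trace DQ.R DQ.ρ.V (DQ.ρ.ρ σ)) =
        f₀ (LinearMap.trace D₀.R D₀.ρ.V (D₀.ρ.ρ σ))) :
    ∀ x : DQ.R, (s59ptTheta m (κ x)).map (Ideal.Quotient.mk (maximalIdeal 𝒪 ^ k)) =
      (θ x).map (Ideal.quotientMap (maximalIdeal 𝒪 ^ k)
        (MvPowerSeries.constantCoeff (σ := Fin r) (R := 𝒪)) (s59pt_eps_pow k)) := by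
  intro x
  rw [← hj₀, ← hjg,
    s59minfd_hom_eq_of_tr_flat D₀ DQ κ hκs hκ hκe B hB f₀ hf₀s hf₀ g hg htr x]

end Base

end Fermat.Agent.S59

end
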