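/-
S59, wall R1 (MIN′), leaf **ASM-FEED / BASE** (helper67): the hypothesis `hbase` of ASM-ALG
(`s59minasm_lev`) and of ASM-FEED (`s59minfd_lev*`, S59/Min/Feed.lean) from

* the WEAK base  `hweak : ∀ x : R_Q, ∃ y : R_∅, Θ(y) ≡ θ(x)`  (the shape of `TWGal.base_T0`:
  modulo the augmentation the action at level `Q` is through the minimal Hecke ring), and
* the BASE TRACES `htr : ∀ σ, Θ(tr ρ_∅ σ) ≡ θ(tr ρ_Q σ)`       (the shape of `S59btrBaseTr`).

Proof: `B := R_∅ ⧸ ker(R_∅ → M_d(𝒪 ⧸ 𝔪^k))` is a commutative finite local `𝒪`-algebra; by `hweak`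
the action `θ mod 𝔞` factors through `g : R_Q → B`; the two maps `R_Q → R_∅ → B` and `g` have the
same traces, so they are equal (`s59trx_hom_ext`, through `s59minfd_hbase_of_tr`).

* `s59minfd_theta_algebraMap` : `Θ (algebraMap c)` is the scalar matrix `c`;
* `s59minfd_hbase_of_weak`    : `hweak + htr ⇒ hbase`;
* `s59minfd_lev_of_weak`      : ASM-FEED with `hweak + htr` in the place of `hbase`.
-/
import Fermat.Agent.S59.Min.Feed

set_option autoImplicit false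
set_option linter.style.haveILetI false
set_option linter.unusedSectionVars false
set_option linter.unusedVariables false
set_option linter.style.longLine false

noncomputable section

namespace Fermat.Agent.S59

open IsLocalRing Fermat.Agent.TW Fermat.Agent.RT Fermat.Agent.RT.Prod Fermat.Agent.S53
  Fermat.Agent.RT.Even

section Theta

variable {𝒪 : Type} [CommRing 𝒪] {R : Type} [CommRing R] [Algebra 𝒪 R]
  {M : Type} [AddCommGroup M] [Module R M] [Module 𝒪 M] [IsScalarTower 𝒪 R M] {d : ℕ}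

/-- `Θ (algebraMap c)` is the scalar matrix `c` -/
theorem s59minfd_theta_algebraMap (m : Module.Basis (Fin d) 𝒪 M) (c : 𝒪) :
    s59ptTheta m (algebraMap 𝒪 R c) = algebraMap 𝒪 (Matrix (Fin d) (Fin d) 𝒪) c := by
  ext i j
  rw [s59ptTheta_apply, algebraMap_smul, map_smul, Finsupp.smul_apply, Module.Basis.repr_self,
    Matrix.algebraMap_matrix_apply, Finsupp.single_apply, Algebra.algebraMap_self,
    RingHom.id_apply, smul_eq_mul]
  by_cases h : i = j
  · rw [if_pos h, if_pos h.symm, mul_one]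
  · rw [if_neg h, if_neg (fun h' => h h'.symm), mul_zero]

end Theta

section Weak

variable {𝒪 : Type} [CommRing 𝒪] [IsDomain 𝒪] [IsDiscreteValuationRing 𝒪]
  [IsAdicComplete (maximalIdeal 𝒪) 𝒪]
variable {ρbar : ResidualGaloisRep (ResidueField 𝒪)}

/-- **`hbase` from the weak base and the base traces.** -/
theorem s59minfd_hbase_of_weak [Finite (ResidueField 𝒪)] {p : ℕ} {Smin Q₀ Q : Finset ℕ}
    (D₀ : GaloisRep.DeformationRingData 𝒪 ρbar (twFlat 𝒪 p Smin Q₀))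
    (DQ : GaloisRep.DeformationRingData 𝒪 ρbar (twFlat 𝒪 p Smin Q))
    (κ : DQ.R →ₐ[𝒪] D₀.R) (hκs : Function.Surjective κ)
    (hκ : IsLocalHom (κ : DQ.R →+* D₀.R))
    (hκe : (DQ.ρ.baseChangeAlong (κ : DQ.R →+* D₀.R) hκ).IsEquiv D₀.ρ)
    {M : Type} [AddCommGroup M] [Module D₀.R M] [Module 𝒪 M] [IsScalarTower 𝒪 D₀.R M] {d : ℕ}
    (m : Module.Basis (Fin d) 𝒪 M) (k r : ℕ)
    (θ : DQ.R →ₐ[𝒪] Matrix (Fin d) (Fin d)
      (MvPowerSeries (Fin r) 𝒪 ⧸ maximalIdeal (MvPowerSeries (Fin r) 𝒪) ^ k))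
    (hnil : ∃ N, ∀ x ∈ maximalIdeal DQ.R ^ N, θ x = 0)
    (hweak : ∀ x : DQ.R, ∃ y : D₀.R,
      (s59ptTheta m y).map (Ideal.Quotient.mk (maximalIdeal 𝒪 ^ k)) =
        (θ x).map (Ideal.quotientMap (maximalIdeal 𝒪 ^ k)
          (MvPowerSeries.constantCoeff (σ := Fin r) (R := 𝒪)) (s59pt_eps_pow k)))
    (htr : ∀ σ : AlgebraicClosure ℚ ≃ₐ[ℚ] AlgebraicClosure ℚ,
      (s59ptTheta m (LinearMap.trace D₀.R D₀.ρ.V (D₀.ρ.ρ σ))).map
          (Ideal.Quotient.mk (maximalIdeal 𝒪 ^ k)) =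
        (θ (LinearMap.trace DQ.R DQ.ρ.V (DQ.ρ.ρ σ))).map
          (Ideal.quotientMap (maximalIdeal 𝒪 ^ k)
            (MvPowerSeries.constantCoeff (σ := Fin r) (R := 𝒪)) (s59pt_eps_pow k))) :
    ∀ x : DQ.R, (s59ptTheta m (κ x)).map (Ideal.Quotient.mk (maximalIdeal 𝒪 ^ k)) =
      (θ x).map (Ideal.quotientMap (maximalIdeal 𝒪 ^ k)
        (MvPowerSeries.constantCoeff (σ := Fin r) (R := 𝒪)) (s59pt_eps_pow k)) := by
  classical
  -- the two actions as ring homomorphisms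
  let F₁ : D₀.R →+* Matrix (Fin d) (Fin d) (𝒪 ⧸ maximalIdeal 𝒪 ^ k) :=
    (Ideal.Quotient.mk (maximalIdeal 𝒪 ^ k)).mapMatrix.comp (s59ptTheta m)
  let F₂ : DQ.R →+* Matrix (Fin d) (Fin d) (𝒪 ⧸ maximalIdeal 𝒪 ^ k) :=
    (Ideal.quotientMap (maximalIdeal 𝒪 ^ k)
      (MvPowerSeries.constantCoeff (σ := Fin r) (R := 𝒪)) (s59pt_eps_pow k)).mapMatrix.comp
      (θ : DQ.R →+* Matrix (Fin d) (Fin d)
        (MvPowerSeries (Fin r) 𝒪 ⧸ maximalIdeal (MvPowerSeries (Fin r) 𝒪) ^ k))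
  have hF₁ : ∀ y, F₁ y = (s59ptTheta m y).map (Ideal.Quotient.mk (maximalIdeal 𝒪 ^ k)) :=
    fun y => rfl
  have hF₂ : ∀ x, F₂ x = (θ x).map (Ideal.quotientMap (maximalIdeal 𝒪 ^ k)
      (MvPowerSeries.constantCoeff (σ := Fin r) (R := 𝒪)) (s59pt_eps_pow k)) := fun x => rfl
  show ∀ x : DQ.R, F₁ (κ x) = F₂ x
  -- the trivial case
  by_cases htriv : (1 : Matrix (Fin d) (Fin d) (𝒪 ⧸ maximalIdeal 𝒪 ^ k)) = 0
  · intro x
    rw [← mul_one (F₁ (κ x)), ← mul_one (F₂ x), htriv, mul_zero, mul_zero]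
  -- the scalars
  have hscal : ∀ c : 𝒪, F₂ (algebraMap 𝒪 DQ.R c) = F₁ (algebraMap 𝒪 D₀.R c) := by
    intro c
    rw [hF₁, hF₂, s59minfd_theta_algebraMap, AlgHom.commutes]
    ext i j
    rw [Matrix.map_apply, Matrix.map_apply, Matrix.algebraMap_matrix_apply,
      Matrix.algebraMap_matrix_apply]
    by_cases h : i = j
    · rw [if_pos h, if_pos h, Algebra.algebraMap_self, RingHom.id_apply,
        IsScalarTower.algebraMap_apply 𝒪 (MvPowerSeries (Fin r) 𝒪)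
          (MvPowerSeries (Fin r) 𝒪 ⧸ maximalIdeal (MvPowerSeries (Fin r) 𝒪) ^ k),
        Ideal.Quotient.algebraMap_eq, Ideal.quotientMap_mk, MvPowerSeries.algebraMap_apply,
        Algebra.algebraMap_self, RingHom.id_apply, MvPowerSeries.constantCoeff_C]
    · rw [if_neg h, if_neg h, map_zero, map_zero]
  -- the ring `B`
  let I : Ideal D₀.R := RingHom.ker F₁
  have hI : I ≠ ⊤ := by
    intro h
    have h1 : (1 : D₀.R) ∈ I := by rw [h]; exact Submodule.mem_top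
    have h2 : F₁ 1 = 0 := h1
    rw [map_one] at h2
    exact htriv h2
  haveI : Nontrivial (D₀.R ⧸ I) := Ideal.Quotient.nontrivial_iff.2 hI
  haveI : IsLocalRing (D₀.R ⧸ I) :=
    IsLocalRing.of_surjective' (Ideal.Quotient.mk I) Ideal.Quotient.mk_surjective
  let jB : D₀.R ⧸ I →+* Matrix (Fin d) (Fin d) (𝒪 ⧸ maximalIdeal 𝒪 ^ k) := RingHom.kerLift F₁
  have hjB : Function.Injective jB := RingHom.kerLift_injective F₁
  have hjmk : ∀ y : D₀.R, jB (Ideal.Quotient.mk I y) = F₁ y := fun y => rfl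
  haveI : Finite (𝒪 ⧸ maximalIdeal 𝒪 ^ k) := Fermat.Agent.RT.K2c.rtk2c_finite_quotient_pow k
  haveI : Finite (D₀.R ⧸ I) := Finite.of_injective jB hjB
  haveI : IsAdicComplete (maximalIdeal (D₀.R ⧸ I)) (D₀.R ⧸ I) := rtk7fin_isAdicComplete_of_finite
  have hmkloc : IsLocalHom (Ideal.Quotient.mk I) :=
    Function.Surjective.isLocalHom (Ideal.Quotient.mk I) Ideal.Quotient.mk_surjective
  haveI : IsLocalHom (algebraMap 𝒪 (D₀.R ⧸ I)) := by
    have h1 : algebraMap 𝒪 (D₀.R ⧸ I) = (Ideal.Quotient.mk I).comp (algebraMap 𝒪 D₀.R) := rfl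
    rw [h1]
    haveI := hmkloc
    exact RingHom.isLocalHom_comp _ _
  have hB : Function.Surjective (residue (D₀.R ⧸ I) ∘ algebraMap 𝒪 (D₀.R ⧸ I)) := by
    intro z
    obtain ⟨b, rfl⟩ := residue_surjective z
    obtain ⟨y, rfl⟩ := Ideal.Quotient.mk_surjective b
    obtain ⟨a, ha⟩ := D₀.residue_surjective (residue D₀.R y)
    refine ⟨a, ?_⟩
    have h1 : residue D₀.R (algebraMap 𝒪 D₀.R a) = residue D₀.R y := ha
    have h2 : algebraMap 𝒪 D₀.R a - y ∈ maximalIdeal D₀.R := by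
      rw [← Ideal.Quotient.eq]; exact h1
    have h3 : Ideal.Quotient.mk I (algebraMap 𝒪 D₀.R a - y) ∈ maximalIdeal (D₀.R ⧸ I) := by
      rw [mem_maximalIdeal, mem_nonunits_iff]
      intro hu
      haveI := hmkloc
      exact (mem_nonunits_iff.mp ((mem_maximalIdeal _).mp h2)) (isUnit_of_map_unit _ _ hu)
    show residue (D₀.R ⧸ I) (Ideal.Quotient.mk I (algebraMap 𝒪 D₀.R a)) =
      residue (D₀.R ⧸ I) (Ideal.Quotient.mk I y)
    rw [map_sub] at h3
    exact Ideal.Quotient.eq.2 h3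
  -- the map `g`
  let g₀ : DQ.R → D₀.R ⧸ I := fun x => Ideal.Quotient.mk I (Classical.choose (hweak x))
  have hg₀ : ∀ x, jB (g₀ x) = F₂ x := fun x => Classical.choose_spec (hweak x)
  let g : DQ.R →ₐ[𝒪] D₀.R ⧸ I :=
    { toFun := g₀
      map_one' := hjB (by rw [hg₀, map_one, map_one])
      map_mul' := fun x y => hjB (by rw [hg₀, map_mul, map_mul, hg₀, hg₀])
      map_zero' := hjB (by rw [hg₀, map_zero, map_zero])
      map_add' := fun x y => hjB (by rw [hg₀, map_add, map_add, hg₀, hg₀])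
      commutes' := fun c => hjB (by
        rw [hg₀, hscal c]
        rfl) }
  have hgapp : ∀ x, jB (g x) = F₂ x := hg₀
  have hgloc : IsLocalHom (g : DQ.R →+* D₀.R ⧸ I) := by
    refine ⟨fun a ha => ?_⟩
    by_contra hna
    obtain ⟨N, hN⟩ := hnil
    have h1 : a ^ N ∈ maximalIdeal DQ.R ^ N :=
      Ideal.pow_mem_pow ((mem_maximalIdeal a).2 hna) N
    have h2 : F₂ (a ^ N) = 0 := by
      rw [hF₂, hN _ h1]
      exact Matrix.map_zero _ (map_zero _)
    have h3 : g (a ^ N) = 0 := hjB (by rw [hgapp, h2, map_zero])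
    have h4 : IsUnit (g (a ^ N)) := by
      rw [map_pow]
      exact ha.pow N
    rw [h3] at h4
    exact not_isUnit_zero h4
  -- conclusion
  exact s59minfd_hbase_of_tr D₀ DQ κ hκs hκ hκe m k r θ (D₀.R ⧸ I) hB jB
    (Ideal.Quotient.mkₐ 𝒪 I) Ideal.Quotient.mk_surjective hmkloc (fun y => rfl) g hgloc hgapp
    (fun σ => hjB (by
      rw [hgapp]
      exact (htr σ).symm))

end Weak

end Fermat.Agent.S59

end
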