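/-
S59, wall R1 (MIN′), leaf **ASM-FEED / TOP** (helper67): ALL the even levels from the landed
interfaces, and the conclusions of R1-ALG.

Inputs (exact shapes of what is landed / owed elsewhere):

* `hS56`  : the flat half of frozen S56 for `(p, ρbar, S, Smin)`, for a fixed `r`:
  `∀ n, ∃ qv, IsTWFamily p ρbar S n r qv ∧ ∀ DQ, ∃ γ : 𝒪⟦X₁..X_r⟧ →ₐ DQ.R, Surjective γ`;
* `hD`    : DEF-COND, the universal rings `R_Q` exist (S53);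
* `D₀`, `γ₀ : R_∅ ↠ T₀`, `j0 : T₀ → M_d(𝒪)`, `ρ0` over `T₀` with `γ₀ (tr ρ_∅ σ) = tr ρ0 σ`
  (minimal `R ↠ T`, S54), `M` with basis `m` on which `R_∅` acts through `j0 ∘ γ₀`;
* `hHk`   : the Hecke side at every level `n` and every Taylor–Wiles family `qv`
  (the shape of `S59btrHeckeDataQ.levelQ`, helper34: `TWGal ∧ S59btrBaseTr ∧ S59btrTrQin`),
  without trivial primes (`image rt = ∅`) and with `r` variables.

Outputs:

* `s59minfd_levels` : `∀ k, ∃ ρ φ ψ, S59ptLevE … k ρ φ ψ`  (ASM-FEED at every level);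
* `s59minfd_patchingLevel` : `Nonempty (Algebra.PatchingLevel 𝒪 r R_∅ M ⊥)`;
* `s59minfd_iso`    : every `R_∅ ↠ T` acting compatibly on `M` is bijective (minimal `R = T`);
* `s59minfd_hmin`   : `length Φ_{R_∅} ≤ length (𝒪 ⧸ J_B(E, x₀))`   (= `hmin` of the top chain).
-/
import Fermat.Agent.S59.Min.FeedBase
import Fermat.Agent.S59.Min.Base

set_option autoImplicit false
set_option linter.style.haveILetI false
set_option linter.unusedSectionVars false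
set_option linter.unusedVariables false
set_option linter.style.longLine false

noncomputable section

namespace Fermat.Agent.S59

open IsLocalRing Fermat.Agent.TW Fermat.Agent.RT Fermat.Agent.RT.Prod Fermat.Agent.S53
  Fermat.Agent.RT.Even

section Top

variable {𝒪 : Type} [CommRing 𝒪] [IsDomain 𝒪] [IsDiscreteValuationRing 𝒪]
  [IsAdicComplete (maximalIdeal 𝒪) 𝒪] [Finite (ResidueField 𝒪)]
variable {ρbar : ResidualGaloisRep (ResidueField 𝒪)}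

/-- the residue field of a universal deformation ring is finite -/
theorem s59minfd_finite_residueField
    {𝒟 : ∀ ⦃A : Type⦄ [CommRing A] [IsLocalRing A] [Algebra 𝒪 A], GaloisRepAdic A → Prop}
    (D : GaloisRep.DeformationRingData 𝒪 ρbar 𝒟) : Finite (ResidueField D.R) := by
  refine Finite.of_surjective (ResidueField.map (algebraMap 𝒪 D.R)) ?_
  intro z
  obtain ⟨a, ha⟩ := D.residue_surjective z
  exact ⟨residue 𝒪 a, ha⟩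

/-- `TwTanBC` for the universal ring of type `twFlat` -/
theorem s59minfd_twTanBC (p : ℕ) (Smin Q : Finset ℕ)
    (D : GaloisRep.DeformationRingData 𝒪 ρbar (twFlat 𝒪 p Smin Q)) : TwTanBC D :=
  twTanBC_flat p (Smin ∪ Q) Smin D

/-- **ASM-FEED at one level from the Hecke side** (`TWGal` + base traces + inertia at the
Taylor–Wiles primes). -/
theorem s59minfd_level_of_hecke {p : ℕ} (hp : p.Prime) {S Smin : Finset ℕ}
    (H : TWHyp 𝒪 p ρbar S Smin)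
    (D₀ : GaloisRep.DeformationRingData 𝒪 ρbar (twFlat 𝒪 p Smin ∅))
    {r : ℕ} {n : ℕ} {qv : Fin r → ℕ} (hfam : IsTWFamily p ρbar S n r qv)
    (DQ : GaloisRep.DeformationRingData 𝒪 ρbar (twFlat 𝒪 p Smin (Finset.univ.image qv)))
    (γ : MvPowerSeries (Fin r) 𝒪 →ₐ[𝒪] DQ.R) (hγ : Function.Surjective γ)
    {d : ℕ} {T0 : Type} [CommRing T0] [IsLocalRing T0] [Algebra 𝒪 T0]
    (j0 : T0 →ₐ[𝒪] Matrix (Fin d) (Fin d) 𝒪) (ρ0 : GaloisRepAdic T0)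
    (γ₀ : D₀.R →ₐ[𝒪] T0) (hγ₀ : Function.Surjective γ₀)
    (hγ₀tr : ∀ σ : RtpaG, γ₀ (LinearMap.trace D₀.R D₀.ρ.V (D₀.ρ.ρ σ)) =
      LinearMap.trace T0 ρ0.V (ρ0.ρ σ))
    {M : Type} [AddCommGroup M] [Module D₀.R M] [Module 𝒪 M] [IsScalarTower 𝒪 D₀.R M]
    (m : Module.Basis (Fin d) 𝒪 M) (hΘ : ∀ y : D₀.R, s59ptTheta m y = j0 (γ₀ y))
    {ι : Type} [Fintype ι] {rt : ι → ℕ} (hr : Finset.univ.image rt = ∅)
    {σ φ : ι → RtpaG} {tχ : ι → 𝒪} {lam : 𝒪} {Sig0 Phi0 : ι → Matrix (Fin 2) (Fin 2) T0}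
    {E : Set (RttwS 𝒪 r ⧸ maximalIdeal (RttwS 𝒪 r) ^ n)}
    {A : Type} [CommRing A] [IsLocalRing A] [Algebra 𝒪 A]
    {ιA : ResidueField 𝒪 →+* ResidueField A}
    {ρ : GaloisRepAdic A} {b : Module.Basis (Fin 2) A ρ.V}
    {β βi : ℕ → Matrix (Fin 2) (Fin 2) A}
    {π1 πχ : A →ₐ[𝒪] Matrix (Fin d) (Fin d) (RttwS 𝒪 r ⧸ maximalIdeal (RttwS 𝒪 r) ^ n)}
    (HG : TWGal p ρbar Smin (Finset.univ.image qv) rt σ φ tχ lam r d j0 Sig0 Phi0 n E ιA ρ b β βi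
      π1 πχ)
    (hbt : ∀ g : RtpaG, (π1 (LinearMap.trace A ρ.V (ρ.ρ g))).map (Ideal.Quotient.factor
        (le_sup_right : maximalIdeal (RttwS 𝒪 r) ^ n ≤
          rttwAug 𝒪 r ⊔ maximalIdeal (RttwS 𝒪 r) ^ n)) =
      rttwBaseRed r d n (j0 (LinearMap.trace T0 ρ0.V (ρ0.ρ g))))
    (hq : ∀ j : Fin r, ∃ (g : RtpaG) (P : ValuationSubring (AlgebraicClosure ℚ)),
      P.LiesOverPrime (qv j) ∧ g ∈ P.inertiaSubgroupIn ℚ ∧
      π1 (LinearMap.trace A ρ.V (ρ.ρ g)) ^ 2 - 4 =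
        algebraMap (RttwS 𝒪 r ⧸ maximalIdeal (RttwS 𝒪 r) ^ n)
          (Matrix (Fin d) (Fin d) (RttwS 𝒪 r ⧸ maximalIdeal (RttwS 𝒪 r) ^ n))
          (Ideal.Quotient.mk _ (MvPowerSeries.X j) ^ 2)) :
    ∃ ρ' φ' ψ', S59ptLevE (maximalIdeal (MvPowerSeries (Fin r) 𝒪)) (maximalIdeal D₀.R)
      (maximalIdeal 𝒪) (MvPowerSeries.constantCoeff (σ := Fin r) (R := 𝒪))
      (fun k => s59pt_eps_pow k)
      (s59ptTheta m) (MvPowerSeries.X : Fin r → MvPowerSeries (Fin r) 𝒪)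
      (rtevSq (σ := Fin r) (O := 𝒪)) n ρ' φ' ψ' := by
  have hbc : TwTanBC D₀ := s59minfd_twTanBC p Smin ∅ D₀
  choose g P hP hg htrQ using hq
  refine s59minfd_lev_of_twGal hp H hfam D₀ hbc DQ m n γ hγ HG hr P hP g hg htrQ ?_
  intro κ hκ hκe f hf hfe
  have hκs : Function.Surjective κ := s59min_ctrl_surjective D₀ DQ hbc κ hκ hκe
  -- `f` is compatible with the traces
  have hftr : ∀ τ : RtpaG, f (LinearMap.trace DQ.R DQ.ρ.V (DQ.ρ.ρ τ)) =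
      LinearMap.trace A ρ.V (ρ.ρ τ) := by
    intro τ
    rw [← s59fe_isEquiv_trace hfe τ]
    exact (s59fe_trace_baseChangeAlong (f : DQ.R →+* A) hf DQ.ρ τ).symm
  -- `hnil`
  have hnil : ∃ N, ∀ x ∈ maximalIdeal DQ.R ^ N, (π1.comp f) x = 0 := by
    haveI := HG.finite
    obtain ⟨N, hN⟩ := rtk7fin_exists_pow_eq_bot (A := A)
    refine ⟨N, fun x hx => ?_⟩
    have h0 : f x = 0 := s59minrt_nil (f : DQ.R →+* A) hf hN x hx
    rw [AlgHom.comp_apply, h0, map_zero]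
  refine s59minfd_hbase_of_weak D₀ DQ κ hκs hκ hκe m n r (π1.comp f) hnil ?_ ?_
  · -- the weak base
    intro x
    obtain ⟨t0, ht0⟩ := HG.base_T0 (f x)
    obtain ⟨y, rfl⟩ := hγ₀ t0
    refine ⟨y, ?_⟩
    rw [hΘ y]
    exact s59minfd_base_dict _ _ ht0
  · -- the base traces
    intro τ
    rw [hΘ, hγ₀tr τ, AlgHom.comp_apply, hftr τ]
    exact s59minfd_base_dict _ _ (hbt τ)

/-- **ASM-FEED, all levels**: `∀ k, ∃ ρ φ ψ, S59ptLevE … k ρ φ ψ` from S56 (flat half), the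
universal rings and the Hecke side. -/
theorem s59minfd_levels {p : ℕ} (hp : p.Prime) {S Smin : Finset ℕ}
    (H : TWHyp 𝒪 p ρbar S Smin)
    (D₀ : GaloisRep.DeformationRingData 𝒪 ρbar (twFlat 𝒪 p Smin ∅))
    (hD : ∀ Q : Finset ℕ, Nonempty (GaloisRep.DeformationRingData 𝒪 ρbar (twFlat 𝒪 p Smin Q)))
    {r : ℕ}
    (hS56 : ∀ n : ℕ, ∃ qv : Fin r → ℕ, IsTWFamily p ρbar S n r qv ∧
      ∀ DQ : GaloisRep.DeformationRingData 𝒪 ρbar (twFlat 𝒪 p Smin (Finset.univ.image qv)),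
        ∃ γ : MvPowerSeries (Fin r) 𝒪 →ₐ[𝒪] DQ.R, Function.Surjective γ)
    {d : ℕ} {T0 : Type} [CommRing T0] [IsLocalRing T0] [Algebra 𝒪 T0]
    (j0 : T0 →ₐ[𝒪] Matrix (Fin d) (Fin d) 𝒪) (ρ0 : GaloisRepAdic T0)
    (γ₀ : D₀.R →ₐ[𝒪] T0) (hγ₀ : Function.Surjective γ₀)
    (hγ₀tr : ∀ σ : RtpaG, γ₀ (LinearMap.trace D₀.R D₀.ρ.V (D₀.ρ.ρ σ)) =
      LinearMap.trace T0 ρ0.V (ρ0.ρ σ))
    {M : Type} [AddCommGroup M] [Module D₀.R M] [Module 𝒪 M] [IsScalarTower 𝒪 D₀.R M]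
    (m : Module.Basis (Fin d) 𝒪 M) (hΘ : ∀ y : D₀.R, s59ptTheta m y = j0 (γ₀ y))
    {ι : Type} [Fintype ι] {rt : ι → ℕ} (hr : Finset.univ.image rt = ∅)
    {σ φ : ι → RtpaG} {tχ : ι → 𝒪} {lam : 𝒪} {Sig0 Phi0 : ι → Matrix (Fin 2) (Fin 2) T0}
    (hHk : ∀ (n : ℕ) (qv : Fin r → ℕ), IsTWFamily p ρbar S n r qv →
      ∃ (E : Set (RttwS 𝒪 r ⧸ maximalIdeal (RttwS 𝒪 r) ^ n))
        (A : Type) (_ : CommRing A) (_ : IsLocalRing A) (_ : Algebra 𝒪 A)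
        (ιA : ResidueField 𝒪 →+* ResidueField A) (ρ : GaloisRepAdic A)
        (b : Module.Basis (Fin 2) A ρ.V) (β βi : ℕ → Matrix (Fin 2) (Fin 2) A)
        (π1 πχ : A →ₐ[𝒪] Matrix (Fin d) (Fin d)
          (RttwS 𝒪 r ⧸ maximalIdeal (RttwS 𝒪 r) ^ n)),
        TWGal p ρbar Smin (Finset.univ.image qv) rt σ φ tχ lam r d j0 Sig0 Phi0 n E ιA ρ b β βi
          π1 πχ ∧
        (∀ g : RtpaG, (π1 (LinearMap.trace A ρ.V (ρ.ρ g))).map (Ideal.Quotient.factor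
            (le_sup_right : maximalIdeal (RttwS 𝒪 r) ^ n ≤
              rttwAug 𝒪 r ⊔ maximalIdeal (RttwS 𝒪 r) ^ n)) =
          rttwBaseRed r d n (j0 (LinearMap.trace T0 ρ0.V (ρ0.ρ g)))) ∧
        ∀ j : Fin r, ∃ (g : RtpaG) (P : ValuationSubring (AlgebraicClosure ℚ)),
          P.LiesOverPrime (qv j) ∧ g ∈ P.inertiaSubgroupIn ℚ ∧
          π1 (LinearMap.trace A ρ.V (ρ.ρ g)) ^ 2 - 4 =
            algebraMap (RttwS 𝒪 r ⧸ maximalIdeal (RttwS 𝒪 r) ^ n)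
              (Matrix (Fin d) (Fin d) (RttwS 𝒪 r ⧸ maximalIdeal (RttwS 𝒪 r) ^ n))
              (Ideal.Quotient.mk _ (MvPowerSeries.X j) ^ 2)) :
    ∀ k, ∃ ρ' φ' ψ', S59ptLevE (maximalIdeal (MvPowerSeries (Fin r) 𝒪)) (maximalIdeal D₀.R)
      (maximalIdeal 𝒪) (MvPowerSeries.constantCoeff (σ := Fin r) (R := 𝒪))
      (fun k => s59pt_eps_pow k)
      (s59ptTheta m) (MvPowerSeries.X : Fin r → MvPowerSeries (Fin r) 𝒪)
      (rtevSq (σ := Fin r) (O := 𝒪)) k ρ' φ' ψ' := by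
  intro k
  obtain ⟨qv, hfam, hγ⟩ := hS56 k
  obtain ⟨DQ⟩ := hD (Finset.univ.image qv)
  obtain ⟨γ, hγs⟩ := hγ DQ
  obtain ⟨E, A, i1, i2, i3, ιA, ρ, b, β, βi, π1, πχ, HG, hbt, hq⟩ := hHk k qv hfam
  exact s59minfd_level_of_hecke hp H D₀ hfam DQ γ hγs j0 ρ0 γ₀ hγ₀ hγ₀tr m hΘ hr HG hbt hq

/-- **the patching level at the minimal level** from S56, the universal rings and the Hecke
side. -/
theorem s59minfd_patchingLevel {p : ℕ} (hp : p.Prime) {S Smin : Finset ℕ}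
    (H : TWHyp 𝒪 p ρbar S Smin)
    (D₀ : GaloisRep.DeformationRingData 𝒪 ρbar (twFlat 𝒪 p Smin ∅))
    (hD : ∀ Q : Finset ℕ, Nonempty (GaloisRep.DeformationRingData 𝒪 ρbar (twFlat 𝒪 p Smin Q)))
    {r : ℕ}
    (hS56 : ∀ n : ℕ, ∃ qv : Fin r → ℕ, IsTWFamily p ρbar S n r qv ∧
      ∀ DQ : GaloisRep.DeformationRingData 𝒪 ρbar (twFlat 𝒪 p Smin (Finset.univ.image qv)),
        ∃ γ : MvPowerSeries (Fin r) 𝒪 →ₐ[𝒪] DQ.R, Function.Surjective γ)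
    {d : ℕ} {T0 : Type} [CommRing T0] [IsLocalRing T0] [Algebra 𝒪 T0]
    (j0 : T0 →ₐ[𝒪] Matrix (Fin d) (Fin d) 𝒪) (ρ0 : GaloisRepAdic T0)
    (γ₀ : D₀.R →ₐ[𝒪] T0) (hγ₀ : Function.Surjective γ₀)
    (hγ₀tr : ∀ σ : RtpaG, γ₀ (LinearMap.trace D₀.R D₀.ρ.V (D₀.ρ.ρ σ)) =
      LinearMap.trace T0 ρ0.V (ρ0.ρ σ))
    {M : Type} [AddCommGroup M] [Module D₀.R M] [Module 𝒪 M] [IsScalarTower 𝒪 D₀.R M]
    (m : Module.Basis (Fin d) 𝒪 M) (hΘ : ∀ y : D₀.R, s59ptTheta m y = j0 (γ₀ y))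
    {ι : Type} [Fintype ι] {rt : ι → ℕ} (hr : Finset.univ.image rt = ∅)
    {σ φ : ι → RtpaG} {tχ : ι → 𝒪} {lam : 𝒪} {Sig0 Phi0 : ι → Matrix (Fin 2) (Fin 2) T0}
    (hHk : ∀ (n : ℕ) (qv : Fin r → ℕ), IsTWFamily p ρbar S n r qv →
      ∃ (E : Set (RttwS 𝒪 r ⧸ maximalIdeal (RttwS 𝒪 r) ^ n))
        (A : Type) (_ : CommRing A) (_ : IsLocalRing A) (_ : Algebra 𝒪 A)
        (ιA : ResidueField 𝒪 →+* ResidueField A) (ρ : GaloisRepAdic A)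
        (b : Module.Basis (Fin 2) A ρ.V) (β βi : ℕ → Matrix (Fin 2) (Fin 2) A)
        (π1 πχ : A →ₐ[𝒪] Matrix (Fin d) (Fin d)
          (RttwS 𝒪 r ⧸ maximalIdeal (RttwS 𝒪 r) ^ n)),
        TWGal p ρbar Smin (Finset.univ.image qv) rt σ φ tχ lam r d j0 Sig0 Phi0 n E ιA ρ b β βi
          π1 πχ ∧
        (∀ g : RtpaG, (π1 (LinearMap.trace A ρ.V (ρ.ρ g))).map (Ideal.Quotient.factor
            (le_sup_right : maximalIdeal (RttwS 𝒪 r) ^ n ≤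
              rttwAug 𝒪 r ⊔ maximalIdeal (RttwS 𝒪 r) ^ n)) =
          rttwBaseRed r d n (j0 (LinearMap.trace T0 ρ0.V (ρ0.ρ g)))) ∧
        ∀ j : Fin r, ∃ (g : RtpaG) (P : ValuationSubring (AlgebraicClosure ℚ)),
          P.LiesOverPrime (qv j) ∧ g ∈ P.inertiaSubgroupIn ℚ ∧
          π1 (LinearMap.trace A ρ.V (ρ.ρ g)) ^ 2 - 4 =
            algebraMap (RttwS 𝒪 r ⧸ maximalIdeal (RttwS 𝒪 r) ^ n)
              (Matrix (Fin d) (Fin d) (RttwS 𝒪 r ⧸ maximalIdeal (RttwS 𝒪 r) ^ n))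
              (Ideal.Quotient.mk _ (MvPowerSeries.X j) ^ 2))
    [Nontrivial M] :
    Nonempty (Algebra.PatchingLevel 𝒪 r D₀.R M ⊥) := by
  haveI : Finite (ResidueField D₀.R) := s59minfd_finite_residueField D₀
  exact s59minev_level_of_lev m
    (s59minfd_levels hp H D₀ hD hS56 j0 ρ0 γ₀ hγ₀ hγ₀tr m hΘ hr hHk)

/-- **R1-BASE from S56, the universal rings and the Hecke side**: every surjection
`γT : R_∅ ↠ T` through which `R_∅` acts on `M` is bijective (minimal `R = T`), and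
`length Φ_{R_∅} ≤ length (𝒪 ⧸ J_B(E, x₀))` (= `hmin` of the top chain, in the shape of
`s59minb_base`). -/
theorem s59minfd_base {p : ℕ} (hp : p.Prime) {S Smin : Finset ℕ}
    (H : TWHyp 𝒪 p ρbar S Smin)
    (D₀ : GaloisRep.DeformationRingData 𝒪 ρbar (twFlat 𝒪 p Smin ∅))
    (hD : ∀ Q : Finset ℕ, Nonempty (GaloisRep.DeformationRingData 𝒪 ρbar (twFlat 𝒪 p Smin Q)))
    {r : ℕ}
    (hS56 : ∀ n : ℕ, ∃ qv : Fin r → ℕ, IsTWFamily p ρbar S n r qv ∧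
      ∀ DQ : GaloisRep.DeformationRingData 𝒪 ρbar (twFlat 𝒪 p Smin (Finset.univ.image qv)),
        ∃ γ : MvPowerSeries (Fin r) 𝒪 →ₐ[𝒪] DQ.R, Function.Surjective γ)
    {d : ℕ} {T0 : Type} [CommRing T0] [IsLocalRing T0] [Algebra 𝒪 T0]
    (j0 : T0 →ₐ[𝒪] Matrix (Fin d) (Fin d) 𝒪) (ρ0 : GaloisRepAdic T0)
    (γ₀ : D₀.R →ₐ[𝒪] T0) (hγ₀ : Function.Surjective γ₀)
    (hγ₀tr : ∀ σ : RtpaG, γ₀ (LinearMap.trace D₀.R D₀.ρ.V (D₀.ρ.ρ σ)) =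
      LinearMap.trace T0 ρ0.V (ρ0.ρ σ))
    {M : Type} [AddCommGroup M] [Module D₀.R M] [Module 𝒪 M] [IsScalarTower 𝒪 D₀.R M]
    (m : Module.Basis (Fin d) 𝒪 M) (hΘ : ∀ y : D₀.R, s59ptTheta m y = j0 (γ₀ y))
    {ι : Type} [Fintype ι] {rt : ι → ℕ} (hr : Finset.univ.image rt = ∅)
    {σ φ : ι → RtpaG} {tχ : ι → 𝒪} {lam : 𝒪} {Sig0 Phi0 : ι → Matrix (Fin 2) (Fin 2) T0}
    (hHk : ∀ (n : ℕ) (qv : Fin r → ℕ), IsTWFamily p ρbar S n r qv →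
      ∃ (E : Set (RttwS 𝒪 r ⧸ maximalIdeal (RttwS 𝒪 r) ^ n))
        (A : Type) (_ : CommRing A) (_ : IsLocalRing A) (_ : Algebra 𝒪 A)
        (ιA : ResidueField 𝒪 →+* ResidueField A) (ρ : GaloisRepAdic A)
        (b : Module.Basis (Fin 2) A ρ.V) (β βi : ℕ → Matrix (Fin 2) (Fin 2) A)
        (π1 πχ : A →ₐ[𝒪] Matrix (Fin d) (Fin d)
          (RttwS 𝒪 r ⧸ maximalIdeal (RttwS 𝒪 r) ^ n)),
        TWGal p ρbar Smin (Finset.univ.image qv) rt σ φ tχ lam r d j0 Sig0 Phi0 n E ιA ρ b β βi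
          π1 πχ ∧
        (∀ g : RtpaG, (π1 (LinearMap.trace A ρ.V (ρ.ρ g))).map (Ideal.Quotient.factor
            (le_sup_right : maximalIdeal (RttwS 𝒪 r) ^ n ≤
              rttwAug 𝒪 r ⊔ maximalIdeal (RttwS 𝒪 r) ^ n)) =
          rttwBaseRed r d n (j0 (LinearMap.trace T0 ρ0.V (ρ0.ρ g)))) ∧
        ∀ j : Fin r, ∃ (g : RtpaG) (P : ValuationSubring (AlgebraicClosure ℚ)),
          P.LiesOverPrime (qv j) ∧ g ∈ P.inertiaSubgroupIn ℚ ∧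
          π1 (LinearMap.trace A ρ.V (ρ.ρ g)) ^ 2 - 4 =
            algebraMap (RttwS 𝒪 r ⧸ maximalIdeal (RttwS 𝒪 r) ^ n)
              (Matrix (Fin d) (Fin d) (RttwS 𝒪 r ⧸ maximalIdeal (RttwS 𝒪 r) ^ n))
              (Ideal.Quotient.mk _ (MvPowerSeries.X j) ^ 2))
    [Nontrivial M] {T : Type} [CommRing T] [Algebra 𝒪 T] [Module T M]
    (γT : D₀.R →ₐ[𝒪] T) (hγT : Function.Surjective γT) (πT : T →ₐ[𝒪] 𝒪)
    (hcompat : ∀ (t : D₀.R) (x : M), γT t • x = t • x)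
    {L : Type} [AddCommGroup L] [Module 𝒪 L] (ι' : M →ₗ[𝒪] L) (B : L →ₗ[𝒪] L →ₗ[𝒪] 𝒪)
    (hB : ∀ (t : T) (x y : M), B (ι' (t • x)) (ι' y) = B (ι' x) (ι' (t • y)))
    (E' : Submodule 𝒪 L) (hE : ∀ y ∈ E', ∃ m' : M, (∀ t : T, t • m' = πT t • m') ∧ ι' m' = y)
    (x₀ : M) (hx₀ : ∀ t : T, t • x₀ = πT t • x₀) :
    Function.Bijective γT ∧
      s59p_phiLen 𝒪 (πT.comp γT) ≤ Module.length 𝒪 (𝒪 ⧸ s59eta_J B E' (ι' x₀)) := by
  obtain ⟨L₀⟩ := s59minfd_patchingLevel hp H D₀ hD hS56 j0 ρ0 γ₀ hγ₀ hγ₀tr m hΘ hr hHk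
  haveI : Module.Finite 𝒪 M := Module.Finite.of_basis m
  haveI : Module.Free 𝒪 M := Module.Free.of_basis m
  exact s59minb_base γT hγT πT hcompat L₀ ι' B hB E' hE x₀ hx₀

end Top

end Fermat.Agent.S59

end
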