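/-
S59, wall R1 (helper34): R1-HK-MIN wired into the feed: R1-BASE at a setup WITHOUT trivial primes.

`s59minfd_base` (helper67, `S59/Min/FeedTop.lean`) with its hypothesis `hHk` (the Hecke side at
every level) DISCHARGED by the levels of `S59btrHeckeDataQ Y h` (`s59btr_hHk_min`), and, for
`5 ≤ p`, by helper9's unconditional `s59tqt_heckeQ_five`:

* `s59btr_base_min`      : `IsEmpty Y.ι`, `X : S59btrHeckeDataQ Y h`, S56-flat at `(Y.hyp, h)`,
                           DEF-COND, minimal `γ₀ : R_∅ ↠ X.D.T0` with traces, `M` with the action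
                           through `X.D.j0 ∘ γ₀`, stage data ⇒
                           `γT` bijective ∧ `length Φ ≤ length (𝒪 ⧸ J_B(E', ι' x₀))`;
* `s59btr_base_min_five` : the same for `5 ≤ p`: the Hecke data are PRODUCED here
                           (`∃ X : S59btrHeckeDataQ Y h`, then for every `γ₀, M, …` over `X.D`).

So what R1 still owes at `p ≥ 5`, good reduction at `p`, is EXACTLY: S56-flat (landed), DEF-COND
(landed), and the DICTIONARY (`γ₀`, `hΘ`, `ι'`, `B`, `E'`, `x₀` over `X.D.T0`, `X.D.j0`).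
-/
import Fermat.Agent.S59.Min.BaseTrMin
import Fermat.Agent.S59.Min.FeedTop

set_option autoImplicit false
set_option linter.unusedSectionVars false
set_option linter.unusedVariables false
set_option linter.style.longLine false

noncomputable section

namespace Fermat.Agent.S59.LowK

open IsLocalRing Polynomial Fermat.Agent.ES Fermat.Agent.S30 Fermat.Agent.W1 Fermat.Agent.TW
open Fermat.Agent.RT Fermat.Agent.RT.K1 Fermat.Agent.RT.Prod Fermat.Agent.S59.LowQ ExtCitation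
open WeierstrassCurve WeierstrassCurve.Affine WeierstrassCurve.Affine.Point
open Fermat.Agent.S59

variable {W : WeierstrassCurve ℤ} {p M₀ : ℕ} [NeZero M₀] (Y : s59lk_KSetupW W p M₀) (h : ℕ)

/-- **R1-BASE at a setup without trivial primes**, from the Hecke data with the base traces and
the inertia elements. -/
theorem s59btr_base_min (hp : p.Prime) (hι : IsEmpty Y.ι) (X : S59btrHeckeDataQ Y h)
    (D₀ : GaloisRep.DeformationRingData Y.O Y.ρbar (twFlat Y.O p Y.Smin ∅))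
    (hD : ∀ Q : Finset ℕ,
      Nonempty (GaloisRep.DeformationRingData Y.O Y.ρbar (twFlat Y.O p Y.Smin Q)))
    (hS56 : ∀ n : ℕ, ∃ qv : Fin h → ℕ,
      IsTWFamily p Y.ρbar (Y.Smin ∪ Finset.univ.image Y.r) n h qv ∧
      ∀ DQ : GaloisRep.DeformationRingData Y.O Y.ρbar
          (twFlat Y.O p Y.Smin (Finset.univ.image qv)),
        ∃ γ : MvPowerSeries (Fin h) Y.O →ₐ[Y.O] DQ.R, Function.Surjective γ)
    (γ₀ : D₀.R →ₐ[Y.O] X.D.T0) (hγ₀ : Function.Surjective γ₀)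
    (hγ₀tr : ∀ σ : RtpaG, γ₀ (LinearMap.trace D₀.R D₀.ρ.V (D₀.ρ.ρ σ)) =
      LinearMap.trace X.D.T0 X.D.ρ0.V (X.D.ρ0.ρ σ))
    {M : Type} [AddCommGroup M] [Module D₀.R M] [Module Y.O M] [IsScalarTower Y.O D₀.R M]
    (m : Module.Basis (Fin X.D.d) Y.O M) (hΘ : ∀ y : D₀.R, s59ptTheta m y = X.D.j0 (γ₀ y))
    [Nontrivial M] {T : Type} [CommRing T] [Algebra Y.O T] [Module T M]
    (γT : D₀.R →ₐ[Y.O] T) (hγT : Function.Surjective γT) (πT : T →ₐ[Y.O] Y.O)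
    (hcompat : ∀ (t : D₀.R) (x : M), γT t • x = t • x)
    {L : Type} [AddCommGroup L] [Module Y.O L] (ι' : M →ₗ[Y.O] L)
    (B : L →ₗ[Y.O] L →ₗ[Y.O] Y.O)
    (hB : ∀ (t : T) (x y : M), B (ι' (t • x)) (ι' y) = B (ι' x) (ι' (t • y)))
    (E' : Submodule Y.O L)
    (hE : ∀ y ∈ E', ∃ m' : M, (∀ t : T, t • m' = πT t • m') ∧ ι' m' = y)
    (x₀ : M) (hx₀ : ∀ t : T, t • x₀ = πT t • x₀) :
    Function.Bijective γT ∧
      s59p_phiLen Y.O (πT.comp γT) ≤ Module.length Y.O (Y.O ⧸ s59eta_J B E' (ι' x₀)) :=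
  s59minfd_base hp Y.hyp D₀ hD hS56 X.D.j0 X.D.ρ0 γ₀ hγ₀ hγ₀tr m hΘ
    (s59btr_image_r_of_isEmpty Y hι) (s59btr_hHk_min Y h hι X) γT hγT πT hcompat ι' B hB E' hE
    x₀ hx₀

/-- **R1-BASE at the minimal level, `5 ≤ p`**: the Hecke data exist, and over them R1-BASE holds
for every dictionary `(γ₀, M, m, hΘ, T, γT, πT, L, ι', B, E', x₀)`. -/
theorem s59btr_base_min_five [hpF : Fact p.Prime] (hp5 : 5 ≤ p) (hΔ : W.Δ ≠ 0)
    (hsq : Squarefree M₀) (hpM : ¬ p ∣ M₀) (hM2 : 2 ≤ M₀)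
    (hmod : W.IsResiduallyModularOfLevel p M₀)
    (hM : ∀ ℓ : ℕ, ℓ.Prime → ℓ ∣ M₀ → ℓ ∈ Y.Smin)
    (D₀ : GaloisRep.DeformationRingData Y.O Y.ρbar (twFlat Y.O p Y.Smin ∅))
    (hD : ∀ Q : Finset ℕ,
      Nonempty (GaloisRep.DeformationRingData Y.O Y.ρbar (twFlat Y.O p Y.Smin Q)))
    (hS56 : ∀ n : ℕ, ∃ qv : Fin h → ℕ,
      IsTWFamily p Y.ρbar (Y.Smin ∪ Finset.univ.image Y.r) n h qv ∧
      ∀ DQ : GaloisRep.DeformationRingData Y.O Y.ρbar
          (twFlat Y.O p Y.Smin (Finset.univ.image qv)),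
        ∃ γ : MvPowerSeries (Fin h) Y.O →ₐ[Y.O] DQ.R, Function.Surjective γ) :
    ∃ X : S59btrHeckeDataQ Y h,
      ∀ (γ₀ : D₀.R →ₐ[Y.O] X.D.T0), Function.Surjective γ₀ →
        (∀ σ : RtpaG, γ₀ (LinearMap.trace D₀.R D₀.ρ.V (D₀.ρ.ρ σ)) =
          LinearMap.trace X.D.T0 X.D.ρ0.V (X.D.ρ0.ρ σ)) →
        ∀ {M : Type} [AddCommGroup M] [Module D₀.R M] [Module Y.O M]
          [IsScalarTower Y.O D₀.R M] (m : Module.Basis (Fin X.D.d) Y.O M),
          (∀ y : D₀.R, s59ptTheta m y = X.D.j0 (γ₀ y)) →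
        ∀ [Nontrivial M] {T : Type} [CommRing T] [Algebra Y.O T] [Module T M]
          (γT : D₀.R →ₐ[Y.O] T), Function.Surjective γT → ∀ (πT : T →ₐ[Y.O] Y.O),
          (∀ (t : D₀.R) (x : M), γT t • x = t • x) →
        ∀ {L : Type} [AddCommGroup L] [Module Y.O L] (ι' : M →ₗ[Y.O] L)
          (B : L →ₗ[Y.O] L →ₗ[Y.O] Y.O),
          (∀ (t : T) (x y : M), B (ι' (t • x)) (ι' y) = B (ι' x) (ι' (t • y))) →
        ∀ (E' : Submodule Y.O L),
          (∀ y ∈ E', ∃ m' : M, (∀ t : T, t • m' = πT t • m') ∧ ι' m' = y) →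
        ∀ (x₀ : M), (∀ t : T, t • x₀ = πT t • x₀) →
          Function.Bijective γT ∧
            s59p_phiLen Y.O (πT.comp γT) ≤
              Module.length Y.O (Y.O ⧸ s59eta_J B E' (ι' x₀)) := by
  obtain ⟨X⟩ := s59tqt_heckeQ_five hp5 hΔ hsq hpM hM2 hmod Y h
  have hι := s59btr_isEmpty_of_min Y hM
  refine ⟨X, ?_⟩
  intro γ₀ hγ₀ hγ₀tr M _ _ _ _ m hΘ _ T _ _ _ γT hγT πT hcompat L _ _ ι' B hB E' hE x₀ hx₀
  exact s59btr_base_min Y h hpF.out hι X D₀ hD hS56 γ₀ hγ₀ hγ₀tr m hΘ γT hγT πT hcompat ι' B hB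
    E' hE x₀ hx₀

end Fermat.Agent.S59.LowK

end
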