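/-
S59, wall R1 (MIN′), leaf **DICT-τ, bigness glue** (helper67): the hypotheses `hres`, `hsep0` of DICT-τ
(`s59mindt_main`, S59/Min/DictTau.lean) for the base Hecke ring `T0` of the K-machine, from

* `T0` local, finite and free over `𝒪`, REDUCED, generated by `χ₀ : heckeAlgebra N 2 S →+* T0`;
* the residual compatibility on `T0` (`χ₀ t ≡ c mod 𝔪_{T0}` with `c ↦ θ t`);
* `𝒪` big for `(N, S, θ)` (`s59p_IsBig`).

(helper33's `s59locbig_sep`, `s59locbig_hbig_of_isBig`, `s59locbig_map_maximalIdeal`.)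

* `s59mindt_hres`  : `residue (x (χ₀ t)) = θ t` for every `𝒪`-point `x` of `T0`;
* `s59mindt_hsep0` : the `𝒪`-points of `T0` separate `T0`;
* `s59mindt_main_big` : DICT-τ from these hypotheses.
-/
import Fermat.Agent.S59.Min.DictTau
import Fermat.Agent.S59.Eta.LocBig
import Fermat.Agent.S59.PlanArith

set_option autoImplicit false
set_option linter.style.haveILetI false
set_option linter.unusedSectionVars false
set_option linter.unusedVariables false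
set_option linter.style.longLine false

noncomputable section

namespace Fermat.Agent.S59

open IsLocalRing Polynomial

section Sep

variable {𝒪 : Type} [CommRing 𝒪] [IsDomain 𝒪] [IsDiscreteValuationRing 𝒪]
  [IsAdicComplete (maximalIdeal 𝒪) 𝒪]
variable {N : ℕ} [NeZero N] {S : Set ℕ} {θ : CuspForm.heckeAlgebra N 2 S →+* ResidueField 𝒪}

/-- the residual system of an `𝒪`-point of `T0` -/
theorem s59mindt_hres {T0 : Type} [CommRing T0] [IsLocalRing T0] [Algebra 𝒪 T0]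
    [Module.Finite 𝒪 T0] (χ₀ : CuspForm.heckeAlgebra N 2 S →+* T0)
    (hres' : ∀ t, ∃ c : 𝒪, residue 𝒪 c = θ t ∧ χ₀ t - algebraMap 𝒪 T0 c ∈ maximalIdeal T0)
    (x : T0 →ₐ[𝒪] 𝒪) (t : CuspForm.heckeAlgebra N 2 S) : residue 𝒪 (x (χ₀ t)) = θ t := by
  obtain ⟨c, hc, hmem⟩ := hres' t
  have h2 := s59locbig_map_maximalIdeal (𝒪 := 𝒪) (𝒪₁ := 𝒪) x hmem
  rw [map_sub, AlgHom.commutes] at h2
  have h3 : residue 𝒪 (x (χ₀ t) - algebraMap 𝒪 𝒪 c) = 0 :=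
    (IsLocalRing.residue_eq_zero_iff _).mpr h2
  rw [map_sub, sub_eq_zero] at h3
  rw [h3, ← hc]
  rfl

/-- **DICT-SEP**: the `𝒪`-points of `T0` separate `T0`. -/
theorem s59mindt_hsep0 [CharZero 𝒪] {T0 : Type} [CommRing T0] [IsLocalRing T0] [Algebra 𝒪 T0]
    [Module.Finite 𝒪 T0] [Module.Free 𝒪 T0] [IsReduced T0]
    (χ₀ : CuspForm.heckeAlgebra N 2 S →+* T0)
    (hgen0 : Algebra.adjoin 𝒪 (Set.range χ₀) = ⊤)
    (hres' : ∀ t, ∃ c : 𝒪, residue 𝒪 c = θ t ∧ χ₀ t - algebraMap 𝒪 T0 c ∈ maximalIdeal T0)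
    (hBig : s59p_IsBig 𝒪 N S θ)
    (y : T0) (hy : ∀ x : T0 →ₐ[𝒪] 𝒪, x y = 0) : y = 0 :=
  s59locbig_sep 𝒪 T0
    (fun 𝒪₁ _ _ _ _ _ _ φ a =>
      s59locbig_hbig_of_isBig θ χ₀ hgen0 hres' (fun 𝒪₂ _ _ _ _ _ _ χ₁ h => hBig 𝒪₂ χ₁ h) 𝒪₁ φ a)
    y hy

variable {T : Type} [CommRing T] [IsLocalRing T] [IsNoetherianRing T]
  [IsAdicComplete (maximalIdeal T) T] [Algebra 𝒪 T] [IsLocalHom (algebraMap 𝒪 T)]
  [Module.Finite 𝒪 T] [Module.Free 𝒪 T]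

/-- **DICT-τ from bigness**: the comparison map `τ : T ↠ T0` for `T0` reduced, finite free over
`𝒪`, generated by `χ₀`, residually `θ`, when `𝒪` is big for `(N, S, θ)`. -/
theorem s59mindt_main_big [CharZero 𝒪] (H : CuspForm.HeckeGaloisRepDatum N S 𝒪 θ T)
    {T0 : Type} [CommRing T0] [IsLocalRing T0] [IsNoetherianRing T0] [Algebra 𝒪 T0]
    [Module.Finite 𝒪 T0] [Module.Free 𝒪 T0] [IsReduced T0]
    (χ₀ : CuspForm.heckeAlgebra N 2 S →+* T0)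
    (hgen0 : Algebra.adjoin 𝒪 (Set.range χ₀) = ⊤)
    (hres' : ∀ t, ∃ c : 𝒪, residue 𝒪 c = θ t ∧ χ₀ t - algebraMap 𝒪 T0 c ∈ maximalIdeal T0)
    (hBig : s59p_IsBig 𝒪 N S θ)
    (ρ0 : GaloisRepAdic T0) (habs0 : ρ0.residual.IsAbsolutelyIrreducible) (Sf : Finset ℕ)
    (hfrob0 : ∀ (ℓ : ℕ) (hℓ : ℓ.Prime), ℓ ∉ Sf → ∃ (hℓN : ¬ ℓ ∣ N) (hℓS : ℓ ∉ S),
      ∀ A : ValuationSubring (AlgebraicClosure ℚ), A.LiesOverPrime ℓ →
      ∀ σ : AlgebraicClosure ℚ ≃ₐ[ℚ] AlgebraicClosure ℚ, A.IsFrobeniusAt σ ℓ →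
        LinearMap.charpoly (ρ0.ρ σ) =
          X ^ 2 - C (χ₀ (CuspForm.heckeAlgebra.T hℓ hℓN hℓS)) * X + C ((ℓ : T0))) :
    ∃ τ : T →ₐ[𝒪] T0, Function.Surjective τ ∧ (∀ t, τ (H.π t) = χ₀ t) ∧
      ∃ hτl : IsLocalHom (τ : T →+* T0),
        (H.ρ.baseChangeAlong (τ : T →+* T0) hτl).IsEquiv ρ0 ∧
        ∀ σ : AlgebraicClosure ℚ ≃ₐ[ℚ] AlgebraicClosure ℚ,
          τ (LinearMap.trace T H.ρ.V (H.ρ.ρ σ)) = LinearMap.trace T0 ρ0.V (ρ0.ρ σ) :=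
  s59mindt_main H χ₀ (fun x t => s59mindt_hres χ₀ hres' x t)
    (fun y hy => s59mindt_hsep0 χ₀ hgen0 hres' hBig y hy) hgen0 ρ0 habs0 Sf hfrob0

end Sep

end Fermat.Agent.S59

end
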