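/-
S59, wall R1 (MIN′), leaf **DICT-χ** (helper67): the input `χ₀` of DICT-τ (`s59mindt_main`,
S59/Min/DictTau.lean) from the data of the base of the K-machine (`HeckeDataW` / `HkBaseOutW`:
`a : Nat.Primes → T0` with `hocc`).

`S` = the set of the stage (all primes of the level `N` are in `S`), `S'` = the excluded set of the
K-machine, every prime of `S'` in `S`.

* `s59mindx_mem`    : the Hecke polynomials in the variables outside `S` act through
                      `heckeAlgebra N 2 S`;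
* `s59mindx_surj`   : every element of `heckeAlgebra N 2 S` is the value of such a polynomial;
* `s59mindx_exists` : `∃ χ₀ : heckeAlgebra N 2 S →+* T0` with `χ₀ (T_ℓ) = a ℓ` and
                      `χ₀ (value of t) = aeval a t`.
-/
import Fermat.Prelude.Def_CuspForm_HeckeEvalForms
import Fermat.Agent.S31.Plan

set_option autoImplicit false
set_option linter.style.haveILetI false
set_option linter.unusedSectionVars false
set_option linter.unusedVariables false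
set_option linter.style.longLine false

noncomputable section

namespace Fermat.Agent.S59

open Fermat.Agent.S31 ModularCurve

section Chi

variable {N : ℕ} [NeZero N]

/-- the Hecke polynomials in the variables outside `S` act through `heckeAlgebra N 2 S` -/
theorem s59mindx_mem (S : Set ℕ) (hNS : ∀ ℓ : ℕ, ℓ.Prime → ℓ ∣ N → ℓ ∈ S)
    (t : HeckeAlg) (ht : t ∈ MvPolynomial.supported ℤ (outsideVars S)) :
    ((CuspForm.heckeEvalForms N 2 t : CuspForm.heckeAlgebra N 2 ∅) :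
      Module.End ℂ (CuspForm (CongruenceSubgroup.Gamma0 N) 2)) ∈ CuspForm.heckeAlgebra N 2 S := by
  rw [MvPolynomial.supported_eq_adjoin_X] at ht
  induction ht using Algebra.adjoin_induction with
  | mem x hx =>
    obtain ⟨ℓ, hℓ, rfl⟩ := hx
    have hℓS : (ℓ : ℕ) ∉ S := hℓ
    have hℓN : ¬ (ℓ : ℕ) ∣ N := fun h => hℓS (hNS ℓ ℓ.2 h)
    have h1 : CuspForm.heckeEvalForms N 2 (MvPolynomial.X ℓ) =
        CuspForm.heckeAlgebra.T ℓ.2 hℓN (Set.notMem_empty _) :=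
      CuspForm.heckeEvalForms_heckeGen_of_not_dvd hℓN
    rw [h1]
    exact CuspForm.heckeTLin_mem_heckeAlgebra ℓ.2 hℓN hℓS
  | algebraMap c =>
    have hc : (algebraMap ℤ HeckeAlg c) = MvPolynomial.C c := rfl
    rw [hc, CuspForm.heckeEvalForms_C]
    exact Subalgebra.algebraMap_mem _ c
  | add x y _ _ hx hy =>
    rw [map_add]
    exact Subalgebra.add_mem _ hx hy
  | mul x y _ _ hx hy =>
    rw [map_mul]
    exact Subalgebra.mul_mem _ hx hy

/-- every element of `heckeAlgebra N 2 S` is the value of a Hecke polynomial in the variables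
outside `S` -/
theorem s59mindx_surj (S : Set ℕ) (hNS : ∀ ℓ : ℕ, ℓ.Prime → ℓ ∣ N → ℓ ∈ S)
    (y : CuspForm.heckeAlgebra N 2 S) :
    ∃ t ∈ MvPolynomial.supported ℤ (outsideVars S),
      ((CuspForm.heckeEvalForms N 2 t : CuspForm.heckeAlgebra N 2 ∅) :
        Module.End ℂ (CuspForm (CongruenceSubgroup.Gamma0 N) 2)) = y := by
  obtain ⟨y, hy⟩ := y
  show ∃ t ∈ MvPolynomial.supported ℤ (outsideVars S),
    ((CuspForm.heckeEvalForms N 2 t : CuspForm.heckeAlgebra N 2 ∅) :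
      Module.End ℂ (CuspForm (CongruenceSubgroup.Gamma0 N) 2)) = y
  unfold CuspForm.heckeAlgebra at hy
  induction hy using Algebra.adjoin_induction with
  | mem x hx =>
    rcases hx with ⟨ℓ, hℓ, hℓN, hℓS, rfl⟩ | ⟨q, hqN, hq, hqS, rfl⟩
    · refine ⟨MvPolynomial.X (⟨ℓ, hℓ⟩ : Nat.Primes),
        MvPolynomial.X_mem_supported.2 (show ((⟨ℓ, hℓ⟩ : Nat.Primes) : ℕ) ∉ S from hℓS), ?_⟩
      have h1 : CuspForm.heckeEvalForms N 2 (MvPolynomial.X (⟨ℓ, hℓ⟩ : Nat.Primes)) =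
          CuspForm.heckeAlgebra.T hℓ hℓN (Set.notMem_empty _) :=
        CuspForm.heckeEvalForms_heckeGen_of_not_dvd (ℓ := ⟨ℓ, hℓ⟩) hℓN
      rw [h1]
      rfl
    · exact absurd (hNS q hq hqN) hqS
  | algebraMap c =>
    refine ⟨MvPolynomial.C c, Subalgebra.algebraMap_mem _ c, ?_⟩
    rw [CuspForm.heckeEvalForms_C]
    rfl
  | add x y _ _ hx hy =>
    obtain ⟨t, ht, rfl⟩ := hx
    obtain ⟨u, hu, rfl⟩ := hy
    exact ⟨t + u, Subalgebra.add_mem _ ht hu, by rw [map_add]; rfl⟩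
  | mul x y _ _ hx hy =>
    obtain ⟨t, ht, rfl⟩ := hx
    obtain ⟨u, hu, rfl⟩ := hy
    exact ⟨t * u, Subalgebra.mul_mem _ ht hu, by rw [map_mul]; rfl⟩

/-- well-definedness: two Hecke polynomials (variables outside `S`) with the same value have the
same `a`-value -/
theorem s59mindx_wd (S S' : Set ℕ)
    (hS' : ∀ ℓ : ℕ, ℓ.Prime → ℓ ∈ S' → ℓ ∈ S)
    {T0 : Type} [CommRing T0] (a : Nat.Primes → T0)
    (hocc : ∀ t ∈ MvPolynomial.supported ℤ (outsideVars S'),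
      CuspForm.heckeEvalForms N 2 t = 0 → MvPolynomial.aeval a t = 0)
    (t u : HeckeAlg) (ht : t ∈ MvPolynomial.supported ℤ (outsideVars S))
    (hu : u ∈ MvPolynomial.supported ℤ (outsideVars S))
    (h : ((CuspForm.heckeEvalForms N 2 t : CuspForm.heckeAlgebra N 2 ∅) :
        Module.End ℂ (CuspForm (CongruenceSubgroup.Gamma0 N) 2)) =
      ((CuspForm.heckeEvalForms N 2 u : CuspForm.heckeAlgebra N 2 ∅) :
        Module.End ℂ (CuspForm (CongruenceSubgroup.Gamma0 N) 2))) :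
    MvPolynomial.aeval a t = MvPolynomial.aeval a u := by
  have hsub : MvPolynomial.supported ℤ (outsideVars S) ≤
      MvPolynomial.supported ℤ (outsideVars S') := by
    apply MvPolynomial.supported_mono
    intro ℓ hℓ hℓS'
    exact hℓ (hS' ℓ ℓ.2 hℓS')
  have h1 : CuspForm.heckeEvalForms N 2 (t - u) = 0 := by
    rw [map_sub, sub_eq_zero]
    exact Subtype.ext h
  have h2 := hocc (t - u) (hsub (Subalgebra.sub_mem _ ht hu)) h1
  rw [map_sub, sub_eq_zero] at h2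
  exact h2

/-- a chosen Hecke polynomial (variables outside `S`) with value `y` -/
def s59mindxRep (S : Set ℕ) (hNS : ∀ ℓ : ℕ, ℓ.Prime → ℓ ∣ N → ℓ ∈ S)
    (y : CuspForm.heckeAlgebra N 2 S) : HeckeAlg :=
  (s59mindx_surj S hNS y).choose

theorem s59mindxRep_mem (S : Set ℕ) (hNS : ∀ ℓ : ℕ, ℓ.Prime → ℓ ∣ N → ℓ ∈ S)
    (y : CuspForm.heckeAlgebra N 2 S) :
    s59mindxRep S hNS y ∈ MvPolynomial.supported ℤ (outsideVars S) :=
  (s59mindx_surj S hNS y).choose_spec.1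

theorem s59mindxRep_val (S : Set ℕ) (hNS : ∀ ℓ : ℕ, ℓ.Prime → ℓ ∣ N → ℓ ∈ S)
    (y : CuspForm.heckeAlgebra N 2 S) :
    ((CuspForm.heckeEvalForms N 2 (s59mindxRep S hNS y) : CuspForm.heckeAlgebra N 2 ∅) :
      Module.End ℂ (CuspForm (CongruenceSubgroup.Gamma0 N) 2)) = y :=
  (s59mindx_surj S hNS y).choose_spec.2

theorem s59mindx_key (S S' : Set ℕ) (hNS : ∀ ℓ : ℕ, ℓ.Prime → ℓ ∣ N → ℓ ∈ S)
    (hS' : ∀ ℓ : ℕ, ℓ.Prime → ℓ ∈ S' → ℓ ∈ S)
    {T0 : Type} [CommRing T0] (a : Nat.Primes → T0)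
    (hocc : ∀ t ∈ MvPolynomial.supported ℤ (outsideVars S'),
      CuspForm.heckeEvalForms N 2 t = 0 → MvPolynomial.aeval a t = 0)
    (t : HeckeAlg) (ht : t ∈ MvPolynomial.supported ℤ (outsideVars S))
    (y : CuspForm.heckeAlgebra N 2 S)
    (h : ((CuspForm.heckeEvalForms N 2 t : CuspForm.heckeAlgebra N 2 ∅) :
        Module.End ℂ (CuspForm (CongruenceSubgroup.Gamma0 N) 2)) = y) :
    MvPolynomial.aeval a (s59mindxRep S hNS y) = MvPolynomial.aeval a t :=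
  s59mindx_wd S S' hS' a hocc _ _ (s59mindxRep_mem S hNS y) ht
    ((s59mindxRep_val S hNS y).trans h.symm)

/-- the homomorphism `χ₀` of DICT-χ -/
def s59mindxChi (S S' : Set ℕ) (hNS : ∀ ℓ : ℕ, ℓ.Prime → ℓ ∣ N → ℓ ∈ S)
    (hS' : ∀ ℓ : ℕ, ℓ.Prime → ℓ ∈ S' → ℓ ∈ S)
    {T0 : Type} [CommRing T0] (a : Nat.Primes → T0)
    (hocc : ∀ t ∈ MvPolynomial.supported ℤ (outsideVars S'),
      CuspForm.heckeEvalForms N 2 t = 0 → MvPolynomial.aeval a t = 0) :
    CuspForm.heckeAlgebra N 2 S →+* T0 where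
  toFun y := MvPolynomial.aeval a (s59mindxRep S hNS y)
  map_one' := by
    have h := s59mindx_key S S' hNS hS' a hocc 1 (Subalgebra.one_mem _) 1 (by
      rw [map_one, Subalgebra.coe_one, Subalgebra.coe_one])
    rw [h, map_one]
  map_mul' := by
    intro y z
    have h := s59mindx_key S S' hNS hS' a hocc (s59mindxRep S hNS y * s59mindxRep S hNS z)
      (Subalgebra.mul_mem _ (s59mindxRep_mem S hNS y) (s59mindxRep_mem S hNS z)) (y * z) (by
        rw [map_mul, Subalgebra.coe_mul, Subalgebra.coe_mul, s59mindxRep_val, s59mindxRep_val])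
    rw [h, map_mul]
  map_zero' := by
    have h := s59mindx_key S S' hNS hS' a hocc 0 (Subalgebra.zero_mem _) 0 (by
      rw [map_zero, Subalgebra.coe_zero, Subalgebra.coe_zero])
    rw [h, map_zero]
  map_add' := by
    intro y z
    have h := s59mindx_key S S' hNS hS' a hocc (s59mindxRep S hNS y + s59mindxRep S hNS z)
      (Subalgebra.add_mem _ (s59mindxRep_mem S hNS y) (s59mindxRep_mem S hNS z)) (y + z) (by
        rw [map_add, Subalgebra.coe_add, Subalgebra.coe_add, s59mindxRep_val, s59mindxRep_val])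
    rw [h, map_add]

theorem s59mindxChi_apply (S S' : Set ℕ) (hNS : ∀ ℓ : ℕ, ℓ.Prime → ℓ ∣ N → ℓ ∈ S)
    (hS' : ∀ ℓ : ℕ, ℓ.Prime → ℓ ∈ S' → ℓ ∈ S)
    {T0 : Type} [CommRing T0] (a : Nat.Primes → T0)
    (hocc : ∀ t ∈ MvPolynomial.supported ℤ (outsideVars S'),
      CuspForm.heckeEvalForms N 2 t = 0 → MvPolynomial.aeval a t = 0)
    (y : CuspForm.heckeAlgebra N 2 S) :
    s59mindxChi S S' hNS hS' a hocc y = MvPolynomial.aeval a (s59mindxRep S hNS y) := rfl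

/-- `χ₀` on the value of a Hecke polynomial in the variables outside `S` -/
theorem s59mindxChi_poly (S S' : Set ℕ) (hNS : ∀ ℓ : ℕ, ℓ.Prime → ℓ ∣ N → ℓ ∈ S)
    (hS' : ∀ ℓ : ℕ, ℓ.Prime → ℓ ∈ S' → ℓ ∈ S)
    {T0 : Type} [CommRing T0] (a : Nat.Primes → T0)
    (hocc : ∀ t ∈ MvPolynomial.supported ℤ (outsideVars S'),
      CuspForm.heckeEvalForms N 2 t = 0 → MvPolynomial.aeval a t = 0)
    (t : HeckeAlg) (ht : t ∈ MvPolynomial.supported ℤ (outsideVars S)) :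
    s59mindxChi S S' hNS hS' a hocc ⟨_, s59mindx_mem S hNS t ht⟩ = MvPolynomial.aeval a t := by
  rw [s59mindxChi_apply]
  exact s59mindx_key S S' hNS hS' a hocc t ht _ rfl

/-- `χ₀ (T_ℓ) = a ℓ` -/
theorem s59mindxChi_T (S S' : Set ℕ) (hNS : ∀ ℓ : ℕ, ℓ.Prime → ℓ ∣ N → ℓ ∈ S)
    (hS' : ∀ ℓ : ℕ, ℓ.Prime → ℓ ∈ S' → ℓ ∈ S)
    {T0 : Type} [CommRing T0] (a : Nat.Primes → T0)
    (hocc : ∀ t ∈ MvPolynomial.supported ℤ (outsideVars S'),
      CuspForm.heckeEvalForms N 2 t = 0 → MvPolynomial.aeval a t = 0)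
    (ℓ : ℕ) (hℓ : ℓ.Prime) (hℓN : ¬ ℓ ∣ N) (hℓS : ℓ ∉ S) :
    s59mindxChi S S' hNS hS' a hocc (CuspForm.heckeAlgebra.T hℓ hℓN hℓS) = a ⟨ℓ, hℓ⟩ := by
  rw [s59mindxChi_apply]
  have h := s59mindx_key S S' hNS hS' a hocc (heckeGen (⟨ℓ, hℓ⟩ : Nat.Primes))
    (MvPolynomial.X_mem_supported.2 (show ((⟨ℓ, hℓ⟩ : Nat.Primes) : ℕ) ∉ S from hℓS))
    (CuspForm.heckeAlgebra.T hℓ hℓN hℓS) (by
      rw [CuspForm.heckeEvalForms_heckeGen_of_not_dvd (ℓ := ⟨ℓ, hℓ⟩) hℓN,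
        CuspForm.heckeAlgebra.coe_T, CuspForm.heckeAlgebra.coe_T])
  exact h.trans (MvPolynomial.aeval_X a (⟨ℓ, hℓ⟩ : Nat.Primes))

/-- **DICT-χ**: the homomorphism `χ₀ : heckeAlgebra N 2 S →+* T0`, `T_ℓ ↦ a ℓ`. -/
theorem s59mindx_exists (S S' : Set ℕ) (hNS : ∀ ℓ : ℕ, ℓ.Prime → ℓ ∣ N → ℓ ∈ S)
    (hS' : ∀ ℓ : ℕ, ℓ.Prime → ℓ ∈ S' → ℓ ∈ S)
    {T0 : Type} [CommRing T0] (a : Nat.Primes → T0)
    (hocc : ∀ t ∈ MvPolynomial.supported ℤ (outsideVars S'),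
      CuspForm.heckeEvalForms N 2 t = 0 → MvPolynomial.aeval a t = 0) :
    ∃ χ₀ : CuspForm.heckeAlgebra N 2 S →+* T0,
      (∀ (t : HeckeAlg) (ht : t ∈ MvPolynomial.supported ℤ (outsideVars S)),
        χ₀ ⟨_, s59mindx_mem S hNS t ht⟩ = MvPolynomial.aeval a t) ∧
      ∀ (ℓ : ℕ) (hℓ : ℓ.Prime) (hℓN : ¬ ℓ ∣ N) (hℓS : ℓ ∉ S),
        χ₀ (CuspForm.heckeAlgebra.T hℓ hℓN hℓS) = a ⟨ℓ, hℓ⟩ :=
  ⟨s59mindxChi S S' hNS hS' a hocc, s59mindxChi_poly S S' hNS hS' a hocc,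
    s59mindxChi_T S S' hNS hS' a hocc⟩

end Chi

end Fermat.Agent.S59

end
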