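/-
S59 wall R1 (MIN′), leaf **DICT-τ-SEP** (helper44; shape by captain helper69): the points of `T0` separate.

This is the input `hsep0` of `s59mindt_exists` / `s59mindt_main` (helper67, `S59/Min/DictTau.lean`).

Setting: `𝒪` a complete discrete valuation ring of characteristic `0`, `𝕋 = heckeAlgebra M 2 S` (all
primes of the level in `S`), `T0` a commutative `𝒪`-algebra without `𝒪`-torsion, generated over `𝒪` by
the image of `χ₀ : 𝕋 →+* T0`; `𝒪` is BIG in the strong sense (`hstrong`: every ring homomorphism from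
`𝕋` to a domain over `𝒪` has its values in `𝒪`).  Then the `𝒪`-points of `T0` separate its elements.

Proof.  `K := Frac 𝒪`.  `K ⊗[ℤ] 𝕋` is reduced (`s59locred_fieldInt`) and finite over `K`, hence a
semisimple ring; `K ⊗[𝒪] T0` is a quotient of it (`hgen0`), hence semisimple, hence reduced; `T0` embeds
in it (no torsion ⇒ flat).  For `y ≠ 0` take a prime `𝔓` of `K ⊗[𝒪] T0` avoiding `1 ⊗ y`; `𝔭 := 𝔓 ∩ T0`,
`B := T0 ⧸ 𝔭` is a domain in which `𝒪` embeds, `hstrong` + `hgen0` make `𝒪 → B` onto, so `B ≃ 𝒪` and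
`T0 → B ≃ 𝒪` is a point which does not kill `y`.
-/
import Mathlib
import Fermat.Agent.S59.Eta.LocRed
import Fermat.Agent.S59.Eta.TransBC
import Fermat.Agent.PET.Semisimple

set_option autoImplicit false
set_option linter.unusedSectionVars false
set_option linter.unusedVariables false
set_option linter.style.haveILetI false

noncomputable section

namespace Fermat.Agent.S59

open TensorProduct IsLocalRing

/-! ### Mathlib-only part -/

section alg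

variable {𝒪 : Type} [CommRing 𝒪] [IsDomain 𝒪] {H T0 : Type} [CommRing H] [CommRing T0]
  [Algebra 𝒪 T0]

/-- the map `K ⊗[ℤ] H → K ⊗[𝒪] T0`, `c ⊗ t ↦ c ⊗ χ₀ t` -/
def s59mindsMap (K : Type) [Field K] [Algebra 𝒪 K] (χ₀ : H →+* T0) :
    K ⊗[ℤ] H →ₐ[K] K ⊗[𝒪] T0 :=
  Algebra.TensorProduct.lift (Algebra.ofId K (K ⊗[𝒪] T0))
    ((Algebra.TensorProduct.includeRight (R := 𝒪) (A := K) (B := T0)).toRingHom.comp
      χ₀).toIntAlgHom
    (fun _ _ => Commute.all _ _)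

theorem s59mindsMap_tmul (K : Type) [Field K] [Algebra 𝒪 K] (χ₀ : H →+* T0) (c : K) (t : H) :
    s59mindsMap K χ₀ (c ⊗ₜ[ℤ] t) = c ⊗ₜ[𝒪] χ₀ t := by
  unfold s59mindsMap
  rw [Algebra.TensorProduct.lift_tmul]
  simp [Algebra.ofId_apply, Algebra.TensorProduct.algebraMap_apply,
    Algebra.TensorProduct.tmul_mul_tmul]

/-- the map is onto when `T0` is generated over `𝒪` by the image of `χ₀` -/
theorem s59mindsMap_surjective (K : Type) [Field K] [Algebra 𝒪 K] (χ₀ : H →+* T0)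
    (hgen0 : Algebra.adjoin 𝒪 (Set.range χ₀) = ⊤) :
    Function.Surjective (s59mindsMap (𝒪 := 𝒪) K χ₀) := by
  -- every `1 ⊗ y` is in the range
  have h1 : ∀ y : T0, (1 : K) ⊗ₜ[𝒪] y ∈ (s59mindsMap (𝒪 := 𝒪) K χ₀).range := by
    intro y
    have hy : y ∈ Algebra.adjoin 𝒪 (Set.range χ₀) := by rw [hgen0]; trivial
    induction hy using Algebra.adjoin_induction with
    | mem x hx =>
      obtain ⟨t, rfl⟩ := hx
      exact ⟨(1 : K) ⊗ₜ[ℤ] t, s59mindsMap_tmul K χ₀ 1 t⟩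
    | algebraMap r =>
      refine ⟨algebraMap K _ (algebraMap 𝒪 K r), ?_⟩
      show (s59mindsMap K χ₀) (algebraMap K _ (algebraMap 𝒪 K r)) = _
      rw [AlgHom.commutes, Algebra.TensorProduct.algebraMap_apply]
      have e1 : (algebraMap K K) (algebraMap 𝒪 K r) = r • (1 : K) := by
        simp [Algebra.smul_def]
      have e2 : algebraMap 𝒪 T0 r = r • (1 : T0) := Algebra.algebraMap_eq_smul_one r
      rw [e1, e2, TensorProduct.smul_tmul]
    | add x y _ _ hx hy =>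
      rw [TensorProduct.tmul_add]
      exact Subalgebra.add_mem _ hx hy
    | mul x y _ _ hx hy =>
      have : (1 : K) ⊗ₜ[𝒪] (x * y) = ((1 : K) ⊗ₜ[𝒪] x) * ((1 : K) ⊗ₜ[𝒪] y) := by
        rw [Algebra.TensorProduct.tmul_mul_tmul, one_mul]
      rw [this]
      exact Subalgebra.mul_mem _ hx hy
  intro z
  have hz : z ∈ (s59mindsMap (𝒪 := 𝒪) K χ₀).range := by
    induction z using TensorProduct.induction_on with
    | zero => exact Subalgebra.zero_mem _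
    | tmul c y =>
      have : c ⊗ₜ[𝒪] y = c • ((1 : K) ⊗ₜ[𝒪] y) := by
        rw [TensorProduct.smul_tmul', smul_eq_mul, mul_one]
      rw [this]
      exact Subalgebra.smul_mem _ (h1 y) c
    | add a b ha hb => exact Subalgebra.add_mem _ ha hb
  exact hz

/-- no `𝒪`-torsion ⇒ `T0 → K ⊗[𝒪] T0` is injective (`𝒪` a PID) -/
theorem s59minds_incl_injective [IsPrincipalIdealRing 𝒪] (K : Type) [Field K] [Algebra 𝒪 K]
    [IsFractionRing 𝒪 K]
    (htf : ∀ (c : 𝒪) (y : T0), c • y = 0 → c = 0 ∨ y = 0) :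
    Function.Injective (fun y : T0 => (1 : K) ⊗ₜ[𝒪] y) := by
  haveI : Module.Flat 𝒪 T0 := by
    rw [Module.Flat.flat_iff_torsion_eq_bot_of_isBezout]
    rw [eq_bot_iff]
    intro y hy
    rw [Submodule.mem_torsion_iff] at hy
    obtain ⟨c, hc⟩ := hy
    rcases htf (c : 𝒪) y hc with h | h
    · exact absurd h (nonZeroDivisors.coe_ne_zero c)
    · rw [h]; exact Submodule.zero_mem _
  have hinj : Function.Injective (LinearMap.rTensor T0 (Algebra.linearMap 𝒪 K)) :=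
    Module.Flat.rTensor_preserves_injective_linearMap _ (IsFractionRing.injective 𝒪 K)
  intro y y' h
  have h2 : LinearMap.rTensor T0 (Algebra.linearMap 𝒪 K) ((1 : 𝒪) ⊗ₜ[𝒪] y) =
      LinearMap.rTensor T0 (Algebra.linearMap 𝒪 K) ((1 : 𝒪) ⊗ₜ[𝒪] y') := by
    simpa [LinearMap.rTensor_tmul] using h
  have h3 := hinj h2
  have h4 := congrArg (TensorProduct.lid 𝒪 T0) h3
  simpa using h4

end alg

/-! ### the points separate -/

section main

/-- **(DICT-τ-SEP, abstract form)** `𝒪` a principal ideal domain of characteristic `0`, `H` a reduced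
ring, finite over `ℤ`; `T0` an `𝒪`-algebra without `𝒪`-torsion generated by the image of
`χ₀ : H →+* T0`; every ring homomorphism from `H` to a domain over `𝒪` has its values in `𝒪`.
Then the `𝒪`-points of `T0` separate the elements of `T0`. -/
theorem s59minds_sep_field (𝒪 : Type) [CommRing 𝒪] [IsDomain 𝒪] [IsPrincipalIdealRing 𝒪]
    [CharZero 𝒪] (K : Type) [Field K] [Algebra 𝒪 K] [IsFractionRing 𝒪 K]
    {H : Type} [CommRing H] [IsReduced H] [Module.Finite ℤ H]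
    {T0 : Type} [CommRing T0] [Algebra 𝒪 T0]
    (htf : ∀ (c : 𝒪) (y : T0), c • y = 0 → c = 0 ∨ y = 0)
    (χ₀ : H →+* T0) (hgen0 : Algebra.adjoin 𝒪 (Set.range χ₀) = ⊤)
    (hstrong : ∀ (B : Type) [CommRing B] [IsDomain B] [Algebra 𝒪 B]
      (χ : H →+* B) (t), χ t ∈ Set.range (algebraMap 𝒪 B)) :
    ∀ y : T0, (∀ x : T0 →ₐ[𝒪] 𝒪, x y = 0) → y = 0 := by
  intro y hy
  by_contra hy0
  haveI : CharZero K := charZero_of_injective_algebraMap (IsFractionRing.injective 𝒪 K)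
  haveI hred : IsReduced (K ⊗[ℤ] H) := s59locred_fieldInt K H
  haveI : Module.Finite K (K ⊗[ℤ] H) := inferInstance
  haveI : IsArtinianRing (K ⊗[ℤ] H) := IsArtinianRing.of_finite K _
  haveI : IsSemisimpleRing (K ⊗[ℤ] H) := IsArtinianRing.isSemisimpleRing_of_isReduced _
  have hsurj := s59mindsMap_surjective (𝒪 := 𝒪) K χ₀ hgen0
  haveI : IsSemisimpleRing (K ⊗[𝒪] T0) :=
    RingHom.isSemisimpleRing_of_surjective (s59mindsMap (𝒪 := 𝒪) K χ₀).toRingHom hsurj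
  haveI : IsReduced (K ⊗[𝒪] T0) := inferInstance
  have hinj := s59minds_incl_injective (𝒪 := 𝒪) K htf
  -- `1 ⊗ y` is not nilpotent, so some prime avoids it
  have hne : (1 : K) ⊗ₜ[𝒪] y ≠ 0 := by
    intro h
    apply hy0
    apply hinj
    show (1 : K) ⊗ₜ[𝒪] y = (1 : K) ⊗ₜ[𝒪] (0 : T0)
    rw [h, TensorProduct.tmul_zero]
  have hnil : (1 : K) ⊗ₜ[𝒪] y ∉ nilradical (K ⊗[𝒪] T0) := by
    rw [nilradical_eq_zero]
    exact hne
  rw [nilradical_eq_sInf, Ideal.mem_sInf] at hnil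
  push Not at hnil
  obtain ⟨𝔓, h𝔓, hy𝔓⟩ := hnil
  have h𝔓' : 𝔓.IsPrime := h𝔓
  let ι : T0 →ₐ[𝒪] K ⊗[𝒪] T0 := Algebra.TensorProduct.includeRight
  let 𝔭 : Ideal T0 := 𝔓.comap ι
  haveI h𝔭 : 𝔭.IsPrime := Ideal.comap_isPrime ι 𝔓
  haveI : IsDomain (T0 ⧸ 𝔭) := Ideal.Quotient.isDomain 𝔭
  -- `𝒪 → T0 ⧸ 𝔭` is injective
  have hinjB : Function.Injective (algebraMap 𝒪 (T0 ⧸ 𝔭)) := by
    rw [injective_iff_map_eq_zero]
    intro c hc
    by_contra hc0
    have h1 : algebraMap 𝒪 T0 c ∈ 𝔭 := by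
      rw [← Ideal.Quotient.eq_zero_iff_mem]
      exact hc
    have h2 : ι (algebraMap 𝒪 T0 c) ∈ 𝔓 := h1
    rw [AlgHom.commutes] at h2
    have hu : IsUnit (algebraMap 𝒪 (K ⊗[𝒪] T0) c) := by
      rw [IsScalarTower.algebraMap_apply 𝒪 K (K ⊗[𝒪] T0)]
      apply IsUnit.map
      exact IsUnit.mk0 _ (by
        intro h0
        exact hc0 ((IsFractionRing.injective 𝒪 K) (by rw [h0, map_zero])))
    exact h𝔓'.ne_top (Ideal.eq_top_of_isUnit_mem _ h2 hu)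
  -- `𝒪 → T0 ⧸ 𝔭` is onto
  have hsurjB : Function.Surjective (algebraMap 𝒪 (T0 ⧸ 𝔭)) := by
    have hle : Algebra.adjoin 𝒪 (Set.range χ₀) ≤
        Subalgebra.comap (Ideal.Quotient.mkₐ 𝒪 𝔭) ⊥ := by
      apply Algebra.adjoin_le
      rintro _ ⟨t, rfl⟩
      obtain ⟨c, hc⟩ := hstrong (T0 ⧸ 𝔭) ((Ideal.Quotient.mk 𝔭).comp χ₀) t
      show Ideal.Quotient.mkₐ 𝒪 𝔭 (χ₀ t) ∈ (⊥ : Subalgebra 𝒪 (T0 ⧸ 𝔭))
      rw [Algebra.mem_bot]
      exact ⟨c, hc⟩
    intro b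
    obtain ⟨z, rfl⟩ := Ideal.Quotient.mk_surjective b
    have hz : z ∈ Subalgebra.comap (Ideal.Quotient.mkₐ 𝒪 𝔭) ⊥ :=
      hle (by rw [hgen0]; trivial)
    exact Algebra.mem_bot.mp hz
  let e : 𝒪 ≃ₐ[𝒪] (T0 ⧸ 𝔭) := AlgEquiv.ofBijective (Algebra.ofId 𝒪 (T0 ⧸ 𝔭)) ⟨hinjB, hsurjB⟩
  let x : T0 →ₐ[𝒪] 𝒪 := (e.symm : (T0 ⧸ 𝔭) →ₐ[𝒪] 𝒪).comp (Ideal.Quotient.mkₐ 𝒪 𝔭)
  have hx := hy x
  have h3 : Ideal.Quotient.mk 𝔭 y = 0 := by
    have h5 : e.symm (Ideal.Quotient.mk 𝔭 y) = 0 := hx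
    exact (EmbeddingLike.map_eq_zero_iff (f := e.symm)).mp h5
  have h4 : y ∈ 𝔭 := Ideal.Quotient.eq_zero_iff_mem.mp h3
  exact hy𝔓 h4

/-- **(DICT-τ-SEP, abstract form)** with `K = Frac 𝒪` -/
theorem s59minds_sep_abs (𝒪 : Type) [CommRing 𝒪] [IsDomain 𝒪] [IsPrincipalIdealRing 𝒪]
    [CharZero 𝒪] {H : Type} [CommRing H] [IsReduced H] [Module.Finite ℤ H]
    {T0 : Type} [CommRing T0] [Algebra 𝒪 T0]
    (htf : ∀ (c : 𝒪) (y : T0), c • y = 0 → c = 0 ∨ y = 0)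
    (χ₀ : H →+* T0) (hgen0 : Algebra.adjoin 𝒪 (Set.range χ₀) = ⊤)
    (hstrong : ∀ (B : Type) [CommRing B] [IsDomain B] [Algebra 𝒪 B]
      (χ : H →+* B) (t), χ t ∈ Set.range (algebraMap 𝒪 B)) :
    ∀ y : T0, (∀ x : T0 →ₐ[𝒪] 𝒪, x y = 0) → y = 0 :=
  s59minds_sep_field 𝒪 (FractionRing 𝒪) htf χ₀ hgen0 hstrong

/-- **(DICT-τ-SEP)** = the input `hsep0` of `s59mindt_exists` / `s59mindt_main`: for the Hecke
algebra `𝕋 = heckeAlgebra M 2 S` (all primes of the level in `S`), `T0` without `𝒪`-torsion generated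
by the image of `χ₀`, and `𝒪` big in the strong sense, the points of `T0` separate. -/
theorem s59minds_sep (𝒪 : Type) [CommRing 𝒪] [IsDomain 𝒪] [IsDiscreteValuationRing 𝒪]
    [IsAdicComplete (maximalIdeal 𝒪) 𝒪] [CharZero 𝒪]
    {M : ℕ} [NeZero M] {S : Set ℕ} (hS : ∀ q : ℕ, q.Prime → q ∣ M → q ∈ S)
    {T0 : Type} [CommRing T0] [Algebra 𝒪 T0]
    (htf : ∀ (c : 𝒪) (y : T0), c • y = 0 → c = 0 ∨ y = 0)
    (χ₀ : CuspForm.heckeAlgebra M 2 S →+* T0) (hgen0 : Algebra.adjoin 𝒪 (Set.range χ₀) = ⊤)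
    (hstrong : ∀ (B : Type) [CommRing B] [IsDomain B] [Algebra 𝒪 B]
      (χ : CuspForm.heckeAlgebra M 2 S →+* B) (t), χ t ∈ Set.range (algebraMap 𝒪 B)) :
    ∀ y : T0, (∀ x : T0 →ₐ[𝒪] 𝒪, x y = 0) → y = 0 := by
  haveI := Fermat.Agent.PET.isReduced_heckeAlgebra M 2 hS
  haveI := s59tr_finite_hecke (M := M) hS
  exact s59minds_sep_abs 𝒪 htf χ₀ hgen0 hstrong

/-- the same from an embedding `j0 : T0 ↪ M_d(𝒪)`-type hypothesis: an injective `𝒪`-linear map into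
a torsion-free module (form in which the cone delivers `htf`) -/
theorem s59minds_htf_of_injective (𝒪 : Type) [CommRing 𝒪] [IsDomain 𝒪]
    {T0 : Type} [CommRing T0] [Algebra 𝒪 T0] {V : Type} [AddCommGroup V] [Module 𝒪 V]
    [NoZeroSMulDivisors 𝒪 V] (j : T0 →ₗ[𝒪] V) (hj : Function.Injective j) :
    ∀ (c : 𝒪) (y : T0), c • y = 0 → c = 0 ∨ y = 0 := by
  intro c y h
  have h1 : c • j y = 0 := by rw [← map_smul, h, map_zero]
  rcases smul_eq_zero.mp h1 with h2 | h2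
  · exact Or.inl h2
  · exact Or.inr (hj (by rw [h2, map_zero]))

end main

end Fermat.Agent.S59
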