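/-
S59, wall R1 (MIN′), leaf **DICT-τ-FEED for the stage's own `(N, S)`** (helper34): DICT-τ
(`s59mindt_main`) over a base `B : HkBaseOutW Y d σ₀ τ₀ S' a0` of the K-machine, for a Hecke–Galois
datum `H` of level `M` away from ANY set `S` with the same primes as `S'` (at a stage `s` of the
top chain: `M := s.N`, `S := s.S = ↑(Smin ∪ ∅)`, `H := s.H`, `πT := s.πT`), with

* `hsep0` PRODUCED from E-BIG strong (`hstrong`) by DICT-τ-SEP (`s59minds_sep`, helper44) and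
  `s59mindf_feed_htf`;
* `hres` PRODUCED from `B.hcong` and the augmentation `πT` of `T` (`θ t = residue (πT (π t))`,
  `s59mindf_theta_of_point`), if `πT (π T_ℓ) ≡ a_ℓ(W) mod 𝔪`;
* `hgen0` from the generation of `B.T0` by values `B.a ℓ`, `ℓ ∉ S'` (the ONLY input left besides
  the K-machine and the stage).

* `s59mindf_theta_of_point` : `θ t = residue 𝒪 (πT (H.π t))` for every point `πT` of `T`;
* `s59mindf_outside_eq`     : `outsideVars S = outsideVars ↑S'` if `S`, `S'` have the same primes;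
* `s59mindf_feedS_chi`, `_hfrob0`, `_hres`, `_hgen0`, `_hsep0`;
* **`s59mindf_feedS_main`** : `∃ χ₀`, `χ₀ T_ℓ = B.a ℓ`, `hgen0`, `hres`, `hsep0`, `hfrob0`, and
  `τ : T ↠ B.T0` with `τ ∘ π = χ₀`, `ρ_T ⊗_τ T0 ≅ ρ0`, `τ (tr ρ_T σ) = tr ρ0 σ`.
-/
import Fermat.Agent.S59.Min.DictFeedW
import Fermat.Agent.S59.Min.DictSep

set_option autoImplicit false
set_option linter.style.haveILetI false
set_option linter.unusedSectionVars false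
set_option linter.unusedVariables false
set_option linter.style.longLine false

noncomputable section

namespace Fermat.Agent.S59.LowK

open IsLocalRing Polynomial ModularCurve Fermat.Agent.S31 Fermat.Agent.S59 Fermat.Agent.RT
  Fermat.Agent.TW Fermat.Agent.ES

section Theta

variable {𝒪 : Type} [CommRing 𝒪] [IsDomain 𝒪] [IsDiscreteValuationRing 𝒪]
  [IsAdicComplete (maximalIdeal 𝒪) 𝒪]
variable {N : ℕ} [NeZero N] {S : Set ℕ} {θ : CuspForm.heckeAlgebra N 2 S →+* ResidueField 𝒪}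
variable {T : Type} [CommRing T] [IsLocalRing T] [IsNoetherianRing T]
  [IsAdicComplete (maximalIdeal T) T] [Algebra 𝒪 T] [IsLocalHom (algebraMap 𝒪 T)]
  [Module.Finite 𝒪 T] [Module.Free 𝒪 T]

/-- the residual eigensystem of a Hecke–Galois datum is the reduction of every point of `T` -/
theorem s59mindf_theta_of_point (H : CuspForm.HeckeGaloisRepDatum N S 𝒪 θ T) (πT : T →ₐ[𝒪] 𝒪)
    (t : CuspForm.heckeAlgebra N 2 S) : θ t = residue 𝒪 (πT (H.π t)) := by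
  obtain ⟨c, hc⟩ := IsLocalRing.residue_surjective (θ t)
  have h1 : residue T (H.π t) = residue T (algebraMap 𝒪 T c) := by
    rw [H.residue_π t, ← hc]
    rfl
  have h2 : H.π t - algebraMap 𝒪 T c ∈ maximalIdeal T := by
    rw [← IsLocalRing.residue_eq_zero_iff, map_sub, h1, sub_self]
  have h3 := s59mindf_point_maximal πT h2
  rw [map_sub, AlgHom.commutes, Algebra.algebraMap_self, RingHom.id_apply] at h3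
  rw [← hc]
  symm
  rw [← sub_eq_zero, ← map_sub]
  exact (IsLocalRing.residue_eq_zero_iff _).mpr h3

end Theta

section FeedS

variable {W : WeierstrassCurve ℤ} {p M : ℕ} [NeZero M] {Y : s59lk_KSetupW W p M}
  {d : ℕ} {σ₀ τ₀ : GQ} {S' : Finset ℕ} {a0 : ℕ → Matrix (Fin d) (Fin d) Y.O}

/-- the Hecke variables outside `S` and outside `S'` are the same if `S` and `S'` have the same
primes -/
theorem s59mindf_outside_eq {S : Set ℕ} {S' : Finset ℕ}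
    (hSS : ∀ ℓ : ℕ, ℓ.Prime → (ℓ ∈ S ↔ ℓ ∈ S')) :
    outsideVars S = outsideVars (↑S' : Set ℕ) := by
  ext ℓ
  show (ℓ : ℕ) ∉ S ↔ (ℓ : ℕ) ∉ (↑S' : Set ℕ)
  rw [hSS ℓ ℓ.2, Finset.mem_coe]

/-- `S ⊇ primes(M)` -/
theorem s59mindf_feedS_hMS (B : HkBaseOutW Y d σ₀ τ₀ S' a0) (S : Set ℕ)
    (hSS : ∀ ℓ : ℕ, ℓ.Prime → (ℓ ∈ S ↔ ℓ ∈ S')) :
    ∀ q : ℕ, q.Prime → q ∣ M → q ∈ S :=
  fun q hq hqM => (hSS q hq).2 (B.hNS' q hq hqM)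

/-- **DICT-τ-FEED, `χ₀`** over `B`, for `S`. -/
theorem s59mindf_feedS_chi (B : HkBaseOutW Y d σ₀ τ₀ S' a0) (S : Set ℕ)
    (hSS : ∀ ℓ : ℕ, ℓ.Prime → (ℓ ∈ S ↔ ℓ ∈ S')) :
    ∃ χ₀ : CuspForm.heckeAlgebra M 2 S →+* B.T0,
      ∀ (ℓ : ℕ) (hℓ : ℓ.Prime) (hℓN : ¬ ℓ ∣ M) (hℓS : ℓ ∉ S),
        χ₀ (CuspForm.heckeAlgebra.T hℓ hℓN hℓS) = B.a ⟨ℓ, hℓ⟩ := by
  have hocc : ∀ t ∈ MvPolynomial.supported ℤ (outsideVars S),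
      CuspForm.heckeEvalForms M 2 t = 0 → MvPolynomial.aeval B.a t = 0 := by
    rw [s59mindf_outside_eq hSS]
    exact B.hocc
  obtain ⟨χ₀, -, hχ⟩ := s59mindf_chi S (s59mindf_feedS_hMS B S hSS) B.a hocc
  exact ⟨χ₀, hχ⟩

/-- **DICT-τ-FEED, `hfrob0`** over `B`, for `S` (with `Sf := S'`). -/
theorem s59mindf_feedS_hfrob0 (B : HkBaseOutW Y d σ₀ τ₀ S' a0) (S : Set ℕ)
    (hSS : ∀ ℓ : ℕ, ℓ.Prime → (ℓ ∈ S ↔ ℓ ∈ S'))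
    (χ₀ : CuspForm.heckeAlgebra M 2 S →+* B.T0)
    (hχ : ∀ (ℓ : ℕ) (hℓ : ℓ.Prime) (hℓN : ¬ ℓ ∣ M) (hℓS : ℓ ∉ S),
      χ₀ (CuspForm.heckeAlgebra.T hℓ hℓN hℓS) = B.a ⟨ℓ, hℓ⟩) :
    ∀ (ℓ : ℕ) (hℓ : ℓ.Prime), ℓ ∉ S' → ∃ (hℓN : ¬ ℓ ∣ M) (hℓS : ℓ ∉ S),
      ∀ A : ValuationSubring (AlgebraicClosure ℚ), A.LiesOverPrime ℓ →
      ∀ σ : AlgebraicClosure ℚ ≃ₐ[ℚ] AlgebraicClosure ℚ, A.IsFrobeniusAt σ ℓ →
        LinearMap.charpoly (B.ρ0.ρ σ) =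
          X ^ 2 - C (χ₀ (CuspForm.heckeAlgebra.T hℓ hℓN hℓS)) * X + C ((ℓ : B.T0)) := by
  intro ℓ hℓ hℓS
  refine ⟨fun hd => hℓS (B.hNS' ℓ hℓ hd), fun h => hℓS ((hSS ℓ hℓ).1 h),
    fun A hA σ hσ => ?_⟩
  rw [hχ]
  exact B.hfrob ⟨ℓ, hℓ⟩ hℓS A hA σ hσ

/-- **DICT-τ-FEED, `hres`** over `B`, for `S`, from the augmentation `πT` of `T`. -/
theorem s59mindf_feedS_hres (B : HkBaseOutW Y d σ₀ τ₀ S' a0) (S : Set ℕ)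
    (hSS : ∀ ℓ : ℕ, ℓ.Prime → (ℓ ∈ S ↔ ℓ ∈ S'))
    (hgood : ∀ ℓ : ℕ, ℓ.Prime → ¬ ℓ ∣ M → ℓ ∉ S' → W.IsGoodPrimeFor ℓ)
    {θ : CuspForm.heckeAlgebra M 2 S →+* ResidueField Y.O}
    {T : Type} [CommRing T] [IsLocalRing T] [IsNoetherianRing T]
    [IsAdicComplete (maximalIdeal T) T] [Algebra Y.O T] [IsLocalHom (algebraMap Y.O T)]
    [Module.Finite Y.O T] [Module.Free Y.O T]
    (H : CuspForm.HeckeGaloisRepDatum M S Y.O θ T) (πT : T →ₐ[Y.O] Y.O)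
    (hπ : ∀ (ℓ : ℕ) (hℓ : ℓ.Prime) (hℓN : ¬ ℓ ∣ M) (hℓS : ℓ ∉ S),
      πT (H.π (CuspForm.heckeAlgebra.T hℓ hℓN hℓS)) - ((W.apOfModel ℓ : ℤ) : Y.O) ∈
        maximalIdeal Y.O)
    (χ₀ : CuspForm.heckeAlgebra M 2 S →+* B.T0)
    (hχ : ∀ (ℓ : ℕ) (hℓ : ℓ.Prime) (hℓN : ¬ ℓ ∣ M) (hℓS : ℓ ∉ S),
      χ₀ (CuspForm.heckeAlgebra.T hℓ hℓN hℓS) = B.a ⟨ℓ, hℓ⟩)
    (x : B.T0 →ₐ[Y.O] Y.O) (t : CuspForm.heckeAlgebra M 2 S) :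
    residue Y.O (x (χ₀ t)) = θ t := by
  refine s59mindf_hres S (s59mindf_feedS_hMS B S hSS) θ χ₀
    (fun ℓ => ((W.apOfModel (ℓ : ℕ) : ℤ) : Y.O)) (fun ℓ hℓ hℓN hℓS => ?_)
    (fun ℓ hℓ hℓN hℓS => ?_) x t
  · rw [hχ ℓ hℓ hℓN hℓS, map_intCast]
    have hℓS' : ℓ ∉ S' := fun h => hℓS ((hSS ℓ hℓ).2 h)
    exact B.hcong ⟨ℓ, hℓ⟩ hℓS' (hgood ℓ hℓ hℓN hℓS')
  · rw [s59mindf_theta_of_point H πT, ← sub_eq_zero, ← map_sub]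
    exact (IsLocalRing.residue_eq_zero_iff _).mpr (hπ ℓ hℓ hℓN hℓS)

/-- **DICT-τ-FEED, `hgen0`** over `B`, for `S`. -/
theorem s59mindf_feedS_hgen0 (B : HkBaseOutW Y d σ₀ τ₀ S' a0) (S : Set ℕ)
    (hSS : ∀ ℓ : ℕ, ℓ.Prime → (ℓ ∈ S ↔ ℓ ∈ S'))
    (χ₀ : CuspForm.heckeAlgebra M 2 S →+* B.T0)
    (hχ : ∀ (ℓ : ℕ) (hℓ : ℓ.Prime) (hℓN : ¬ ℓ ∣ M) (hℓS : ℓ ∉ S),
      χ₀ (CuspForm.heckeAlgebra.T hℓ hℓN hℓS) = B.a ⟨ℓ, hℓ⟩)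
    (G : Set B.T0) (hG : ∀ y ∈ G, ∃ ℓ : Nat.Primes, (ℓ : ℕ) ∉ S' ∧ B.a ℓ = y)
    (hgen : Algebra.adjoin Y.O G = ⊤) : Algebra.adjoin Y.O (Set.range χ₀) = ⊤ :=
  s59mindf_hgen0 S (s59mindf_feedS_hMS B S hSS) B.a χ₀ hχ G
    (fun y hy => by
      obtain ⟨ℓ, hℓ, h⟩ := hG y hy
      exact ⟨ℓ, fun h' => hℓ ((hSS ℓ ℓ.2).1 h'), h⟩) hgen

/-- **DICT-τ-SEP over `B`**, for `S`: the points of `B.T0` separate. -/
theorem s59mindf_feedS_hsep0 (B : HkBaseOutW Y d σ₀ τ₀ S' a0) (S : Set ℕ)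
    (hSS : ∀ ℓ : ℕ, ℓ.Prime → (ℓ ∈ S ↔ ℓ ∈ S'))
    (hstrong : ∀ (B' : Type) [CommRing B'] [IsDomain B'] [Algebra Y.O B']
      (χ : CuspForm.heckeAlgebra M 2 S →+* B') (t : CuspForm.heckeAlgebra M 2 S),
      χ t ∈ Set.range (algebraMap Y.O B'))
    (χ₀ : CuspForm.heckeAlgebra M 2 S →+* B.T0)
    (hgen0 : Algebra.adjoin Y.O (Set.range χ₀) = ⊤) :
    ∀ y : B.T0, (∀ x : B.T0 →ₐ[Y.O] Y.O, x y = 0) → y = 0 :=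
  s59minds_sep Y.O (s59mindf_feedS_hMS B S hSS) (s59mindf_feed_htf B) χ₀ hgen0 hstrong

/-- **DICT-τ over `B`, for the stage's own `(M, S)`**: everything the dictionary version of the
stage contract (`s59minfd_stage_dict`) asks of `(T0, ρ0, χ₀)`, and the comparison map. -/
theorem s59mindf_feedS_main (B : HkBaseOutW Y d σ₀ τ₀ S' a0) (S : Set ℕ)
    (hSS : ∀ ℓ : ℕ, ℓ.Prime → (ℓ ∈ S ↔ ℓ ∈ S'))
    (hgood : ∀ ℓ : ℕ, ℓ.Prime → ¬ ℓ ∣ M → ℓ ∉ S' → W.IsGoodPrimeFor ℓ)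
    {θ : CuspForm.heckeAlgebra M 2 S →+* ResidueField Y.O}
    {T : Type} [CommRing T] [IsLocalRing T] [IsNoetherianRing T]
    [IsAdicComplete (maximalIdeal T) T] [Algebra Y.O T] [IsLocalHom (algebraMap Y.O T)]
    [Module.Finite Y.O T] [Module.Free Y.O T]
    (H : CuspForm.HeckeGaloisRepDatum M S Y.O θ T) (πT : T →ₐ[Y.O] Y.O)
    (hπ : ∀ (ℓ : ℕ) (hℓ : ℓ.Prime) (hℓN : ¬ ℓ ∣ M) (hℓS : ℓ ∉ S),
      πT (H.π (CuspForm.heckeAlgebra.T hℓ hℓN hℓS)) - ((W.apOfModel ℓ : ℤ) : Y.O) ∈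
        maximalIdeal Y.O)
    (hstrong : ∀ (B' : Type) [CommRing B'] [IsDomain B'] [Algebra Y.O B']
      (χ : CuspForm.heckeAlgebra M 2 S →+* B') (t : CuspForm.heckeAlgebra M 2 S),
      χ t ∈ Set.range (algebraMap Y.O B'))
    (G : Set B.T0) (hG : ∀ y ∈ G, ∃ ℓ : Nat.Primes, (ℓ : ℕ) ∉ S' ∧ B.a ℓ = y)
    (hgen : Algebra.adjoin Y.O G = ⊤) :
    ∃ χ₀ : CuspForm.heckeAlgebra M 2 S →+* B.T0,
      (∀ (ℓ : ℕ) (hℓ : ℓ.Prime) (hℓN : ¬ ℓ ∣ M) (hℓS : ℓ ∉ S),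
        χ₀ (CuspForm.heckeAlgebra.T hℓ hℓN hℓS) = B.a ⟨ℓ, hℓ⟩) ∧
      Algebra.adjoin Y.O (Set.range χ₀) = ⊤ ∧
      (∀ (x : B.T0 →ₐ[Y.O] Y.O) (t : CuspForm.heckeAlgebra M 2 S),
        residue Y.O (x (χ₀ t)) = θ t) ∧
      (∀ y : B.T0, (∀ x : B.T0 →ₐ[Y.O] Y.O, x y = 0) → y = 0) ∧
      (∀ (ℓ : ℕ) (hℓ : ℓ.Prime), ℓ ∉ S' → ∃ (hℓN : ¬ ℓ ∣ M) (hℓS : ℓ ∉ S),
        ∀ A : ValuationSubring (AlgebraicClosure ℚ), A.LiesOverPrime ℓ →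
        ∀ σ : AlgebraicClosure ℚ ≃ₐ[ℚ] AlgebraicClosure ℚ, A.IsFrobeniusAt σ ℓ →
          LinearMap.charpoly (B.ρ0.ρ σ) =
            X ^ 2 - C (χ₀ (CuspForm.heckeAlgebra.T hℓ hℓN hℓS)) * X + C ((ℓ : B.T0))) ∧
      ∃ τ : T →ₐ[Y.O] B.T0, Function.Surjective τ ∧ (∀ t, τ (H.π t) = χ₀ t) ∧
        ∃ hτl : IsLocalHom (τ : T →+* B.T0),
          (H.ρ.baseChangeAlong (τ : T →+* B.T0) hτl).IsEquiv B.ρ0 ∧
          ∀ σ : AlgebraicClosure ℚ ≃ₐ[ℚ] AlgebraicClosure ℚ,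
            τ (LinearMap.trace T H.ρ.V (H.ρ.ρ σ)) = LinearMap.trace B.T0 B.ρ0.V (B.ρ0.ρ σ) := by
  obtain ⟨χ₀, hχ⟩ := s59mindf_feedS_chi B S hSS
  haveI := s59mindf_feed_noeth B
  have hres := s59mindf_feedS_hres B S hSS hgood H πT hπ χ₀ hχ
  have hgen0 := s59mindf_feedS_hgen0 B S hSS χ₀ hχ G hG hgen
  have hsep0 := s59mindf_feedS_hsep0 B S hSS hstrong χ₀ hgen0
  have hfrob0 := s59mindf_feedS_hfrob0 B S hSS χ₀ hχ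
  exact ⟨χ₀, hχ, hgen0, hres, hsep0, hfrob0,
    s59mindt_main H χ₀ hres hsep0 hgen0 B.ρ0 B.habs0 S' hfrob0⟩

end FeedS

end Fermat.Agent.S59.LowK

end
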