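/-
S59, wall R1 (MIN′), leaf **DICT-τ over a GENERATED base, for the stage's own `(N, S)`**
(helper34): `s59mindf_feedS_main` (S59/Min/DictFeedS.lean) with the generation input discharged
by helper76's `s59abgGen B` (S59/LowK/AbsBWGen.lean; produced unconditionally for `5 ≤ p` by
`s59bgn_data_five`, S59/Min/BaseIdGen.lean).

* **`s59mindf_feedS_gen`** : for `B : HkBaseOutW Y d σ₀ τ₀ S' a0` with `s59abgGen B`, a set `S`
  with the same primes as `S'`, a Hecke–Galois datum `H` of level `M` away from `S` over `T` with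
  an augmentation `πT` such that `πT (π T_ℓ) ≡ a_ℓ(W) mod 𝔪`, and E-BIG strong at `(M, S)`:
  `∃ χ₀`, `χ₀ T_ℓ = B.a ℓ`, `hgen0`, `hres`, `hsep0`, `hfrob0` (`Sf := S'`), and
  `τ : T ↠ B.T0` with `τ ∘ π = χ₀`, `ρ_T ⊗_τ T0 ≅ ρ0`, `τ (tr ρ_T σ) = tr ρ0 σ`.
  NO input is left besides the K-machine (`B`), the stage (`H`, `πT`) and E-BIG.
* `s59mindf_hSS` : `S` and `S'` have the same primes, if the primes of `S` are `p` and the primes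
  of `M`, and those of `S'` divide `M * p`.
-/
import Fermat.Agent.S59.Min.DictFeedS
import Fermat.Agent.S59.LowK.AbsBWGen

set_option autoImplicit false
set_option linter.style.haveILetI false
set_option linter.unusedSectionVars false
set_option linter.unusedVariables false
set_option linter.style.longLine false

noncomputable section

namespace Fermat.Agent.S59.LowK

open IsLocalRing Polynomial ModularCurve Fermat.Agent.S31 Fermat.Agent.S59 Fermat.Agent.RT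
  Fermat.Agent.TW Fermat.Agent.ES

section FeedGen

variable {W : WeierstrassCurve ℤ} {p M : ℕ} [NeZero M] {Y : s59lk_KSetupW W p M}
  {d : ℕ} {σ₀ τ₀ : GQ} {S' : Finset ℕ} {a0 : ℕ → Matrix (Fin d) (Fin d) Y.O}

/-- `S` and `S'` have the same primes -/
theorem s59mindf_hSS (B : HkBaseOutW Y d σ₀ τ₀ S' a0) (hp : p.Prime)
    (hS' : ∀ ℓ : ℕ, ℓ.Prime → ¬ ℓ ∣ M * p → ℓ ∉ S') (S : Set ℕ)
    (hS : ∀ ℓ : ℕ, ℓ.Prime → (ℓ ∈ S ↔ ℓ = p ∨ ℓ ∣ M)) :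
    ∀ ℓ : ℕ, ℓ.Prime → (ℓ ∈ S ↔ ℓ ∈ S') := by
  intro ℓ hℓ
  rw [hS ℓ hℓ]
  constructor
  · rintro (rfl | h)
    · exact B.hpS'
    · exact B.hNS' ℓ hℓ h
  · intro h
    by_contra hc
    rw [not_or] at hc
    refine hS' ℓ hℓ (fun hd => ?_) h
    rcases (Nat.Prime.dvd_mul hℓ).1 hd with h1 | h1
    · exact hc.2 h1
    · exact hc.1 ((Nat.prime_dvd_prime_iff_eq hℓ hp).1 h1)

/-- **DICT-τ over a generated base, for the stage's own `(M, S)`**. -/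
theorem s59mindf_feedS_gen (B : HkBaseOutW Y d σ₀ τ₀ S' a0) (hB : s59abgGen B) (S : Set ℕ)
    (hSS : ∀ ℓ : ℕ, ℓ.Prime → (ℓ ∈ S ↔ ℓ ∈ S'))
    (hgood : ∀ ℓ : ℕ, ℓ.Prime → ¬ ℓ ∣ M → ℓ ∉ S' → W.IsGoodPrimeFor ℓ)
    {θ : CuspForm.heckeAlgebra M 2 S →+* ResidueField Y.O}
    {T : Type} [CommRing T] [IsLocalRing T] [IsNoetherianRing T]
    [IsAdicComplete (maximalIdeal T) T] [Algebra Y.O T] [IsLocalHom (algebraMap Y.O T)]
    [Module.Finite Y.O T] [Module.Free Y.O T]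
    (H : CuspForm.HeckeGaloisRepDatum M S Y.O θ T) (πT : T →ₐ[Y.O] Y.O)
    (hπ : ∀ (ℓ : ℕ) (hℓ : ℓ.Prime) (hℓN : ¬ ℓ ∣ M) (hℓS : ℓ ∉ S),
      πT (H.π (CuspForm.heckeAlgebra.T hℓ hℓN hℓS)) - ((W.apOfModel ℓ : ℤ) : Y.O) ∈
        maximalIdeal Y.O)
    (hstrong : ∀ (B' : Type) [CommRing B'] [IsDomain B'] [Algebra Y.O B']
      (χ : CuspForm.heckeAlgebra M 2 S →+* B') (t : CuspForm.heckeAlgebra M 2 S),
      χ t ∈ Set.range (algebraMap Y.O B')) :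
    ∃ χ₀ : CuspForm.heckeAlgebra M 2 S →+* B.T0,
      (∀ (ℓ : ℕ) (hℓ : ℓ.Prime) (hℓN : ¬ ℓ ∣ M) (hℓS : ℓ ∉ S),
        χ₀ (CuspForm.heckeAlgebra.T hℓ hℓN hℓS) = B.a ⟨ℓ, hℓ⟩) ∧
      Algebra.adjoin Y.O (Set.range χ₀) = ⊤ ∧
      (∀ (x : B.T0 →ₐ[Y.O] Y.O) (t : CuspForm.heckeAlgebra M 2 S),
        residue Y.O (x (χ₀ t)) = θ t) ∧
      (∀ y : B.T0, (∀ x : B.T0 →ₐ[Y.O] Y.O, x y = 0) → y = 0) ∧
      (∀ (ℓ : ℕ) (hℓ : ℓ.Prime), ℓ ∉ S' → ∃ (hℓN : ¬ ℓ ∣ M) (hℓS : ℓ ∉ S),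
        ∀ A : ValuationSubring (AlgebraicClosure ℚ), A.LiesOverPrime ℓ →
        ∀ σ : AlgebraicClosure ℚ ≃ₐ[ℚ] AlgebraicClosure ℚ, A.IsFrobeniusAt σ ℓ →
          LinearMap.charpoly (B.ρ0.ρ σ) =
            X ^ 2 - C (χ₀ (CuspForm.heckeAlgebra.T hℓ hℓN hℓS)) * X + C ((ℓ : B.T0))) ∧
      ∃ τ : T →ₐ[Y.O] B.T0, Function.Surjective τ ∧ (∀ t, τ (H.π t) = χ₀ t) ∧
        ∃ hτl : IsLocalHom (τ : T →+* B.T0),
          (H.ρ.baseChangeAlong (τ : T →+* B.T0) hτl).IsEquiv B.ρ0 ∧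
          ∀ σ : AlgebraicClosure ℚ ≃ₐ[ℚ] AlgebraicClosure ℚ,
            τ (LinearMap.trace T H.ρ.V (H.ρ.ρ σ)) = LinearMap.trace B.T0 B.ρ0.V (B.ρ0.ρ σ) :=
  s59mindf_feedS_main B S hSS hgood H πT hπ hstrong
    {y : B.T0 | ∃ ℓ : Nat.Primes, (ℓ : ℕ) ∉ S' ∧ y = B.a ℓ}
    (fun y hy => by
      obtain ⟨ℓ, hℓ, rfl⟩ := hy
      exact ⟨ℓ, hℓ, rfl⟩) hB

end FeedGen

end Fermat.Agent.S59.LowK

end
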