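/-
S59, wall R1 (MIN′), leaf **RES-TR** (helper34; shape of helper67's note, 07:18Z): the input
`hres` of DICT-τ over a base `B : HkBaseOutW Y d σ₀ τ₀ S' a0` of the K-machine from the TRACES of
`ρ̄` — no hypothesis "good for `W`" (which fails at the primes of `Σ_W`).

* `s59mindftr_trace_res`, `_trace_bc`, `_trace_equiv`, `_trace_of_charpoly` : traces of the
  residual representation, of a base change, of equivalent representations, and from the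
  characteristic polynomial;
* **`s59mindftr_hres`** : `residue (x (χ₀ t)) = θ t` for every point `x` of `B.T0`, from
  `hπψ : πT (π T_ℓ) = ψ ℓ`, `hψ : residue (ψ ℓ) = tr ρ̄ (Frob_ℓ)` (`ℓ ∉ Y.Smin`, `ℓ ∤ M`),
  `B.hfrob`, `B.hres0`, and
  - `hSmin : ∀ ℓ prime, ℓ ∉ S → ℓ ∉ Y.Smin` (at the stage: `S = ↑Smin`),
  - `hFp : ∀ σ, ∃ n : ℤ, tr ρ̄ σ = n` (the traces of `ρ̄` are in the prime field: `B.ι0` is an
    ARBITRARY embedding of residue fields; helper9's side lemma for `s59feBar`);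
* **`s59mindftr_feedS_gen`** : DICT-τ over a generated base for the stage's own `(M, S)`
  (`s59mindf_feedS_gen`, S59/Min/DictFeedGen.lean) with `hres` from RES-TR: `χ₀`, `hgen0`, `hres`,
  `hsep0`, `hfrob0`, and `τ : T ↠ B.T0` with `τ ∘ π = χ₀`, `ρ_T ⊗_τ T0 ≅ ρ0`, traces.
-/
import Fermat.Agent.S59.Min.DictFeedGen
import Fermat.Agent.Common.FrobExists

set_option autoImplicit false
set_option linter.style.haveILetI false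
set_option linter.unusedSectionVars false
set_option linter.unusedVariables false
set_option linter.style.longLine false

noncomputable section

namespace Fermat.Agent.S59.LowK

open IsLocalRing Polynomial ModularCurve Fermat.Agent.S31 Fermat.Agent.S59 Fermat.Agent.RT
  Fermat.Agent.TW Fermat.Agent.ES

section Traces

/-- the trace of the residual representation -/
theorem s59mindftr_trace_res {A : Type} [CommRing A] [IsLocalRing A] (ρ : GaloisRepAdic A)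
    (σ : AlgebraicClosure ℚ ≃ₐ[ℚ] AlgebraicClosure ℚ) :
    LinearMap.trace (ResidueField A) ρ.residual.V (ρ.residual.ρ σ) =
      residue A (LinearMap.trace A ρ.V (ρ.ρ σ)) := by
  show LinearMap.trace _ _ ((ρ.ρ σ).baseChange (ResidueField A)) = _
  rw [LinearMap.trace_baseChange]
  rfl

/-- the trace of a base change of a residual representation -/
theorem s59mindftr_trace_bc {k k' : Type} [Field k] [Field k'] (φ : k →+* k')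
    (ρ : ResidualGaloisRep k) (σ : AlgebraicClosure ℚ ≃ₐ[ℚ] AlgebraicClosure ℚ) :
    LinearMap.trace k' (ρ.baseChangeAlong φ).V ((ρ.baseChangeAlong φ).ρ σ) =
      φ (LinearMap.trace k ρ.V (ρ.ρ σ)) := by
  letI : Algebra k k' := φ.toAlgebra
  exact LinearMap.trace_baseChange (ρ.ρ σ) k'

/-- equivalent residual representations have the same traces -/
theorem s59mindftr_trace_equiv {k : Type} [Field k] {ρ₁ ρ₂ : ResidualGaloisRep k}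
    (h : ρ₁.IsEquiv ρ₂) (σ : AlgebraicClosure ℚ ≃ₐ[ℚ] AlgebraicClosure ℚ) :
    LinearMap.trace k ρ₁.V (ρ₁.ρ σ) = LinearMap.trace k ρ₂.V (ρ₂.ρ σ) := by
  obtain ⟨e⟩ := h
  have h1 : ρ₂.ρ σ = e.toLinearEquiv.conj (ρ₁.ρ σ) := by
    refine LinearMap.ext fun x => ?_
    rw [LinearEquiv.conj_apply]
    show ρ₂.ρ σ x = e.toLinearEquiv (ρ₁.ρ σ (e.toLinearEquiv.symm x))
    rw [e.map_apply, LinearEquiv.apply_symm_apply]
  rw [h1, LinearMap.trace_conj']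

/-- the trace of an endomorphism of a free module of rank 2 with characteristic polynomial
`X² − a X + b` -/
theorem s59mindftr_trace_of_charpoly {R : Type} [CommRing R] [Nontrivial R] {V : Type}
    [AddCommGroup V] [Module R V] [Module.Free R V] [Module.Finite R V]
    (hV : Module.finrank R V = 2) (f : Module.End R V) (a b : R)
    (h : LinearMap.charpoly f = X ^ 2 - C a * X + C b) : LinearMap.trace R V f = a := by
  classical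
  let bas := Module.Free.chooseBasis R V
  have hcard : Fintype.card (Module.Free.ChooseBasisIndex R V) = 2 := by
    rw [← Module.finrank_eq_card_chooseBasisIndex, hV]
  have : Nonempty (Module.Free.ChooseBasisIndex R V) := by
    rw [← Fintype.card_pos_iff, hcard]; norm_num
  rw [LinearMap.trace_eq_matrix_trace R bas f, Matrix.trace_eq_neg_charpoly_coeff, hcard,
    LinearMap.charpoly_toMatrix, h]
  simp [Polynomial.coeff_C]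

end Traces

section ResTr

variable {W : WeierstrassCurve ℤ} {p M : ℕ} [NeZero M] {Y : s59lk_KSetupW W p M}
  {d : ℕ} {σ₀ τ₀ : GQ} {S' : Finset ℕ} {a0 : ℕ → Matrix (Fin d) (Fin d) Y.O}

/-- the value `B.a ℓ` at a prime `ℓ ∉ S'` reduces to the trace of `ρ̄` at a Frobenius, through
`B.ι0` -/
theorem s59mindftr_residue_a (B : HkBaseOutW Y d σ₀ τ₀ S' a0) (ℓ : Nat.Primes)
    (hℓS' : (ℓ : ℕ) ∉ S') (P : ValuationSubring (AlgebraicClosure ℚ)) (hP : P.LiesOverPrime ℓ)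
    (τ : AlgebraicClosure ℚ ≃ₐ[ℚ] AlgebraicClosure ℚ) (hτ : P.IsFrobeniusAt τ ℓ) :
    residue B.T0 (B.a ℓ) =
      B.ι0 (LinearMap.trace (ResidueField Y.O) Y.ρbar.V (Y.ρbar.ρ τ)) := by
  have h1 := B.hfrob ℓ hℓS' P hP τ hτ
  have h2 : LinearMap.trace B.T0 B.ρ0.V (B.ρ0.ρ τ) = B.a ℓ :=
    s59mindftr_trace_of_charpoly B.ρ0.finrank_eq _ _ _ h1
  rw [← h2, ← s59mindftr_trace_res, s59mindftr_trace_equiv B.hres0 τ, s59mindftr_trace_bc]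

/-- **RES-TR**: `hres` of DICT-τ over `B`, from the traces of `ρ̄`. -/
theorem s59mindftr_hres (B : HkBaseOutW Y d σ₀ τ₀ S' a0) (S : Set ℕ)
    (hSS : ∀ ℓ : ℕ, ℓ.Prime → (ℓ ∈ S ↔ ℓ ∈ S'))
    (hSmin : ∀ ℓ : ℕ, ℓ.Prime → ℓ ∉ S → ℓ ∉ Y.Smin)
    (hFp : ∀ σ : AlgebraicClosure ℚ ≃ₐ[ℚ] AlgebraicClosure ℚ, ∃ n : ℤ,
      LinearMap.trace (ResidueField Y.O) Y.ρbar.V (Y.ρbar.ρ σ) = (n : ResidueField Y.O))
    {θ : CuspForm.heckeAlgebra M 2 S →+* ResidueField Y.O}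
    {T : Type} [CommRing T] [IsLocalRing T] [IsNoetherianRing T]
    [IsAdicComplete (maximalIdeal T) T] [Algebra Y.O T] [IsLocalHom (algebraMap Y.O T)]
    [Module.Finite Y.O T] [Module.Free Y.O T]
    (H : CuspForm.HeckeGaloisRepDatum M S Y.O θ T) (πT : T →ₐ[Y.O] Y.O) (ψ : ℕ → Y.O)
    (hπψ : ∀ (ℓ : ℕ) (hℓ : ℓ.Prime) (hℓN : ¬ ℓ ∣ M) (hℓS : ℓ ∉ S),
      πT (H.π (CuspForm.heckeAlgebra.T hℓ hℓN hℓS)) = ψ ℓ)
    (hψ : ∀ ℓ : ℕ, ℓ.Prime → ℓ ∉ Y.Smin → ¬ ℓ ∣ M →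
      ∀ P : ValuationSubring (AlgebraicClosure ℚ), P.LiesOverPrime ℓ →
      ∀ τ : AlgebraicClosure ℚ ≃ₐ[ℚ] AlgebraicClosure ℚ, P.IsFrobeniusAt τ ℓ →
        residue Y.O (ψ ℓ) = LinearMap.trace (ResidueField Y.O) Y.ρbar.V (Y.ρbar.ρ τ))
    (χ₀ : CuspForm.heckeAlgebra M 2 S →+* B.T0)
    (hχ : ∀ (ℓ : ℕ) (hℓ : ℓ.Prime) (hℓN : ¬ ℓ ∣ M) (hℓS : ℓ ∉ S),
      χ₀ (CuspForm.heckeAlgebra.T hℓ hℓN hℓS) = B.a ⟨ℓ, hℓ⟩) :
    ∀ (x : B.T0 →ₐ[Y.O] Y.O) (t : CuspForm.heckeAlgebra M 2 S),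
      residue Y.O (x (χ₀ t)) = θ t := by
  classical
  have hex : ∀ ℓ : Nat.Primes, ∃ n : ℤ, ∀ (hℓN : ¬ (ℓ : ℕ) ∣ M) (hℓS : (ℓ : ℕ) ∉ S),
      θ (CuspForm.heckeAlgebra.T ℓ.2 hℓN hℓS) = (n : ResidueField Y.O) ∧
      B.a ℓ - ((n : ℤ) : B.T0) ∈ maximalIdeal B.T0 := by
    intro ℓ
    by_cases h : ¬ (ℓ : ℕ) ∣ M ∧ (ℓ : ℕ) ∉ S
    · obtain ⟨hℓN, hℓS⟩ := h
      obtain ⟨P, τ, hP, hτ⟩ := Fermat.Agent.Common.exists_isFrobeniusAt ℓ ℓ.2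
      obtain ⟨n, hn⟩ := hFp τ
      refine ⟨n, fun _ _ => ⟨?_, ?_⟩⟩
      · rw [s59mindf_theta_of_point H πT, hπψ ℓ ℓ.2 hℓN hℓS,
          hψ ℓ ℓ.2 (hSmin ℓ ℓ.2 hℓS) hℓN P hP τ hτ, hn]
      · have hℓS' : (ℓ : ℕ) ∉ S' := fun h' => hℓS ((hSS ℓ ℓ.2).2 h')
        have h3 := s59mindftr_residue_a B ℓ hℓS' P hP τ hτ
        rw [hn, map_intCast] at h3
        rw [← IsLocalRing.residue_eq_zero_iff, map_sub, h3, map_intCast, sub_self]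
    · exact ⟨0, fun hℓN hℓS => absurd ⟨hℓN, hℓS⟩ h⟩
  choose n hn using hex
  intro x t
  refine s59mindf_hres S (s59mindf_feedS_hMS B S hSS) θ χ₀ (fun ℓ => ((n ℓ : ℤ) : Y.O))
    (fun ℓ hℓ hℓN hℓS => ?_) (fun ℓ hℓ hℓN hℓS => ?_) x t
  · rw [hχ ℓ hℓ hℓN hℓS, map_intCast]
    exact ((hn ⟨ℓ, hℓ⟩) hℓN hℓS).2
  · rw [map_intCast]
    exact ((hn ⟨ℓ, hℓ⟩) hℓN hℓS).1

/-- **DICT-τ over a generated base, for the stage's own `(M, S)`, with `hres` from RES-TR**. -/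
theorem s59mindftr_feedS_gen (B : HkBaseOutW Y d σ₀ τ₀ S' a0) (hB : s59abgGen B) (S : Set ℕ)
    (hSS : ∀ ℓ : ℕ, ℓ.Prime → (ℓ ∈ S ↔ ℓ ∈ S'))
    (hSmin : ∀ ℓ : ℕ, ℓ.Prime → ℓ ∉ S → ℓ ∉ Y.Smin)
    (hFp : ∀ σ : AlgebraicClosure ℚ ≃ₐ[ℚ] AlgebraicClosure ℚ, ∃ n : ℤ,
      LinearMap.trace (ResidueField Y.O) Y.ρbar.V (Y.ρbar.ρ σ) = (n : ResidueField Y.O))
    {θ : CuspForm.heckeAlgebra M 2 S →+* ResidueField Y.O}
    {T : Type} [CommRing T] [IsLocalRing T] [IsNoetherianRing T]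
    [IsAdicComplete (maximalIdeal T) T] [Algebra Y.O T] [IsLocalHom (algebraMap Y.O T)]
    [Module.Finite Y.O T] [Module.Free Y.O T]
    (H : CuspForm.HeckeGaloisRepDatum M S Y.O θ T) (πT : T →ₐ[Y.O] Y.O) (ψ : ℕ → Y.O)
    (hπψ : ∀ (ℓ : ℕ) (hℓ : ℓ.Prime) (hℓN : ¬ ℓ ∣ M) (hℓS : ℓ ∉ S),
      πT (H.π (CuspForm.heckeAlgebra.T hℓ hℓN hℓS)) = ψ ℓ)
    (hψ : ∀ ℓ : ℕ, ℓ.Prime → ℓ ∉ Y.Smin → ¬ ℓ ∣ M →
      ∀ P : ValuationSubring (AlgebraicClosure ℚ), P.LiesOverPrime ℓ →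
      ∀ τ : AlgebraicClosure ℚ ≃ₐ[ℚ] AlgebraicClosure ℚ, P.IsFrobeniusAt τ ℓ →
        residue Y.O (ψ ℓ) = LinearMap.trace (ResidueField Y.O) Y.ρbar.V (Y.ρbar.ρ τ))
    (hstrong : ∀ (B' : Type) [CommRing B'] [IsDomain B'] [Algebra Y.O B']
      (χ : CuspForm.heckeAlgebra M 2 S →+* B') (t : CuspForm.heckeAlgebra M 2 S),
      χ t ∈ Set.range (algebraMap Y.O B')) :
    ∃ χ₀ : CuspForm.heckeAlgebra M 2 S →+* B.T0,
      (∀ (ℓ : ℕ) (hℓ : ℓ.Prime) (hℓN : ¬ ℓ ∣ M) (hℓS : ℓ ∉ S),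
        χ₀ (CuspForm.heckeAlgebra.T hℓ hℓN hℓS) = B.a ⟨ℓ, hℓ⟩) ∧
      Algebra.adjoin Y.O (Set.range χ₀) = ⊤ ∧
      (∀ (x : B.T0 →ₐ[Y.O] Y.O) (t : CuspForm.heckeAlgebra M 2 S),
        residue Y.O (x (χ₀ t)) = θ t) ∧
      (∀ y : B.T0, (∀ x : B.T0 →ₐ[Y.O] Y.O, x y = 0) → y = 0) ∧
      (∀ (ℓ : ℕ) (hℓ : ℓ.Prime), ℓ ∉ S' → ∃ (hℓN : ¬ ℓ ∣ M) (hℓS : ℓ ∉ S),
        ∀ A : ValuationSubring (AlgebraicClosure ℚ), A.LiesOverPrime ℓ →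
        ∀ σ : AlgebraicClosure ℚ ≃ₐ[ℚ] AlgebraicClosure ℚ, A.IsFrobeniusAt σ ℓ →
          LinearMap.charpoly (B.ρ0.ρ σ) =
            X ^ 2 - C (χ₀ (CuspForm.heckeAlgebra.T hℓ hℓN hℓS)) * X + C ((ℓ : B.T0))) ∧
      ∃ τ : T →ₐ[Y.O] B.T0, Function.Surjective τ ∧ (∀ t, τ (H.π t) = χ₀ t) ∧
        ∃ hτl : IsLocalHom (τ : T →+* B.T0),
          (H.ρ.baseChangeAlong (τ : T →+* B.T0) hτl).IsEquiv B.ρ0 ∧
          ∀ σ : AlgebraicClosure ℚ ≃ₐ[ℚ] AlgebraicClosure ℚ,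
            τ (LinearMap.trace T H.ρ.V (H.ρ.ρ σ)) = LinearMap.trace B.T0 B.ρ0.V (B.ρ0.ρ σ) := by
  obtain ⟨χ₀, hχ⟩ := s59mindf_feedS_chi B S hSS
  haveI := s59mindf_feed_noeth B
  have hres := s59mindftr_hres B S hSS hSmin hFp H πT ψ hπψ hψ χ₀ hχ
  have hgen0 := s59mindf_feedS_hgen0 B S hSS χ₀ hχ
    {y : B.T0 | ∃ ℓ : Nat.Primes, (ℓ : ℕ) ∉ S' ∧ y = B.a ℓ}
    (fun y hy => by
      obtain ⟨ℓ, hℓ, rfl⟩ := hy
      exact ⟨ℓ, hℓ, rfl⟩) hB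
  have hsep0 := s59mindf_feedS_hsep0 B S hSS hstrong χ₀ hgen0
  have hfrob0 := s59mindf_feedS_hfrob0 B S hSS χ₀ hχ
  exact ⟨χ₀, hχ, hgen0, hres, hsep0, hfrob0,
    s59mindt_main H χ₀ hres hsep0 hgen0 B.ρ0 B.habs0 S' hfrob0⟩

end ResTr

end Fermat.Agent.S59.LowK

end
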