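/-
S59, wall R1 (MIN′), leaf **DICT-τ AT A STAGE** (helper34): the transport of DICT-τ over a
generated base `B : HkBaseOutW Y d σ₀ τ₀ S' a0` of the K-machine (level `M`) to a stage
`s : S59Stage Y.O Y.ρbar 𝒟` of the top chain whose level and set are `M` and `↑Y.Smin` only
PROPOSITIONALLY (`hN : s.N = M`, `hS : s.S = ↑Y.Smin`; the invariant `s59tops_inv` gives
`s.N = s59tops_level N0 ∅` and `s.S = ↑(Smin ∪ ∅)`).

* **`s59mindfs_stage`** : the inputs `χ₀`, `hres`, `hsep0`, `hgen0`, `hfrob0` (with `Sf := S'`)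
  of `s59minfd_stage_dict` (S59/Min/FeedStageDict.lean) FOR THE STAGE `s` ITSELF
  (`χ₀ : heckeAlgebra s.N 2 s.S →+* B.T0`, `hres` with `s.θ`), together with
  `χ₀ T_ℓ = B.a ℓ` and the comparison map `τ : s.T ↠ B.T0` of DICT-τ.
  Inputs: `B` with `s59abgGen B`, `hSS` (`Y.Smin` and `S'` have the same primes), `hFp`
  (traces of `ρ̄` are integer casts), `hπψ`, `hψ` (the binders of the contract), E-BIG strong
  at `(M, ↑Y.Smin)`.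
* `s59mindfs_level_empty`, `s59mindfs_set_empty` : `N0 * ∏ q ∈ ∅, q * q = N0` (the unfolded
  `s59tops_level N0 ∅`; `S59/TopStep.lean` is not imported here), `(↑(Smin ∪ ∅) : Set ℕ) = ↑Smin`.
-/
import Fermat.Agent.S59.Min.DictFeedTr
import Fermat.Agent.S59.TopWire

set_option autoImplicit false
set_option linter.style.haveILetI false
set_option linter.unusedSectionVars false
set_option linter.unusedVariables false
set_option linter.style.longLine false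

noncomputable section

namespace Fermat.Agent.S59.LowK

open IsLocalRing Polynomial ModularCurve Fermat.Agent.S31 Fermat.Agent.S59 Fermat.Agent.RT
  Fermat.Agent.TW Fermat.Agent.ES

/-- the level of the top chain at `Σ = ∅` (`s59tops_level N0 ∅` unfolds to the left side) -/
theorem s59mindfs_level_empty (N0 : ℕ) : N0 * ∏ q ∈ (∅ : Finset ℕ), (q * q) = N0 := by
  rw [Finset.prod_empty, mul_one]

/-- the set of the top chain at `Σ = ∅` -/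
theorem s59mindfs_set_empty (Smin : Finset ℕ) : (↑(Smin ∪ ∅) : Set ℕ) = (↑Smin : Set ℕ) := by
  rw [Finset.union_empty]

section Stage

variable {W : WeierstrassCurve ℤ} {p M : ℕ} [NeZero M] {Y : s59lk_KSetupW W p M}
  {d : ℕ} {σ₀ τ₀ : GQ} {S' : Finset ℕ} {a0 : ℕ → Matrix (Fin d) (Fin d) Y.O}

/-- **DICT-τ at a stage**: the `T0`-side inputs of `s59minfd_stage_dict` for the stage `s`. -/
theorem s59mindfs_stage (B : HkBaseOutW Y d σ₀ τ₀ S' a0) (hB : s59abgGen B)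
    {𝒟 : ∀ ⦃A : Type⦄ [CommRing A] [IsLocalRing A] [Algebra Y.O A], GaloisRepAdic A → Prop}
    (s : S59Stage Y.O Y.ρbar 𝒟) (hN : s.N = M) (hS : s.S = (↑Y.Smin : Set ℕ))
    (hSS : ∀ ℓ : ℕ, ℓ.Prime → (ℓ ∈ Y.Smin ↔ ℓ ∈ S'))
    (hFp : ∀ σ : AlgebraicClosure ℚ ≃ₐ[ℚ] AlgebraicClosure ℚ, ∃ n : ℤ,
      LinearMap.trace (ResidueField Y.O) Y.ρbar.V (Y.ρbar.ρ σ) = (n : ResidueField Y.O))
    (ψ : ℕ → Y.O)
    (hπψ : ∀ (ℓ : ℕ) (hℓ : ℓ.Prime) (hℓN : ¬ ℓ ∣ s.N) (hℓS : ℓ ∉ s.S),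
      s.πT (s.H.π (CuspForm.heckeAlgebra.T hℓ hℓN hℓS)) = ψ ℓ)
    (hψ : ∀ ℓ : ℕ, ℓ.Prime → ℓ ∉ Y.Smin → ¬ ℓ ∣ M →
      ∀ P : ValuationSubring (AlgebraicClosure ℚ), P.LiesOverPrime ℓ →
      ∀ τ : AlgebraicClosure ℚ ≃ₐ[ℚ] AlgebraicClosure ℚ, P.IsFrobeniusAt τ ℓ →
        residue Y.O (ψ ℓ) = LinearMap.trace (ResidueField Y.O) Y.ρbar.V (Y.ρbar.ρ τ))
    (hstrong : ∀ (B' : Type) [CommRing B'] [IsDomain B'] [Algebra Y.O B']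
      (χ : CuspForm.heckeAlgebra M 2 (↑Y.Smin : Set ℕ) →+* B')
      (t : CuspForm.heckeAlgebra M 2 (↑Y.Smin : Set ℕ)),
      χ t ∈ Set.range (algebraMap Y.O B')) :
    ∃ χ₀ : CuspForm.heckeAlgebra s.N 2 s.S →+* B.T0,
      (∀ (ℓ : ℕ) (hℓ : ℓ.Prime) (hℓN : ¬ ℓ ∣ s.N) (hℓS : ℓ ∉ s.S),
        χ₀ (CuspForm.heckeAlgebra.T hℓ hℓN hℓS) = B.a ⟨ℓ, hℓ⟩) ∧
      Algebra.adjoin Y.O (Set.range χ₀) = ⊤ ∧
      (∀ (x : B.T0 →ₐ[Y.O] Y.O) (t : CuspForm.heckeAlgebra s.N 2 s.S),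
        residue Y.O (x (χ₀ t)) = s.θ t) ∧
      (∀ y : B.T0, (∀ x : B.T0 →ₐ[Y.O] Y.O, x y = 0) → y = 0) ∧
      (∀ (ℓ : ℕ) (hℓ : ℓ.Prime), ℓ ∉ S' → ∃ (hℓN : ¬ ℓ ∣ s.N) (hℓS : ℓ ∉ s.S),
        ∀ A : ValuationSubring (AlgebraicClosure ℚ), A.LiesOverPrime ℓ →
        ∀ σ : AlgebraicClosure ℚ ≃ₐ[ℚ] AlgebraicClosure ℚ, A.IsFrobeniusAt σ ℓ →
          LinearMap.charpoly (B.ρ0.ρ σ) =
            X ^ 2 - C (χ₀ (CuspForm.heckeAlgebra.T hℓ hℓN hℓS)) * X + C ((ℓ : B.T0))) ∧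
      ∃ τ : s.T →ₐ[Y.O] B.T0, Function.Surjective τ ∧ (∀ t, τ (s.H.π t) = χ₀ t) ∧
        ∃ hτl : IsLocalHom (τ : s.T →+* B.T0),
          (s.H.ρ.baseChangeAlong (τ : s.T →+* B.T0) hτl).IsEquiv B.ρ0 ∧
          ∀ σ : AlgebraicClosure ℚ ≃ₐ[ℚ] AlgebraicClosure ℚ,
            τ (LinearMap.trace s.T s.H.ρ.V (s.H.ρ.ρ σ)) =
              LinearMap.trace B.T0 B.ρ0.V (B.ρ0.ρ σ) := by
  obtain ⟨N, S, θ, T, H, D, γ, πT, etaL, γ_surj, γ_trace, etaT_ne, gen, etaL_ne⟩ := s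
  dsimp only at hN hS hπψ ⊢
  subst hN
  subst hS
  exact s59mindftr_feedS_gen B hB (↑Y.Smin : Set ℕ)
    (fun ℓ hℓ => by rw [Finset.mem_coe]; exact hSS ℓ hℓ)
    (fun ℓ hℓ h hm => h (Finset.mem_coe.mpr hm)) hFp H πT ψ hπψ hψ hstrong

end Stage

end Fermat.Agent.S59.LowK

end
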