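/-
S59, wall R1 / MINLEV, leaf **DICT-τ-SEP**, ABSTRACT part (helper29; independent double of the
captain's `s59minds_sep`).

`𝒪` a domain, `A` a REDUCED integral `𝒪`-algebra, `F : A → T0` a surjective `𝒪`-algebra map onto an
`𝒪`-torsion-free algebra `T0`.  Then
* `s59mindsb_vnr`     : for every `w : A` there are `c ≠ 0` in `𝒪` and `a : A` with
                        `c • w = w * w * a`  ("von Neumann regular up to a scalar");
* `s59mindsb_pow`     : `c • y = y * y * b` ⇒ `c ^ n • y = y ^ (n + 1) * b ^ n`;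
* `s59mindsb_exists_prime` : for `y ≠ 0` in `T0` there is a prime `𝔭` of `T0` with `y ∉ 𝔭` and
                        `𝔭 ∩ 𝒪 = 0`;
* `s59mindsb_sep_abs` : if moreover `𝒪 → T0 ⧸ 𝔭` is onto for every prime `𝔭` with `𝔭 ∩ 𝒪 = 0`
                        ("all eigenvalues lie in `𝒪`"), the `𝒪`-points of `T0` separate its elements.
Mathlib only.
-/
import Mathlib

set_option autoImplicit false
set_option linter.unusedSectionVars false

namespace Fermat.Agent.S59

open Polynomial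

section vnr

variable {𝒪 A : Type*} [CommRing 𝒪] [IsDomain 𝒪] [CommRing A] [Algebra 𝒪 A] [IsReduced A]

/-- auxiliary induction: a nonzero polynomial `P` with `w * P(w) = 0`. -/
theorem s59mindsb_vnr_aux (w : A) :
    ∀ (n : ℕ) (P : 𝒪[X]), P.natDegree ≤ n → P ≠ 0 → w * aeval w P = 0 →
      ∃ (c : 𝒪) (a : A), c ≠ 0 ∧ c • w = w * w * a := by
  intro n
  induction n with
  | zero =>
    intro P hdeg hP hw
    have hPc : P = C (P.coeff 0) := eq_C_of_natDegree_le_zero hdeg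
    have hc0 : P.coeff 0 ≠ 0 := by
      intro h
      apply hP
      rw [hPc, h, C_0]
    refine ⟨P.coeff 0, 0, hc0, ?_⟩
    rw [hPc, aeval_C, mul_comm, ← Algebra.smul_def] at hw
    rw [hw, mul_zero]
  | succ n ih =>
    intro P hdeg hP hw
    by_cases hc0 : P.coeff 0 = 0
    · -- `P = X * P₁`
      have hP1 : P = P.divX * X := by
        have := divX_mul_X_add P
        rw [hc0, C_0, add_zero] at this
        exact this.symm
      have hP1ne : P.divX ≠ 0 := by
        intro h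
        apply hP
        rw [hP1, h, zero_mul]
      have hdeg1 : P.divX.natDegree ≤ n := by
        have h1 : P.natDegree = P.divX.natDegree + 1 := by
          conv_lhs => rw [hP1]
          rw [natDegree_mul_X hP1ne]
        omega
      have hw1 : w * aeval w P.divX = 0 := by
        apply IsReduced.eq_zero
        refine ⟨2, ?_⟩
        rw [hP1, map_mul, aeval_X] at hw
        have : (w * aeval w P.divX) ^ 2 = (w * (aeval w P.divX * w)) * aeval w P.divX := by ring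
        rw [this, hw, zero_mul]
      exact ih P.divX hdeg1 hP1ne hw1
    · refine ⟨P.coeff 0, -aeval w P.divX, hc0, ?_⟩
      have h1 : aeval w P = aeval w P.divX * w + algebraMap 𝒪 A (P.coeff 0) := by
        conv_lhs => rw [← divX_mul_X_add P]
        rw [map_add, map_mul, aeval_X, aeval_C]
      rw [h1, mul_add] at hw
      rw [Algebra.smul_def]
      have h2 : algebraMap 𝒪 A (P.coeff 0) * w = w * algebraMap 𝒪 A (P.coeff 0) := mul_comm _ _
      rw [h2]
      have h3 : w * algebraMap 𝒪 A (P.coeff 0) = -(w * (aeval w P.divX * w)) :=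
        eq_neg_of_add_eq_zero_right hw
      rw [h3]
      ring

/-- **von Neumann regularity up to a scalar** in a reduced integral algebra over a domain. -/
theorem s59mindsb_vnr [Algebra.IsIntegral 𝒪 A] (w : A) :
    ∃ (c : 𝒪) (a : A), c ≠ 0 ∧ c • w = w * w * a := by
  obtain ⟨P, hmonic, hP⟩ := Algebra.IsIntegral.isIntegral (R := 𝒪) w
  have hP' : aeval w P = 0 := by
    rw [aeval_def]
    exact hP
  by_cases htriv : Nontrivial 𝒪
  · exact s59mindsb_vnr_aux w P.natDegree P le_rfl hmonic.ne_zero (by rw [hP', mul_zero])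
  · exact (htriv inferInstance).elim

end vnr

section sep

variable {𝒪 T0 : Type*} [CommRing 𝒪] [IsDomain 𝒪] [CommRing T0] [Algebra 𝒪 T0]

/-- `c • y = y * y * b` ⇒ `c ^ n • y = y ^ (n + 1) * b ^ n`. -/
theorem s59mindsb_pow (c : 𝒪) (y b : T0) (h : c • y = y * y * b) (n : ℕ) :
    c ^ n • y = y ^ (n + 1) * b ^ n := by
  induction n with
  | zero => simp
  | succ n ih =>
    rw [pow_succ, mul_smul, h, mul_assoc y y b, ← smul_mul_assoc, ih]
    ring

/-- for `y ≠ 0` there is a prime of `T0` avoiding `y` and the nonzero scalars. -/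
theorem s59mindsb_exists_prime
    (htf : ∀ (c : 𝒪) (y : T0), c • y = 0 → c = 0 ∨ y = 0)
    (hvnr : ∀ y : T0, ∃ (c : 𝒪) (b : T0), c ≠ 0 ∧ c • y = y * y * b)
    (y : T0) (hy : y ≠ 0) :
    ∃ 𝔭 : Ideal T0, 𝔭.IsPrime ∧ y ∉ 𝔭 ∧ ∀ d : 𝒪, algebraMap 𝒪 T0 d ∈ 𝔭 → d = 0 := by
  classical
  -- the multiplicative set `{d • y ^ n}`
  let Sy : Submonoid T0 :=
    { carrier := {z | ∃ (d : 𝒪) (n : ℕ), d ≠ 0 ∧ z = d • y ^ n}
      one_mem' := ⟨1, 0, one_ne_zero, by simp⟩
      mul_mem' := by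
        rintro _ _ ⟨d, n, hd, rfl⟩ ⟨d', m, hd', rfl⟩
        refine ⟨d * d', n + m, mul_ne_zero hd hd', ?_⟩
        rw [smul_mul_smul_comm, pow_add] }
  have h0 : (0 : T0) ∉ Sy := by
    rintro ⟨d, n, hd, h⟩
    have hyn : y ^ n = 0 := (htf d _ h.symm).resolve_left hd
    obtain ⟨c, b, hc, hcb⟩ := hvnr y
    rcases n with _ | n
    · -- `1 = 0`
      rw [pow_zero] at hyn
      exact hy (by rw [← mul_one y, hyn, mul_zero])
    · have := s59mindsb_pow c y b hcb n
      rw [hyn, zero_mul] at this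
      exact hy ((htf _ _ this).resolve_left (pow_ne_zero n hc))
  have hdisj : Disjoint ((⊥ : Ideal T0) : Set T0) (Sy : Set T0) := by
    rw [Set.disjoint_left]
    intro z hz hzS
    have hz0 : z = 0 := by simpa using hz
    exact h0 (hz0 ▸ hzS)
  obtain ⟨𝔭, hprime, -, hp⟩ := Ideal.exists_le_prime_disjoint ⊥ Sy hdisj
  refine ⟨𝔭, hprime, ?_, ?_⟩
  · intro hyp
    exact Set.disjoint_left.1 hp hyp ⟨1, 1, one_ne_zero, by simp⟩
  · intro d hd
    by_contra hd0
    exact Set.disjoint_left.1 hp hd ⟨d, 0, hd0, by rw [pow_zero, Algebra.algebraMap_eq_smul_one]⟩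

/-- **DICT-τ-SEP**, abstract form: the `𝒪`-points of `T0` separate its elements. -/
theorem s59mindsb_sep_abs
    (htf : ∀ (c : 𝒪) (y : T0), c • y = 0 → c = 0 ∨ y = 0)
    (hvnr : ∀ y : T0, ∃ (c : 𝒪) (b : T0), c ≠ 0 ∧ c • y = y * y * b)
    (hpt : ∀ 𝔭 : Ideal T0, 𝔭.IsPrime → (∀ d : 𝒪, algebraMap 𝒪 T0 d ∈ 𝔭 → d = 0) →
      Function.Surjective (algebraMap 𝒪 (T0 ⧸ 𝔭))) :
    ∀ y : T0, (∀ x : T0 →ₐ[𝒪] 𝒪, x y = 0) → y = 0 := by
  intro y hxy
  by_contra hy
  obtain ⟨𝔭, hprime, hyp, hd⟩ := s59mindsb_exists_prime htf hvnr y hy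
  have hsurj := hpt 𝔭 hprime hd
  have hinj : Function.Injective (algebraMap 𝒪 (T0 ⧸ 𝔭)) := by
    rw [injective_iff_map_eq_zero]
    intro d hd0
    apply hd d
    rw [← Ideal.Quotient.eq_zero_iff_mem]
    exact hd0
  let e : 𝒪 ≃ₐ[𝒪] (T0 ⧸ 𝔭) := AlgEquiv.ofBijective (Algebra.ofId 𝒪 (T0 ⧸ 𝔭)) ⟨hinj, hsurj⟩
  let x : T0 →ₐ[𝒪] 𝒪 := (e.symm : (T0 ⧸ 𝔭) →ₐ[𝒪] 𝒪).comp (Ideal.Quotient.mkₐ 𝒪 𝔭)
  have h1 : x y = 0 := hxy x
  have h2 : (Ideal.Quotient.mkₐ 𝒪 𝔭) y = 0 := by
    have : e.symm ((Ideal.Quotient.mkₐ 𝒪 𝔭) y) = 0 := h1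
    exact (EmbeddingLike.map_eq_zero_iff (f := e.symm)).1 this
  exact hyp (Ideal.Quotient.eq_zero_iff_mem.1 h2)

end sep

end Fermat.Agent.S59
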