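/-
S59, wall R1 / MINLEV, leaf **DICT-τ-SEP** (helper29; independent DOUBLE of the captain's
`s59minds_sep`, file `S59/Min/DictSep.lean` of helper44).

The input `hsep0` of `s59mindt_exists` / `s59mindt_main` (S59/Min/DictTau.lean):
the `𝒪`-points of `T0` separate the elements of `T0`, when `T0` is `𝒪`-torsion-free, generated
over `𝒪` by the image of the Hecke algebra `𝕋` and every eigensystem of `𝕋` in a domain over `𝒪`
has its values in `𝒪` (E-BIG strong).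

Proof: `A = 𝒪 ⊗[ℤ] 𝕋` is reduced (`s59nz_isReduced`) and finite over `𝒪` (`s59nz_finite`), and
`A → T0` is onto; so `T0` is "von Neumann regular up to scalars" (`s59mindsb_vnr`), hence reduced,
and for `y ≠ 0` there is a prime `𝔭 ∌ y` with `𝔭 ∩ 𝒪 = 0` (`s59mindsb_exists_prime`); `T0 ⧸ 𝔭` is a
domain generated by eigenvalues in `𝒪`, so `T0 ⧸ 𝔭 = 𝒪` (`s59mindsb_sep_abs`).
-/
import Fermat.Agent.S59.Eta.NonZero
import Fermat.Agent.S59.Min.DictSepAbs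

set_option autoImplicit false
set_option linter.unusedSectionVars false
set_option linter.unusedVariables false
set_option linter.style.haveILetI false

noncomputable section

namespace Fermat.Agent.S59

open TensorProduct IsLocalRing

/-- **DICT-τ-SEP** (double): the `𝒪`-points of `T0` separate its elements. -/
theorem s59mindsb_sep (𝒪 : Type) [CommRing 𝒪] [IsDomain 𝒪] [IsDiscreteValuationRing 𝒪]
    [IsAdicComplete (maximalIdeal 𝒪) 𝒪] [CharZero 𝒪]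
    {M : ℕ} [NeZero M] {S : Set ℕ} (hS : ∀ q : ℕ, q.Prime → q ∣ M → q ∈ S)
    {T0 : Type} [CommRing T0] [Algebra 𝒪 T0]
    (htf : ∀ (c : 𝒪) (y : T0), c • y = 0 → c = 0 ∨ y = 0)
    (χ₀ : CuspForm.heckeAlgebra M 2 S →+* T0) (hgen0 : Algebra.adjoin 𝒪 (Set.range χ₀) = ⊤)
    (hstrong : ∀ (B : Type) [CommRing B] [IsDomain B] [Algebra 𝒪 B]
      (χ : CuspForm.heckeAlgebra M 2 S →+* B) (t), χ t ∈ Set.range (algebraMap 𝒪 B)) :
    ∀ y : T0, (∀ x : T0 →ₐ[𝒪] 𝒪, x y = 0) → y = 0 := by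
  haveI hred : IsReduced (𝒪 ⊗[ℤ] ↥(CuspForm.heckeAlgebra M 2 S)) := s59nz_isReduced 𝒪 (M := M) hS
  haveI hfin : Module.Finite 𝒪 (𝒪 ⊗[ℤ] ↥(CuspForm.heckeAlgebra M 2 S)) :=
    s59nz_finite 𝒪 (M := M) hS
  haveI : Algebra.IsIntegral 𝒪 (𝒪 ⊗[ℤ] ↥(CuspForm.heckeAlgebra M 2 S)) :=
    Algebra.IsIntegral.of_finite 𝒪 _
  -- the surjection `A → T0`
  let F : 𝒪 ⊗[ℤ] ↥(CuspForm.heckeAlgebra M 2 S) →ₐ[𝒪] T0 :=
    Algebra.TensorProduct.lift (Algebra.ofId 𝒪 T0) χ₀.toIntAlgHom (fun _ _ => Commute.all _ _)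
  have hFt : ∀ t : CuspForm.heckeAlgebra M 2 S, F ((1 : 𝒪) ⊗ₜ[ℤ] t) = χ₀ t := by
    intro t
    simp [F]
  have hFsurj : Function.Surjective F := by
    have hle : Algebra.adjoin 𝒪 (Set.range χ₀) ≤ F.range := by
      apply Algebra.adjoin_le
      rintro _ ⟨t, rfl⟩
      exact ⟨(1 : 𝒪) ⊗ₜ[ℤ] t, hFt t⟩
    rw [hgen0] at hle
    intro y
    exact hle (Algebra.mem_top (R := 𝒪) (x := y))
  have hvnr : ∀ y : T0, ∃ (c : 𝒪) (b : T0), c ≠ 0 ∧ c • y = y * y * b := by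
    intro y
    obtain ⟨w, rfl⟩ := hFsurj y
    obtain ⟨c, a, hc, hca⟩ := s59mindsb_vnr (𝒪 := 𝒪) w
    refine ⟨c, F a, hc, ?_⟩
    rw [← map_smul, hca, map_mul, map_mul]
  refine s59mindsb_sep_abs htf hvnr ?_
  intro 𝔭 hprime hd
  haveI := hprime
  haveI : IsDomain (T0 ⧸ 𝔭) := Ideal.Quotient.isDomain 𝔭
  have hχ : ∀ t : CuspForm.heckeAlgebra M 2 S,
      (Ideal.Quotient.mk 𝔭) (χ₀ t) ∈ Set.range (algebraMap 𝒪 (T0 ⧸ 𝔭)) :=
    fun t => hstrong (T0 ⧸ 𝔭) ((Ideal.Quotient.mk 𝔭).comp χ₀) t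
  have hall : ∀ z : T0, (Ideal.Quotient.mk 𝔭) z ∈ Set.range (algebraMap 𝒪 (T0 ⧸ 𝔭)) := by
    intro z
    have hz : z ∈ Algebra.adjoin 𝒪 (Set.range χ₀) := by
      rw [hgen0]
      exact Algebra.mem_top
    induction hz using Algebra.adjoin_induction with
    | mem x hx =>
      obtain ⟨t, rfl⟩ := hx
      exact hχ t
    | algebraMap r => exact ⟨r, rfl⟩
    | add x y _ _ ihx ihy =>
      obtain ⟨a, ha⟩ := ihx
      obtain ⟨b, hb⟩ := ihy
      exact ⟨a + b, by rw [map_add, map_add, ha, hb]⟩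
    | mul x y _ _ ihx ihy =>
      obtain ⟨a, ha⟩ := ihx
      obtain ⟨b, hb⟩ := ihy
      exact ⟨a * b, by rw [map_mul, map_mul, ha, hb]⟩
  intro z
  obtain ⟨z', rfl⟩ := Ideal.Quotient.mk_surjective z
  exact hall z'

end Fermat.Agent.S59
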