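/-
S59, wall R1 (MIN′), leaf **ASM-FEED / STAGE, τ-version** (helper67): the contract (R1) of the top
chain for ONE stage `s`, when the base of the Taylor–Wiles levels is the base `(T0, j0, ρ0)` of the
K-machine and `τ : s.T ↠ T0` is the comparison map of DICT-τ (`s59mindt_main`, S59/Min/DictTau.lean).

* `s59minfd_stage_tau` : `Function.Bijective s.γ ∧ s.lPhi ≤ length (𝒪 ⧸ s.etaL)` from
  S56 (flat half), DEF-COND, `τ` (surjective, compatible with the traces), the `T0`-module `M` with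
  `𝒪`-basis `m` (`j0` = the matrices), the levels `hHk` over `(T0, j0, ρ0)`, and the ambient lattice
  `(ι', B, E', x₀)` with `hJ : s.etaL = s59eta_J B E' (ι' x₀)`;
  (`s59minfd_stage_dict`, the same with `τ` produced by DICT-τ, is in S59/Min/FeedStageDict.lean.)
-/
import Fermat.Agent.S59.Min.FeedStage
import Fermat.Agent.S59.Min.DictTau

set_option autoImplicit false
set_option linter.style.haveILetI false
set_option linter.unusedSectionVars false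
set_option linter.unusedVariables false
set_option linter.style.longLine false

noncomputable section

namespace Fermat.Agent.S59

open IsLocalRing Fermat.Agent.TW Fermat.Agent.RT Fermat.Agent.RT.Prod Fermat.Agent.S53
  Fermat.Agent.RT.Even

section StageTau

variable {𝒪 : Type} [CommRing 𝒪] [IsDomain 𝒪] [IsDiscreteValuationRing 𝒪]
  [IsAdicComplete (maximalIdeal 𝒪) 𝒪] [Finite (ResidueField 𝒪)]
variable {ρbar : ResidualGaloisRep (ResidueField 𝒪)}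

/-- **the contract (R1) for one stage, τ-version**. -/
theorem s59minfd_stage_tau {p : ℕ} (hp : p.Prime) {S Smin : Finset ℕ}
    (H : TWHyp 𝒪 p ρbar S Smin)
    (s : S59Stage 𝒪 ρbar (twFlat 𝒪 p Smin ∅))
    (hD : ∀ Q : Finset ℕ, Nonempty (GaloisRep.DeformationRingData 𝒪 ρbar (twFlat 𝒪 p Smin Q)))
    {r : ℕ}
    (hS56 : ∀ n : ℕ, ∃ qv : Fin r → ℕ, IsTWFamily p ρbar S n r qv ∧
      ∀ DQ : GaloisRep.DeformationRingData 𝒪 ρbar (twFlat 𝒪 p Smin (Finset.univ.image qv)),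
        ∃ γ : MvPowerSeries (Fin r) 𝒪 →ₐ[𝒪] DQ.R, Function.Surjective γ)
    {T0 : Type} [CommRing T0] [IsLocalRing T0] [Algebra 𝒪 T0]
    (ρ0 : GaloisRepAdic T0)
    (τ : s.T →ₐ[𝒪] T0) (hτs : Function.Surjective τ)
    (hτtr : ∀ σ : RtpaG, τ (LinearMap.trace s.T s.H.ρ.V (s.H.ρ.ρ σ)) =
      LinearMap.trace T0 ρ0.V (ρ0.ρ σ))
    {d : ℕ} {M : Type} [AddCommGroup M] [Module 𝒪 M] [Module T0 M] [IsScalarTower 𝒪 T0 M]
    [Nontrivial M] (m : Module.Basis (Fin d) 𝒪 M)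
    (j0 : T0 →ₐ[𝒪] Matrix (Fin d) (Fin d) 𝒪)
    (hj0 : ∀ (t : T0) (i j : Fin d), j0 t i j = m.repr (t • m j) i)
    {ι : Type} [Fintype ι] {rt : ι → ℕ} (hr : Finset.univ.image rt = ∅)
    {σ φ : ι → RtpaG} {tχ : ι → 𝒪} {lam : 𝒪} {Sig0 Phi0 : ι → Matrix (Fin 2) (Fin 2) T0}
    (hHk : ∀ (n : ℕ) (qv : Fin r → ℕ), IsTWFamily p ρbar S n r qv →
      ∃ (E : Set (RttwS 𝒪 r ⧸ maximalIdeal (RttwS 𝒪 r) ^ n))
        (A : Type) (_ : CommRing A) (_ : IsLocalRing A) (_ : Algebra 𝒪 A)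
        (ιA : ResidueField 𝒪 →+* ResidueField A) (ρ : GaloisRepAdic A)
        (b : Module.Basis (Fin 2) A ρ.V) (β βi : ℕ → Matrix (Fin 2) (Fin 2) A)
        (π1 πχ : A →ₐ[𝒪] Matrix (Fin d) (Fin d)
          (RttwS 𝒪 r ⧸ maximalIdeal (RttwS 𝒪 r) ^ n)),
        TWGal p ρbar Smin (Finset.univ.image qv) rt σ φ tχ lam r d j0 Sig0 Phi0 n E ιA ρ b β βi
          π1 πχ ∧
        (∀ g : RtpaG, (π1 (LinearMap.trace A ρ.V (ρ.ρ g))).map (Ideal.Quotient.factor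
            (le_sup_right : maximalIdeal (RttwS 𝒪 r) ^ n ≤
              rttwAug 𝒪 r ⊔ maximalIdeal (RttwS 𝒪 r) ^ n)) =
          rttwBaseRed r d n (j0 (LinearMap.trace T0 ρ0.V (ρ0.ρ g)))) ∧
        ∀ j : Fin r, ∃ (g : RtpaG) (P : ValuationSubring (AlgebraicClosure ℚ)),
          P.LiesOverPrime (qv j) ∧ g ∈ P.inertiaSubgroupIn ℚ ∧
          π1 (LinearMap.trace A ρ.V (ρ.ρ g)) ^ 2 - 4 =
            algebraMap (RttwS 𝒪 r ⧸ maximalIdeal (RttwS 𝒪 r) ^ n)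
              (Matrix (Fin d) (Fin d) (RttwS 𝒪 r ⧸ maximalIdeal (RttwS 𝒪 r) ^ n))
              (Ideal.Quotient.mk _ (MvPowerSeries.X j) ^ 2))
    {L : Type} [AddCommGroup L] [Module 𝒪 L] (ι' : M →ₗ[𝒪] L) (B : L →ₗ[𝒪] L →ₗ[𝒪] 𝒪)
    (hB : ∀ (t : T0) (x y : M), B (ι' (t • x)) (ι' y) = B (ι' x) (ι' (t • y)))
    (E' : Submodule 𝒪 L)
    (hE : ∀ y ∈ E', ∃ m' : M, (∀ t : s.T, τ t • m' = s.πT t • m') ∧ ι' m' = y)
    (x₀ : M) (hx₀ : ∀ t : s.T, τ t • x₀ = s.πT t • x₀)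
    (hJ : s.etaL = s59eta_J B E' (ι' x₀)) :
    Function.Bijective s.γ ∧ s.lPhi ≤ Module.length 𝒪 (𝒪 ⧸ s.etaL) := by
  letI : Module s.T M := Module.compHom M (τ : s.T →+* T0)
  letI : Module s.D.R M :=
    Module.compHom M ((τ.comp s.γ : s.D.R →ₐ[𝒪] T0) : s.D.R →+* T0)
  haveI : IsScalarTower 𝒪 s.D.R M := ⟨fun c t x => by
    show τ (s.γ (c • t)) • x = c • (τ (s.γ t) • x)
    rw [map_smul, map_smul, smul_assoc]⟩
  have hΘ : ∀ y : s.D.R, s59ptTheta m y = j0 ((τ.comp s.γ) y) := by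
    intro y
    ext i j
    rw [s59ptTheta_apply, hj0]
    rfl
  have h := s59minfd_base hp H s.D hD hS56 j0 ρ0 (τ.comp s.γ) (hτs.comp s.γ_surj)
    (fun σ => by rw [AlgHom.comp_apply, s.γ_trace, hτtr]) m hΘ hr hHk
    s.γ s.γ_surj s.πT (fun t x => rfl) ι' B (fun t x y => hB (τ t) x y) E' hE x₀ hx₀
  refine ⟨h.1, ?_⟩
  rw [hJ]
  exact h.2

end StageTau

end Fermat.Agent.S59

end
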