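/-
S59, wall R1 (MIN′), leaf **ASM-FEED / STAGE, dictionary version** (helper67): the contract (R1)
of the top chain for ONE stage `s`, with the comparison map `τ : s.T ↠ T0` PRODUCED by DICT-τ
(`s59mindt_main`) — so the hypotheses are in terms of the base `(T0, j0, ρ0, χ₀)` of the K-machine
only:

* `χ₀ : heckeAlgebra s.N 2 s.S →+* T0` (`T_ℓ ↦ a ℓ`), `hres`, `hsep0`, `hgen0`, `habs0`, `hfrob0`
  (DICT-τ);
* the `T0`-module `M` with `𝒪`-basis `m`, the levels `hHk` over `(T0, j0, ρ0)`;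
* the ambient lattice `(ι', B, E', x₀)`, eigen-conditions stated for the Hecke operators `χ₀ h`,
  and `hJ : s.etaL = s59eta_J B E' (ι' x₀)`.

* `s59minfd_eig_of_gen` : an eigenvector for the `χ₀ h` is an eigenvector for `τ t`, `t : T`;
* `s59minfd_stage_dict` : `Function.Bijective s.γ ∧ s.lPhi ≤ length (𝒪 ⧸ s.etaL)`.
-/
import Fermat.Agent.S59.Min.FeedStageTau

set_option autoImplicit false
set_option linter.style.haveILetI false
set_option linter.unusedSectionVars false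
set_option linter.unusedVariables false
set_option linter.style.longLine false

noncomputable section

namespace Fermat.Agent.S59

open IsLocalRing Fermat.Agent.TW Fermat.Agent.RT Fermat.Agent.RT.Prod Fermat.Agent.S53
  Fermat.Agent.RT.Even

section Eig

variable {𝒪 : Type} [CommRing 𝒪] {Hk T T0 : Type} [CommRing Hk] [CommRing T] [CommRing T0]
  [Algebra 𝒪 T] [Algebra 𝒪 T0]
  {M : Type} [AddCommGroup M] [Module 𝒪 M] [Module T0 M] [IsScalarTower 𝒪 T0 M]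

/-- an eigenvector for the generators is an eigenvector for the whole ring -/
theorem s59minfd_eig_of_gen (π : Hk →+* T) (hgen : Algebra.adjoin 𝒪 (Set.range π) = ⊤)
    (χ₀ : Hk →+* T0) (τ : T →ₐ[𝒪] T0) (hτ : ∀ h, τ (π h) = χ₀ h) (πT : T →ₐ[𝒪] 𝒪)
    (x : M) (hx : ∀ h : Hk, χ₀ h • x = πT (π h) • x) (t : T) : τ t • x = πT t • x := by
  have ht : t ∈ Algebra.adjoin 𝒪 (Set.range π) := by rw [hgen]; exact Algebra.mem_top
  induction ht using Algebra.adjoin_induction with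
  | mem y hy =>
    obtain ⟨h, rfl⟩ := hy
    rw [hτ h]
    exact hx h
  | algebraMap c =>
    rw [AlgHom.commutes, AlgHom.commutes, algebraMap_smul, Algebra.algebraMap_self,
      RingHom.id_apply]
  | add y z _ _ hy hz =>
    rw [map_add, map_add, add_smul, add_smul, hy, hz]
  | mul y z _ _ hy hz =>
    rw [map_mul, map_mul, mul_smul, hz, smul_comm, hy, ← mul_smul, mul_comm]

end Eig

section StageDict

variable {𝒪 : Type} [CommRing 𝒪] [IsDomain 𝒪] [IsDiscreteValuationRing 𝒪]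
  [IsAdicComplete (maximalIdeal 𝒪) 𝒪] [Finite (ResidueField 𝒪)]
variable {ρbar : ResidualGaloisRep (ResidueField 𝒪)}

/-- **the contract (R1) for one stage, dictionary version**. -/
theorem s59minfd_stage_dict {p : ℕ} (hp : p.Prime) {S Smin : Finset ℕ}
    (H : TWHyp 𝒪 p ρbar S Smin)
    (s : S59Stage 𝒪 ρbar (twFlat 𝒪 p Smin ∅))
    (hD : ∀ Q : Finset ℕ, Nonempty (GaloisRep.DeformationRingData 𝒪 ρbar (twFlat 𝒪 p Smin Q)))
    {r : ℕ}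
    (hS56 : ∀ n : ℕ, ∃ qv : Fin r → ℕ, IsTWFamily p ρbar S n r qv ∧
      ∀ DQ : GaloisRep.DeformationRingData 𝒪 ρbar (twFlat 𝒪 p Smin (Finset.univ.image qv)),
        ∃ γ : MvPowerSeries (Fin r) 𝒪 →ₐ[𝒪] DQ.R, Function.Surjective γ)
    {T0 : Type} [CommRing T0] [IsLocalRing T0] [IsNoetherianRing T0] [Algebra 𝒪 T0]
    (ρ0 : GaloisRepAdic T0) (habs0 : ρ0.residual.IsAbsolutelyIrreducible)
    (χ₀ : CuspForm.heckeAlgebra s.N 2 s.S →+* T0)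
    (hres : ∀ (x : T0 →ₐ[𝒪] 𝒪) (t : CuspForm.heckeAlgebra s.N 2 s.S),
      residue 𝒪 (x (χ₀ t)) = s.θ t)
    (hsep0 : ∀ y : T0, (∀ x : T0 →ₐ[𝒪] 𝒪, x y = 0) → y = 0)
    (hgen0 : Algebra.adjoin 𝒪 (Set.range χ₀) = ⊤)
    (Sf : Finset ℕ)
    (hfrob0 : ∀ (ℓ : ℕ) (hℓ : ℓ.Prime), ℓ ∉ Sf → ∃ (hℓN : ¬ ℓ ∣ s.N) (hℓS : ℓ ∉ s.S),
      ∀ A : ValuationSubring (AlgebraicClosure ℚ), A.LiesOverPrime ℓ →
      ∀ σ : AlgebraicClosure ℚ ≃ₐ[ℚ] AlgebraicClosure ℚ, A.IsFrobeniusAt σ ℓ →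
        LinearMap.charpoly (ρ0.ρ σ) =
          Polynomial.X ^ 2 - Polynomial.C (χ₀ (CuspForm.heckeAlgebra.T hℓ hℓN hℓS)) *
            Polynomial.X + Polynomial.C ((ℓ : T0)))
    {d : ℕ} {M : Type} [AddCommGroup M] [Module 𝒪 M] [Module T0 M] [IsScalarTower 𝒪 T0 M]
    [Nontrivial M] (m : Module.Basis (Fin d) 𝒪 M)
    (j0 : T0 →ₐ[𝒪] Matrix (Fin d) (Fin d) 𝒪)
    (hj0 : ∀ (t : T0) (i j : Fin d), j0 t i j = m.repr (t • m j) i)
    {ι : Type} [Fintype ι] {rt : ι → ℕ} (hr : Finset.univ.image rt = ∅)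
    {σ φ : ι → RtpaG} {tχ : ι → 𝒪} {lam : 𝒪} {Sig0 Phi0 : ι → Matrix (Fin 2) (Fin 2) T0}
    (hHk : ∀ (n : ℕ) (qv : Fin r → ℕ), IsTWFamily p ρbar S n r qv →
      ∃ (E : Set (RttwS 𝒪 r ⧸ maximalIdeal (RttwS 𝒪 r) ^ n))
        (A : Type) (_ : CommRing A) (_ : IsLocalRing A) (_ : Algebra 𝒪 A)
        (ιA : ResidueField 𝒪 →+* ResidueField A) (ρ : GaloisRepAdic A)
        (b : Module.Basis (Fin 2) A ρ.V) (β βi : ℕ → Matrix (Fin 2) (Fin 2) A)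
        (π1 πχ : A →ₐ[𝒪] Matrix (Fin d) (Fin d)
          (RttwS 𝒪 r ⧸ maximalIdeal (RttwS 𝒪 r) ^ n)),
        TWGal p ρbar Smin (Finset.univ.image qv) rt σ φ tχ lam r d j0 Sig0 Phi0 n E ιA ρ b β βi
          π1 πχ ∧
        (∀ g : RtpaG, (π1 (LinearMap.trace A ρ.V (ρ.ρ g))).map (Ideal.Quotient.factor
            (le_sup_right : maximalIdeal (RttwS 𝒪 r) ^ n ≤
              rttwAug 𝒪 r ⊔ maximalIdeal (RttwS 𝒪 r) ^ n)) =
          rttwBaseRed r d n (j0 (LinearMap.trace T0 ρ0.V (ρ0.ρ g)))) ∧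
        ∀ j : Fin r, ∃ (g : RtpaG) (P : ValuationSubring (AlgebraicClosure ℚ)),
          P.LiesOverPrime (qv j) ∧ g ∈ P.inertiaSubgroupIn ℚ ∧
          π1 (LinearMap.trace A ρ.V (ρ.ρ g)) ^ 2 - 4 =
            algebraMap (RttwS 𝒪 r ⧸ maximalIdeal (RttwS 𝒪 r) ^ n)
              (Matrix (Fin d) (Fin d) (RttwS 𝒪 r ⧸ maximalIdeal (RttwS 𝒪 r) ^ n))
              (Ideal.Quotient.mk _ (MvPowerSeries.X j) ^ 2))
    {L : Type} [AddCommGroup L] [Module 𝒪 L] (ι' : M →ₗ[𝒪] L) (B : L →ₗ[𝒪] L →ₗ[𝒪] 𝒪)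
    (hB : ∀ (t : T0) (x y : M), B (ι' (t • x)) (ι' y) = B (ι' x) (ι' (t • y)))
    (E' : Submodule 𝒪 L)
    (hE : ∀ y ∈ E', ∃ m' : M,
      (∀ h : CuspForm.heckeAlgebra s.N 2 s.S, χ₀ h • m' = s.πT (s.H.π h) • m') ∧ ι' m' = y)
    (x₀ : M) (hx₀ : ∀ h : CuspForm.heckeAlgebra s.N 2 s.S, χ₀ h • x₀ = s.πT (s.H.π h) • x₀)
    (hJ : s.etaL = s59eta_J B E' (ι' x₀)) :
    Function.Bijective s.γ ∧ s.lPhi ≤ Module.length 𝒪 (𝒪 ⧸ s.etaL) := by
  obtain ⟨τ, hτs, hτ, hτl, he, htr⟩ :=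
    s59mindt_main s.H χ₀ hres hsep0 hgen0 ρ0 habs0 Sf hfrob0
  have heig : ∀ x : M, (∀ h : CuspForm.heckeAlgebra s.N 2 s.S,
      χ₀ h • x = s.πT (s.H.π h) • x) → ∀ t : s.T, τ t • x = s.πT t • x :=
    fun x hx t => s59minfd_eig_of_gen s.H.π s.H.adjoin_range_π χ₀ τ hτ s.πT x hx t
  refine s59minfd_stage_tau hp H s hD hS56 ρ0 τ hτs htr m j0 hj0 hr hHk ι' B hB E' ?_ x₀
    (heig x₀ hx₀) hJ
  intro y hy
  obtain ⟨m', hm', rfl⟩ := hE y hy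
  exact ⟨m', heig m' hm', rfl⟩

end StageDict

end Fermat.Agent.S59

end
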