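/-
S59, wall R1 (MIN′), leaf **R1-FRAME**, part 1 (helper57): wiring of the Taylor–Wiles level data into
the prelude's structure `Algebra.PatchingLevel` / `Algebra.PatchingDatum`.  Ledger: NOTES/S59-R1.md.

`P = 𝒪⟦X₁..X_r⟧ = MvPowerSeries (Fin r) 𝒪`.

* `s59minfrQuot`      : **quotient of a level**: `PatchingLevel 𝒪 r R M J'`, `J' ≤ J ≤ (X₁..X_r)`
                        ⇒ `PatchingLevel 𝒪 r R M J` (`N` is replaced by `N ⧸ φ(J) N`): the module
                        `L_Q`, free over `𝒪[Δ_Q]`, gives a level for `𝒪[Δ_Q / pⁿ]`;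
* `s59minfr_J_le_X`, `s59minfr_J_le_J` : `J_k = ((1 + X_j)^{k_j} − 1)_j ≤ (X)`, and `J_{k'} ≤ J_k` if
                        `k_j ∣ k'_j`;
* `s59minfrOf`        : **a level from the TW data at one set `Q`**: `σ : P ↠ R_Q` (R1-TWP),
                        `ρ : R_Q ↠ R_∅` with kernel `(σ φ X_j)_j` (R1-CTRL), `φ : P → P` the
                        `Δ`-structure (lifted to `P`), `N = L_Q` an `R_Q`-module with
                        `π : L_Q ↠ L_∅`, `ker π = (ker ρ) L_Q`, and a frame `b` of `L_Q` over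
                        `P ⧸ J'` through `σ ∘ φ` (R1-FREE);
* `s59minfr_level`    : both steps at once, for `J = J_{ℓⁿ}`, `J' = J_{ℓ^{m_j}}`, `n ≤ m_j`;
* `s59minfr_datum`    : a level for every `n` ⇒ `Algebra.PatchingDatum 𝒪 ℓ r R M`.
Mathlib + the prelude's `Def_Algebra_PatchingDatum` only.
-/
import Mathlib
import Fermat.Prelude.Def_Algebra_PatchingDatum

set_option autoImplicit false
set_option linter.unusedSectionVars false
set_option linter.unusedVariables false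
set_option linter.style.longLine false

noncomputable section

namespace Fermat.Agent.S59

open MvPowerSeries

section Quot

variable {𝒪 : Type} [CommRing 𝒪] {r : ℕ} {R : Type} [CommRing R] [Algebra 𝒪 R]
  {M : Type} [AddCommGroup M] [Module R M]

/-- the submodule `φ(J) • N` of the module of a level -/
def s59minfrK {J' : Ideal (MvPowerSeries (Fin r) 𝒪)} (L : Algebra.PatchingLevel 𝒪 r R M J')
    (J : Ideal (MvPowerSeries (Fin r) 𝒪)) : Submodule (MvPowerSeries (Fin r) 𝒪) L.N :=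
  (Ideal.map (L.φ : MvPowerSeries (Fin r) 𝒪 →+* MvPowerSeries (Fin r) 𝒪) J) •
    (⊤ : Submodule (MvPowerSeries (Fin r) 𝒪) L.N)

/-- `ψ ∘ φ` kills the ideal `(X₁..X_r)` -/
theorem s59minfr_psi_phi {J' : Ideal (MvPowerSeries (Fin r) 𝒪)}
    (L : Algebra.PatchingLevel 𝒪 r R M J') {f : MvPowerSeries (Fin r) 𝒪}
    (hf : f ∈ Ideal.span (Set.range (MvPowerSeries.X : Fin r → MvPowerSeries (Fin r) 𝒪))) :
    L.ψ (L.φ f) = 0 := by
  have h : Ideal.span (Set.range (MvPowerSeries.X : Fin r → MvPowerSeries (Fin r) 𝒪)) ≤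
      RingHom.ker ((L.ψ : MvPowerSeries (Fin r) 𝒪 →+* R).comp
        (L.φ : MvPowerSeries (Fin r) 𝒪 →+* MvPowerSeries (Fin r) 𝒪)) := by
    rw [Ideal.span_le]
    rintro _ ⟨i, rfl⟩
    exact L.ψ_φ_X i
  exact h hf

/-- a multiple `g • x`, `g ∈ φ(J) P`, is a combination of the frame with coefficients in `J` -/
theorem s59minfr_smul_mem {J' : Ideal (MvPowerSeries (Fin r) 𝒪)}
    (L : Algebra.PatchingLevel 𝒪 r R M J') (J : Ideal (MvPowerSeries (Fin r) 𝒪))
    {g : MvPowerSeries (Fin r) 𝒪}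
    (hg : g ∈ Ideal.map (L.φ : MvPowerSeries (Fin r) 𝒪 →+* MvPowerSeries (Fin r) 𝒪) J) :
    ∀ x : L.N, ∃ e : Fin L.d → MvPowerSeries (Fin r) 𝒪,
      (∀ i, e i ∈ J) ∧ g • x = ∑ i, L.φ (e i) • L.b i := by
  unfold Ideal.map at hg
  induction hg using Submodule.span_induction with
  | mem g hg =>
    obtain ⟨j, hj, rfl⟩ := hg
    intro x
    obtain ⟨c, rfl⟩ := L.b_span x
    refine ⟨fun i => j * c i, fun i => J.mul_mem_right _ hj, ?_⟩
    rw [Finset.smul_sum]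
    refine Finset.sum_congr rfl fun i _ => ?_
    rw [smul_smul, map_mul]
    rfl
  | zero =>
    intro x
    exact ⟨fun _ => 0, fun _ => J.zero_mem, by simp⟩
  | add g₁ g₂ _ _ h₁ h₂ =>
    intro x
    obtain ⟨e₁, he₁, h₁⟩ := h₁ x
    obtain ⟨e₂, he₂, h₂⟩ := h₂ x
    refine ⟨fun i => e₁ i + e₂ i, fun i => J.add_mem (he₁ i) (he₂ i), ?_⟩
    rw [add_smul, h₁, h₂, ← Finset.sum_add_distrib]
    refine Finset.sum_congr rfl fun i _ => ?_
    rw [map_add, add_smul]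
  | smul a g _ h =>
    intro x
    obtain ⟨e, he, h⟩ := h (a • x)
    refine ⟨e, he, ?_⟩
    rw [← h, smul_eq_mul, mul_comm, mul_smul]

/-- every element of `φ(J) • N` is a combination of the frame with coefficients in `J` -/
theorem s59minfr_mem_K {J' : Ideal (MvPowerSeries (Fin r) 𝒪)}
    (L : Algebra.PatchingLevel 𝒪 r R M J') (J : Ideal (MvPowerSeries (Fin r) 𝒪))
    {y : L.N} (hy : y ∈ s59minfrK L J) :
    ∃ e : Fin L.d → MvPowerSeries (Fin r) 𝒪, (∀ i, e i ∈ J) ∧ y = ∑ i, L.φ (e i) • L.b i := by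
  unfold s59minfrK at hy
  induction hy using Submodule.smul_induction_on' with
  | smul g hg x _ => exact s59minfr_smul_mem L J hg x
  | add y z _ _ hy hz =>
    obtain ⟨e₁, he₁, rfl⟩ := hy
    obtain ⟨e₂, he₂, rfl⟩ := hz
    refine ⟨fun i => e₁ i + e₂ i, fun i => J.add_mem (he₁ i) (he₂ i), ?_⟩
    rw [← Finset.sum_add_distrib]
    refine Finset.sum_congr rfl fun i _ => ?_
    rw [map_add, add_smul]

/-- a combination of the frame with coefficients in `J` lies in `φ(J) • N` -/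
theorem s59minfr_sum_mem_K {J' : Ideal (MvPowerSeries (Fin r) 𝒪)}
    (L : Algebra.PatchingLevel 𝒪 r R M J') (J : Ideal (MvPowerSeries (Fin r) 𝒪))
    (e : Fin L.d → MvPowerSeries (Fin r) 𝒪) (he : ∀ i, e i ∈ J) :
    ∑ i, L.φ (e i) • L.b i ∈ s59minfrK L J :=
  Submodule.sum_mem _ fun i _ =>
    Submodule.smul_mem_smul (Ideal.mem_map_of_mem _ (he i)) Submodule.mem_top

/-- `π` kills `φ(J) • N` when `J ≤ (X₁..X_r)` -/
theorem s59minfr_K_le_ker {J' : Ideal (MvPowerSeries (Fin r) 𝒪)}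
    (L : Algebra.PatchingLevel 𝒪 r R M J') (J : Ideal (MvPowerSeries (Fin r) 𝒪))
    (hJ : J ≤ Ideal.span (Set.range (MvPowerSeries.X : Fin r → MvPowerSeries (Fin r) 𝒪)))
    {y : L.N} (hy : y ∈ s59minfrK L J) : L.π y = 0 := by
  obtain ⟨e, he, rfl⟩ := s59minfr_mem_K L J hy
  rw [map_sum]
  refine Finset.sum_eq_zero fun i _ => ?_
  rw [L.π_smul, s59minfr_psi_phi L (hJ (he i)), zero_smul]

/-- `π` as a `ψ`-semilinear map -/
def s59minfrPi {J' : Ideal (MvPowerSeries (Fin r) 𝒪)} (L : Algebra.PatchingLevel 𝒪 r R M J') :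
    L.N →ₛₗ[(L.ψ : MvPowerSeries (Fin r) 𝒪 →+* R)] M where
  toFun := L.π
  map_add' := L.π.map_add
  map_smul' := L.π_smul

theorem s59minfrPi_apply {J' : Ideal (MvPowerSeries (Fin r) 𝒪)}
    (L : Algebra.PatchingLevel 𝒪 r R M J') (x : L.N) : s59minfrPi L x = L.π x := rfl

/-- the induced map `N ⧸ φ(J) N → M` -/
def s59minfrPiQ {J' : Ideal (MvPowerSeries (Fin r) 𝒪)} (L : Algebra.PatchingLevel 𝒪 r R M J')
    (J : Ideal (MvPowerSeries (Fin r) 𝒪))
    (hJ : J ≤ Ideal.span (Set.range (MvPowerSeries.X : Fin r → MvPowerSeries (Fin r) 𝒪))) :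
    (L.N ⧸ s59minfrK L J) →ₛₗ[(L.ψ : MvPowerSeries (Fin r) 𝒪 →+* R)] M :=
  (s59minfrK L J).liftQ (s59minfrPi L) fun y hy => by
    rw [LinearMap.mem_ker]
    exact s59minfr_K_le_ker L J hJ hy

theorem s59minfrPiQ_mk {J' : Ideal (MvPowerSeries (Fin r) 𝒪)}
    (L : Algebra.PatchingLevel 𝒪 r R M J') (J : Ideal (MvPowerSeries (Fin r) 𝒪))
    (hJ : J ≤ Ideal.span (Set.range (MvPowerSeries.X : Fin r → MvPowerSeries (Fin r) 𝒪)))
    (x : L.N) : s59minfrPiQ L J hJ (Submodule.Quotient.mk x) = L.π x := rfl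

/-- **Quotient of a level.**  From a level with relation ideal `J'` and an ideal `J` with
`J' ≤ J ≤ (X₁..X_r)`, the level `N ⧸ φ(J) N` with relation ideal `J`. -/
def s59minfrQuot {J' : Ideal (MvPowerSeries (Fin r) 𝒪)} (L : Algebra.PatchingLevel 𝒪 r R M J')
    (J : Ideal (MvPowerSeries (Fin r) 𝒪)) (hJ' : J' ≤ J)
    (hJ : J ≤ Ideal.span (Set.range (MvPowerSeries.X : Fin r → MvPowerSeries (Fin r) 𝒪))) :
    Algebra.PatchingLevel 𝒪 r R M J where
  N := L.N ⧸ s59minfrK L J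
  instAddCommGroup := inferInstance
  instModule := inferInstance
  φ := L.φ
  ψ := L.ψ
  ψ_surjective := L.ψ_surjective
  ψ_φ_X := L.ψ_φ_X
  π := (s59minfrPiQ L J hJ).toAddMonoidHom
  π_smul := fun f x => (s59minfrPiQ L J hJ).map_smulₛₗ f x
  π_surjective := fun m => by
    obtain ⟨x, rfl⟩ := L.π_surjective m
    exact ⟨Submodule.Quotient.mk x, rfl⟩
  ker_π := fun x => by
    obtain ⟨x, rfl⟩ := Submodule.Quotient.mk_surjective _ x
    have hmap : (Ideal.span (Set.range fun i : Fin r => L.φ (MvPowerSeries.X i))) •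
        (⊤ : Submodule (MvPowerSeries (Fin r) 𝒪) (L.N ⧸ s59minfrK L J)) =
        Submodule.map (s59minfrK L J).mkQ
          ((Ideal.span (Set.range fun i : Fin r => L.φ (MvPowerSeries.X i))) •
            (⊤ : Submodule (MvPowerSeries (Fin r) 𝒪) L.N)) := by
      rw [Submodule.map_smul'', Submodule.map_top, Submodule.range_mkQ]
    show L.π x = 0 ↔ _
    rw [hmap, L.ker_π]
    constructor
    · intro hx
      exact ⟨x, hx, rfl⟩
    · rintro ⟨x₁, hx₁, hx⟩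
      have h1 : x₁ - x ∈ s59minfrK L J := by
        rw [← Submodule.Quotient.mk_eq_zero, Submodule.Quotient.mk_sub]
        exact sub_eq_zero.mpr hx
      have h2 : L.π (x₁ - x) = 0 := s59minfr_K_le_ker L J hJ h1
      have h3 : L.π x₁ = 0 := (L.ker_π x₁).mpr hx₁
      rw [map_sub, h3, zero_sub, neg_eq_zero] at h2
      exact (L.ker_π x).mp h2
  d := L.d
  b := fun i => Submodule.Quotient.mk (L.b i)
  b_span := fun x => by
    obtain ⟨x, rfl⟩ := Submodule.Quotient.mk_surjective _ x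
    obtain ⟨c, hc⟩ := L.b_span x
    refine ⟨c, ?_⟩
    rw [hc]
    show (s59minfrK L J).mkQ (∑ i, L.φ (c i) • L.b i) =
      ∑ i, L.φ (c i) • (s59minfrK L J).mkQ (L.b i)
    rw [map_sum]
    refine Finset.sum_congr rfl fun i _ => ?_
    rw [map_smul]
  b_rel := fun c => by
    have h0 : ∑ i, L.φ (c i) • (Submodule.Quotient.mk (L.b i) : L.N ⧸ s59minfrK L J) =
        Submodule.Quotient.mk (∑ i, L.φ (c i) • L.b i) := by
      show ∑ i, L.φ (c i) • (s59minfrK L J).mkQ (L.b i) =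
        (s59minfrK L J).mkQ (∑ i, L.φ (c i) • L.b i)
      rw [map_sum]
      refine Finset.sum_congr rfl fun i _ => ?_
      rw [map_smul]
    rw [h0, Submodule.Quotient.mk_eq_zero]
    constructor
    · intro h i
      obtain ⟨e, he, h1⟩ := s59minfr_mem_K L J h
      have h2 : ∑ i, L.φ (c i - e i) • L.b i = 0 := by
        simp only [map_sub, sub_smul, Finset.sum_sub_distrib]
        rw [h1, sub_self]
      have h3 := hJ' ((L.b_rel _).mp h2 i)
      have h4 := J.add_mem h3 (he i)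
      rwa [sub_add_cancel] at h4
    · intro h
      exact s59minfr_sum_mem_K L J c h

end Quot

/-! ### The ideals `J_k` -/

section J

variable (𝒪 : Type) [CommRing 𝒪] (r : ℕ)

/-- the ideal `J_k = ((1 + X_j)^{k_j} − 1)_j` of `𝒪⟦X₁..X_r⟧` -/
def s59minfrJ (k : Fin r → ℕ) : Ideal (MvPowerSeries (Fin r) 𝒪) :=
  Ideal.span (Set.range fun j : Fin r =>
    ((1 + MvPowerSeries.X j) ^ (k j) - 1 : MvPowerSeries (Fin r) 𝒪))

/-- `J_k ≤ (X₁..X_r)` -/
theorem s59minfr_J_le_X (k : Fin r → ℕ) :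
    s59minfrJ 𝒪 r k ≤
      Ideal.span (Set.range (MvPowerSeries.X : Fin r → MvPowerSeries (Fin r) 𝒪)) := by
  rw [s59minfrJ, Ideal.span_le]
  rintro _ ⟨j, rfl⟩
  have h : (MvPowerSeries.X j : MvPowerSeries (Fin r) 𝒪) ∣ (1 + MvPowerSeries.X j) ^ (k j) - 1 := by
    have := sub_dvd_pow_sub_pow (1 + MvPowerSeries.X j : MvPowerSeries (Fin r) 𝒪) 1 (k j)
    simpa using this
  obtain ⟨g, hg⟩ := h
  rw [SetLike.mem_coe]
  show (1 + MvPowerSeries.X j) ^ (k j) - 1 ∈ _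
  rw [hg]
  exact Ideal.mul_mem_right _ _ (Ideal.subset_span ⟨j, rfl⟩)

/-- `J_{k'} ≤ J_k` when `k_j ∣ k'_j` for all `j` -/
theorem s59minfr_J_le_J (k k' : Fin r → ℕ) (h : ∀ j, k j ∣ k' j) :
    s59minfrJ 𝒪 r k' ≤ s59minfrJ 𝒪 r k := by
  rw [s59minfrJ, Ideal.span_le]
  rintro _ ⟨j, rfl⟩
  obtain ⟨m, hm⟩ := h j
  have hd : ((1 + MvPowerSeries.X j) ^ (k j) - 1 : MvPowerSeries (Fin r) 𝒪) ∣
      (1 + MvPowerSeries.X j) ^ (k' j) - 1 := by
    rw [hm, pow_mul]
    have := sub_dvd_pow_sub_pow ((1 + MvPowerSeries.X j : MvPowerSeries (Fin r) 𝒪) ^ (k j)) 1 m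
    simpa using this
  obtain ⟨g, hg⟩ := hd
  rw [SetLike.mem_coe]
  show (1 + MvPowerSeries.X j) ^ (k' j) - 1 ∈ _
  rw [hg]
  exact Ideal.mul_mem_right _ _ (Ideal.subset_span ⟨j, rfl⟩)

/-- the relation ideal of the level `n` of a patching datum is `J_{ℓⁿ}` -/
theorem s59minfrJ_pow (ℓ n : ℕ) :
    s59minfrJ 𝒪 r (fun _ => ℓ ^ n) = Ideal.span (Set.range fun j : Fin r =>
      ((1 + MvPowerSeries.X j) ^ (ℓ ^ n) - 1 : MvPowerSeries (Fin r) 𝒪)) := rfl

end J

/-! ### `I • N` for a finitely generated ideal -/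

section SmulTop

variable {A N : Type*} [CommRing A] [AddCommGroup N] [Module A N] {r : ℕ}

theorem s59minfr_smul_exists (g : Fin r → A) {a : A} (ha : a ∈ Ideal.span (Set.range g)) :
    ∀ x : N, ∃ y : Fin r → N, a • x = ∑ i, g i • y i := by
  classical
  induction ha using Submodule.span_induction with
  | mem a ha =>
    obtain ⟨j, rfl⟩ := ha
    intro x
    refine ⟨fun i => if i = j then x else 0, ?_⟩
    rw [Finset.sum_eq_single j]
    · beta_reduce
      rw [if_pos rfl]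
    · intro i _ hij
      beta_reduce
      rw [if_neg hij, smul_zero]
    · intro h
      exact absurd (Finset.mem_univ j) h
  | zero =>
    intro x
    exact ⟨fun _ => 0, by simp⟩
  | add a₁ a₂ _ _ h₁ h₂ =>
    intro x
    obtain ⟨y₁, h₁⟩ := h₁ x
    obtain ⟨y₂, h₂⟩ := h₂ x
    refine ⟨fun i => y₁ i + y₂ i, ?_⟩
    rw [add_smul, h₁, h₂, ← Finset.sum_add_distrib]
    refine Finset.sum_congr rfl fun i _ => ?_
    rw [smul_add]
  | smul c a _ h =>
    intro x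
    obtain ⟨y, h⟩ := h (c • x)
    refine ⟨y, ?_⟩
    rw [← h, smul_eq_mul, mul_comm, mul_smul]

/-- `x ∈ (g₁..g_r) • N ↔ x = ∑ g_i y_i` -/
theorem s59minfr_mem_smul_top (g : Fin r → A) (x : N) :
    x ∈ Ideal.span (Set.range g) • (⊤ : Submodule A N) ↔ ∃ y : Fin r → N, x = ∑ i, g i • y i := by
  constructor
  · intro hx
    induction hx using Submodule.smul_induction_on' with
    | smul a ha x _ => exact s59minfr_smul_exists g ha x
    | add x₁ x₂ _ _ h₁ h₂ =>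
      obtain ⟨y₁, rfl⟩ := h₁
      obtain ⟨y₂, rfl⟩ := h₂
      refine ⟨fun i => y₁ i + y₂ i, ?_⟩
      rw [← Finset.sum_add_distrib]
      refine Finset.sum_congr rfl fun i _ => ?_
      rw [smul_add]
  · rintro ⟨y, rfl⟩
    exact Submodule.sum_mem _ fun i _ =>
      Submodule.smul_mem_smul (Ideal.subset_span ⟨i, rfl⟩) Submodule.mem_top

end SmulTop

/-! ### A level from the Taylor–Wiles data at one set `Q` -/

section Of

variable {𝒪 : Type} [CommRing 𝒪] {r : ℕ} {R : Type} [CommRing R] [Algebra 𝒪 R]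
  {M : Type} [AddCommGroup M] [Module R M]

/-- **A level from the TW data.**  `σ : P ↠ R'` (`R' = R_Q`, R1-TWP), `ρ : R' ↠ R` with kernel
generated by the `σ (φ X_j)` (R1-CTRL; `φ : P → P` the `Δ_Q`-structure `Y_j ↦ δ_j − 1` lifted to `P`),
`N = L_Q` an `R'`-module, `π : N ↠ M` with `ker π = (ker ρ) N`, and a frame `b` of `N` over `P ⧸ J'`
through `σ ∘ φ` (R1-FREE). -/
def s59minfrOf (J' : Ideal (MvPowerSeries (Fin r) 𝒪)) {R' : Type} [CommRing R'] [Algebra 𝒪 R']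
    (σ : MvPowerSeries (Fin r) 𝒪 →ₐ[𝒪] R') (hσ : Function.Surjective σ)
    (ρ : R' →ₐ[𝒪] R) (hρ : Function.Surjective ρ)
    (φ : MvPowerSeries (Fin r) 𝒪 →ₐ[𝒪] MvPowerSeries (Fin r) 𝒪)
    (hker : RingHom.ker (ρ : R' →+* R) =
      Ideal.span (Set.range fun i : Fin r => σ (φ (MvPowerSeries.X i))))
    {N : Type} [AddCommGroup N] [Module R' N]
    (π : N →+ M) (hπ : ∀ (t : R') (x : N), π (t • x) = ρ t • π x)
    (hπs : Function.Surjective π)
    (hkerπ : ∀ x : N, π x = 0 ↔ x ∈ (RingHom.ker (ρ : R' →+* R)) • (⊤ : Submodule R' N))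
    (d : ℕ) (b : Fin d → N)
    (hspan : ∀ x : N, ∃ c : Fin d → MvPowerSeries (Fin r) 𝒪, x = ∑ i, σ (φ (c i)) • b i)
    (hrel : ∀ c : Fin d → MvPowerSeries (Fin r) 𝒪,
      ∑ i, σ (φ (c i)) • b i = 0 ↔ ∀ i, c i ∈ J') :
    Algebra.PatchingLevel 𝒪 r R M J' :=
  letI inst : Module (MvPowerSeries (Fin r) 𝒪) N :=
    Module.compHom N (σ : MvPowerSeries (Fin r) 𝒪 →+* R')
  { N := N
    instAddCommGroup := inferInstance
    instModule := inst
    φ := φ
    ψ := ρ.comp σ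
    ψ_surjective := hρ.comp hσ
    ψ_φ_X := fun i => by
      have h : σ (φ (MvPowerSeries.X i)) ∈ RingHom.ker (ρ : R' →+* R) := by
        rw [hker]
        exact Ideal.subset_span ⟨i, rfl⟩
      exact h
    π := π
    π_smul := fun f x => hπ (σ f) x
    π_surjective := hπs
    ker_π := fun x => by
      rw [hkerπ, hker, s59minfr_mem_smul_top, s59minfr_mem_smul_top]
      rfl
    d := d
    b := b
    b_span := hspan
    b_rel := hrel }

/-- **R1-FRAME, one level**: the TW data at a set `Q` of `r` primes `q_j` with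
`ℓ^{m_j} ∣ #Δ_{q_j}`, `n ≤ m_j`, give a level `n` of a patching datum. -/
theorem s59minfr_level (ℓ n : ℕ) (m : Fin r → ℕ) (hm : ∀ j, n ≤ m j)
    {R' : Type} [CommRing R'] [Algebra 𝒪 R']
    (σ : MvPowerSeries (Fin r) 𝒪 →ₐ[𝒪] R') (hσ : Function.Surjective σ)
    (ρ : R' →ₐ[𝒪] R) (hρ : Function.Surjective ρ)
    (φ : MvPowerSeries (Fin r) 𝒪 →ₐ[𝒪] MvPowerSeries (Fin r) 𝒪)
    (hker : RingHom.ker (ρ : R' →+* R) =
      Ideal.span (Set.range fun i : Fin r => σ (φ (MvPowerSeries.X i))))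
    {N : Type} [AddCommGroup N] [Module R' N]
    (π : N →+ M) (hπ : ∀ (t : R') (x : N), π (t • x) = ρ t • π x)
    (hπs : Function.Surjective π)
    (hkerπ : ∀ x : N, π x = 0 ↔ x ∈ (RingHom.ker (ρ : R' →+* R)) • (⊤ : Submodule R' N))
    (d : ℕ) (b : Fin d → N)
    (hspan : ∀ x : N, ∃ c : Fin d → MvPowerSeries (Fin r) 𝒪, x = ∑ i, σ (φ (c i)) • b i)
    (hrel : ∀ c : Fin d → MvPowerSeries (Fin r) 𝒪,
      ∑ i, σ (φ (c i)) • b i = 0 ↔ ∀ i, c i ∈ s59minfrJ 𝒪 r (fun j => ℓ ^ m j)) :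
    Nonempty (Algebra.PatchingLevel 𝒪 r R M (Ideal.span (Set.range fun j : Fin r =>
      ((1 + MvPowerSeries.X j) ^ (ℓ ^ n) - 1 : MvPowerSeries (Fin r) 𝒪)))) :=
  ⟨s59minfrQuot
    (s59minfrOf (s59minfrJ 𝒪 r (fun j => ℓ ^ m j)) σ hσ ρ hρ φ hker π hπ hπs hkerπ d b hspan hrel)
    (s59minfrJ 𝒪 r (fun _ => ℓ ^ n))
    (s59minfr_J_le_J 𝒪 r _ _ fun j => pow_dvd_pow ℓ (hm j))
    (s59minfr_J_le_X 𝒪 r _)⟩

/-- **R1-FRAME**: a level for every `n` is a patching datum. -/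
def s59minfrDatum (ℓ : ℕ)
    (h : ∀ n : ℕ, Nonempty (Algebra.PatchingLevel 𝒪 r R M (Ideal.span (Set.range fun j : Fin r =>
      ((1 + MvPowerSeries.X j) ^ (ℓ ^ n) - 1 : MvPowerSeries (Fin r) 𝒪))))) :
    Algebra.PatchingDatum 𝒪 ℓ r R M :=
  ⟨fun n => Classical.choice (h n)⟩

theorem s59minfr_datum (ℓ : ℕ)
    (h : ∀ n : ℕ, Nonempty (Algebra.PatchingLevel 𝒪 r R M (Ideal.span (Set.range fun j : Fin r =>
      ((1 + MvPowerSeries.X j) ^ (ℓ ^ n) - 1 : MvPowerSeries (Fin r) 𝒪))))) :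
    Nonempty (Algebra.PatchingDatum 𝒪 ℓ r R M) :=
  ⟨s59minfrDatum ℓ h⟩

end Of

end Fermat.Agent.S59

end
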