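/-
S59, wall R1 (MIN′), leaf **R1-FRAME**, part 3 (helper57): FRAME-BASIS — from a basis over the group
ring to a frame over `P ⧸ J`.   `P = 𝒪⟦X₁..X_r⟧`, `𝒪` a Noetherian local ring, `ℓ` a prime with
`ℓ ∈ 𝔪_𝒪`, `k_j = ℓ^{m_j}`, `J = ((1 + X_j)^{k_j} − 1)_j`.

* `s59minfrMon 𝒪 a = ∏_j (1 + X_j)^{a_j}`;
* `s59minfr_poly_mem`   : every polynomial is, modulo `J`, an `𝒪`-combination of the `(1 + X)^a`,
                          `a_j < k_j` (division by the `(1 + X_j)^{k_j} − 1`);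
* `s59minfr_pow_le_span`: if `(1 + x_j)^{ℓ^{m_j}} = 1` then `(x₁..x_r)^{N₀} ⊆ (ℓ)`;
* `s59minfr_frame_of_basis` : **FRAME-BASIS.**  `φ₀ : P → R'` with `(1 + φ₀ X_j)^{k_j} = 1`, `N` an
                          `R'`-module such that the `φ₀((1 + X)^a) • b_i` (`a_j < k_j`, `i < d`) form an
                          `𝒪`-basis of `N` (i.e. `b` is a basis of `N` over `𝒪[∏ ℤ/k_j]`).  Then
                          every `x ∈ N` is `∑ φ₀(c_i) • b_i` and `∑ φ₀(c_i) • b_i = 0 ↔ ∀ i, c_i ∈ J`: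
                          the hypotheses `hspan`, `hrel` of `s59minfr_level_of_struct(W)`.
                          In particular `ker(P → 𝒪[∏ ℤ/k_j]) = J`.
Proof of `hrel`: truncation + division give `c_i ∈ J + 𝔪_Pⁿ` for all `n`; ideals of `P` are closed.
-/
import Mathlib
import Fermat.Agent.S53.PowerSeries
import Fermat.Agent.RT.K2c.Local
import Fermat.Agent.S59.Min.Frame

set_option autoImplicit false
set_option linter.unusedSectionVars false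
set_option linter.unusedVariables false
set_option linter.style.longLine false
set_option linter.style.haveILetI false

noncomputable section

namespace Fermat.Agent.S59

open MvPowerSeries IsLocalRing

section Mon

variable (𝒪 : Type) [CommRing 𝒪] {r : ℕ}

/-- the monomial `(1 + X)^a = ∏_j (1 + X_j)^{a_j}` -/
def s59minfrMon (a : Fin r → ℕ) : MvPowerSeries (Fin r) 𝒪 :=
  ∏ j, (1 + MvPowerSeries.X j) ^ (a j)

theorem s59minfrMon_zero : s59minfrMon 𝒪 (fun _ : Fin r => 0) = 1 := by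
  unfold s59minfrMon
  exact Finset.prod_eq_one fun j _ => pow_zero _

theorem s59minfrMon_succ (a : Fin r → ℕ) (j : Fin r) :
    (1 + MvPowerSeries.X j) * s59minfrMon 𝒪 a = s59minfrMon 𝒪 (Function.update a j (a j + 1)) := by
  classical
  unfold s59minfrMon
  rw [← Finset.mul_prod_erase Finset.univ _ (Finset.mem_univ j),
    ← Finset.mul_prod_erase Finset.univ (fun i => (1 + MvPowerSeries.X i) ^
      (Function.update a j (a j + 1) i)) (Finset.mem_univ j)]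
  rw [Function.update_self, pow_succ', mul_assoc]
  congr 2
  refine Finset.prod_congr rfl fun i hi => ?_
  rw [Function.update_of_ne (Finset.ne_of_mem_erase hi)]

/-- the `𝒪`-span of all the `(1 + X)^a` -/
def s59minfrW (r : ℕ) : Submodule 𝒪 (MvPowerSeries (Fin r) 𝒪) :=
  Submodule.span 𝒪 (Set.range (s59minfrMon 𝒪 : (Fin r → ℕ) → MvPowerSeries (Fin r) 𝒪))

theorem s59minfr_X_mul_mem (j : Fin r) {f : MvPowerSeries (Fin r) 𝒪} (hf : f ∈ s59minfrW 𝒪 r) :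
    MvPowerSeries.X j * f ∈ s59minfrW 𝒪 r := by
  unfold s59minfrW at hf ⊢
  induction hf using Submodule.span_induction with
  | mem f hf =>
    obtain ⟨a, rfl⟩ := hf
    have h : MvPowerSeries.X j * s59minfrMon 𝒪 a =
        s59minfrMon 𝒪 (Function.update a j (a j + 1)) - s59minfrMon 𝒪 a := by
      rw [← s59minfrMon_succ, add_mul, one_mul, add_sub_cancel_left]
    rw [h]
    exact Submodule.sub_mem _ (Submodule.subset_span ⟨_, rfl⟩) (Submodule.subset_span ⟨_, rfl⟩)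
  | zero => rw [mul_zero]; exact Submodule.zero_mem _
  | add f g _ _ hf hg => rw [mul_add]; exact Submodule.add_mem _ hf hg
  | smul c f _ hf => rw [mul_smul_comm]; exact Submodule.smul_mem _ c hf

theorem s59minfr_poly_mul_mem (t : MvPolynomial (Fin r) 𝒪) :
    ∀ f ∈ s59minfrW 𝒪 r, (t : MvPowerSeries (Fin r) 𝒪) * f ∈ s59minfrW 𝒪 r := by
  induction t using MvPolynomial.induction_on with
  | C c =>
    intro f hf
    rw [MvPolynomial.coe_C, ← MvPowerSeries.smul_eq_C_mul]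
    exact Submodule.smul_mem _ c hf
  | add p q hp hq =>
    intro f hf
    rw [MvPolynomial.coe_add, add_mul]
    exact Submodule.add_mem _ (hp f hf) (hq f hf)
  | mul_X p j hp =>
    intro f hf
    rw [MvPolynomial.coe_mul, MvPolynomial.coe_X, mul_assoc]
    exact hp _ (s59minfr_X_mul_mem 𝒪 j hf)

/-- every polynomial is an `𝒪`-combination of the `(1 + X)^a` -/
theorem s59minfr_poly_mem_W (t : MvPolynomial (Fin r) 𝒪) :
    (t : MvPowerSeries (Fin r) 𝒪) ∈ s59minfrW 𝒪 r := by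
  have h1 : (1 : MvPowerSeries (Fin r) 𝒪) ∈ s59minfrW 𝒪 r :=
    Submodule.subset_span ⟨fun _ => 0, s59minfrMon_zero 𝒪⟩
  have h := s59minfr_poly_mul_mem 𝒪 t 1 h1
  rwa [mul_one] at h

/-- reduction of the exponents modulo `k` -/
theorem s59minfrMon_sub_mod_mem (k : Fin r → ℕ) (a : Fin r → ℕ) :
    s59minfrMon 𝒪 a - s59minfrMon 𝒪 (fun j => a j % k j) ∈ s59minfrJ 𝒪 r k := by
  rw [← Ideal.Quotient.eq]
  unfold s59minfrMon
  rw [map_prod, map_prod]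
  refine Finset.prod_congr rfl fun j _ => ?_
  rw [map_pow, map_pow]
  have h1 : (Ideal.Quotient.mk (s59minfrJ 𝒪 r k)
      (1 + MvPowerSeries.X j : MvPowerSeries (Fin r) 𝒪)) ^ (k j) = 1 := by
    rw [← map_pow, ← map_one (Ideal.Quotient.mk (s59minfrJ 𝒪 r k)), Ideal.Quotient.eq]
    exact Ideal.subset_span ⟨j, rfl⟩
  exact pow_eq_pow_mod (a j) h1

/-- every element of the span of the `(1 + X)^a` is, modulo `J_k`, an `𝒪`-combination of the
`(1 + X)^a`, `a_j < k_j` -/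
theorem s59minfr_W_mem (k : Fin r → ℕ) (hk : ∀ j, 0 < k j) {f : MvPowerSeries (Fin r) 𝒪}
    (hf : f ∈ s59minfrW 𝒪 r) :
    ∃ γ : (∀ j : Fin r, Fin (k j)) → 𝒪,
      f - ∑ a, γ a • s59minfrMon 𝒪 (fun j => ((a j : Fin (k j)) : ℕ)) ∈ s59minfrJ 𝒪 r k := by
  classical
  unfold s59minfrW at hf
  induction hf using Submodule.span_induction with
  | mem f hf =>
    obtain ⟨a, rfl⟩ := hf
    let a₀ : ∀ j : Fin r, Fin (k j) := fun j => ⟨a j % k j, Nat.mod_lt _ (hk j)⟩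
    refine ⟨fun a' => if a' = a₀ then 1 else 0, ?_⟩
    rw [Finset.sum_eq_single a₀]
    · beta_reduce
      rw [if_pos rfl, one_smul]
      exact s59minfrMon_sub_mod_mem 𝒪 k a
    · intro a' _ ha'
      beta_reduce
      rw [if_neg ha', zero_smul]
    · intro h
      exact absurd (Finset.mem_univ a₀) h
  | zero =>
    refine ⟨fun _ => 0, ?_⟩
    simp
  | add f g _ _ hf hg =>
    obtain ⟨γ₁, h₁⟩ := hf
    obtain ⟨γ₂, h₂⟩ := hg
    refine ⟨fun a => γ₁ a + γ₂ a, ?_⟩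
    have h := (s59minfrJ 𝒪 r k).add_mem h₁ h₂
    have e : f + g - ∑ a, (γ₁ a + γ₂ a) • s59minfrMon 𝒪 (fun j => ((a j : Fin (k j)) : ℕ)) =
        f - ∑ a, γ₁ a • s59minfrMon 𝒪 (fun j => ((a j : Fin (k j)) : ℕ)) +
        (g - ∑ a, γ₂ a • s59minfrMon 𝒪 (fun j => ((a j : Fin (k j)) : ℕ))) := by
      simp only [add_smul, Finset.sum_add_distrib]
      abel
    rw [e]
    exact h
  | smul c f _ hf =>
    obtain ⟨γ, h⟩ := hf
    refine ⟨fun a => c * γ a, ?_⟩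
    have e : c • f - ∑ a, (c * γ a) • s59minfrMon 𝒪 (fun j => ((a j : Fin (k j)) : ℕ)) =
        MvPowerSeries.C c *
          (f - ∑ a, γ a • s59minfrMon 𝒪 (fun j => ((a j : Fin (k j)) : ℕ))) := by
      rw [← MvPowerSeries.smul_eq_C_mul, smul_sub, Finset.smul_sum]
      simp only [smul_smul]
    rw [e]
    exact Ideal.mul_mem_left _ _ h

/-- **division**: every polynomial is, modulo `J_k`, an `𝒪`-combination of the `(1 + X)^a`,
`a_j < k_j`. -/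
theorem s59minfr_poly_mem (k : Fin r → ℕ) (hk : ∀ j, 0 < k j) (t : MvPolynomial (Fin r) 𝒪) :
    ∃ γ : (∀ j : Fin r, Fin (k j)) → 𝒪,
      (t : MvPowerSeries (Fin r) 𝒪) - ∑ a, γ a • s59minfrMon 𝒪 (fun j => ((a j : Fin (k j)) : ℕ)) ∈
        s59minfrJ 𝒪 r k :=
  s59minfr_W_mem 𝒪 k hk (s59minfr_poly_mem_W 𝒪 t)

end Mon

section Nilp

variable {R' : Type*} [CommRing R'] {r : ℕ}

/-- if `(1 + x)^{ℓ^m} = 1` then `x^{ℓ^m} ∈ (ℓ)` -/
theorem s59minfr_pow_mem_span (ℓ : ℕ) (hℓ : ℓ.Prime) (m : ℕ) (x : R')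
    (hx : (1 + x) ^ (ℓ ^ m) = 1) : x ^ (ℓ ^ m) ∈ Ideal.span {(ℓ : R')} := by
  obtain ⟨s, hs⟩ := exists_add_pow_prime_pow_eq hℓ (1 : R') x m
  rw [hx, one_pow] at hs
  have h : x ^ (ℓ ^ m) = (-(x * s)) * (ℓ : R') := by
    have h1 : x ^ (ℓ ^ m) + (ℓ : R') * 1 * x * s = 0 := by
      have := hs
      rw [add_assoc] at this
      exact (add_eq_left.mp this.symm)
    rw [eq_neg_of_add_eq_zero_left h1]
    ring
  rw [h]
  exact Ideal.mul_mem_left _ _ (Ideal.subset_span rfl)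

/-- if `(1 + x_j)^{ℓ^{m_j}} = 1` for all `j` then `(x₁..x_r)^{N₀} ⊆ (ℓ)` -/
theorem s59minfr_pow_le_span (ℓ : ℕ) (hℓ : ℓ.Prime) (m : Fin r → ℕ) (x : Fin r → R')
    (hx : ∀ j, (1 + x j) ^ (ℓ ^ m j) = 1) :
    ∃ N₀ : ℕ, (Ideal.span (Set.range x)) ^ N₀ ≤ Ideal.span {(ℓ : R')} := by
  have hnil : ∀ j, IsNilpotent (Ideal.Quotient.mk (Ideal.span {(ℓ : R')}) (x j)) := by
    intro j
    refine ⟨ℓ ^ m j, ?_⟩
    rw [← map_pow, Ideal.Quotient.eq_zero_iff_mem]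
    exact s59minfr_pow_mem_span ℓ hℓ (m j) (x j) (hx j)
  obtain ⟨n, hn⟩ := Fermat.Agent.S53.exists_pow_span_range_eq_bot_of_isNilpotent
    (fun j => Ideal.Quotient.mk (Ideal.span {(ℓ : R')}) (x j)) hnil
  refine ⟨n, ?_⟩
  have h1 : Ideal.map (Ideal.Quotient.mk (Ideal.span {(ℓ : R')}))
      ((Ideal.span (Set.range x)) ^ n) = ⊥ := by
    rw [Ideal.map_pow, Ideal.map_span, ← Set.range_comp]
    exact hn
  rw [Ideal.map_eq_bot_iff_le_ker, Ideal.mk_ker] at h1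
  exact h1

end Nilp

section Repr

variable {𝒪 : Type*} [CommRing 𝒪] {N : Type*} [AddCommGroup N] [Module 𝒪 N] {ι : Type*}

/-- the coordinates of an element of `I • N` lie in `I` -/
theorem s59minfr_repr_mem (B : Module.Basis ι 𝒪 N) (I : Ideal 𝒪) {x : N}
    (hx : x ∈ I • (⊤ : Submodule 𝒪 N)) (i : ι) : B.repr x i ∈ I := by
  induction hx using Submodule.smul_induction_on' with
  | smul c hc y _ =>
    rw [map_smul, Finsupp.smul_apply, smul_eq_mul]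
    exact I.mul_mem_right _ hc
  | add y z _ _ hy hz =>
    rw [map_add, Finsupp.add_apply]
    exact I.add_mem hy hz

end Repr

/-! ### FRAME-BASIS -/

section Main

variable {𝒪 : Type} [CommRing 𝒪] [IsLocalRing 𝒪] [IsNoetherianRing 𝒪] {r : ℕ}

/-- `C c ∈ 𝔪_Pⁿ` for `c ∈ 𝔪_𝒪ⁿ` -/
theorem s59minfr_C_mem_pow (n : ℕ) {c : 𝒪} (hc : c ∈ maximalIdeal 𝒪 ^ n) :
    (MvPowerSeries.C c : MvPowerSeries (Fin r) 𝒪) ∈
      maximalIdeal (MvPowerSeries (Fin r) 𝒪) ^ n := by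
  have h1 : Ideal.map (MvPowerSeries.C : 𝒪 →+* MvPowerSeries (Fin r) 𝒪) (maximalIdeal 𝒪) ≤
      maximalIdeal (MvPowerSeries (Fin r) 𝒪) := by
    rw [Ideal.map_le_iff_le_comap]
    intro a ha
    rw [Ideal.mem_comap, mem_maximalIdeal, mem_nonunits_iff,
      MvPowerSeries.isUnit_iff_constantCoeff, MvPowerSeries.constantCoeff_C]
    exact (mem_nonunits_iff.mp ((mem_maximalIdeal a).mp ha))
  have h2 := Ideal.mem_map_of_mem (MvPowerSeries.C : 𝒪 →+* MvPowerSeries (Fin r) 𝒪) hc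
  rw [Ideal.map_pow] at h2
  exact Ideal.pow_right_mono h1 n h2

/-- `(X₁..X_r) ≤ 𝔪_P` -/
theorem s59minfr_X_le_max :
    Ideal.span (Set.range (MvPowerSeries.X : Fin r → MvPowerSeries (Fin r) 𝒪)) ≤
      maximalIdeal (MvPowerSeries (Fin r) 𝒪) := by
  rw [Ideal.span_le]
  rintro _ ⟨j, rfl⟩
  rw [SetLike.mem_coe, mem_maximalIdeal, mem_nonunits_iff,
    MvPowerSeries.isUnit_iff_constantCoeff, MvPowerSeries.constantCoeff_X]
  exact not_isUnit_zero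

variable {R' : Type} [CommRing R'] [Algebra 𝒪 R']
  {N : Type} [AddCommGroup N] [Module R' N] [Module 𝒪 N] [IsScalarTower 𝒪 R' N]

/-- the relation ideal is killed by `φ₀` -/
theorem s59minfr_J_le_ker (k : Fin r → ℕ) (φ₀ : MvPowerSeries (Fin r) 𝒪 →ₐ[𝒪] R')
    (hu : ∀ j, (1 + φ₀ (MvPowerSeries.X j)) ^ (k j) = 1) :
    s59minfrJ 𝒪 r k ≤ RingHom.ker (φ₀ : MvPowerSeries (Fin r) 𝒪 →+* R') := by
  unfold s59minfrJ
  rw [Ideal.span_le]
  rintro _ ⟨j, rfl⟩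
  rw [SetLike.mem_coe, RingHom.mem_ker]
  show φ₀ ((1 + MvPowerSeries.X j) ^ (k j) - 1) = 0
  rw [map_sub, map_pow, map_add, map_one, hu j, sub_self]

/-- the image of `(X)^{N₀ n}` lies in `(ℓⁿ)` -/
theorem s59minfr_map_mem (ℓ : ℕ) (φ₀ : MvPowerSeries (Fin r) 𝒪 →ₐ[𝒪] R') (N₀ : ℕ)
    (hN₀ : (Ideal.span (Set.range fun j => φ₀ (MvPowerSeries.X j))) ^ N₀ ≤
      Ideal.span {(ℓ : R')}) (n K : ℕ) (hK : N₀ * n ≤ K)
    {h : MvPowerSeries (Fin r) 𝒪}
    (hh : h ∈ (Ideal.span (Set.range (MvPowerSeries.X : Fin r → MvPowerSeries (Fin r) 𝒪))) ^ K) :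
    ∃ s : R', φ₀ h = s * (ℓ : R') ^ n := by
  have h1 := Fermat.Agent.S53.mvPowerSeries_map_pow_span_range_X_le φ₀ K
    (Ideal.mem_map_of_mem _ hh)
  have h2 : (Ideal.span (Set.range fun j => φ₀ (MvPowerSeries.X j))) ^ K ≤
      Ideal.span {(ℓ : R') ^ n} := by
    refine (Ideal.pow_le_pow_right hK).trans ?_
    rw [pow_mul, ← Ideal.span_singleton_pow]
    exact Ideal.pow_right_mono hN₀ n
  have h3 := h2 h1
  rw [Ideal.mem_span_singleton'] at h3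
  obtain ⟨s, hs⟩ := h3
  exact ⟨s, hs.symm⟩

/-- **FRAME-BASIS.**  If the `φ₀((1 + X)^a) • b_i` (`a_j < ℓ^{m_j}`) form an `𝒪`-basis of `N`, then
`b` is a frame of `N` over `P ⧸ J`, `J = ((1 + X_j)^{ℓ^{m_j}} − 1)_j`, through `φ₀`. -/
theorem s59minfr_frame_of_basis (ℓ : ℕ) (hℓ : ℓ.Prime) (hℓ𝒪 : (ℓ : 𝒪) ∈ maximalIdeal 𝒪)
    (m : Fin r → ℕ) (φ₀ : MvPowerSeries (Fin r) 𝒪 →ₐ[𝒪] R')
    (hu : ∀ j, (1 + φ₀ (MvPowerSeries.X j)) ^ (ℓ ^ m j) = 1)
    {d : ℕ} (b : Fin d → N)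
    (hli : LinearIndependent 𝒪 (fun ia : Fin d × (∀ j : Fin r, Fin (ℓ ^ m j)) =>
      φ₀ (s59minfrMon 𝒪 (fun j => ((ia.2 j : Fin (ℓ ^ m j)) : ℕ))) • b ia.1))
    (hsp : ⊤ ≤ Submodule.span 𝒪 (Set.range fun ia : Fin d × (∀ j : Fin r, Fin (ℓ ^ m j)) =>
      φ₀ (s59minfrMon 𝒪 (fun j => ((ia.2 j : Fin (ℓ ^ m j)) : ℕ))) • b ia.1)) :
    (∀ x : N, ∃ c : Fin d → MvPowerSeries (Fin r) 𝒪, x = ∑ i, φ₀ (c i) • b i) ∧
    (∀ c : Fin d → MvPowerSeries (Fin r) 𝒪,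
      ∑ i, φ₀ (c i) • b i = 0 ↔ ∀ i, c i ∈ s59minfrJ 𝒪 r (fun j => ℓ ^ m j)) := by
  classical
  have hk : ∀ j, 0 < ℓ ^ m j := fun j => pow_pos hℓ.pos _
  -- the value of a combination of the monomials
  have hcomb : ∀ γ : Fin d → (∀ j : Fin r, Fin (ℓ ^ m j)) → 𝒪,
      ∑ i, φ₀ (∑ a, γ i a • s59minfrMon 𝒪 (fun j => ((a j : Fin (ℓ ^ m j)) : ℕ))) • b i =
      ∑ ia : Fin d × (∀ j : Fin r, Fin (ℓ ^ m j)), γ ia.1 ia.2 •
        (φ₀ (s59minfrMon 𝒪 (fun j => ((ia.2 j : Fin (ℓ ^ m j)) : ℕ))) • b ia.1) := by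
    intro γ
    rw [Fintype.sum_prod_type]
    refine Finset.sum_congr rfl fun i _ => ?_
    rw [map_sum, Finset.sum_smul]
    refine Finset.sum_congr rfl fun a _ => ?_
    rw [map_smul, smul_assoc]
  refine ⟨fun x => ?_, fun c => ⟨fun h0 i => ?_, fun hc => ?_⟩⟩
  · -- `hspan`
    obtain ⟨γ, hγ⟩ := (Submodule.mem_span_range_iff_exists_fun 𝒪).mp (hsp (Submodule.mem_top : x ∈ ⊤))
    refine ⟨fun i => ∑ a, γ (i, a) • s59minfrMon 𝒪 (fun j => ((a j : Fin (ℓ ^ m j)) : ℕ)), ?_⟩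
    rw [hcomb (fun i a => γ (i, a)), ← hγ]
  · -- `hrel`, the hard direction
    refine Fermat.Agent.RT.K2c.rtk2c_closed _ _ fun n => ?_
    obtain ⟨N₀, hN₀⟩ := s59minfr_pow_le_span ℓ hℓ m (fun j => φ₀ (MvPowerSeries.X j)) hu
    -- truncation and division
    have hdiv : ∀ i', ∃ γ : (∀ j : Fin r, Fin (ℓ ^ m j)) → 𝒪,
        ((truncTotal (N₀ * n + n) (c i') : MvPolynomial (Fin r) 𝒪) : MvPowerSeries (Fin r) 𝒪) -
          ∑ a, γ a • s59minfrMon 𝒪 (fun j => ((a j : Fin (ℓ ^ m j)) : ℕ)) ∈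
          s59minfrJ 𝒪 r (fun j => ℓ ^ m j) :=
      fun i' => s59minfr_poly_mem 𝒪 (fun j => ℓ ^ m j) hk _
    choose γ hγ using hdiv
    have htail : ∀ i', c i' - ((truncTotal (N₀ * n + n) (c i') : MvPolynomial (Fin r) 𝒪) :
        MvPowerSeries (Fin r) 𝒪) ∈
        (Ideal.span (Set.range (MvPowerSeries.X : Fin r → MvPowerSeries (Fin r) 𝒪))) ^
          (N₀ * n + n) :=
      fun i' => Fermat.Agent.S53.mvPowerSeries_sub_truncTotal_mem_pow (c i') _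
    have hs : ∀ i', ∃ s : R', φ₀ (c i' - ((truncTotal (N₀ * n + n) (c i') :
        MvPolynomial (Fin r) 𝒪) : MvPowerSeries (Fin r) 𝒪)) = s * (ℓ : R') ^ n :=
      fun i' => s59minfr_map_mem ℓ φ₀ N₀ hN₀ n _ (Nat.le_add_right _ _) (htail i')
    choose s hs using hs
    -- the decomposition of `φ₀ (c i')`
    have hdec : ∀ i', φ₀ (c i') =
        φ₀ (∑ a, γ i' a • s59minfrMon 𝒪 (fun j => ((a j : Fin (ℓ ^ m j)) : ℕ))) +
          s i' * (ℓ : R') ^ n := by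
      intro i'
      have h1 : φ₀ (((truncTotal (N₀ * n + n) (c i') : MvPolynomial (Fin r) 𝒪) :
          MvPowerSeries (Fin r) 𝒪) -
          ∑ a, γ i' a • s59minfrMon 𝒪 (fun j => ((a j : Fin (ℓ ^ m j)) : ℕ))) = 0 :=
        s59minfr_J_le_ker (fun j => ℓ ^ m j) φ₀ hu (hγ i')
      rw [map_sub, sub_eq_zero] at h1
      rw [← hs i', ← h1, map_sub, add_sub_cancel]
    -- the combination of the basis lies in `𝔪ⁿ N`
    have hy : ∑ ia : Fin d × (∀ j : Fin r, Fin (ℓ ^ m j)), γ ia.1 ia.2 •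
        (φ₀ (s59minfrMon 𝒪 (fun j => ((ia.2 j : Fin (ℓ ^ m j)) : ℕ))) • b ia.1) ∈
        (maximalIdeal 𝒪 ^ n) • (⊤ : Submodule 𝒪 N) := by
      rw [← hcomb γ]
      have h2 : ∑ i', φ₀ (∑ a, γ i' a • s59minfrMon 𝒪 (fun j => ((a j : Fin (ℓ ^ m j)) : ℕ))) •
          b i' = - ∑ i', ((ℓ : 𝒪) ^ n) • (s i' • b i') := by
        rw [eq_neg_iff_add_eq_zero, ← Finset.sum_add_distrib, ← h0]
        refine Finset.sum_congr rfl fun i' _ => ?_
        rw [hdec i', add_smul]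
        congr 1
        rw [mul_comm, mul_smul, ← map_natCast (algebraMap 𝒪 R'), ← map_pow, algebraMap_smul]
      rw [h2]
      refine Submodule.neg_mem _ (Submodule.sum_mem _ fun i' _ => ?_)
      exact Submodule.smul_mem_smul (Ideal.pow_mem_pow hℓ𝒪 n) Submodule.mem_top
    -- hence the coefficients lie in `𝔪ⁿ`
    have hcoef : ∀ i' a, γ i' a ∈ maximalIdeal 𝒪 ^ n := by
      intro i' a
      have h3 := s59minfr_repr_mem (Module.Basis.mk hli hsp) (maximalIdeal 𝒪 ^ n) hy (i', a)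
      have h5 := (Module.Basis.mk hli hsp).repr_sum_self
        (fun ia : Fin d × (∀ j : Fin r, Fin (ℓ ^ m j)) => γ ia.1 ia.2)
      simp only [Module.Basis.coe_mk] at h5
      have h6 : (Module.Basis.mk hli hsp).repr
          (∑ ia : Fin d × (∀ j : Fin r, Fin (ℓ ^ m j)), γ ia.1 ia.2 •
            (φ₀ (s59minfrMon 𝒪 (fun j => ((ia.2 j : Fin (ℓ ^ m j)) : ℕ))) • b ia.1)) (i', a) =
          γ i' a := congrFun h5 (i', a)
      rw [h6] at h3
      exact h3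
    -- conclusion: `c i ∈ J ⊔ 𝔪_Pⁿ`
    have e : c i = (((truncTotal (N₀ * n + n) (c i) : MvPolynomial (Fin r) 𝒪) :
        MvPowerSeries (Fin r) 𝒪) -
        ∑ a, γ i a • s59minfrMon 𝒪 (fun j => ((a j : Fin (ℓ ^ m j)) : ℕ))) +
        (∑ a, γ i a • s59minfrMon 𝒪 (fun j => ((a j : Fin (ℓ ^ m j)) : ℕ)) +
          (c i - ((truncTotal (N₀ * n + n) (c i) : MvPolynomial (Fin r) 𝒪) :
            MvPowerSeries (Fin r) 𝒪))) := by
      abel
    rw [e]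
    refine Submodule.add_mem_sup (hγ i) (Ideal.add_mem _ (Ideal.sum_mem _ fun a _ => ?_) ?_)
    · rw [MvPowerSeries.smul_eq_C_mul]
      exact Ideal.mul_mem_right _ _ (s59minfr_C_mem_pow n (hcoef i a))
    · exact Ideal.pow_le_pow_right (Nat.le_add_left n (N₀ * n))
        (Ideal.pow_right_mono s59minfr_X_le_max _ (htail i))
  · -- `hrel`, the easy direction
    refine Finset.sum_eq_zero fun i _ => ?_
    have h1 : φ₀ (c i) = 0 := s59minfr_J_le_ker (fun j => ℓ ^ m j) φ₀ hu (hc i)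
    rw [h1, zero_smul]

end Main

end Fermat.Agent.S59

end
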