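/-
S59, wall R1 (MIN′), leaf **R1-FRAME**, part 2 (helper57): the `Δ_Q`-structure lifted to the
power series ring.  `P = 𝒪⟦X₁..X_r⟧`, `𝒪` a complete Noetherian local ring.

* `s59minfr_algHom_ext`   : two `𝒪`-algebra homomorphisms `P → A` which agree on the variables and
                            map them into an ideal `I` with `A` `I`-adically separated are equal;
* `s59minfr_exists_lift`  : `σ : P ↠ R'`, `φ₀ : P → R'` with `φ₀ X_j ∈ 𝔪_{R'}`, `R'` local and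
                            separated ⇒ `∃ φ : P → P`, `σ ∘ φ = φ₀`;
* `s59minfrOfW`, `s59minfr_level_of_structW` : the same with the WEAK hypotheses `ρ (φ₀ Y_j) = 0`,
                            `ker π = (φ₀ Y_j)_j • L_Q` (nothing on `ker ρ`);
* `s59minfr_level_of_struct` : **R1-FRAME, one level, with the `Δ_Q`-structure `φ₀ : P → R_Q`**
                            (`Y_j ↦ δ_j − 1`) instead of its lift: `σ : P ↠ R_Q`, `ρ : R_Q ↠ R_∅` with
                            kernel `(φ₀ Y_j)_j`, `L_Q` framed over `P ⧸ J_{ℓ^{m_j}}` through `φ₀`,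
                            `L_Q ⧸ (ker ρ) L_Q ≅ L_∅`  ⇒  the level `n ≤ m_j` of a patching datum.
-/
import Mathlib
import Fermat.Agent.TW.PowerSurj
import Fermat.Agent.RT.K2c.Local
import Fermat.Agent.S59.Min.Frame

set_option autoImplicit false
set_option linter.unusedSectionVars false
set_option linter.unusedVariables false
set_option linter.style.longLine false
set_option linter.style.haveILetI false

noncomputable section

namespace Fermat.Agent.S59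

open MvPowerSeries IsLocalRing

section Ext

variable {𝒪 : Type*} [CommRing 𝒪] {A : Type*} [CommRing A] [Algebra 𝒪 A]
  {σ : Type*} [Finite σ]

/-- the value of an algebra homomorphism on a power series, modulo `(f X_i)ⁿ` -/
theorem s59minfr_algHom_sub_mem (f : MvPowerSeries σ 𝒪 →ₐ[𝒪] A) (I : Ideal A)
    (hf : ∀ i, f (X i) ∈ I) (n : ℕ) (p : MvPowerSeries σ 𝒪) :
    f p - MvPolynomial.aeval (fun i => f (X i)) (truncTotal n p) ∈ I ^ n := by
  have h1 := Fermat.Agent.S53.mvPowerSeries_map_pow_span_range_X_le f n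
    (Ideal.mem_map_of_mem _ (Fermat.Agent.S53.mvPowerSeries_sub_truncTotal_mem_pow p n))
  have h2 : (Ideal.span (Set.range fun i => f (X i))) ^ n ≤ I ^ n := by
    refine Ideal.pow_right_mono ?_ n
    rw [Ideal.span_le]
    rintro _ ⟨i, rfl⟩
    exact hf i
  have h3 := h2 h1
  have h4 : f.toRingHom (p - ((truncTotal n p : MvPolynomial σ 𝒪) : MvPowerSeries σ 𝒪)) =
      f p - MvPolynomial.aeval (fun i => f (X i)) (truncTotal n p) := by
    show f (p - ((truncTotal n p : MvPolynomial σ 𝒪) : MvPowerSeries σ 𝒪)) = _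
    rw [map_sub, Fermat.Agent.S53.mvPowerSeries_algHom_coe_eq_aeval]
  rw [h4] at h3
  exact h3

/-- **Uniqueness**: two `𝒪`-algebra homomorphisms out of `𝒪⟦X⟧` which agree on the variables and map
them into `I`, with values in an `I`-adically separated ring, are equal. -/
theorem s59minfr_algHom_ext (f g : MvPowerSeries σ 𝒪 →ₐ[𝒪] A) (I : Ideal A) [IsHausdorff I A]
    (hf : ∀ i, f (X i) ∈ I) (h : ∀ i, f (X i) = g (X i)) : f = g := by
  have hg : ∀ i, g (X i) ∈ I := fun i => h i ▸ hf i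
  have hfg : (fun i => f (X i)) = fun i => g (X i) := funext h
  apply AlgHom.ext
  intro p
  rw [← sub_eq_zero]
  refine IsHausdorff.haus (inferInstance : IsHausdorff I A) _ fun n => ?_
  rw [SModEq.zero, smul_eq_mul, Ideal.mul_top]
  have h1 := s59minfr_algHom_sub_mem f I hf n p
  have h2 := s59minfr_algHom_sub_mem g I hg n p
  rw [hfg] at h1
  have h3 := (I ^ n).sub_mem h1 h2
  rwa [sub_sub_sub_cancel_right] at h3

end Ext

section Lift

variable {𝒪 : Type} [CommRing 𝒪] [IsLocalRing 𝒪] [IsNoetherianRing 𝒪]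
  [IsAdicComplete (maximalIdeal 𝒪) 𝒪] {r : ℕ}

/-- **Lifting the `Δ`-structure**: a homomorphism `φ₀ : P → R'` with `φ₀ X_j ∈ 𝔪_{R'}` lifts
through every surjection `σ : P ↠ R'`. -/
theorem s59minfr_exists_lift {R' : Type} [CommRing R'] [IsLocalRing R'] [Algebra 𝒪 R']
    [IsHausdorff (maximalIdeal R') R']
    (σ : MvPowerSeries (Fin r) 𝒪 →ₐ[𝒪] R') (hσ : Function.Surjective σ)
    (φ₀ : MvPowerSeries (Fin r) 𝒪 →ₐ[𝒪] R')
    (hφ₀ : ∀ j, φ₀ (MvPowerSeries.X j) ∈ maximalIdeal R') :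
    ∃ φ : MvPowerSeries (Fin r) 𝒪 →ₐ[𝒪] MvPowerSeries (Fin r) 𝒪, σ.comp φ = φ₀ := by
  choose a ha using fun j => hσ (φ₀ (MvPowerSeries.X j))
  have ham : ∀ j, a j ∈ maximalIdeal (MvPowerSeries (Fin r) 𝒪) := by
    intro j
    rw [mem_maximalIdeal, mem_nonunits_iff]
    intro hu
    have h1 : IsUnit (σ (a j)) := hu.map σ
    rw [ha j] at h1
    exact (mem_nonunits_iff.mp ((mem_maximalIdeal _).mp (hφ₀ j))) h1
  haveI : IsAdicComplete (maximalIdeal (MvPowerSeries (Fin r) 𝒪)) (MvPowerSeries (Fin r) 𝒪) :=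
    Fermat.Agent.RT.K2c.rtk2c_isAdicComplete
  obtain ⟨φ, hφ⟩ := Fermat.Agent.TW.psj_exists_algHom (𝒪 := 𝒪)
    (maximalIdeal (MvPowerSeries (Fin r) 𝒪)) a ham
  refine ⟨φ, ?_⟩
  refine s59minfr_algHom_ext _ _ (maximalIdeal R') (fun j => ?_) (fun j => ?_)
  · show σ (φ (MvPowerSeries.X j)) ∈ _
    rw [hφ, ha]
    exact hφ₀ j
  · show σ (φ (MvPowerSeries.X j)) = _
    rw [hφ, ha]

variable {R : Type} [CommRing R] [Algebra 𝒪 R] {M : Type} [AddCommGroup M] [Module R M]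

/-- **R1-FRAME, one level, from the `Δ_Q`-structure.**  `σ : P ↠ R'` (R1-TWP), `φ₀ : P → R'` the
`Δ_Q`-structure (`Y_j ↦ δ_j − 1 ∈ 𝔪_{R'}`), `ρ : R' ↠ R` with kernel `(φ₀ Y_j)_j` (R1-CTRL), `N = L_Q`
framed over `P ⧸ J_{ℓ^{m_j}}` through `φ₀`, `π : N ↠ M` with kernel `(ker ρ) N` (R1-FREE), `n ≤ m_j`. -/
theorem s59minfr_level_of_struct (ℓ n : ℕ) (m : Fin r → ℕ) (hm : ∀ j, n ≤ m j)
    {R' : Type} [CommRing R'] [IsLocalRing R'] [Algebra 𝒪 R'] [IsHausdorff (maximalIdeal R') R']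
    (σ : MvPowerSeries (Fin r) 𝒪 →ₐ[𝒪] R') (hσ : Function.Surjective σ)
    (ρ : R' →ₐ[𝒪] R) (hρ : Function.Surjective ρ)
    (φ₀ : MvPowerSeries (Fin r) 𝒪 →ₐ[𝒪] R')
    (hφ₀ : ∀ j, φ₀ (MvPowerSeries.X j) ∈ maximalIdeal R')
    (hker : RingHom.ker (ρ : R' →+* R) =
      Ideal.span (Set.range fun i : Fin r => φ₀ (MvPowerSeries.X i)))
    {N : Type} [AddCommGroup N] [Module R' N]
    (π : N →+ M) (hπ : ∀ (t : R') (x : N), π (t • x) = ρ t • π x)
    (hπs : Function.Surjective π)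
    (hkerπ : ∀ x : N, π x = 0 ↔ x ∈ (RingHom.ker (ρ : R' →+* R)) • (⊤ : Submodule R' N))
    (d : ℕ) (b : Fin d → N)
    (hspan : ∀ x : N, ∃ c : Fin d → MvPowerSeries (Fin r) 𝒪, x = ∑ i, φ₀ (c i) • b i)
    (hrel : ∀ c : Fin d → MvPowerSeries (Fin r) 𝒪,
      ∑ i, φ₀ (c i) • b i = 0 ↔ ∀ i, c i ∈ s59minfrJ 𝒪 r (fun j => ℓ ^ m j)) :
    Nonempty (Algebra.PatchingLevel 𝒪 r R M (Ideal.span (Set.range fun j : Fin r =>
      ((1 + MvPowerSeries.X j) ^ (ℓ ^ n) - 1 : MvPowerSeries (Fin r) 𝒪)))) := by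
  obtain ⟨φ, hφ⟩ := s59minfr_exists_lift σ hσ φ₀ hφ₀
  have hφ' : ∀ f, σ (φ f) = φ₀ f := fun f => congrArg (fun g => g f) hφ
  refine s59minfr_level ℓ n m hm σ hσ ρ hρ φ ?_ π hπ hπs hkerπ d b ?_ ?_
  · rw [hker]
    congr 2
    funext i
    rw [hφ']
  · intro x
    obtain ⟨c, hc⟩ := hspan x
    refine ⟨c, ?_⟩
    rw [hc]
    exact Finset.sum_congr rfl fun i _ => by rw [hφ']
  · intro c
    rw [← hrel c]
    have : ∑ i, σ (φ (c i)) • b i = ∑ i, φ₀ (c i) • b i :=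
      Finset.sum_congr rfl fun i _ => by rw [hφ']
    rw [this]

/-- **A level from the TW data, weak form**: only `ρ (σ (φ X_j)) = 0` and
`ker π = (σ φ X_j)_j • N` are used (no statement on `ker ρ`). -/
def s59minfrOfW (J' : Ideal (MvPowerSeries (Fin r) 𝒪)) {R' : Type} [CommRing R'] [Algebra 𝒪 R']
    (σ : MvPowerSeries (Fin r) 𝒪 →ₐ[𝒪] R') (hσ : Function.Surjective σ)
    (ρ : R' →ₐ[𝒪] R) (hρ : Function.Surjective ρ)
    (φ : MvPowerSeries (Fin r) 𝒪 →ₐ[𝒪] MvPowerSeries (Fin r) 𝒪)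
    (hρφ : ∀ j, ρ (σ (φ (MvPowerSeries.X j))) = 0)
    {N : Type} [AddCommGroup N] [Module R' N]
    (π : N →+ M) (hπ : ∀ (t : R') (x : N), π (t • x) = ρ t • π x)
    (hπs : Function.Surjective π)
    (hkerπ : ∀ x : N, π x = 0 ↔
      x ∈ (Ideal.span (Set.range fun i : Fin r => σ (φ (MvPowerSeries.X i)))) •
        (⊤ : Submodule R' N))
    (d : ℕ) (b : Fin d → N)
    (hspan : ∀ x : N, ∃ c : Fin d → MvPowerSeries (Fin r) 𝒪, x = ∑ i, σ (φ (c i)) • b i)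
    (hrel : ∀ c : Fin d → MvPowerSeries (Fin r) 𝒪,
      ∑ i, σ (φ (c i)) • b i = 0 ↔ ∀ i, c i ∈ J') :
    Algebra.PatchingLevel 𝒪 r R M J' :=
  letI inst : Module (MvPowerSeries (Fin r) 𝒪) N :=
    Module.compHom N (σ : MvPowerSeries (Fin r) 𝒪 →+* R')
  { N := N
    instAddCommGroup := inferInstance
    instModule := inst
    φ := φ
    ψ := ρ.comp σ
    ψ_surjective := hρ.comp hσ
    ψ_φ_X := hρφ
    π := π
    π_smul := fun f x => hπ (σ f) x
    π_surjective := hπs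
    ker_π := fun x => by
      rw [hkerπ, s59minfr_mem_smul_top, s59minfr_mem_smul_top]
      rfl
    d := d
    b := b
    b_span := hspan
    b_rel := hrel }

/-- **R1-FRAME, one level, weak form, from the `Δ_Q`-structure `φ₀ : P → R_Q`.** -/
theorem s59minfr_level_of_structW (ℓ n : ℕ) (m : Fin r → ℕ) (hm : ∀ j, n ≤ m j)
    {R' : Type} [CommRing R'] [IsLocalRing R'] [Algebra 𝒪 R'] [IsHausdorff (maximalIdeal R') R']
    (σ : MvPowerSeries (Fin r) 𝒪 →ₐ[𝒪] R') (hσ : Function.Surjective σ)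
    (ρ : R' →ₐ[𝒪] R) (hρ : Function.Surjective ρ)
    (φ₀ : MvPowerSeries (Fin r) 𝒪 →ₐ[𝒪] R')
    (hφ₀ : ∀ j, φ₀ (MvPowerSeries.X j) ∈ maximalIdeal R')
    (hρφ : ∀ j, ρ (φ₀ (MvPowerSeries.X j)) = 0)
    {N : Type} [AddCommGroup N] [Module R' N]
    (π : N →+ M) (hπ : ∀ (t : R') (x : N), π (t • x) = ρ t • π x)
    (hπs : Function.Surjective π)
    (hkerπ : ∀ x : N, π x = 0 ↔
      x ∈ (Ideal.span (Set.range fun i : Fin r => φ₀ (MvPowerSeries.X i))) •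
        (⊤ : Submodule R' N))
    (d : ℕ) (b : Fin d → N)
    (hspan : ∀ x : N, ∃ c : Fin d → MvPowerSeries (Fin r) 𝒪, x = ∑ i, φ₀ (c i) • b i)
    (hrel : ∀ c : Fin d → MvPowerSeries (Fin r) 𝒪,
      ∑ i, φ₀ (c i) • b i = 0 ↔ ∀ i, c i ∈ s59minfrJ 𝒪 r (fun j => ℓ ^ m j)) :
    Nonempty (Algebra.PatchingLevel 𝒪 r R M (Ideal.span (Set.range fun j : Fin r =>
      ((1 + MvPowerSeries.X j) ^ (ℓ ^ n) - 1 : MvPowerSeries (Fin r) 𝒪)))) := by
  obtain ⟨φ, hφ⟩ := s59minfr_exists_lift σ hσ φ₀ hφ₀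
  have hφ' : ∀ f, σ (φ f) = φ₀ f := fun f => congrArg (fun g => g f) hφ
  have hfun : (fun i : Fin r => σ (φ (MvPowerSeries.X i))) =
      fun i : Fin r => φ₀ (MvPowerSeries.X i) := funext fun i => hφ' _
  refine ⟨s59minfrQuot
    (s59minfrOfW (s59minfrJ 𝒪 r (fun j => ℓ ^ m j)) σ hσ ρ hρ φ ?_ π hπ hπs ?_ d b ?_ ?_)
    (s59minfrJ 𝒪 r (fun _ => ℓ ^ n))
    (s59minfr_J_le_J 𝒪 r _ _ fun j => pow_dvd_pow ℓ (hm j))
    (s59minfr_J_le_X 𝒪 r _)⟩
  · intro j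
    rw [hφ']
    exact hρφ j
  · intro x
    rw [hfun]
    exact hkerπ x
  · intro x
    obtain ⟨c, hc⟩ := hspan x
    refine ⟨c, ?_⟩
    rw [hc]
    exact Finset.sum_congr rfl fun i _ => by rw [hφ']
  · intro c
    rw [← hrel c]
    have : ∑ i, σ (φ (c i)) • b i = ∑ i, φ₀ (c i) • b i :=
      Finset.sum_congr rfl fun i _ => by rw [hφ']
    rw [this]

end Lift

end Fermat.Agent.S59

end
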