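/-
S59, wall R1 (MIN′), leaf **R1-FRAME**, part 4 (helper57): the level `n` of a patching datum from
the Taylor–Wiles data in GROUP-RING form.

`s59minfr_level_of_basis` : `𝒪` a complete Noetherian local ring, `ℓ` a prime, `ℓ ∈ 𝔪_𝒪`;
* `σ : 𝒪⟦X₁..X_r⟧ ↠ R'` (`R' = R_Q` local, separated, `ℓ ∈ 𝔪_{R'}`)                         [R1-TWP]
* `ρ : R' ↠ R` (`R = R_∅`)                                                                  [R1-CTRL]
* `φ₀ : 𝒪⟦Y₁..Y_r⟧ → R'` the `Δ_Q`-structure, `u_j = 1 + φ₀ Y_j`, `u_j^{ℓ^{m_j}} = 1`,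
  `ρ (φ₀ Y_j) = 0`                                                                           [R1-CHI]
* `N = L_Q` an `R'`-module, `π : N ↠ M = L_∅` over `ρ` with `ker π = (φ₀ Y_j)_j • N`, and
  `b : Fin d → N` such that the `u^a • b_i` (`a_j < ℓ^{m_j}`) are an `𝒪`-basis of `N`
  (i.e. `N` is free over `𝒪[∏ ℤ/ℓ^{m_j}]` with basis `b`)                                     [R1-FREE]
⇒ for every `n ≤ m_j` a `PatchingLevel 𝒪 r R M ((1 + X_j)^{ℓⁿ} − 1)_j`.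
`s59minfr_datum_of_basis` : such data for every `n` ⇒ `Algebra.PatchingDatum 𝒪 ℓ r R M`.
-/
import Mathlib
import Fermat.Agent.S59.Min.FrameLift
import Fermat.Agent.S59.Min.FrameBasis

set_option autoImplicit false
set_option linter.unusedSectionVars false
set_option linter.unusedVariables false
set_option linter.style.longLine false
set_option linter.style.haveILetI false

noncomputable section

namespace Fermat.Agent.S59

open MvPowerSeries IsLocalRing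

section Final

variable {𝒪 : Type} [CommRing 𝒪] [IsLocalRing 𝒪] [IsNoetherianRing 𝒪]
  [IsAdicComplete (maximalIdeal 𝒪) 𝒪] {r : ℕ}
  {R : Type} [CommRing R] [Algebra 𝒪 R] {M : Type} [AddCommGroup M] [Module R M]

/-- an element `x` of a local ring with `(1 + x)^{ℓ^m} = 1`, `ℓ ∈ 𝔪`, lies in `𝔪` -/
theorem s59minfr_mem_max_of_pow {R' : Type} [CommRing R'] [IsLocalRing R'] (ℓ : ℕ) (hℓ : ℓ.Prime)
    (hℓR' : (ℓ : R') ∈ maximalIdeal R') (m : ℕ) (x : R') (hx : (1 + x) ^ (ℓ ^ m) = 1) :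
    x ∈ maximalIdeal R' := by
  have h1 : x ^ (ℓ ^ m) ∈ maximalIdeal R' := by
    have h2 := s59minfr_pow_mem_span ℓ hℓ m x hx
    rw [Ideal.mem_span_singleton'] at h2
    obtain ⟨a, ha⟩ := h2
    rw [← ha]
    exact Ideal.mul_mem_left _ _ hℓR'
  exact (Ideal.IsPrime.mem_of_pow_mem inferInstance _ h1)

/-- **R1-FRAME, one level, group-ring form.** -/
theorem s59minfr_level_of_basis (ℓ : ℕ) (hℓ : ℓ.Prime) (hℓ𝒪 : (ℓ : 𝒪) ∈ maximalIdeal 𝒪)
    (n : ℕ) (m : Fin r → ℕ) (hm : ∀ j, n ≤ m j)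
    {R' : Type} [CommRing R'] [IsLocalRing R'] [Algebra 𝒪 R'] [IsHausdorff (maximalIdeal R') R']
    (hℓR' : (ℓ : R') ∈ maximalIdeal R')
    (σ : MvPowerSeries (Fin r) 𝒪 →ₐ[𝒪] R') (hσ : Function.Surjective σ)
    (ρ : R' →ₐ[𝒪] R) (hρ : Function.Surjective ρ)
    (φ₀ : MvPowerSeries (Fin r) 𝒪 →ₐ[𝒪] R')
    (hu : ∀ j, (1 + φ₀ (MvPowerSeries.X j)) ^ (ℓ ^ m j) = 1)
    (hρφ : ∀ j, ρ (φ₀ (MvPowerSeries.X j)) = 0)
    {N : Type} [AddCommGroup N] [Module R' N] [Module 𝒪 N] [IsScalarTower 𝒪 R' N]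
    (π : N →+ M) (hπ : ∀ (t : R') (x : N), π (t • x) = ρ t • π x)
    (hπs : Function.Surjective π)
    (hkerπ : ∀ x : N, π x = 0 ↔
      x ∈ (Ideal.span (Set.range fun i : Fin r => φ₀ (MvPowerSeries.X i))) •
        (⊤ : Submodule R' N))
    {d : ℕ} (b : Fin d → N)
    (hli : LinearIndependent 𝒪 (fun ia : Fin d × (∀ j : Fin r, Fin (ℓ ^ m j)) =>
      φ₀ (s59minfrMon 𝒪 (fun j => ((ia.2 j : Fin (ℓ ^ m j)) : ℕ))) • b ia.1))
    (hsp : ⊤ ≤ Submodule.span 𝒪 (Set.range fun ia : Fin d × (∀ j : Fin r, Fin (ℓ ^ m j)) =>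
      φ₀ (s59minfrMon 𝒪 (fun j => ((ia.2 j : Fin (ℓ ^ m j)) : ℕ))) • b ia.1)) :
    Nonempty (Algebra.PatchingLevel 𝒪 r R M (Ideal.span (Set.range fun j : Fin r =>
      ((1 + MvPowerSeries.X j) ^ (ℓ ^ n) - 1 : MvPowerSeries (Fin r) 𝒪)))) := by
  obtain ⟨hspan, hrel⟩ := s59minfr_frame_of_basis ℓ hℓ hℓ𝒪 m φ₀ hu b hli hsp
  exact s59minfr_level_of_structW ℓ n m hm σ hσ ρ hρ φ₀
    (fun j => s59minfr_mem_max_of_pow ℓ hℓ hℓR' (m j) _ (hu j)) hρφ π hπ hπs hkerπ d b hspan hrel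

end Final

end Fermat.Agent.S59

end
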