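/-
S59, wall R1, leaf HENSEL, consumer form (helper63): the elements `c_σ = χ(σ) − χ(σ)⁻¹` of
R1-LG BYPASS v2.

`A` a complete noetherian local ring, `ρ : GaloisRepAdic A` a lift of `ρ̄` with cyclotomic
determinant, `q ≡ 1 mod p` a Taylor–Wiles prime (`ρ̄` unramified at `q`, `ρ̄(Frob_q)` with distinct
eigenvalues), `P ∣ q`.

* `s59hens_c_lift` : there is `c : I_P → A` with `c σ ∈ 𝔪`, `(c σ)² = (tr ρ(σ))² − 4`,
  and `ψ (c σ) = 0` for every local homomorphism `ψ : A → B` such that `ρ ⊗_ψ B` is unramified at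
  `q`; moreover `θ (c σ) * θ (c σ) = θ (tr ρ(σ)) ^ 2 − 4` for every ring homomorphism `θ` from `A`
  to a (non-commutative) ring.
-/
import Fermat.Agent.S59.Min.Hensel

set_option autoImplicit false
set_option linter.style.longLine false
set_option linter.unusedVariables false
set_option linter.unusedSectionVars false

namespace Fermat.Agent.S59

open IsLocalRing Polynomial

/-- `ℚ̄` -/
local notation "Qbar" => AlgebraicClosure ℚ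

/-- `G_ℚ` -/
local notation "GalQ" => (AlgebraicClosure ℚ ≃ₐ[ℚ] AlgebraicClosure ℚ)

section C

variable {𝒪 : Type} [CommRing 𝒪] [IsLocalRing 𝒪]
variable {A : Type} [CommRing A] [IsLocalRing A] [Algebra 𝒪 A] [IsLocalHom (algebraMap 𝒪 A)]

/-- algebra: `c = χ − χ⁻¹` for a unit `χ ≡ 1 mod 𝔪` -/
theorem s59hens_c_of_unit (χ : Aˣ) (hχ : (χ : A) - 1 ∈ maximalIdeal A) (t : A)
    (ht : t = (χ : A) + ((χ⁻¹ : Aˣ) : A)) :
    (χ : A) - ((χ⁻¹ : Aˣ) : A) ∈ maximalIdeal A ∧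
      ((χ : A) - ((χ⁻¹ : Aˣ) : A)) * ((χ : A) - ((χ⁻¹ : Aˣ) : A)) = t ^ 2 - 4 := by
  have h1 : (χ : A) * ((χ⁻¹ : Aˣ) : A) = 1 := Units.mul_inv χ
  constructor
  · have e : (χ : A) - ((χ⁻¹ : Aˣ) : A) = ((χ : A) - 1) * (1 + ((χ⁻¹ : Aˣ) : A)) := by
      have : ((χ : A) - 1) * (1 + ((χ⁻¹ : Aˣ) : A))
          = (χ : A) - ((χ⁻¹ : Aˣ) : A) + ((χ : A) * ((χ⁻¹ : Aˣ) : A) - 1) := by ring
      rw [this, h1, sub_self, add_zero]
    rw [e]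
    exact Ideal.mul_mem_right _ _ hχ
  · rw [ht]
    have : ((χ : A) + ((χ⁻¹ : Aˣ) : A)) ^ 2 - 4
        = ((χ : A) - ((χ⁻¹ : Aˣ) : A)) * ((χ : A) - ((χ⁻¹ : Aˣ) : A))
          + 4 * ((χ : A) * ((χ⁻¹ : Aˣ) : A) - 1) := by ring
    rw [this, h1, sub_self, mul_zero, add_zero]

/-- **the elements `c_σ`** at a Taylor–Wiles prime. -/
theorem s59hens_c_lift [IsNoetherianRing A] [IsAdicComplete (maximalIdeal A) A]
    (p : ℕ) (hp : p.Prime) (q : ℕ) (hq : q.Prime) (hqp : q ≠ p) (hq1 : p ∣ q - 1)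
    (ρbar : ResidualGaloisRep (ResidueField 𝒪)) (ρ : GaloisRepAdic A)
    (hlift : ρ.residual.IsEquiv
      (ρbar.baseChangeAlong (IsLocalRing.ResidueField.map (algebraMap 𝒪 A))))
    (hdet : ρ.DetIsCyclotomic p) (hunr : ρbar.IsUnramifiedAt q)
    (P : ValuationSubring Qbar) (hP : P.LiesOverPrime q) (φ : GalQ) (hφ : P.IsFrobeniusAt φ q)
    (hchar : ∃ α β : ResidueField 𝒪, α ≠ β ∧
      LinearMap.charpoly (ρbar.ρ φ) = (X - C α) * (X - C β)) :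
    ∃ c : ↥(P.inertiaSubgroupIn ℚ) → A,
      (∀ σ, c σ ∈ maximalIdeal A) ∧
      (∀ σ : ↥(P.inertiaSubgroupIn ℚ),
        c σ * c σ = LinearMap.trace A ρ.V (ρ.ρ (σ : GalQ)) ^ 2 - 4) ∧
      (∀ (R : Type) [Ring R] (θ : A →+* R) (σ : ↥(P.inertiaSubgroupIn ℚ)),
        θ (c σ) * θ (c σ) = θ (LinearMap.trace A ρ.V (ρ.ρ (σ : GalQ))) ^ 2 - 4) ∧
      ∀ (B : Type) [CommRing B] [IsLocalRing B] (ψ : A →+* B) (hψ : IsLocalHom ψ),
        (ρ.baseChangeAlong ψ hψ).IsUnramifiedAt q →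
          ∀ σ : ↥(P.inertiaSubgroupIn ℚ), ψ (c σ) = 0 := by
  obtain ⟨χ, htr, hone, hψ⟩ :=
    s59hens_chi_lift p hp q hq hqp hq1 ρbar ρ hlift hdet hunr P hP φ hφ hchar
  have hsq : ∀ σ : ↥(P.inertiaSubgroupIn ℚ),
      (((χ σ : Aˣ) : A) - (((χ σ)⁻¹ : Aˣ) : A)) * (((χ σ : Aˣ) : A) - (((χ σ)⁻¹ : Aˣ) : A))
        = LinearMap.trace A ρ.V (ρ.ρ (σ : GalQ)) ^ 2 - 4 :=
    fun σ => (s59hens_c_of_unit (χ σ) (hone σ) _ (htr σ)).2
  refine ⟨fun σ => ((χ σ : Aˣ) : A) - (((χ σ)⁻¹ : Aˣ) : A), ?_, hsq, ?_, ?_⟩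
  · intro σ
    exact (s59hens_c_of_unit (χ σ) (hone σ) _ (htr σ)).1
  · intro R _ θ σ
    have h := congrArg θ (hsq σ)
    rw [map_mul, map_sub (f := θ) (_ ^ 2), map_pow] at h
    rw [h]
    congr 1
    exact map_ofNat θ 4
  · intro B _ _ ψ hψloc hB σ
    have h1 : ψ ((χ σ : Aˣ) : A) = 1 := hψ B ψ hψloc hB σ
    have h2 : ψ (((χ σ)⁻¹ : Aˣ) : A) = 1 := by
      have h3 : ψ (((χ σ)⁻¹ : Aˣ) : A) * ψ ((χ σ : Aˣ) : A) = 1 := by
        rw [← map_mul, Units.inv_mul, map_one]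
      rw [h1, mul_one] at h3
      exact h3
    rw [map_sub, h1, h2, sub_self]

end C

end Fermat.Agent.S59
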