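/-
S59 wall R1 (MIN′), small leaf (i) of R1Five (helper44; asked by helper67): the level of a normalised
eigenform of weight 2 on `Γ₀(N0)` is at least 2.

`S₂(Γ₀(1)) = 0` (Sturm bound, prelude `ModularForm.sturm_bound_Gamma0`; the argument of the landed
root of S08, restated here so that no root statement file is imported), and a normalised eigenform is
not zero (`CuspForm.IsNormalizedEigenform.ne_zero`, prelude).
-/
import Mathlib
import Fermat.Prelude.Def_FLTPrelim_ModularRep
import Fermat.Prelude.Thm_ModularForm_sturm_bound_Gamma0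
import Fermat.Prelude.Thm_CongruenceSubgroup_one_mem_strictPeriods_Gamma0

set_option autoImplicit false

namespace Fermat.Agent.S59

open CuspForm ModularFormClass UpperHalfPlane

/-- every cusp form of weight 2 and level 1 is zero -/
theorem s59minn0_level_one (f : CuspForm (CongruenceSubgroup.Gamma0 1) 2) : f = 0 := by
  have htop : CongruenceSubgroup.Gamma0 1 = ⊤ := by
    ext x
    simp only [CongruenceSubgroup.Gamma0_mem, Subgroup.mem_top, iff_true]
    exact Subsingleton.elim _ _
  have hidx : (CongruenceSubgroup.Gamma0 1).index = 1 := by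
    rw [htop]; exact Subgroup.index_top
  have hg : (CuspForm.toModularFormₗ f) = 0 := by
    apply ModularForm.sturm_bound_Gamma0 1
    intro n hn
    rw [hidx] at hn
    have hn0 : n = 0 := by
      have : ((2 : ℤ) * ((1 : ℕ) : ℤ)).toNat / 12 = 0 := by norm_num
      omega
    subst hn0
    exact CuspFormClass.qExpansion_coeff_zero (k := 2)
      (Γ := Subgroup.map (Matrix.SpecialLinearGroup.mapGL ℝ) (CongruenceSubgroup.Gamma0 1))
      f one_pos (CongruenceSubgroup.one_mem_strictPeriods_Gamma0 1)
  exact CuspForm.toModularFormₗ_injective (by rw [hg, _root_.map_zero])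

/-- **(i)** the level of a normalised eigenform of weight 2 is at least 2 -/
theorem s59minn0_two_le {N0 : ℕ} [NeZero N0] (f : CuspForm (CongruenceSubgroup.Gamma0 N0) 2)
    (hf : f.IsNormalizedEigenform) : 2 ≤ N0 := by
  have h0 : N0 ≠ 0 := NeZero.ne N0
  by_contra h
  have h1 : N0 = 1 := by omega
  subst h1
  exact hf.ne_zero (s59minn0_level_one f)

/-- the same without the instance: `0 < N0` as a hypothesis -/
theorem s59minn0_two_le_of_pos {N0 : ℕ} (hN0 : 0 < N0)
    (f : CuspForm (CongruenceSubgroup.Gamma0 N0) 2) (hf : f.IsNormalizedEigenform) : 2 ≤ N0 := by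
  haveI : NeZero N0 := ⟨hN0.ne'⟩
  exact s59minn0_two_le f hf

/-- in particular `N0 ≠ 1` -/
theorem s59minn0_ne_one {N0 : ℕ} (f : CuspForm (CongruenceSubgroup.Gamma0 N0) 2)
    (hf : f.IsNormalizedEigenform) : N0 ≠ 1 := by
  rintro rfl
  exact hf.ne_zero (s59minn0_level_one f)

end Fermat.Agent.S59
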