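/-
S59, wall R1 (MIN′) / P3-STUDY, piece K5 at `p = 3` (helper7, K5 sub-captain).

The K-machine piece K5 (`RT/K5/*`: freeness of the `Θ`-part of `Hom(Γ_H(L), 𝒪 ⧸ 𝔪 ^ n)` over
`𝒪[Δ]`) uses `5 ≤ p` ONLY through the torsion hypothesis `RT.K5.NoTors Γ A`
(`RT/K5/NoTorsUnit.lean`): "`A` has no `2`-torsion, and `A` has no `3`-torsion OR no conjugate of
`U = S T` lies in `Γ`".  Everything else in `RT/K5` needs `p ≠ 2` only.

This file gives the REPAIR AT `p = 3`: the second alternative of `NoTors` holds for every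
`Γ ≤ Γ₀(N)` as soon as `N` is divisible by a prime `r ≡ 2 mod 3` (e.g. `r = 2`) or by `9`.

* `s59min_trace_conj`      : `tr (g⁻¹ U g) = 1`;
* `s59min_dvd_of_gamma0`   : `γ ∈ Γ₀(N)`, `tr γ = 1` ⇒ `N ∣ a² − a + 1` (`a = γ₀₀`);
* `s59min_no_root`         : `a² − a + 1 ≢ 0 mod r` for a prime `r ≡ 2 mod 3`;
* `s59min_no_root_nine`    : `a² − a + 1 ≢ 0 mod 9`;
* `s59min_no_elliptic3`    : no conjugate of `U` lies in `Γ ≤ Γ₀(N)`, `N` as above;
* `s59min_noTors3`         : `RT.K5.NoTors Γ A` for every `𝒪`-module `A`, `𝒪` local with `3 ∈ 𝔪`;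
* `s59min_freeHyp3`        : `RT.K5.FreeHyp 3 𝒪 L M ℓ₀ H' H k` from its arithmetic fields at `p = 3`.
-/
import Fermat.Agent.RT.K5.NoTorsUnit

set_option autoImplicit false
set_option linter.style.haveILetI false
set_option linter.unusedVariables false

namespace Fermat.Agent.S59

open CongruenceSubgroup Matrix
open scoped MatrixGroups
open Fermat.Agent.ES1 (gammaH diamHom pmH)
open Fermat.Agent.RT.K5

/-- the level condition which excludes elliptic elements of order `3` -/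
def S59minNoEll3 (N : ℕ) : Prop := (∃ r : ℕ, r.Prime ∧ r % 3 = 2 ∧ r ∣ N) ∨ 9 ∣ N

theorem s59min_U_trace :
    ((Fermat.Agent.S41.PD.U : SL(2, ℤ)) : Matrix (Fin 2) (Fin 2) ℤ).trace = 1 := by
  rw [Fermat.Agent.S41.PD.U_def, Matrix.SpecialLinearGroup.coe_mul, ModularGroup.coe_S,
    ModularGroup.coe_T, Matrix.trace_fin_two]
  simp [Matrix.mul_apply, Fin.sum_univ_two]

/-- the trace of a conjugate of `U` is `1` -/
theorem s59min_trace_conj (g : SL(2, ℤ)) :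
    ((g⁻¹ * Fermat.Agent.S41.PD.U * g : SL(2, ℤ)) : Matrix (Fin 2) (Fin 2) ℤ).trace = 1 := by
  rw [Matrix.SpecialLinearGroup.coe_mul, Matrix.SpecialLinearGroup.coe_mul,
    Matrix.trace_mul_cycle, ← Matrix.SpecialLinearGroup.coe_mul, mul_inv_cancel,
    Matrix.SpecialLinearGroup.coe_one, one_mul]
  exact s59min_U_trace

/-- an element of `Γ₀(N)` of trace `1` gives a root of `a² − a + 1` modulo `N` -/
theorem s59min_dvd_of_gamma0 {N : ℕ} (γ : SL(2, ℤ)) (hγ : γ ∈ Gamma0 N)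
    (ht : (γ : Matrix (Fin 2) (Fin 2) ℤ).trace = 1) :
    (N : ℤ) ∣ (γ 0 0) ^ 2 - γ 0 0 + 1 := by
  rw [Gamma0_mem] at hγ
  have hc : (N : ℤ) ∣ γ 1 0 := (ZMod.intCast_zmod_eq_zero_iff_dvd _ _).1 hγ
  have hdet := γ.det_coe
  rw [Matrix.det_fin_two] at hdet
  rw [Matrix.trace_fin_two] at ht
  have hd : (γ 1 1 : ℤ) = 1 - γ 0 0 := by
    have : (γ : Matrix (Fin 2) (Fin 2) ℤ) 0 0 + (γ : Matrix (Fin 2) (Fin 2) ℤ) 1 1 = 1 := ht
    linarith
  have h1 : (γ 0 0) ^ 2 - γ 0 0 + 1 = - (γ 0 1) * γ 1 0 := by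
    have h2 : (γ : Matrix (Fin 2) (Fin 2) ℤ) 0 0 * (γ : Matrix (Fin 2) (Fin 2) ℤ) 1 1 -
        (γ : Matrix (Fin 2) (Fin 2) ℤ) 0 1 * (γ : Matrix (Fin 2) (Fin 2) ℤ) 1 0 = 1 := hdet
    have h3 : (γ : Matrix (Fin 2) (Fin 2) ℤ) 1 1 = 1 - (γ : Matrix (Fin 2) (Fin 2) ℤ) 0 0 := hd
    rw [h3] at h2
    linear_combination -h2
  rw [h1]
  exact Dvd.dvd.mul_left hc _

/-- `a² − a + 1` has no root modulo a prime `r ≡ 2 mod 3` -/
theorem s59min_no_root (r : ℕ) (hr : r.Prime) (hr3 : r % 3 = 2) (a : ℤ) :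
    ¬ (r : ℤ) ∣ a ^ 2 - a + 1 := by
  intro h
  haveI : Fact r.Prime := ⟨hr⟩
  have h0 : ((a : ZMod r)) ^ 2 - (a : ZMod r) + 1 = 0 := by
    have := (ZMod.intCast_zmod_eq_zero_iff_dvd (a ^ 2 - a + 1) r).2 h
    push_cast at this
    exact this
  set x : ZMod r := (a : ZMod r) with hx
  have hy3 : (-x) ^ 3 = 1 := by linear_combination (-(x + 1)) * h0
  have hy0 : -x ≠ 0 := by
    intro hz
    have hx0 : x = 0 := neg_eq_zero.1 hz
    rw [hx0] at h0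
    simp at h0
  have hF := ZMod.pow_card_sub_one_eq_one hy0
  obtain ⟨k, hk⟩ : ∃ k, r - 1 = 3 * k + 1 := ⟨(r - 1) / 3, by omega⟩
  rw [hk, pow_succ, pow_mul, hy3, one_pow, one_mul] at hF
  have hx1 : x = -1 := by rw [← hF]; ring
  rw [hx1] at h0
  have h3 : ((3 : ℕ) : ZMod r) = 0 := by
    push_cast
    linear_combination h0
  have h3r : r ∣ 3 := (ZMod.natCast_eq_zero_iff 3 r).1 h3
  have : r = 3 := (Nat.prime_dvd_prime_iff_eq hr Nat.prime_three).1 h3r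
  omega

/-- `a² − a + 1` has no root modulo `9` -/
theorem s59min_no_root_nine (a : ℤ) : ¬ (9 : ℤ) ∣ a ^ 2 - a + 1 := by
  intro h
  have h0 : ((a : ZMod 9)) ^ 2 - (a : ZMod 9) + 1 = 0 := by
    have := (ZMod.intCast_zmod_eq_zero_iff_dvd (a ^ 2 - a + 1) 9).2 (by exact_mod_cast h)
    push_cast at this
    exact this
  have hall : ∀ x : ZMod 9, x ^ 2 - x + 1 ≠ 0 := by decide
  exact hall _ h0

/-- `a² − a + 1` has no root modulo `N`, if `N` is divisible by a prime `r ≡ 2 mod 3` or by `9` -/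
theorem s59min_no_root_of_noEll3 {N : ℕ} (hN : S59minNoEll3 N) (a : ℤ) :
    ¬ (N : ℤ) ∣ a ^ 2 - a + 1 := by
  intro h
  rcases hN with ⟨r, hr, hr3, hrN⟩ | h9
  · exact s59min_no_root r hr hr3 a (dvd_trans (Int.natCast_dvd_natCast.2 hrN) h)
  · exact s59min_no_root_nine a (dvd_trans (by exact_mod_cast h9) h)

/-- **no elliptic element of order `3`**: no conjugate of `U` lies in a subgroup of `Γ₀(N)`, if `N`
is divisible by a prime `r ≡ 2 mod 3` or by `9`. -/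
theorem s59min_no_elliptic3 {N : ℕ} (hN : S59minNoEll3 N) (Γ : Subgroup SL(2, ℤ))
    (hΓ : Γ ≤ Gamma0 N) (g : SL(2, ℤ)) : g⁻¹ * Fermat.Agent.S41.PD.U * g ∉ Γ := fun hmem =>
  s59min_no_root_of_noEll3 hN _
    (s59min_dvd_of_gamma0 _ (hΓ hmem) (s59min_trace_conj g))

theorem s59min_no_elliptic3_gammaH {L : ℕ} (hL : S59minNoEll3 L) (M : ℕ)
    (H : Subgroup (ZMod M)ˣ) (g : SL(2, ℤ)) :
    g⁻¹ * Fermat.Agent.S41.PD.U * g ∉ gammaH L M H :=
  s59min_no_elliptic3 hL _ (Fermat.Agent.ES1.gammaH_le_gamma0 L M H) g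

section unit

variable {𝒪 : Type*} [CommRing 𝒪] [IsLocalRing 𝒪]

/-- **the torsion hypothesis at `p = 3`** (any odd residue characteristic in fact) -/
theorem s59min_noTors3 {p : ℕ} (hp : p.Prime) (hp2 : p ≠ 2)
    (hpm : (p : 𝒪) ∈ IsLocalRing.maximalIdeal 𝒪) {N : ℕ} (hN : S59minNoEll3 N)
    (Γ : Subgroup SL(2, ℤ)) (hΓ : Γ ≤ Gamma0 N) (A : Type*) [AddCommGroup A] [Module 𝒪 A] :
    NoTors Γ A := by
  have h2 : Nat.Coprime 2 p := (Nat.coprime_primes Nat.prime_two hp).mpr (fun h => hp2 h.symm)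
  exact ⟨fun a ha => k5nt_smul_eq_zero hpm h2 a ha, Or.inr (s59min_no_elliptic3 hN Γ hΓ)⟩

end unit

section hyp

variable {𝒪 : Type} [CommRing 𝒪] [IsLocalRing 𝒪] {p : ℕ}

/-- **`FreeHyp`** from its arithmetic fields, for EVERY odd `p` (in particular `p = 3`), at levels
`L` divisible by a prime `r ≡ 2 mod 3` or by `9` -/
theorem s59min_freeHyp3 (hp : p.Prime) (hp2 : p ≠ 2)
    (hpm : (p : 𝒪) ∈ IsLocalRing.maximalIdeal 𝒪) (L M ℓ₀ : ℕ) (hL : S59minNoEll3 L)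
    (hℓ₀ : ℓ₀.Prime) (hℓ₀L : ¬ ℓ₀ ∣ L) {H' H : Subgroup (ZMod M)ˣ} (hle : H' ≤ H) (k : ℕ)
    (hidx : ((pmH H').subgroupOf (pmH H)).index = p ^ k) :
    FreeHyp p 𝒪 L M ℓ₀ H' H k where
  p_ne_two := hp2
  p_mem := hpm
  prime := hℓ₀
  not_dvd := hℓ₀L
  le := hle
  index := hidx
  noTors n := s59min_noTors3 hp hp2 hpm hL _ (Fermat.Agent.ES1.gammaH_le_gamma0 L M H) _

end hyp

end Fermat.Agent.S59
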