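/-
S59, wall R1 (case (a): `W` good at `p`), THE FINAL ASSEMBLY AT `p = 5` (helper67).

Target (captain, `S59/TopOwedP.lean`): `s59towp_StmtR1At (s59lkP0 5) 5`, the contract of the
minimal case at the prime `5` over a ring `𝒪` in which `s59lkP0 5 = Φ_5 · ∏ (X² + aX + b)` splits.

`s59r1five_main` proves it from ONE named input, everything else being plugged in:

* `s59r1five_StmtS56Flat` : the flat half of S56 ✓ as a leaf (Taylor–Wiles primes for `twFlat`);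
  it is `s59min56_flat` (helper7 / helper76, `S59/Min/S56Flat.lean`), kept out of the imports of
  this file (the closure of S56 is heavy) and plugged in `S59/Min/R1FiveFinal.lean`.

Plugged in: the setup over the big ring (helper22 `s59lk_setupBigW`), the cone with its base
lattice and generation (helper9 `S59bidData`, helper76 `s59bgn_data_five`), R1-HK-MIN (helper34
`s59btr_hHk_min`), DICT-ι (helper9 `s59bidhe_main`, helper56 E-SPAN, helper22 DictCmp), DICT-τ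
(helper67 `s59mindt_main`, helper34 DICT-FEED + RES-TR `s59mindftr_hres`, helper9 `BarTrInt`,
helper44 DICT-SEP), DEF-COND (helper63
`s59dcfin_exists_flat`), the stage contract (helper67 `s59minfd_stage_dict`; the invariant is
unfolded here, `s59r1five_inv`, as in helper63's `s59minbs_inv`), `2 ≤ N₀` (helper44
`s59minn0_two_le`).
-/
import Fermat.Agent.S59.TopOwedP
import Fermat.Agent.S59.Min.FeedStageDict
import Fermat.Agent.S59.Min.BaseIdHE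
import Fermat.Agent.S59.Min.BaseIdGen
import Fermat.Agent.S59.Min.BaseTrMin
import Fermat.Agent.S59.Min.DictFeedS
import Fermat.Agent.S59.Min.DictFeedTr
import Fermat.Agent.S59.Min.BarTrInt
import Fermat.Agent.S59.Min.N0Two
import Fermat.Agent.S59.LowK.SetupBigW
import Fermat.Agent.S59.DefCond.Final

set_option autoImplicit false
set_option linter.style.haveILetI false
set_option linter.unusedSectionVars false
set_option linter.unusedVariables false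
set_option linter.style.longLine false

noncomputable section

namespace Fermat.Agent.S59.LowK

open IsLocalRing Polynomial Fermat.Agent.ES Fermat.Agent.S30 Fermat.Agent.W1 Fermat.Agent.TW
open Fermat.Agent.ES1 Fermat.Agent.RT Fermat.Agent.RT.K1 Fermat.Agent.RT.K5 Fermat.Agent.RT.Prod
open Fermat.Agent.S59.LowQ ExtCitation ModularCurve ModularCurve.Period
open WeierstrassCurve WeierstrassCurve.Affine WeierstrassCurve.Affine.Point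
open Fermat.Agent.S59 Fermat.Agent.S31 Fermat.Agent.S53
open scoped MatrixGroups

/-! ### The named inputs -/

/-- **S56-flat**: the flat half of S56 ✓ (Taylor–Wiles primes for the flat condition). -/
def s59r1five_StmtS56Flat : Prop :=
  ∀ (p : ℕ) [Fact p.Prime] (𝒪 : Type) [CommRing 𝒪] [IsDomain 𝒪] [IsDiscreteValuationRing 𝒪]
    [IsAdicComplete (maximalIdeal 𝒪) 𝒪] [Finite (ResidueField 𝒪)]
    (ρbar : ResidualGaloisRep (ResidueField 𝒪)) (S Smin : Finset ℕ),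
    TWHyp 𝒪 p ρbar S Smin →
    ∃ r : ℕ, ∀ n : ℕ, ∃ qv : Fin r → ℕ, IsTWFamily p ρbar S n r qv ∧
      ∀ DQ : GaloisRep.DeformationRingData 𝒪 ρbar (twFlat 𝒪 p Smin (Finset.univ.image qv)),
        ∃ γ : MvPowerSeries (Fin r) 𝒪 →ₐ[𝒪] DQ.R, Function.Surjective γ

/-! ### Small lemmas -/

/-- the flat condition only sees the primes of `Q` -/
theorem s59r1five_twFlat_filter (𝒪 : Type) [CommRing 𝒪] (p : ℕ) (Smin Q : Finset ℕ) :
    twFlat 𝒪 p Smin (Q.filter Nat.Prime) = twFlat 𝒪 p Smin Q := by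
  funext A _ _ _ ρ
  apply propext
  constructor
  · rintro ⟨⟨h1, h2, h3⟩, h4⟩
    refine ⟨⟨h1, h2, fun q hq hqS => h3 q hq ?_⟩, h4⟩
    intro hmem
    apply hqS
    rcases Finset.mem_union.1 hmem with h | h
    · exact Finset.mem_union_left _ h
    · exact Finset.mem_union_right _ (Finset.mem_filter.1 h).1
  · rintro ⟨⟨h1, h2, h3⟩, h4⟩
    refine ⟨⟨h1, h2, fun q hq hqS => h3 q hq ?_⟩, h4⟩
    intro hmem
    apply hqS
    rcases Finset.mem_union.1 hmem with h | h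
    · exact Finset.mem_union_left _ h
    · exact Finset.mem_union_right _ (Finset.mem_filter.2 ⟨h, hq⟩)

section DefCond

variable (W : WeierstrassCurve ℤ) (hΔ : W.Δ ≠ 0) (p : ℕ) [hp : Fact p.Prime]
variable {𝒪 : Type} [CommRing 𝒪] [IsDomain 𝒪] [IsDiscreteValuationRing 𝒪]
  [IsAdicComplete (maximalIdeal 𝒪) 𝒪] [Finite (ResidueField 𝒪)]
  (φ : ℤ_[p] →+* 𝒪) (hφ : IsLocalHom φ)

/-- **DEF-COND for every `Q`** (flat case): the universal rings of type `twFlat … Q` exist for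
EVERY finite set `Q` (only the primes of `Q` matter). -/
theorem s59r1five_hD (hss : W.IsSemistableModel) (hp2 : p ≠ 2) (hgood : W.IsGoodPrimeFor p)
    (S : Finset ℕ) (hTW : TWHyp 𝒪 p (s59feBar W hΔ p φ hφ) S (s59feSmin W hΔ p))
    (Q : Finset ℕ) :
    Nonempty (GaloisRep.DeformationRingData 𝒪 (s59feBar W hΔ p φ hφ)
      (twFlat 𝒪 p (s59feSmin W hΔ p) Q)) := by
  rw [← s59r1five_twFlat_filter]
  exact s59dcfin_exists_flat p _ _ _ hTW (s59feSigma W hΔ p)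
    (s59dcb_flat W hΔ p φ hφ s59dcc_stmtCondFlat hss hp2 hgood) (Q.filter Nat.Prime)
    (fun q hq => (Finset.mem_filter.1 hq).2)

end DefCond

section Inv

variable {𝒪 : Type} [CommRing 𝒪] [IsDomain 𝒪] [IsDiscreteValuationRing 𝒪]
  [IsAdicComplete (maximalIdeal 𝒪) 𝒪] [CharZero 𝒪] {p : ℕ} [Fact p.Prime]

/-- the invariant at `Σ = ∅`, unfolded at the level of the stage -/
theorem s59r1five_inv (hp2 : p ≠ 2) (hp𝒪 : (p : 𝒪) ∈ maximalIdeal 𝒪) (ψ : ℕ → 𝒪) (ϖ : 𝒪)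
    (hϖ : Irreducible ϖ) (W : WeierstrassCurve ℤ) (hΔ : W.Δ ≠ 0)
    (hirr : W.ModRepIsIrreducible p)
    (S₀ : Finset ℕ) (hψW : s59asmr_CongW p ψ W S₀) (ρ₀ : GaloisRepAdic 𝒪) (Smin : Finset ℕ)
    (N0 : ℕ) {ρbar : ResidualGaloisRep (ResidueField 𝒪)}
    {𝒟 : ∀ ⦃A : Type⦄ [CommRing A] [IsLocalRing A] [Algebra 𝒪 A], GaloisRepAdic A → Prop}
    (s : S59Stage 𝒪 ρbar 𝒟)
    (hinv : s59tops_inv (s59asmR2 p hp2 hp𝒪 ψ ϖ hϖ W hΔ hirr S₀ hψW) ρ₀ Smin N0 ∅ s) :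
    s.N = N0 ∧ s.S = (↑Smin : Set ℕ) ∧
    (∀ (ℓ : ℕ) (hℓ : ℓ.Prime) (hℓN : ¬ ℓ ∣ s.N) (hℓS : ℓ ∉ s.S),
      s.πT (s.H.π (CuspForm.heckeAlgebra.T hℓ hℓN hℓS)) = ψ ℓ) ∧
    ∃ v : s59asmL 𝒪 s.N, v ∈ s59asmE 𝒪 s.N p ψ ∧
      s.etaL = s59eta_J (s59asmB 𝒪 s.N) (s59asmE 𝒪 s.N p ψ) v := by
  obtain ⟨hN, hS, hπ, -, x, hx, hgood, hJ⟩ := hinv
  refine ⟨?_, ?_, hπ, ?_⟩
  · rw [hN]
    simp [s59tops_level]
  · rw [hS, Finset.union_empty]
  · obtain ⟨M, hM, v⟩ := x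
    have hx' : M = s.N := hx
    subst hx'
    exact ⟨v, hgood.1, hJ⟩

end Inv

/-! ### The assembly -/

/-- **R1 (a) AT `p = 5`**: the contract of the minimal case at the prime `5`, from S56-flat. -/
theorem s59r1five_main (hS56 : s59r1five_StmtS56Flat) :
    s59towp_StmtR1At (s59lkP0 5) 5 := by
  intro hp hp2 W hΔ hW hirr hgood N0 iN0 hN0 hN0sq f 𝔪 hf h𝔪 hp𝔪 hcong 𝒪 i1 i2 i3 i4 i5 i6 φ hφ
    hinj hp𝒪 hK hsp hBigS0 ψ χ hχ hψ0 hψ ϖ hϖ hψW ρ₀ hdet₀ habs₀ htr₀ s₀ hinv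
  classical
  obtain ⟨hN, hS, hπψ, v, hv, hJ⟩ :=
    s59r1five_inv hp2 hp𝒪 ψ ϖ hϖ W hΔ hirr _ hψW ρ₀ _ N0 s₀ hinv
  subst hN
  have hpp : (5 : ℕ).Prime := hp.out
  have hpSmin : 5 ∈ s59feSmin W hΔ 5 := s59fe_p_mem_Smin W hΔ 5
  have hMSmin : ∀ ℓ : ℕ, ℓ.Prime → ℓ ∣ s₀.N → ℓ ∈ s59feSmin W hΔ 5 :=
    fun ℓ hℓ h => ((hN0 ℓ hℓ).1 h).1
  have hpM : ¬ 5 ∣ s₀.N := fun h => ((hN0 5 hpp).1 h).2 rfl
  have hM2 : 2 ≤ s₀.N := s59minn0_two_le f hf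
  have hmod : W.IsResiduallyModularOfLevel 5 s₀.N := ⟨f, 𝔪, hf, h𝔪, hp𝔪, hcong⟩
  haveI : Fact ((5 : ℕ) ≠ 2) := ⟨hp2⟩
  have htriv : ∀ r : ℕ, r.Prime → r ≠ 5 → r ∣ s₀.N → s59lq_Unram W 5 r →
      s59lq_IsTrivialPrime W 5 r := by
    intro r hr hr5 hrN hun
    exfalso
    rcases (s59lkbig_Smin_mem W hΔ 5 φ hφ r hr).1 (hMSmin r hr hrN) with h | h
    · exact hr5 h
    · exact h ((s59lkbig_rho_unram_iff W hΔ 5 φ hφ r).2 hun)
  -- the setup over `𝒪` at the level of the stage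
  let Y : s59lk_KSetupW W 5 s₀.N :=
    s59lk_setupBigW 5 (Or.inr rfl) W hΔ hW hirr s₀.N (NeZero.ne _) htriv 𝒪 φ hφ hsp
  haveI : Fact ((1 : ℕ) ∣ s₀.N) := ⟨one_dvd _⟩
  have hι : IsEmpty Y.ι := s59btr_isEmpty_of_min Y hMSmin
  have hTW : TWHyp 𝒪 5 (s59feBar W hΔ 5 φ hφ)
      (s59feSmin W hΔ 5 ∪ Finset.univ.image Y.r) (s59feSmin W hΔ 5) := Y.hyp
  -- S56-flat
  obtain ⟨h, hS56'⟩ := hS56 5 𝒪 _ _ _ hTW
  -- the cone with its base lattice, generated by the `a ℓ`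
  obtain ⟨D, hD⟩ := s59bgn_data_five (le_refl 5) hΔ hN0sq hpM hM2 hmod Y h
  -- the set of the stage and the set of the cone have the same primes
  have hSS : ∀ ℓ : ℕ, ℓ.Prime → (ℓ ∈ s₀.S ↔ ℓ ∈ D.S') := by
    intro ℓ hℓ
    rw [hS, Finset.mem_coe]
    constructor
    · intro hmem
      by_cases hℓp : ℓ = 5
      · rw [hℓp]
        exact D.B.hpS'
      · exact D.B.hNS' ℓ hℓ ((hN0 ℓ hℓ).2 ⟨hmem, hℓp⟩)
    · intro hmem
      by_contra hn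
      refine D.hS' ℓ hℓ ?_ hmem
      intro hd
      rcases (Nat.Prime.dvd_mul hℓ).1 hd with h1 | h1
      · exact hn (hMSmin ℓ hℓ h1)
      · exact hn (((Nat.prime_dvd_prime_iff_eq hℓ hpp).1 h1) ▸ hpSmin)
  have hMS : ∀ q : ℕ, q.Prime → q ∣ s₀.N → q ∈ s₀.S :=
    fun q hq hd => (hSS q hq).2 (D.B.hNS' q hq hd)
  have hpS : 5 ∈ s₀.S := (hSS 5 hpp).2 D.B.hpS'
  -- DICT-τ : the inputs over `D.B`
  letI iAlg : Algebra 𝒪 D.B.T0 := D.B.instAlgebraT0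
  haveI iFin : Module.Finite 𝒪 D.B.T0 := D.B.instFiniteT0
  letI iMod : Module 𝒪 (S59bidM D.B.j0) := s59bidM_module (j0 := D.B.j0)
  haveI iTow : IsScalarTower 𝒪 D.B.T0 (S59bidM D.B.j0) := s59bidM_tower (j0 := D.B.j0)
  haveI : IsNoetherianRing D.B.T0 := s59mindf_feed_noeth D.B
  obtain ⟨χ₀, hχ₀⟩ := s59mindf_feedS_chi D.B s₀.S hSS
  have hgen0 : Algebra.adjoin 𝒪 (Set.range χ₀) = ⊤ :=
    s59mindf_feedS_hgen0 D.B s₀.S hSS χ₀ hχ₀
      {y : D.B.T0 | ∃ ℓ : Nat.Primes, (ℓ : ℕ) ∉ D.S' ∧ y = D.B.a ℓ}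
      (fun y hy => by
        obtain ⟨ℓ, hℓ, e⟩ := hy
        exact ⟨ℓ, hℓ, e.symm⟩) hD
  have hstrong : ∀ (B' : Type) [CommRing B'] [IsDomain B'] [Algebra 𝒪 B']
      (χ' : CuspForm.heckeAlgebra s₀.N 2 s₀.S →+* B') (t : CuspForm.heckeAlgebra s₀.N 2 s₀.S),
      χ' t ∈ Set.range (algebraMap 𝒪 B') := by
    rw [hS]
    exact hBigS0
  have hsep0 : ∀ y : D.B.T0, (∀ x : D.B.T0 →ₐ[𝒪] 𝒪, x y = 0) → y = 0 :=
    s59mindf_feedS_hsep0 D.B s₀.S hSS hstrong χ₀ hgen0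
  have hfrob0 := s59mindf_feedS_hfrob0 D.B s₀.S hSS χ₀ hχ₀
  have hres : ∀ (x : D.B.T0 →ₐ[𝒪] 𝒪) (t : CuspForm.heckeAlgebra s₀.N 2 s₀.S),
      residue 𝒪 (x (χ₀ t)) = s₀.θ t :=
    s59mindftr_hres D.B s₀.S hSS
      (fun ℓ hℓ hℓS hmem => hℓS (by rw [hS]; exact Finset.mem_coe.2 hmem))
      (s59minbti_setup_trace_int 5 (Or.inr rfl) W hΔ hW hirr s₀.N (NeZero.ne _) htriv 𝒪 φ hφ hsp)
      s₀.H s₀.πT ψ hπψ hψ χ₀ hχ₀
  -- DICT-ι
  have hψW' : ∀ r : ℕ, r.Prime → r ≠ 5 → ¬ (r : ℤ) ∣ W.Δ → ¬ r ∣ s₀.N →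
      ψ r - ((W.apOfModel r : ℤ) : 𝒪) ∈ maximalIdeal 𝒪 := by
    intro r hr hr5 hrΔ hrN
    refine hψW r hr ?_ hr5 hrΔ
    intro hmem
    rcases Finset.mem_union.1 hmem with h1 | h1
    · rw [s59feSmin, Finset.mem_insert, Finset.mem_filter, Nat.mem_primeFactors] at h1
      rcases h1 with h1 | ⟨⟨-, h1, -⟩, -⟩
      · exact hr5 h1
      · exact hrΔ (Int.natCast_dvd.2 h1)
    · exact hrN (Nat.mem_primeFactors.1 h1).2.1
  obtain ⟨ι', -, hB, hE⟩ := s59bidhe_main D hN0sq (s59bgn_hgen_range D hD) ψ hψW' s₀.S hMS hpS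
    χ₀ hχ₀ ((s₀.πT : s₀.T →+* 𝒪).comp s₀.H.π) (fun ℓ hℓ hℓN hℓS => hπψ ℓ hℓ hℓN hℓS)
  haveI : Nontrivial (S59bidM D.B.j0) :=
    s59bidM_nontrivial D.B.j0 (Nat.mul_pos (pow_pos two_pos h) D.hr)
  -- the stage contract
  obtain ⟨x₀, hx₀, e⟩ := hE v hv
  exact (s59minfd_stage_dict hpp hTW s₀
    (fun Q => s59r1five_hD W hΔ 5 φ hφ hW hp2 hgood _ hTW Q) hS56' D.B.ρ0 D.B.habs0 χ₀ hres
    hsep0 hgen0 D.S' hfrob0 (s59bidBasis D.B.j0) D.B.j0 (s59bid_hj0 D.B.j0)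
    (s59btr_image_r_of_isEmpty Y hι) (s59btr_hHk_min Y h hι D.toQ) ι' (s59asmB 𝒪 s₀.N) hB
    (s59asmE 𝒪 s₀.N 5 ψ)
    (fun y hy => by
      obtain ⟨m', hm', e'⟩ := hE y hy
      exact ⟨m', fun t => hm' t, e'⟩)
    x₀ (fun t => hx₀ t) (by rw [e]; exact hJ)).2

end Fermat.Agent.S59.LowK

end
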