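/-
S59, wall R1 (case (a)), THE CORE OF THE FINAL ASSEMBLY AT `p ≥ 5` (helper9, from helper67's
draft `R1Five.lean`), over a GENERAL setup `Y : s59lk_KSetupW W p M` (so that no `let Y := …`
blocks instance synthesis: `Y.O`, `Y.ρbar`, `Y.Smin` are used literally; at the call site
`Y := s59lk_setupBigW …` and `Y.O = 𝒪`, `Y.ρbar = s59feBar …`, `Y.Smin = s59feSmin …` by `rfl`).

* `s59r1fc_StmtS56Flat` : the flat half of S56 as a named input (= `s59min56_flat`);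
* `s59r1fc_dict` : DICT-τ + DICT-ι over the cone's base `D`, for a Hecke datum `(N, S, θ, T, H, πT)`
  with `N = M` and `S = ↑Y.Smin`: `χ₀`, `hres`, `hsep0`, `hgen0`, `hfrob0`, `ι'`, `hB`, `hE`;
* **`s59r1fc_core`** : the numerical inequality at a stage `s₀` with `s₀.N = M`, `s₀.S = ↑Y.Smin`,
  from the UNFOLDED invariant (`πT (T_ℓ) = ψ ℓ`, `v ∈ E`, `etaL = J(v)`), DEF-COND (`hD`), S56-flat,
  `hFp` (BarTrInt) and E-BIG strong.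

The closure of this file is the CONE + `FeedStageDict` (no `TopOwed`, no `TopR2`, no `DefCond`,
no S56).
-/
import Fermat.Agent.S59.Min.FeedStageDict
import Fermat.Agent.S59.Min.BaseIdHE
import Fermat.Agent.S59.Min.BaseIdGen
import Fermat.Agent.S59.Min.BaseTrMin
import Fermat.Agent.S59.Min.DictFeedS
import Fermat.Agent.S59.Min.DictFeedTr

set_option autoImplicit false
set_option linter.style.haveILetI false
set_option linter.unusedSectionVars false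
set_option linter.unusedVariables false
set_option linter.style.longLine false

noncomputable section

namespace Fermat.Agent.S59.LowK

open IsLocalRing Polynomial Fermat.Agent.ES Fermat.Agent.S30 Fermat.Agent.W1 Fermat.Agent.TW
open Fermat.Agent.ES1 Fermat.Agent.RT Fermat.Agent.RT.K1 Fermat.Agent.RT.K5 Fermat.Agent.RT.Prod
open Fermat.Agent.S59.LowQ ExtCitation ModularCurve ModularCurve.Period
open WeierstrassCurve WeierstrassCurve.Affine WeierstrassCurve.Affine.Point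
open Fermat.Agent.S59 Fermat.Agent.S31 Fermat.Agent.S53
open scoped MatrixGroups

/-- **S56-flat** (the flat half of S56, as a named input). -/
def s59r1fc_StmtS56Flat : Prop :=
  ∀ (p : ℕ) [Fact p.Prime] (𝒪 : Type) [CommRing 𝒪] [IsDomain 𝒪] [IsDiscreteValuationRing 𝒪]
    [IsAdicComplete (maximalIdeal 𝒪) 𝒪] [Finite (ResidueField 𝒪)]
    (ρbar : ResidualGaloisRep (ResidueField 𝒪)) (S Smin : Finset ℕ),
    TWHyp 𝒪 p ρbar S Smin →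
    ∃ r : ℕ, ∀ n : ℕ, ∃ qv : Fin r → ℕ, IsTWFamily p ρbar S n r qv ∧
      ∀ DQ : GaloisRep.DeformationRingData 𝒪 ρbar (twFlat 𝒪 p Smin (Finset.univ.image qv)),
        ∃ γ : MvPowerSeries (Fin r) 𝒪 →ₐ[𝒪] DQ.R, Function.Surjective γ

section Core

variable {W : WeierstrassCurve ℤ} {p M : ℕ} [hp : Fact p.Prime] [NeZero M]
  [iM₀N : Fact ((1 : ℕ) ∣ M)] {Y : s59lk_KSetupW W p M} {h : ℕ}

/-- **DICT-τ + DICT-ι over the cone's base**, for a Hecke datum of level `N = M` away from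
`S = ↑Y.Smin`. -/
theorem s59r1fc_dict (D : S59bidData Y h 1) (hD' : s59abgGen D.B) (hsq : Squarefree M)
    (hN0 : ∀ ℓ : ℕ, ℓ.Prime → (ℓ ∣ M ↔ ℓ ∈ Y.Smin ∧ ℓ ≠ p))
    (hpSmin : p ∈ Y.Smin)
    (hFp : ∀ σ : AlgebraicClosure ℚ ≃ₐ[ℚ] AlgebraicClosure ℚ, ∃ n : ℤ,
      LinearMap.trace (ResidueField Y.O) Y.ρbar.V (Y.ρbar.ρ σ) = (n : ResidueField Y.O))
    (ψ : ℕ → Y.O)
    (hψ : ∀ ℓ : ℕ, ℓ.Prime → ℓ ∉ Y.Smin → ¬ ℓ ∣ M →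
      ∀ P : ValuationSubring (AlgebraicClosure ℚ), P.LiesOverPrime ℓ →
      ∀ τ : AlgebraicClosure ℚ ≃ₐ[ℚ] AlgebraicClosure ℚ, P.IsFrobeniusAt τ ℓ →
        residue Y.O (ψ ℓ) = LinearMap.trace (ResidueField Y.O) Y.ρbar.V (Y.ρbar.ρ τ))
    (hψW : ∀ r : ℕ, r.Prime → r ≠ p → ¬ (r : ℤ) ∣ W.Δ → ¬ r ∣ M →
      ψ r - ((W.apOfModel r : ℤ) : Y.O) ∈ maximalIdeal Y.O)
    (N : ℕ) [NeZero N] (hN : N = M) (S : Set ℕ) (hS : S = (↑Y.Smin : Set ℕ))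
    (hstrong : ∀ (B' : Type) [CommRing B'] [IsDomain B'] [Algebra Y.O B']
      (χ' : CuspForm.heckeAlgebra N 2 S →+* B') (t : CuspForm.heckeAlgebra N 2 S),
      χ' t ∈ Set.range (algebraMap Y.O B'))
    {θ : CuspForm.heckeAlgebra N 2 S →+* ResidueField Y.O}
    {T : Type} [CommRing T] [IsLocalRing T] [IsNoetherianRing T]
    [IsAdicComplete (maximalIdeal T) T] [Algebra Y.O T] [IsLocalHom (algebraMap Y.O T)]
    [Module.Finite Y.O T] [Module.Free Y.O T]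
    (H : CuspForm.HeckeGaloisRepDatum N S Y.O θ T) (πT : T →ₐ[Y.O] Y.O)
    (hπψ : ∀ (ℓ : ℕ) (hℓ : ℓ.Prime) (hℓN : ¬ ℓ ∣ N) (hℓS : ℓ ∉ S),
      πT (H.π (CuspForm.heckeAlgebra.T hℓ hℓN hℓS)) = ψ ℓ) :
    ∃ χ₀ : CuspForm.heckeAlgebra N 2 S →+* D.B.T0,
      (∀ (x : D.B.T0 →ₐ[Y.O] Y.O) (t : CuspForm.heckeAlgebra N 2 S),
        residue Y.O (x (χ₀ t)) = θ t) ∧
      (∀ y : D.B.T0, (∀ x : D.B.T0 →ₐ[Y.O] Y.O, x y = 0) → y = 0) ∧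
      Algebra.adjoin Y.O (Set.range χ₀) = ⊤ ∧
      (∀ (ℓ : ℕ) (hℓ : ℓ.Prime), ℓ ∉ D.S' → ∃ (hℓN : ¬ ℓ ∣ N) (hℓS : ℓ ∉ S),
        ∀ A : ValuationSubring (AlgebraicClosure ℚ), A.LiesOverPrime ℓ →
        ∀ σ : AlgebraicClosure ℚ ≃ₐ[ℚ] AlgebraicClosure ℚ, A.IsFrobeniusAt σ ℓ →
          LinearMap.charpoly (D.B.ρ0.ρ σ) =
            X ^ 2 - C (χ₀ (CuspForm.heckeAlgebra.T hℓ hℓN hℓS)) * X + C ((ℓ : D.B.T0))) ∧
      ∃ ι' : S59bidM D.B.j0 →ₗ[Y.O] s59asmL Y.O M,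
        (∀ (t : D.B.T0) (x y : S59bidM D.B.j0),
          s59asmB Y.O M (ι' (t • x)) (ι' y) = s59asmB Y.O M (ι' x) (ι' (t • y))) ∧
        ∀ y ∈ s59asmE Y.O M p ψ, ∃ m' : S59bidM D.B.j0,
          (∀ t : CuspForm.heckeAlgebra N 2 S, χ₀ t • m' = πT (H.π t) • m') ∧ ι' m' = y := by
  classical
  subst hN
  have hpp : p.Prime := hp.out
  have hMSmin : ∀ ℓ : ℕ, ℓ.Prime → ℓ ∣ N → ℓ ∈ Y.Smin := fun ℓ hℓ h => ((hN0 ℓ hℓ).1 h).1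
  -- the set of the stage and the set of the cone have the same primes
  have hSS : ∀ ℓ : ℕ, ℓ.Prime → (ℓ ∈ S ↔ ℓ ∈ D.S') := by
    intro ℓ hℓ
    rw [hS, Finset.mem_coe]
    constructor
    · intro hmem
      by_cases hℓp : ℓ = p
      · rw [hℓp]
        exact D.B.hpS'
      · exact D.B.hNS' ℓ hℓ ((hN0 ℓ hℓ).2 ⟨hmem, hℓp⟩)
    · intro hmem
      by_contra hn
      refine D.hS' ℓ hℓ ?_ hmem
      intro hd
      rcases (Nat.Prime.dvd_mul hℓ).1 hd with h1 | h1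
      · exact hn (hMSmin ℓ hℓ h1)
      · exact hn (((Nat.prime_dvd_prime_iff_eq hℓ hpp).1 h1) ▸ hpSmin)
  have hMS : ∀ q : ℕ, q.Prime → q ∣ N → q ∈ S :=
    fun q hq hd => (hSS q hq).2 (D.B.hNS' q hq hd)
  have hpS : p ∈ S := (hSS p hpp).2 D.B.hpS'
  -- DICT-τ : the inputs over `D.B`
  obtain ⟨χ₀, hχ₀⟩ := s59mindf_feedS_chi D.B S hSS
  have hgen0 : Algebra.adjoin Y.O (Set.range χ₀) = ⊤ :=
    s59mindf_feedS_hgen0 D.B S hSS χ₀ hχ₀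
      {y : D.B.T0 | ∃ ℓ : Nat.Primes, (ℓ : ℕ) ∉ D.S' ∧ y = D.B.a ℓ}
      (fun y hy => by
        obtain ⟨ℓ, hℓ, e⟩ := hy
        exact ⟨ℓ, hℓ, e.symm⟩) hD'
  have hsep0 : ∀ y : D.B.T0, (∀ x : D.B.T0 →ₐ[Y.O] Y.O, x y = 0) → y = 0 :=
    s59mindf_feedS_hsep0 D.B S hSS hstrong χ₀ hgen0
  have hfrob0 := s59mindf_feedS_hfrob0 D.B S hSS χ₀ hχ₀
  have hres : ∀ (x : D.B.T0 →ₐ[Y.O] Y.O) (t : CuspForm.heckeAlgebra N 2 S),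
      residue Y.O (x (χ₀ t)) = θ t :=
    s59mindftr_hres D.B S hSS
      (fun ℓ hℓ hℓS hmem => hℓS (by rw [hS]; exact Finset.mem_coe.2 hmem))
      hFp H πT ψ hπψ hψ χ₀ hχ₀
  -- DICT-ι
  obtain ⟨ι', -, hB, hE⟩ := s59bidhe_main D hsq (s59bgn_hgen_range D hD') ψ hψW S hMS hpS
    χ₀ hχ₀ ((πT : T →+* Y.O).comp H.π) (fun ℓ hℓ hℓN hℓS => hπψ ℓ hℓ hℓN hℓS)
  exact ⟨χ₀, hres, hsep0, hgen0, hfrob0, ι', hB, fun y hy => by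
    obtain ⟨m', hm', e⟩ := hE y hy
    exact ⟨m', fun t => hm' t, e⟩⟩

/-- **THE CORE OF R1 (a) AT `p ≥ 5`**, over a general setup `Y` of the minimal level `M`. -/
theorem s59r1fc_core (hS56 : s59r1fc_StmtS56Flat) (hp5 : 5 ≤ p) (hΔ : W.Δ ≠ 0)
    (hsq : Squarefree M) (hM2 : 2 ≤ M) (hmod : W.IsResiduallyModularOfLevel p M)
    (hN0 : ∀ ℓ : ℕ, ℓ.Prime → (ℓ ∣ M ↔ ℓ ∈ Y.Smin ∧ ℓ ≠ p))
    (hpSmin : p ∈ Y.Smin)
    (hFp : ∀ σ : AlgebraicClosure ℚ ≃ₐ[ℚ] AlgebraicClosure ℚ, ∃ n : ℤ,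
      LinearMap.trace (ResidueField Y.O) Y.ρbar.V (Y.ρbar.ρ σ) = (n : ResidueField Y.O))
    (ψ : ℕ → Y.O)
    (hψ : ∀ ℓ : ℕ, ℓ.Prime → ℓ ∉ Y.Smin → ¬ ℓ ∣ M →
      ∀ P : ValuationSubring (AlgebraicClosure ℚ), P.LiesOverPrime ℓ →
      ∀ τ : AlgebraicClosure ℚ ≃ₐ[ℚ] AlgebraicClosure ℚ, P.IsFrobeniusAt τ ℓ →
        residue Y.O (ψ ℓ) = LinearMap.trace (ResidueField Y.O) Y.ρbar.V (Y.ρbar.ρ τ))
    (hψW : ∀ r : ℕ, r.Prime → r ≠ p → ¬ (r : ℤ) ∣ W.Δ → ¬ r ∣ M →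
      ψ r - ((W.apOfModel r : ℤ) : Y.O) ∈ maximalIdeal Y.O)
    (hD : ∀ Q : Finset ℕ, Nonempty (GaloisRep.DeformationRingData Y.O Y.ρbar
      (twFlat Y.O p Y.Smin Q)))
    (s₀ : S59Stage Y.O Y.ρbar (twFlat Y.O p Y.Smin ∅))
    (hN : s₀.N = M) (hS : s₀.S = (↑Y.Smin : Set ℕ))
    (hstrong : ∀ (B' : Type) [CommRing B'] [IsDomain B'] [Algebra Y.O B']
      (χ' : CuspForm.heckeAlgebra s₀.N 2 s₀.S →+* B') (t : CuspForm.heckeAlgebra s₀.N 2 s₀.S),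
      χ' t ∈ Set.range (algebraMap Y.O B'))
    (hπψ : ∀ (ℓ : ℕ) (hℓ : ℓ.Prime) (hℓN : ¬ ℓ ∣ s₀.N) (hℓS : ℓ ∉ s₀.S),
      s₀.πT (s₀.H.π (CuspForm.heckeAlgebra.T hℓ hℓN hℓS)) = ψ ℓ)
    (v : s59asmL Y.O M) (hv : v ∈ s59asmE Y.O M p ψ)
    (hJ : s₀.etaL = s59eta_J (s59asmB Y.O M) (s59asmE Y.O M p ψ) v) :
    Function.Bijective s₀.γ ∧ s₀.lPhi ≤ Module.length Y.O (Y.O ⧸ s₀.etaL) := by
  classical
  have hpp : p.Prime := hp.out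
  have hMSmin : ∀ ℓ : ℕ, ℓ.Prime → ℓ ∣ M → ℓ ∈ Y.Smin := fun ℓ hℓ h => ((hN0 ℓ hℓ).1 h).1
  have hpM : ¬ p ∣ M := fun h => ((hN0 p hpp).1 h).2 rfl
  have hι : IsEmpty Y.ι := s59btr_isEmpty_of_min Y hMSmin
  -- S56-flat
  obtain ⟨h, hS56'⟩ := hS56 p Y.O Y.ρbar _ _ Y.hyp
  -- the cone with its base lattice, generated by the `a ℓ`
  obtain ⟨D, hD'⟩ := s59bgn_data_five hp5 hΔ hsq hpM hM2 hmod Y h
  haveI : IsNoetherianRing D.B.T0 := s59mindf_feed_noeth D.B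
  haveI : Nontrivial (S59bidM D.B.j0) :=
    s59bidM_nontrivial D.B.j0 (Nat.mul_pos (pow_pos two_pos h) D.hr)
  -- the dictionary
  obtain ⟨χ₀, hres, hsep0, hgen0, hfrob0, ι', hB, hE⟩ :=
    s59r1fc_dict D hD' hsq hN0 hpSmin hFp ψ hψ hψW s₀.N hN s₀.S hS hstrong s₀.H s₀.πT hπψ
  obtain ⟨x₀, hx₀, hιx₀⟩ := hE v hv
  -- the stage contract
  exact s59minfd_stage_dict hpp Y.hyp s₀ hD hS56' D.B.ρ0 D.B.habs0 χ₀ hres
    hsep0 hgen0 D.S' hfrob0 (s59bidBasis D.B.j0) D.B.j0 (s59bid_hj0 D.B.j0)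
    (s59btr_image_r_of_isEmpty Y hι) (s59btr_hHk_min Y h hι D.toQ) ι' (s59asmB Y.O M) hB
    (s59asmE Y.O M p ψ) hE x₀ hx₀ (by rw [hιx₀]; exact hJ)

end Core

end Fermat.Agent.S59.LowK

end
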