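/-
S59, wall R1 (case (a)), THE CORE OF THE FINAL ASSEMBLY FOR EVERY `p` (helper9): the twin of
`s59r1fc_core` (`S59/Min/R1FiveCore.lean`) with the cone's data as a HYPOTHESIS
(`hdata : ∀ h, ∃ D : S59bidData Y h 1, s59abgGen D.B`) instead of `5 ≤ p`: R1 (a) at `p = 3` is
reduced to the cone at `p = 3` (K5 without torsion, K7-FLAT, K6 at `r = 2`), nothing else.

* `s59r1fco_core` : the numerical inequality at a stage of the minimal level from `hdata`;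
* `s59r1fco_five` : `hdata` for `5 ≤ p` (`s59bgn_data_five`).
-/
import Fermat.Agent.S59.Min.R1FiveCore

set_option autoImplicit false
set_option linter.style.haveILetI false
set_option linter.unusedSectionVars false
set_option linter.unusedVariables false
set_option linter.style.longLine false

noncomputable section

namespace Fermat.Agent.S59.LowK

open IsLocalRing Polynomial Fermat.Agent.ES Fermat.Agent.S30 Fermat.Agent.W1 Fermat.Agent.TW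
open Fermat.Agent.ES1 Fermat.Agent.RT Fermat.Agent.RT.K1 Fermat.Agent.RT.K5 Fermat.Agent.RT.Prod
open Fermat.Agent.S59.LowQ ExtCitation ModularCurve ModularCurve.Period
open WeierstrassCurve WeierstrassCurve.Affine WeierstrassCurve.Affine.Point
open Fermat.Agent.S59 Fermat.Agent.S31 Fermat.Agent.S53
open scoped MatrixGroups

section Core

variable {W : WeierstrassCurve ℤ} {p M : ℕ} [hp : Fact p.Prime] [NeZero M]
  [iM₀N : Fact ((1 : ℕ) ∣ M)] {Y : s59lk_KSetupW W p M} {h : ℕ}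

/-- **THE CORE OF R1 (a), every `p`, from the cone's data**: over a general setup `Y` of the
minimal level `M`, from `hdata` = "for every `h` the cone delivers a generated base with its
lattice" (`s59bgn_data_five` for `5 ≤ p`). -/
theorem s59r1fco_core (hS56 : s59r1fc_StmtS56Flat)
    (hdata : ∀ h : ℕ, ∃ D : S59bidData Y h 1, s59abgGen D.B)
    (hsq : Squarefree M)
    (hN0 : ∀ ℓ : ℕ, ℓ.Prime → (ℓ ∣ M ↔ ℓ ∈ Y.Smin ∧ ℓ ≠ p))
    (hpSmin : p ∈ Y.Smin)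
    (hFp : ∀ σ : AlgebraicClosure ℚ ≃ₐ[ℚ] AlgebraicClosure ℚ, ∃ n : ℤ,
      LinearMap.trace (ResidueField Y.O) Y.ρbar.V (Y.ρbar.ρ σ) = (n : ResidueField Y.O))
    (ψ : ℕ → Y.O)
    (hψ : ∀ ℓ : ℕ, ℓ.Prime → ℓ ∉ Y.Smin → ¬ ℓ ∣ M →
      ∀ P : ValuationSubring (AlgebraicClosure ℚ), P.LiesOverPrime ℓ →
      ∀ τ : AlgebraicClosure ℚ ≃ₐ[ℚ] AlgebraicClosure ℚ, P.IsFrobeniusAt τ ℓ →
        residue Y.O (ψ ℓ) = LinearMap.trace (ResidueField Y.O) Y.ρbar.V (Y.ρbar.ρ τ))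
    (hψW : ∀ r : ℕ, r.Prime → r ≠ p → ¬ (r : ℤ) ∣ W.Δ → ¬ r ∣ M →
      ψ r - ((W.apOfModel r : ℤ) : Y.O) ∈ maximalIdeal Y.O)
    (hD : ∀ Q : Finset ℕ, Nonempty (GaloisRep.DeformationRingData Y.O Y.ρbar
      (twFlat Y.O p Y.Smin Q)))
    (s₀ : S59Stage Y.O Y.ρbar (twFlat Y.O p Y.Smin ∅))
    (hN : s₀.N = M) (hS : s₀.S = (↑Y.Smin : Set ℕ))
    (hstrong : ∀ (B' : Type) [CommRing B'] [IsDomain B'] [Algebra Y.O B']
      (χ' : CuspForm.heckeAlgebra s₀.N 2 s₀.S →+* B') (t : CuspForm.heckeAlgebra s₀.N 2 s₀.S),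
      χ' t ∈ Set.range (algebraMap Y.O B'))
    (hπψ : ∀ (ℓ : ℕ) (hℓ : ℓ.Prime) (hℓN : ¬ ℓ ∣ s₀.N) (hℓS : ℓ ∉ s₀.S),
      s₀.πT (s₀.H.π (CuspForm.heckeAlgebra.T hℓ hℓN hℓS)) = ψ ℓ)
    (v : s59asmL Y.O M) (hv : v ∈ s59asmE Y.O M p ψ)
    (hJ : s₀.etaL = s59eta_J (s59asmB Y.O M) (s59asmE Y.O M p ψ) v) :
    Function.Bijective s₀.γ ∧ s₀.lPhi ≤ Module.length Y.O (Y.O ⧸ s₀.etaL) := by
  classical
  have hpp : p.Prime := hp.out
  have hMSmin : ∀ ℓ : ℕ, ℓ.Prime → ℓ ∣ M → ℓ ∈ Y.Smin := fun ℓ hℓ h => ((hN0 ℓ hℓ).1 h).1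
  have hι : IsEmpty Y.ι := s59btr_isEmpty_of_min Y hMSmin
  -- S56-flat
  obtain ⟨h, hS56'⟩ := hS56 p Y.O Y.ρbar _ _ Y.hyp
  -- the cone with its base lattice, generated by the `a ℓ`
  obtain ⟨D, hD'⟩ := hdata h
  haveI : IsNoetherianRing D.B.T0 := s59mindf_feed_noeth D.B
  haveI : Nontrivial (S59bidM D.B.j0) :=
    s59bidM_nontrivial D.B.j0 (Nat.mul_pos (pow_pos two_pos h) D.hr)
  -- the dictionary
  obtain ⟨χ₀, hres, hsep0, hgen0, hfrob0, ι', hB, hE⟩ :=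
    s59r1fc_dict D hD' hsq hN0 hpSmin hFp ψ hψ hψW s₀.N hN s₀.S hS hstrong s₀.H s₀.πT hπψ
  obtain ⟨x₀, hx₀, hιx₀⟩ := hE v hv
  -- the stage contract
  exact s59minfd_stage_dict hpp Y.hyp s₀ hD hS56' D.B.ρ0 D.B.habs0 χ₀ hres
    hsep0 hgen0 D.S' hfrob0 (s59bidBasis D.B.j0) D.B.j0 (s59bid_hj0 D.B.j0)
    (s59btr_image_r_of_isEmpty Y hι) (s59btr_hHk_min Y h hι D.toQ) ι' (s59asmB Y.O M) hB
    (s59asmE Y.O M p ψ) hE x₀ hx₀ (by rw [hιx₀]; exact hJ)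

/-- `hdata` for `5 ≤ p` -/
theorem s59r1fco_five (hp5 : 5 ≤ p) (hΔ : W.Δ ≠ 0) (hsq : Squarefree M) (hpM : ¬ p ∣ M)
    (hM2 : 2 ≤ M) (hmod : W.IsResiduallyModularOfLevel p M) (Y : s59lk_KSetupW W p M) :
    ∀ h : ℕ, ∃ D : S59bidData Y h 1, s59abgGen D.B :=
  fun h => s59bgn_data_five hp5 hΔ hsq hpM hM2 hmod Y h

end Core

end Fermat.Agent.S59.LowK

end
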