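/-
S59, wall R1 (MIN′), leaf **S56-FLAT** (helper7; asked by helper67 for R1Five): the flat half of
S56 in the EXACT shape of the hypothesis `hS56` of `s59minfd_levels` / `s59minfd_base` /
`s59btr_base_min` (for the `r` it produces), from the Taylor–Wiles closure of project TW —
NOT from the root `Fermat/Agent/S56.lean` (which no file may import).

* `s59min56_flat` : `TWHyp 𝒪 p ρbar S Smin → ∃ r, ∀ n, ∃ qv : Fin r → ℕ, IsTWFamily p ρbar S n r qv ∧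
    ∀ DQ : DeformationRingData 𝒪 ρbar (twFlat 𝒪 p Smin (univ.image qv)),
      ∃ γ : 𝒪⟦X₁,…,X_r⟧ →ₐ[𝒪] DQ.R, Surjective γ`;
* `s59min56_ord`  : the same for the strict-ordinary condition `twOrd`.
-/
import Fermat.Agent.TW.Core.Final2
import Fermat.Agent.TW.E.Asm
import Fermat.Agent.TW.E.AddFinal
import Fermat.Agent.TW.E.K0Final
import Fermat.Agent.TW.E.PDepthTower
import Fermat.Agent.TW.W.Final
import Fermat.Agent.TW.E.CycFinal

set_option autoImplicit false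
set_option linter.style.longLine false

namespace Fermat.Agent.S59

open IsLocalRing Fermat.Agent.TW

/-- **S56, flat half**, in the shape `hS56` of the R1 feed (`s59minfd_base`). -/
theorem s59min56_flat {𝒪 : Type} [CommRing 𝒪] [IsDomain 𝒪] [IsDiscreteValuationRing 𝒪]
    [IsAdicComplete (maximalIdeal 𝒪) 𝒪] [Finite (ResidueField 𝒪)]
    {p : ℕ} [Fact p.Prime] {ρbar : ResidualGaloisRep (ResidueField 𝒪)} {S Smin : Finset ℕ}
    (H : TWHyp 𝒪 p ρbar S Smin) :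
    ∃ r : ℕ, ∀ n : ℕ, ∃ qv : Fin r → ℕ, IsTWFamily p ρbar S n r qv ∧
      ∀ DQ : GaloisRep.DeformationRingData 𝒪 ρbar (twFlat 𝒪 p Smin (Finset.univ.image qv)),
        ∃ γ : MvPowerSeries (Fin r) 𝒪 →ₐ[𝒪] DQ.R, Function.Surjective γ := by
  obtain ⟨r, hr⟩ := (Fermat.Agent.TW.Core.s56_of_EC_WFlat
    (Fermat.Agent.TW.E.stmtAsm Fermat.Agent.TW.E.stmtAdd Fermat.Agent.TW.E.stmtH2Fin
      Fermat.Agent.TW.E.stmtPDepthTower Fermat.Agent.TW.E.stmtCyc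
      Fermat.Agent.TW.E.stmtK0)
    Fermat.Agent.TW.W.stmtWFlat
    p H.hp2 H.hp𝒪 ρbar H.habs H.hdet H.hsplit H.hTW S Smin H.hpSmin H.hSmin H.hS H.hmin).2
  refine ⟨r, fun n => ?_⟩
  obtain ⟨qv, hinj, hq, hfrob, hDQ⟩ := hr n
  exact ⟨qv, ⟨hinj, hq, hfrob⟩, fun DQ => hDQ DQ⟩

/-- **S56, strict-ordinary half**, in the same shape. -/
theorem s59min56_ord {𝒪 : Type} [CommRing 𝒪] [IsDomain 𝒪] [IsDiscreteValuationRing 𝒪]
    [IsAdicComplete (maximalIdeal 𝒪) 𝒪] [Finite (ResidueField 𝒪)]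
    {p : ℕ} [Fact p.Prime] {ρbar : ResidualGaloisRep (ResidueField 𝒪)} {S Smin : Finset ℕ}
    (H : TWHyp 𝒪 p ρbar S Smin) :
    ∃ r : ℕ, ∀ n : ℕ, ∃ qv : Fin r → ℕ, IsTWFamily p ρbar S n r qv ∧
      ∀ DQ : GaloisRep.DeformationRingData 𝒪 ρbar (twOrd 𝒪 p Smin (Finset.univ.image qv)),
        ∃ γ : MvPowerSeries (Fin r) 𝒪 →ₐ[𝒪] DQ.R, Function.Surjective γ := by
  obtain ⟨r, hr⟩ := (Fermat.Agent.TW.Core.s56_of_EC_WFlat
    (Fermat.Agent.TW.E.stmtAsm Fermat.Agent.TW.E.stmtAdd Fermat.Agent.TW.E.stmtH2Fin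
      Fermat.Agent.TW.E.stmtPDepthTower Fermat.Agent.TW.E.stmtCyc
      Fermat.Agent.TW.E.stmtK0)
    Fermat.Agent.TW.W.stmtWFlat
    p H.hp2 H.hp𝒪 ρbar H.habs H.hdet H.hsplit H.hTW S Smin H.hpSmin H.hSmin H.hS H.hmin).1
  refine ⟨r, fun n => ?_⟩
  obtain ⟨qv, hinj, hq, hfrob, hDQ⟩ := hr n
  exact ⟨qv, ⟨hinj, hq, hfrob⟩, fun DQ => hDQ DQ⟩

end Fermat.Agent.S59
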