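/-
S59, wall R1 (case (a)), THE CONTRACT AT `p = 5`, UNCONDITIONAL (helper67):
`s59r1five_result : s59towp_StmtR1At (s59lkP0 5) 5`
= `s59r1five_main` (S59/Min/R1Five.lean) with S56-flat (`s59min56_flat`, S59/Min/S56Flat.lean)
plugged in.
-/
import Fermat.Agent.S59.Min.R1Five
import Fermat.Agent.S59.Min.S56Flat

set_option autoImplicit false
set_option linter.style.longLine false

noncomputable section

namespace Fermat.Agent.S59.LowK

open IsLocalRing Fermat.Agent.TW Fermat.Agent.S59

/-- S56-flat holds. -/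
theorem s59r1five_s56Flat : s59r1five_StmtS56Flat := by
  intro p _ 𝒪 _ _ _ _ _ ρbar S Smin H
  exact s59min56_flat H

/-- **R1 (a) AT `p = 5`, UNCONDITIONAL.** -/
theorem s59r1five_result : s59towp_StmtR1At (s59lkP0 5) 5 :=
  s59r1five_main s59r1five_s56Flat

end Fermat.Agent.S59.LowK

end
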