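/-
S59, wall R1 (MIN′), small leaves for R1Five (helper63; asked by helper67):

* `s59minsm_level_one`  : a weight-2 cusp form of level `Γ₀(1)` is zero (the proof of the S08
  leaf, from the Sturm bound of the prelude);
* `s59minsm_two_le`     : **(i)** a normalised eigenform `f : S₂(Γ₀(N₀))`, `N₀ ≠ 0`, has `2 ≤ N₀`;
* `s59minsm_not_unram`  : a prime `r ≠ p` of `Smin = s59feSmin W hΔ p` is NOT unramified
  (`s59lq_Unram W p r` fails);
* `s59minsm_htriv`      : **(ii)** `htriv` of `s59lk_setupBigW` at the minimal level `N₀`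
  (`ℓ ∣ N₀ ↔ ℓ ∈ Smin ∧ ℓ ≠ p`): vacuous.
-/
import Fermat.Prelude.Thm_ModularForm_sturm_bound_Gamma0
import Fermat.Prelude.Thm_CongruenceSubgroup_one_mem_strictPeriods_Gamma0
import Fermat.Agent.S59.LowK.SetupBigW

set_option autoImplicit false
set_option linter.unusedSectionVars false
set_option linter.unusedVariables false
set_option linter.style.haveILetI false
set_option linter.style.longLine false

noncomputable section

namespace Fermat.Agent.S59.LowK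

open IsLocalRing Polynomial Fermat.Agent.TW Fermat.Agent.RT Fermat.Agent.RT.K1
  Fermat.Agent.RT.Prod Fermat.Agent.EC Fermat.Agent.S59 Fermat.Agent.S59.LowQ ExtCitation
open WeierstrassCurve WeierstrassCurve.Affine WeierstrassCurve.Affine.Point
open CuspForm ModularFormClass UpperHalfPlane

/-! ### (i) `2 ≤ N₀` -/

/-- a weight-2 cusp form of level `Γ₀(1)` is zero -/
theorem s59minsm_level_one (f : CuspForm (CongruenceSubgroup.Gamma0 1) 2) : f = 0 := by
  have htop : CongruenceSubgroup.Gamma0 1 = ⊤ := by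
    ext x
    simp only [CongruenceSubgroup.Gamma0_mem, Subgroup.mem_top, iff_true]
    exact Subsingleton.elim _ _
  have hidx : (CongruenceSubgroup.Gamma0 1).index = 1 := by
    rw [htop]; exact Subgroup.index_top
  have hg : (CuspForm.toModularFormₗ f) = 0 := by
    apply ModularForm.sturm_bound_Gamma0 1
    intro n hn
    rw [hidx] at hn
    have hn0 : n = 0 := by
      have : ((2 : ℤ) * ((1 : ℕ) : ℤ)).toNat / 12 = 0 := by norm_num
      omega
    subst hn0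
    exact CuspFormClass.qExpansion_coeff_zero (k := 2)
      (Γ := Subgroup.map (Matrix.SpecialLinearGroup.mapGL ℝ) (CongruenceSubgroup.Gamma0 1))
      f one_pos (CongruenceSubgroup.one_mem_strictPeriods_Gamma0 1)
  exact CuspForm.toModularFormₗ_injective (by rw [hg, _root_.map_zero])

/-- the `q`-coefficients of the zero form vanish -/
theorem s59minsm_qCoeff_zero (N : ℕ) (n : ℕ) :
    qCoeff (⇑(0 : CuspForm (CongruenceSubgroup.Gamma0 N) 2)) n = 0 := by
  unfold qCoeff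
  have h0 : (⇑(0 : CuspForm (CongruenceSubgroup.Gamma0 N) 2) : ℍ → ℂ) = 0 := rfl
  rw [h0, UpperHalfPlane.qExpansion_zero]
  simp

/-- **(i)** the level of a normalised eigenform is at least `2` -/
theorem s59minsm_two_le (N0 : ℕ) (hN0 : N0 ≠ 0)
    (f : CuspForm (CongruenceSubgroup.Gamma0 N0) 2) (hf : f.IsNormalizedEigenform) :
    2 ≤ N0 := by
  by_contra hlt
  have h1 : N0 = 1 := by omega
  subst h1
  have h2 := hf.qCoeff_one
  rw [s59minsm_level_one f, s59minsm_qCoeff_zero] at h2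
  exact zero_ne_one h2

/-! ### (ii) `htriv` at the minimal level -/

section Triv

variable (p : ℕ) [hp : Fact p.Prime] [hp2 : Fact (p ≠ 2)] (W : WeierstrassCurve ℤ) (hΔ : W.Δ ≠ 0)
  (𝒪 : Type) [CommRing 𝒪] [IsDomain 𝒪] [IsDiscreteValuationRing 𝒪]
  [IsAdicComplete (maximalIdeal 𝒪) 𝒪] [Finite (ResidueField 𝒪)] [CharZero 𝒪]
  (φ : ℤ_[p] →+* 𝒪) (hφ : IsLocalHom φ)

include φ hφ in
/-- a prime `r ≠ p` of `Smin` is not unramified -/
theorem s59minsm_not_unram {r : ℕ} (hr : r.Prime) (hrp : r ≠ p)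
    (hmem : r ∈ s59feSmin W hΔ p) : ¬ s59lq_Unram W p r := by
  intro hun
  rcases (s59lkbig_Smin_mem W hΔ p φ hφ r hr).1 hmem with h | h
  · exact hrp h
  · exact h ((s59lkbig_rho_unram_iff W hΔ p φ hφ r).2 hun)

include φ hφ in
/-- **(ii)** `htriv` at the minimal level `N₀` (`ℓ ∣ N₀ ↔ ℓ ∈ Smin ∧ ℓ ≠ p`) -/
theorem s59minsm_htriv (N0 : ℕ)
    (hN0 : ∀ ℓ : ℕ, ℓ.Prime → (ℓ ∣ N0 ↔ ℓ ∈ s59feSmin W hΔ p ∧ ℓ ≠ p)) :
    ∀ r : ℕ, r.Prime → r ≠ p → r ∣ N0 → s59lq_Unram W p r → s59lq_IsTrivialPrime W p r :=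
  fun r hr hrp hd hun =>
    absurd hun (s59minsm_not_unram p W hΔ 𝒪 φ hφ hr hrp ((hN0 r hr).1 hd).1)

/-- at the minimal level every prime of the level is in `Smin` (`hM` of `s59btr_base_min_five`) -/
theorem s59minsm_dvd_mem (N0 : ℕ)
    (hN0 : ∀ ℓ : ℕ, ℓ.Prime → (ℓ ∣ N0 ↔ ℓ ∈ s59feSmin W hΔ p ∧ ℓ ≠ p)) :
    ∀ ℓ : ℕ, ℓ.Prime → ℓ ∣ N0 → ℓ ∈ s59feSmin W hΔ p :=
  fun ℓ hℓ hd => ((hN0 ℓ hℓ).1 hd).1

/-- at the minimal level `p` does not divide the level -/
theorem s59minsm_p_not_dvd (N0 : ℕ)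
    (hN0 : ∀ ℓ : ℕ, ℓ.Prime → (ℓ ∣ N0 ↔ ℓ ∈ s59feSmin W hΔ p ∧ ℓ ≠ p)) : ¬ p ∣ N0 :=
  fun hd => ((hN0 p hp.out).1 hd).2 rfl

end Triv

end Fermat.Agent.S59.LowK

end
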