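/-
S59, wall R1 (case (a): `W` good at `p`), THE CONTRACT AT `p ∈ {3, 5}` FROM THE CONE (helper9;
the thin wrapper around `s59r1fco_core`, `S59/Min/R1FiveCoreOf.lean`; after helper67's `R1Five`).

Target (captain, `S59/TopOwedP.lean`): `s59towp_StmtR1At (s59lkP0 p) p`.

* `s59r1w_StmtCone p` : THE CONE AT `p`, the only input which depends on `p`: at every setup `Y`
                        of a squarefree level `M ≥ 2` prime to `p`, all of whose primes are in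
                        `Y.Smin`, at which `W` is residually modular, and for every `h`, there is a
                        generated base with its lattice (`S59bidData Y h 1`, `s59abgGen`);
* `s59r1w_cone_of_five_le` : the cone for `5 ≤ p` (`s59bgn_data_five`);
* `s59r1w_inv`  : the invariant `s59tops_inv` at `Σ = ∅` unfolded;
* `s59r1w_hD`   : DEF-COND for every `Q` (flat case);
* **`s59r1w_main`** : `p = 3 ∨ p = 5 → s59r1w_StmtCone p → S56-flat → s59towp_StmtR1At (s59lkP0 p) p`;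
* `s59r1w_five` : `S56-flat → s59towp_StmtR1At (s59lkP0 5) 5`.
So R1 (a) at `p = 3` is reduced to `s59r1w_StmtCone 3`.
-/
import Fermat.Agent.S59.TopOwedP
import Fermat.Agent.S59.Min.R1FiveCoreOf
import Fermat.Agent.S59.Min.BarTrInt
import Fermat.Agent.S59.Min.N0Two
import Fermat.Agent.S59.LowK.SetupBigW
import Fermat.Agent.S59.DefCond.Final

set_option autoImplicit false
set_option linter.style.haveILetI false
set_option linter.unusedSectionVars false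
set_option linter.unusedVariables false
set_option linter.style.longLine false

noncomputable section

namespace Fermat.Agent.S59.LowK

open IsLocalRing Polynomial Fermat.Agent.ES Fermat.Agent.S30 Fermat.Agent.W1 Fermat.Agent.TW
open Fermat.Agent.ES1 Fermat.Agent.RT Fermat.Agent.RT.K1 Fermat.Agent.RT.K5 Fermat.Agent.RT.Prod
open Fermat.Agent.S59.LowQ ExtCitation ModularCurve ModularCurve.Period
open WeierstrassCurve WeierstrassCurve.Affine WeierstrassCurve.Affine.Point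
open Fermat.Agent.S59 Fermat.Agent.S31 Fermat.Agent.S53
open scoped MatrixGroups

/-! ### Small lemmas -/

/-- the level at `Σ = ∅` -/
theorem s59r1w_level_empty (N0 : ℕ) : s59tops_level N0 ∅ = N0 := by
  unfold s59tops_level
  rw [Finset.prod_empty, Nat.mul_one]

/-- the flat condition only sees the primes of `Q` -/
theorem s59r1w_twFlat_filter (𝒪 : Type) [CommRing 𝒪] (p : ℕ) (Smin Q : Finset ℕ) :
    twFlat 𝒪 p Smin (Q.filter Nat.Prime) = twFlat 𝒪 p Smin Q := by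
  funext A _ _ _ ρ
  apply propext
  constructor
  · rintro ⟨⟨h1, h2, h3⟩, h4⟩
    refine ⟨⟨h1, h2, fun q hq hqS => h3 q hq ?_⟩, h4⟩
    intro hmem
    apply hqS
    rcases Finset.mem_union.1 hmem with h | h
    · exact Finset.mem_union_left _ h
    · exact Finset.mem_union_right _ (Finset.mem_filter.1 h).1
  · rintro ⟨⟨h1, h2, h3⟩, h4⟩
    refine ⟨⟨h1, h2, fun q hq hqS => h3 q hq ?_⟩, h4⟩
    intro hmem
    apply hqS
    rcases Finset.mem_union.1 hmem with h | h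
    · exact Finset.mem_union_left _ h
    · exact Finset.mem_union_right _ (Finset.mem_filter.2 ⟨h, hq⟩)

section DefCond

variable (W : WeierstrassCurve ℤ) (hΔ : W.Δ ≠ 0) (p : ℕ) [hp : Fact p.Prime]
variable {𝒪 : Type} [CommRing 𝒪] [IsDomain 𝒪] [IsDiscreteValuationRing 𝒪]
  [IsAdicComplete (maximalIdeal 𝒪) 𝒪] [Finite (ResidueField 𝒪)]
  (φ : ℤ_[p] →+* 𝒪) (hφ : IsLocalHom φ)

/-- **DEF-COND for every `Q`** (flat case): the universal rings of type `twFlat … Q` exist for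
EVERY finite set `Q` (only the primes of `Q` matter). -/
theorem s59r1w_hD (hss : W.IsSemistableModel) (hp2 : p ≠ 2) (hgood : W.IsGoodPrimeFor p)
    (S : Finset ℕ) (hTW : TWHyp 𝒪 p (s59feBar W hΔ p φ hφ) S (s59feSmin W hΔ p))
    (Q : Finset ℕ) :
    Nonempty (GaloisRep.DeformationRingData 𝒪 (s59feBar W hΔ p φ hφ)
      (twFlat 𝒪 p (s59feSmin W hΔ p) Q)) := by
  rw [← s59r1w_twFlat_filter]
  exact s59dcfin_exists_flat p _ _ _ hTW (s59feSigma W hΔ p)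
    (s59dcb_flat W hΔ p φ hφ s59dcc_stmtCondFlat hss hp2 hgood) (Q.filter Nat.Prime)
    (fun q hq => (Finset.mem_filter.1 hq).2)

end DefCond

section Inv

variable {𝒪 : Type} [CommRing 𝒪] [IsDomain 𝒪] [IsDiscreteValuationRing 𝒪]
  [IsAdicComplete (maximalIdeal 𝒪) 𝒪] [CharZero 𝒪] {p : ℕ} [Fact p.Prime]

/-- **the invariant at `Σ = ∅`, unfolded** -/
theorem s59r1w_inv (hp2 : p ≠ 2) (hp𝒪 : (p : 𝒪) ∈ maximalIdeal 𝒪) (ψ : ℕ → 𝒪) (ϖ : 𝒪)
    (hϖ : Irreducible ϖ) (W : WeierstrassCurve ℤ) (hΔ : W.Δ ≠ 0)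
    (hirr : W.ModRepIsIrreducible p) (S₀ : Finset ℕ) (hψW : s59asmr_CongW p ψ W S₀)
    (ρ₀ : GaloisRepAdic 𝒪) (Smin : Finset ℕ) (N0 : ℕ) [iN0 : NeZero N0]
    {ρbar : ResidualGaloisRep (ResidueField 𝒪)}
    {𝒟 : ∀ ⦃A : Type⦄ [CommRing A] [IsLocalRing A] [Algebra 𝒪 A], GaloisRepAdic A → Prop}
    (s : S59Stage 𝒪 ρbar 𝒟)
    (hinv : s59tops_inv (s59asmR2 p hp2 hp𝒪 ψ ϖ hϖ W hΔ hirr S₀ hψW) ρ₀ Smin N0 ∅ s) :
    s.N = N0 ∧ s.S = (↑Smin : Set ℕ) ∧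
    (∀ (ℓ : ℕ) (hℓ : ℓ.Prime) (hℓN : ¬ ℓ ∣ s.N) (hℓS : ℓ ∉ s.S),
      s.πT (s.H.π (CuspForm.heckeAlgebra.T hℓ hℓN hℓS)) = ψ ℓ) ∧
    ∃ v : s59asmL 𝒪 N0, v ∈ s59asmE 𝒪 N0 p ψ ∧
      s.etaL = s59eta_J (s59asmB 𝒪 N0) (s59asmE 𝒪 N0 p ψ) v := by
  obtain ⟨hN, hS, hπ, -, x, hlev, hgood, hJ⟩ := hinv
  have hN' : s.N = N0 := hN.trans (s59r1w_level_empty N0)
  have hS' : s.S = (↑Smin : Set ℕ) := by rw [hS, Finset.union_empty]
  refine ⟨hN', hS', hπ, ?_⟩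
  have hxM : x.M = N0 := Eq.trans hlev hN'
  obtain ⟨M', hM', v⟩ := x
  change M' = N0 at hxM
  subst hxM
  exact ⟨v, hgood.1, hJ⟩

end Inv

/-! ### The assembly -/

/-- **THE CONE AT `p`** (the only input of R1 (a) which depends on `p`). -/
def s59r1w_StmtCone (p : ℕ) : Prop :=
  ∀ [Fact p.Prime] (W : WeierstrassCurve ℤ) (M : ℕ) [NeZero M] [Fact ((1 : ℕ) ∣ M)],
    W.Δ ≠ 0 → Squarefree M → ¬ p ∣ M → 2 ≤ M → W.IsResiduallyModularOfLevel p M →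
    ∀ (Y : s59lk_KSetupW W p M), (∀ ℓ : ℕ, ℓ.Prime → ℓ ∣ M → ℓ ∈ Y.Smin) →
    ∀ h : ℕ, ∃ D : S59bidData Y h 1, s59abgGen D.B

/-- the cone for `5 ≤ p` -/
theorem s59r1w_cone_of_five_le {p : ℕ} (hp5 : 5 ≤ p) : s59r1w_StmtCone p := by
  intro _ W M _ _ hΔ hsq hpM hM2 hmod Y _ h
  exact s59bgn_data_five hp5 hΔ hsq hpM hM2 hmod Y h

/-- **R1 (a) AT `p ∈ {3, 5}`**: the contract of the minimal case at the prime `p`, from the cone at
`p` and S56-flat. -/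
theorem s59r1w_main (p : ℕ) (hp35 : p = 3 ∨ p = 5) (hcone : s59r1w_StmtCone p)
    (hS56 : s59r1fc_StmtS56Flat) :
    s59towp_StmtR1At (s59lkP0 p) p := by
  intro hp hp2 W hΔ hW hirr hgood N0 iN0 hN0 hN0sq f 𝔪 hf h𝔪 hp𝔪 hcong 𝒪 i1 i2 i3 i4 i5 i6 φ hφ
    hinj hp𝒪 hK hsp hBigS0 ψ χ hχ hψ0 hψ ϖ hϖ hψW ρ₀ hdet₀ habs₀ htr₀ s₀ hinv
  classical
  obtain ⟨hN, hS, hπψ, v, hv, hJ⟩ :=
    s59r1w_inv hp2 hp𝒪 ψ ϖ hϖ W hΔ hirr _ hψW ρ₀ _ N0 s₀ hinv
  have hpp : p.Prime := hp.out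
  haveI : Fact (p ≠ 2) := ⟨hp2⟩
  haveI : Fact ((1 : ℕ) ∣ N0) := ⟨one_dvd _⟩
  have hMSmin : ∀ ℓ : ℕ, ℓ.Prime → ℓ ∣ N0 → ℓ ∈ s59feSmin W hΔ p :=
    fun ℓ hℓ h => ((hN0 ℓ hℓ).1 h).1
  have hpM : ¬ p ∣ N0 := fun h => ((hN0 p hpp).1 h).2 rfl
  have htriv : ∀ r : ℕ, r.Prime → r ≠ p → r ∣ N0 → s59lq_Unram W p r →
      s59lq_IsTrivialPrime W p r := by
    intro r hr hr5 hrN hun
    exfalso
    rcases (s59lkbig_Smin_mem W hΔ p φ hφ r hr).1 (hMSmin r hr hrN) with h | h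
    · exact hr5 h
    · exact h ((s59lkbig_rho_unram_iff W hΔ p φ hφ r).2 hun)
  have hψW' : ∀ r : ℕ, r.Prime → r ≠ p → ¬ (r : ℤ) ∣ W.Δ → ¬ r ∣ N0 →
      ψ r - ((W.apOfModel r : ℤ) : 𝒪) ∈ maximalIdeal 𝒪 := by
    intro r hr hr5 hrΔ hrN
    refine hψW r hr ?_ hr5 hrΔ
    intro hmem
    rcases Finset.mem_union.1 hmem with h1 | h1
    · rw [s59feSmin, Finset.mem_insert, Finset.mem_filter, Nat.mem_primeFactors] at h1
      rcases h1 with h1 | ⟨⟨-, h1, -⟩, -⟩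
      · exact hr5 h1
      · exact hrΔ (Int.natCast_dvd.2 h1)
    · exact hrN (Nat.mem_primeFactors.1 h1).2.1
  have hstrong : ∀ (B' : Type) [CommRing B'] [IsDomain B'] [Algebra 𝒪 B']
      (χ' : CuspForm.heckeAlgebra s₀.N 2 s₀.S →+* B') (t : CuspForm.heckeAlgebra s₀.N 2 s₀.S),
      χ' t ∈ Set.range (algebraMap 𝒪 B') := by
    intro B' _ _ _
    have key : ∀ (N : ℕ) [NeZero N] (hN : N = N0) (S : Set ℕ)
        (hS : S = (↑(s59feSmin W hΔ p) : Set ℕ))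
        (χ' : CuspForm.heckeAlgebra N 2 S →+* B') (t : CuspForm.heckeAlgebra N 2 S),
        χ' t ∈ Set.range (algebraMap 𝒪 B') := by
      intro N _ hN S hS
      subst hN
      subst hS
      exact hBigS0 B'
    exact key s₀.N hN s₀.S hS
  exact (s59r1fco_core
    (Y := s59lk_setupBigW p hp35 W hΔ hW hirr N0 (NeZero.ne _) htriv 𝒪 φ hφ hsp)
    hS56
    (hcone W N0 hΔ hN0sq hpM (s59minn0_two_le f hf) ⟨f, 𝔪, hf, h𝔪, hp𝔪, hcong⟩
      (s59lk_setupBigW p hp35 W hΔ hW hirr N0 (NeZero.ne _) htriv 𝒪 φ hφ hsp) hMSmin)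
    hN0sq hN0 (s59fe_p_mem_Smin W hΔ p)
    (s59minbti_setup_trace_int p hp35 W hΔ hW hirr N0 (NeZero.ne _) htriv 𝒪 φ hφ hsp)
    ψ hψ hψW'
    (fun Q => s59r1w_hD W hΔ p φ hφ hW hp2 hgood _
      (s59lk_setupBigW p hp35 W hΔ hW hirr N0 (NeZero.ne _) htriv 𝒪 φ hφ hsp).hyp Q)
    s₀ hN hS hstrong hπψ v hv hJ).2

/-- **R1 (a) AT `p = 5`** from S56-flat. -/
theorem s59r1w_five (hS56 : s59r1fc_StmtS56Flat) : s59towp_StmtR1At (s59lkP0 5) 5 :=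
  s59r1w_main 5 (Or.inr rfl) (s59r1w_cone_of_five_le (le_refl 5)) hS56

end Fermat.Agent.S59.LowK

end
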