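/-
S59, wall R1 (case (a): `W` good at `p`), THE CONTRACT AT `p ∈ {3, 5}` FROM THE CONE ALONE
(helper9): `s59r1w_main` (S59/Min/R1Wrap35.lean) with S56-flat (`s59min56_flat`,
S59/Min/S56Flat.lean) plugged in.

* `s59r1wf_s56Flat` : S56-flat in the shape `s59r1fc_StmtS56Flat`;
* **`s59r1wf_main`** : `p = 3 ∨ p = 5 → s59r1w_StmtCone p → s59towp_StmtR1At (s59lkP0 p) p`;
* **`s59r1wf_three`** : `s59r1w_StmtCone 3 → s59towp_StmtR1At (s59lkP0 3) 3`
                        (R1 (a) at `p = 3` is EXACTLY the cone at `3`);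
* `s59r1wf_five`    : `s59towp_StmtR1At (s59lkP0 5) 5` (second proof of `s59r1five_result`).
-/
import Fermat.Agent.S59.Min.R1Wrap35
import Fermat.Agent.S59.Min.S56Flat

set_option autoImplicit false
set_option linter.style.longLine false

noncomputable section

namespace Fermat.Agent.S59.LowK

open IsLocalRing Fermat.Agent.TW Fermat.Agent.S59

/-- S56-flat holds (shape of `S59/Min/R1FiveCore.lean`). -/
theorem s59r1wf_s56Flat : s59r1fc_StmtS56Flat := by
  intro p _ 𝒪 _ _ _ _ _ ρbar S Smin H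
  exact s59min56_flat H

/-- **R1 (a) AT `p ∈ {3, 5}` FROM THE CONE AT `p` ALONE.** -/
theorem s59r1wf_main (p : ℕ) (hp35 : p = 3 ∨ p = 5) (hcone : s59r1w_StmtCone p) :
    s59towp_StmtR1At (s59lkP0 p) p :=
  s59r1w_main p hp35 hcone s59r1wf_s56Flat

/-- **R1 (a) AT `p = 3` IS THE CONE AT `3`.** -/
theorem s59r1wf_three (hcone : s59r1w_StmtCone 3) : s59towp_StmtR1At (s59lkP0 3) 3 :=
  s59r1wf_main 3 (Or.inl rfl) hcone

/-- R1 (a) at `p = 5`, unconditional (second proof). -/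
theorem s59r1wf_five : s59towp_StmtR1At (s59lkP0 5) 5 :=
  s59r1wf_main 5 (Or.inr rfl) (s59r1w_cone_of_five_le (le_refl 5))

end Fermat.Agent.S59.LowK

end
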