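/-
S59, wall R1 (MIN′), leaf **R1-RT-LEV** (helper67; deputy helper7's note "R1-ASM v2 leaves").

ONE level of the Hecke side (`RT.Prod.TWGal` : a finite local `𝒪`-algebra `A`, a representation `ρ`
over `A` of type `twFlat`, lifting `ρ̄`, and the action `π1 : A → M_d(S ⧸ 𝔪_S^n)`) and the universal
ring `R_Q` of the same type (prelude `DeformationRingData`) give, by the universal property,

* `f : R_Q →ₐ[𝒪] A`, local, with `ρ_univ ⊗_f A ≅ ρ`, `f (tr ρ_univ g) = tr ρ g`,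
  `f (𝔪_{R_Q}^N) = 0` for some `N`                                   (`s59minrt_exists`),
* `θ := π1 ∘ f : R_Q →ₐ[𝒪] M_d(S ⧸ 𝔪_S^n)` with `θ (tr ρ_univ g) = π1 (tr ρ g)` and `hnil`
  (the hypotheses `θ`, `hnil` of ASM-ALG `s59minasm_lev`)              (`s59minrt_theta`),
* the same from a `TWGal` (`s59minrt_of_twGal`), and the dictionary between the condition of
  `TWGal.flat` (`twFlat 𝒪 p Smin (Q ∪ image r)`) and the condition of S56
  (`twFlat 𝒪 p Smin (image qv)`) when there are no trivial primes (`s59minrt_of_twGal_min`).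
-/
import Fermat.Agent.RT.Prod.AsmPlan
import Fermat.Agent.RT.K7.Fin
import Fermat.Agent.S59.FinERes
import Fermat.Prelude.Def_GaloisRep_DeformationRingData

set_option autoImplicit false
set_option linter.style.haveILetI false
set_option linter.unusedSectionVars false
set_option linter.unusedVariables false
set_option linter.style.longLine false

noncomputable section

namespace Fermat.Agent.S59

open IsLocalRing Fermat.Agent.TW Fermat.Agent.RT Fermat.Agent.RT.Prod Fermat.Agent.S53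

section Univ

variable {𝒪 : Type} [CommRing 𝒪] [IsDomain 𝒪] [IsDiscreteValuationRing 𝒪]
  [IsAdicComplete (maximalIdeal 𝒪) 𝒪]
variable {ρbar : ResidualGaloisRep (ResidueField 𝒪)}
  {𝒟 : ∀ ⦃A : Type⦄ [CommRing A] [IsLocalRing A] [Algebra 𝒪 A], GaloisRepAdic A → Prop}

/-- a map of residue fields compatible with the residue maps is `ResidueField.map` -/
theorem s59minrt_iota_eq {A : Type} [CommRing A] [IsLocalRing A] [Algebra 𝒪 A]
    [IsLocalHom (algebraMap 𝒪 A)] (ιA : ResidueField 𝒪 →+* ResidueField A)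
    (hιA : ∀ x : 𝒪, ιA (residue 𝒪 x) = residue A (algebraMap 𝒪 A x)) :
    ιA = ResidueField.map (algebraMap 𝒪 A) := by
  apply RingHom.ext
  intro y
  obtain ⟨x, rfl⟩ := residue_surjective y
  rw [hιA x]
  rfl

/-- a local homomorphism to a local ring with `𝔪^n = 0` kills `𝔪^n` -/
theorem s59minrt_nil {R A : Type} [CommRing R] [IsLocalRing R] [CommRing A] [IsLocalRing A]
    (f : R →+* A) (hf : IsLocalHom f) {n : ℕ} (hn : maximalIdeal A ^ n = ⊥) :
    ∀ x ∈ maximalIdeal R ^ n, f x = 0 := by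
  intro x hx
  have h1 : (maximalIdeal R).map f ≤ maximalIdeal A :=
    Ideal.map_le_iff_le_comap.mpr fun a ha =>
      Ideal.mem_comap.mpr (haveI := hf; map_nonunit f a ha)
  have h2 : f x ∈ (maximalIdeal R ^ n).map f := Ideal.mem_map_of_mem f hx
  rw [Ideal.map_pow] at h2
  have h3 : f x ∈ maximalIdeal A ^ n := Ideal.pow_right_mono h1 n h2
  rwa [hn, Ideal.mem_bot] at h3

/-- **R1-RT at one level, abstract form**: the universal ring maps to every finite local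
`𝒪`-algebra `A` carrying a lift of `ρ̄` of type `𝒟`. -/
theorem s59minrt_exists (D : GaloisRep.DeformationRingData 𝒪 ρbar 𝒟)
    {A : Type} [CommRing A] [IsLocalRing A] [Algebra 𝒪 A] (hfin : Finite A)
    (hA : IsResAlg 𝒪 A) (ιA : ResidueField 𝒪 →+* ResidueField A)
    (hιA : ∀ x : 𝒪, ιA (residue 𝒪 x) = residue A (algebraMap 𝒪 A x))
    (ρ : GaloisRepAdic A) (h𝒟 : 𝒟 ρ) (hres : ρ.residual.IsEquiv (ρbar.baseChangeAlong ιA)) :
    ∃ f : D.R →ₐ[𝒪] A,
      (∃ hf : IsLocalHom (f : D.R →+* A),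
        (D.ρ.baseChangeAlong (f : D.R →+* A) hf).IsEquiv ρ) ∧
      (∀ g : AlgebraicClosure ℚ ≃ₐ[ℚ] AlgebraicClosure ℚ,
        f (LinearMap.trace D.R D.ρ.V (D.ρ.ρ g)) = LinearMap.trace A ρ.V (ρ.ρ g)) ∧
      ∃ N : ℕ, ∀ x ∈ maximalIdeal D.R ^ N, f x = 0 := by
  haveI := hfin
  haveI : IsLocalHom (algebraMap 𝒪 A) := hA.isLocalHom
  haveI : IsAdicComplete (maximalIdeal A) A := rtk7fin_isAdicComplete_of_finite
  have hι : ιA = ResidueField.map (algebraMap 𝒪 A) := s59minrt_iota_eq ιA hιA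
  rw [hι] at hres
  obtain ⟨f, ⟨hf, he⟩, -⟩ := D.universal A hA.residue_surjective ρ h𝒟 hres
  obtain ⟨N, hN⟩ := rtk7fin_exists_pow_eq_bot (A := A)
  refine ⟨f, ⟨hf, he⟩, fun g => ?_, N, s59minrt_nil (f : D.R →+* A) hf hN⟩
  rw [← s59fe_isEquiv_trace he g]
  exact (s59fe_trace_baseChangeAlong (f : D.R →+* A) hf D.ρ g).symm

/-- **R1-RT at one level, with the action**: `θ := π1 ∘ f` and `hnil` (the hypotheses `θ`,
`hnil` of ASM-ALG), with `θ (tr ρ_univ g) = π1 (tr ρ g)`. -/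
theorem s59minrt_theta (D : GaloisRep.DeformationRingData 𝒪 ρbar 𝒟)
    {A : Type} [CommRing A] [IsLocalRing A] [Algebra 𝒪 A] (hfin : Finite A)
    (hA : IsResAlg 𝒪 A) (ιA : ResidueField 𝒪 →+* ResidueField A)
    (hιA : ∀ x : 𝒪, ιA (residue 𝒪 x) = residue A (algebraMap 𝒪 A x))
    (ρ : GaloisRepAdic A) (h𝒟 : 𝒟 ρ) (hres : ρ.residual.IsEquiv (ρbar.baseChangeAlong ιA))
    {B : Type} [Semiring B] [Algebra 𝒪 B] (π1 : A →ₐ[𝒪] B) :
    ∃ (f : D.R →ₐ[𝒪] A) (θ : D.R →ₐ[𝒪] B), θ = π1.comp f ∧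
      (∃ hf : IsLocalHom (f : D.R →+* A),
        (D.ρ.baseChangeAlong (f : D.R →+* A) hf).IsEquiv ρ) ∧
      (∀ g : AlgebraicClosure ℚ ≃ₐ[ℚ] AlgebraicClosure ℚ,
        θ (LinearMap.trace D.R D.ρ.V (D.ρ.ρ g)) = π1 (LinearMap.trace A ρ.V (ρ.ρ g))) ∧
      ∃ N : ℕ, ∀ x ∈ maximalIdeal D.R ^ N, θ x = 0 := by
  obtain ⟨f, hfe, htr, N, hN⟩ := s59minrt_exists D hfin hA ιA hιA ρ h𝒟 hres
  refine ⟨f, π1.comp f, rfl, hfe, fun g => ?_, N, fun x hx => ?_⟩
  · rw [AlgHom.comp_apply, htr g]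
  · rw [AlgHom.comp_apply, hN x hx, map_zero]

end Univ

section TWGalLevel

variable {O : Type} [CommRing O] [IsDomain O] [IsDiscreteValuationRing O]
  [IsAdicComplete (maximalIdeal O) O] {ι : Type} [Fintype ι]

/-- `twFlat` depends only on the set of extra primes -/
theorem s59minrt_twFlat_congr (p : ℕ) (Smin : Finset ℕ) {Q Q' : Finset ℕ} (h : Q = Q')
    {A : Type} [CommRing A] [IsLocalRing A] [Algebra O A] {ρ : GaloisRepAdic A}
    (hρ : twFlat O p Smin Q ρ) : twFlat O p Smin Q' ρ := by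
  subst h
  exact hρ

/-- **R1-RT-LEV**: ONE level of the Hecke side (`TWGal`) and the universal ring of type
`twFlat O p Smin (Q ∪ image r)`. -/
theorem s59minrt_of_twGal {p : ℕ} {ρbar : ResidualGaloisRep (ResidueField O)}
    {Smin Q : Finset ℕ} {r : ι → ℕ} {σ φ : ι → RtpaG} {tχ : ι → O} {lam : O} {m d : ℕ}
    {T0 : Type} [CommRing T0] [Algebra O T0] {j0 : T0 →ₐ[O] Matrix (Fin d) (Fin d) O}
    {Sig0 Phi0 : ι → Matrix (Fin 2) (Fin 2) T0} {n : ℕ}
    {E : Set (RttwS O m ⧸ maximalIdeal (RttwS O m) ^ n)}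
    {A : Type} [CommRing A] [IsLocalRing A] [Algebra O A]
    {ιA : ResidueField O →+* ResidueField A}
    {ρ : GaloisRepAdic A} {b : Module.Basis (Fin 2) A ρ.V}
    {β βi : ℕ → Matrix (Fin 2) (Fin 2) A}
    {π1 πχ : A →ₐ[O] Matrix (Fin d) (Fin d) (RttwS O m ⧸ maximalIdeal (RttwS O m) ^ n)}
    (H : TWGal p ρbar Smin Q r σ φ tχ lam m d j0 Sig0 Phi0 n E ιA ρ b β βi π1 πχ)
    (D : GaloisRep.DeformationRingData O ρbar (twFlat O p Smin (Q ∪ Finset.univ.image r))) :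
    ∃ (f : D.R →ₐ[O] A)
      (θ : D.R →ₐ[O] Matrix (Fin d) (Fin d) (RttwS O m ⧸ maximalIdeal (RttwS O m) ^ n)),
      θ = π1.comp f ∧
      (∃ hf : IsLocalHom (f : D.R →+* A),
        (D.ρ.baseChangeAlong (f : D.R →+* A) hf).IsEquiv ρ) ∧
      (∀ g : RtpaG,
        θ (LinearMap.trace D.R D.ρ.V (D.ρ.ρ g)) = π1 (LinearMap.trace A ρ.V (ρ.ρ g))) ∧
      ∃ N : ℕ, ∀ x ∈ maximalIdeal D.R ^ N, θ x = 0 :=
  s59minrt_theta D H.finite H.resAlg ιA H.hιA ρ H.flat H.res π1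

/-- **R1-RT-LEV, minimal case** (no trivial primes: `image r = ∅`): the universal ring is the
one of S56, of type `twFlat O p Smin Q` (`Q = image qv`). -/
theorem s59minrt_of_twGal_min {p : ℕ} {ρbar : ResidualGaloisRep (ResidueField O)}
    {Smin Q : Finset ℕ} {r : ι → ℕ} {σ φ : ι → RtpaG} {tχ : ι → O} {lam : O} {m d : ℕ}
    {T0 : Type} [CommRing T0] [Algebra O T0] {j0 : T0 →ₐ[O] Matrix (Fin d) (Fin d) O}
    {Sig0 Phi0 : ι → Matrix (Fin 2) (Fin 2) T0} {n : ℕ}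
    {E : Set (RttwS O m ⧸ maximalIdeal (RttwS O m) ^ n)}
    {A : Type} [CommRing A] [IsLocalRing A] [Algebra O A]
    {ιA : ResidueField O →+* ResidueField A}
    {ρ : GaloisRepAdic A} {b : Module.Basis (Fin 2) A ρ.V}
    {β βi : ℕ → Matrix (Fin 2) (Fin 2) A}
    {π1 πχ : A →ₐ[O] Matrix (Fin d) (Fin d) (RttwS O m ⧸ maximalIdeal (RttwS O m) ^ n)}
    (H : TWGal p ρbar Smin Q r σ φ tχ lam m d j0 Sig0 Phi0 n E ιA ρ b β βi π1 πχ)
    (hr : Finset.univ.image r = ∅)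
    (D : GaloisRep.DeformationRingData O ρbar (twFlat O p Smin Q)) :
    ∃ (f : D.R →ₐ[O] A)
      (θ : D.R →ₐ[O] Matrix (Fin d) (Fin d) (RttwS O m ⧸ maximalIdeal (RttwS O m) ^ n)),
      θ = π1.comp f ∧
      (∃ hf : IsLocalHom (f : D.R →+* A),
        (D.ρ.baseChangeAlong (f : D.R →+* A) hf).IsEquiv ρ) ∧
      (∀ g : RtpaG,
        θ (LinearMap.trace D.R D.ρ.V (D.ρ.ρ g)) = π1 (LinearMap.trace A ρ.V (ρ.ρ g))) ∧
      ∃ N : ℕ, ∀ x ∈ maximalIdeal D.R ^ N, θ x = 0 :=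
  s59minrt_theta D H.finite H.resAlg ιA H.hιA ρ
    (s59minrt_twFlat_congr p Smin (by rw [hr, Finset.union_empty]) H.flat) H.res π1

end TWGalLevel

end Fermat.Agent.S59

end
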