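import Mathlib

/-!
# S59, wall R1 — SIGN-SPLIT (helper34): the sign at the Taylor–Wiles primes is not needed

At a Taylor–Wiles prime `q_j` the traces of inertia give only the EVEN relation `c_j ^ 2 = X_j ^ 2`
between the Galois-side element `c_j = χ_j − χ_j⁻¹` and the diamond-side scalar
`X_j = ⟨u_j⟩ − ⟨u_j⟩⁻¹` (K6).  Together with the BASE statement `c_j N ⊆ X_j N`
(on `N ⧸ X_j N`, the level with trivial nebentypus at `q_j`, the representation is unramified at
`q_j`, so `c_j = 0` there) this is enough to split the module into the two sign parts: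

* `s59minss_exists` : `X` a non-zero-divisor on `N`, `c ∘ c = X²`, `c N ⊆ X N`  ⇒  there is an
  `S`-linear `u` with `c = X u`, `u ∘ u = 1`, commuting with everything that commutes with `c`;
* `s59minss_isCompl` : if moreover `2` is a unit, `N = ker (c − X) ⊕ ker (c + X)`;
* `s59minss_stable`  : both summands are stable under every endomorphism commuting with `c`;
* `s59minss_scal`    : on `ker (c − X)` the scalar `X` IS the action of `c` (so the full
  `S`-structure is in the image of the Galois side there), on `ker (c + X)` it is the action of `−c`.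

No `U_q`, no Frobenius at `q`: local–global compatibility for `Frob · inertia` (leaf R1-LG) is
avoided.  Mathlib only.
-/

set_option autoImplicit false

namespace Fermat.Agent.S59

variable {S : Type*} [CommRing S] {N : Type*} [AddCommGroup N] [Module S N]

/-- **The quotient `u = c / X`.**  `X` a non-zero-divisor on `N`, `c` an `S`-linear endomorphism
with `c ∘ c = X²` and `c N ⊆ X N`: there is an `S`-linear involution `u` with `c = X u`, and `u`
commutes with every additive endomorphism that commutes with `c` and with `X`. -/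
theorem s59minss_exists (X : S) (hX : ∀ n : N, X • n = 0 → n = 0) (c : N →ₗ[S] N)
    (hsq : ∀ n, c (c n) = X • X • n) (hbase : ∀ n, ∃ n', c n = X • n') :
    ∃ u : N →ₗ[S] N, (∀ n, c n = X • u n) ∧ (∀ n, u (u n) = n) ∧
      (∀ a : N →+ N, (∀ n, a (c n) = c (a n)) → (∀ n, a (X • n) = X • a n) →
        ∀ n, a (u n) = u (a n)) := by
  classical
  have hinj : ∀ n m : N, X • n = X • m → n = m := by
    intro n m h
    have h0 : X • (n - m) = 0 := by rw [smul_sub, h, sub_self]
    exact sub_eq_zero.mp (hX _ h0)
  choose f hf using hbase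
  let u : N →ₗ[S] N :=
    { toFun := f
      map_add' := by
        intro x y
        apply hinj
        rw [← hf, smul_add, ← hf, ← hf, map_add]
      map_smul' := by
        intro s x
        apply hinj
        rw [← hf, RingHom.id_apply, smul_comm X s, ← hf, map_smul] }
  have hu : ∀ n, c n = X • u n := hf
  refine ⟨u, hu, ?_, ?_⟩
  · intro n
    apply hinj
    apply hinj
    rw [← hu (u n), ← map_smul, ← hu n, hsq]
  · intro a hac haX n
    apply hinj
    rw [← hu (a n), ← hac, hu n, haX]

/-- Uniqueness of the quotient. -/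
theorem s59minss_unique (X : S) (hX : ∀ n : N, X • n = 0 → n = 0) (c : N →ₗ[S] N)
    (u u' : N →ₗ[S] N) (hu : ∀ n, c n = X • u n) (hu' : ∀ n, c n = X • u' n) : u = u' := by
  ext n
  have h0 : X • (u n - u' n) = 0 := by rw [smul_sub, ← hu, ← hu', sub_self]
  exact sub_eq_zero.mp (hX _ h0)

/-- The plus part `ker (c − X)`. -/
def s59minssPlus (X : S) (c : N →ₗ[S] N) : Submodule S N :=
  LinearMap.ker (c - X • LinearMap.id)

/-- The minus part `ker (c + X)`. -/
def s59minssMinus (X : S) (c : N →ₗ[S] N) : Submodule S N :=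
  LinearMap.ker (c + X • LinearMap.id)

theorem s59minss_mem_plus (X : S) (c : N →ₗ[S] N) (n : N) :
    n ∈ s59minssPlus X c ↔ c n = X • n := by
  unfold s59minssPlus
  rw [LinearMap.mem_ker, LinearMap.sub_apply, LinearMap.smul_apply, LinearMap.id_apply,
    sub_eq_zero]

theorem s59minss_mem_minus (X : S) (c : N →ₗ[S] N) (n : N) :
    n ∈ s59minssMinus X c ↔ c n = -(X • n) := by
  unfold s59minssMinus
  rw [LinearMap.mem_ker, LinearMap.add_apply, LinearMap.smul_apply, LinearMap.id_apply,
    add_eq_zero_iff_eq_neg]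

/-- **On the plus part the scalar `X` is the action of `c`; on the minus part, of `−c`.** -/
theorem s59minss_scal (X : S) (c : N →ₗ[S] N) :
    (∀ n ∈ s59minssPlus X c, X • n = c n) ∧ (∀ n ∈ s59minssMinus X c, X • n = -(c n)) := by
  refine ⟨fun n hn => ((s59minss_mem_plus X c n).1 hn).symm, fun n hn => ?_⟩
  rw [(s59minss_mem_minus X c n).1 hn, neg_neg]

/-- **Both parts are stable under every endomorphism commuting with `c` and `X`.** -/
theorem s59minss_stable (X : S) (c : N →ₗ[S] N) (a : N →+ N)
    (hac : ∀ n, a (c n) = c (a n)) (haX : ∀ n, a (X • n) = X • a n) :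
    (∀ n ∈ s59minssPlus X c, a n ∈ s59minssPlus X c) ∧
      (∀ n ∈ s59minssMinus X c, a n ∈ s59minssMinus X c) := by
  refine ⟨fun n hn => ?_, fun n hn => ?_⟩
  · rw [s59minss_mem_plus] at hn ⊢
    rw [← hac, hn, haX]
  · rw [s59minss_mem_minus] at hn ⊢
    rw [← hac, hn, map_neg, haX]

/-- **SIGN-SPLIT.**  `X` a non-zero-divisor on `N`, `2` a unit, `c ∘ c = X²`, `c N ⊆ X N`:
`N = ker (c − X) ⊕ ker (c + X)`. -/
theorem s59minss_isCompl (h2 : IsUnit (2 : S)) (X : S) (hX : ∀ n : N, X • n = 0 → n = 0)
    (c : N →ₗ[S] N) (hsq : ∀ n, c (c n) = X • X • n) (hbase : ∀ n, ∃ n', c n = X • n') :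
    IsCompl (s59minssPlus X c) (s59minssMinus X c) := by
  obtain ⟨u, hu, huu, -⟩ := s59minss_exists X hX c hsq hbase
  obtain ⟨t, ht⟩ := h2.exists_left_inv
  have hinj : ∀ n m : N, X • n = X • m → n = m := by
    intro n m h
    have h0 : X • (n - m) = 0 := by rw [smul_sub, h, sub_self]
    exact sub_eq_zero.mp (hX _ h0)
  have h2n : ∀ n : N, t • ((2 : S) • n) = n := by
    intro n
    rw [smul_smul, ht, one_smul]
  have hplus : ∀ n, n ∈ s59minssPlus X c ↔ u n = n := by
    intro n
    rw [s59minss_mem_plus, hu]
    exact ⟨fun h => hinj _ _ h, fun h => by rw [h]⟩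
  have hminus : ∀ n, n ∈ s59minssMinus X c ↔ u n = -n := by
    intro n
    rw [s59minss_mem_minus, hu, ← smul_neg]
    exact ⟨fun h => hinj _ _ h, fun h => by rw [h]⟩
  refine IsCompl.of_eq ?_ ?_
  · -- disjoint
    rw [Submodule.eq_bot_iff]
    intro n hn
    obtain ⟨hp, hm⟩ := Submodule.mem_inf.1 hn
    have h1 : u n = n := (hplus n).1 hp
    have h3 : u n = -n := (hminus n).1 hm
    have h4 : (2 : S) • n = 0 := by
      rw [two_smul]
      have : n = -n := h1.symm.trans h3
      nth_rewrite 1 [this]
      exact neg_add_cancel n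
    have := h2n n
    rw [h4, smul_zero] at this
    exact this.symm
  · -- sum
    rw [Submodule.eq_top_iff']
    intro n
    have hp : t • (n + u n) ∈ s59minssPlus X c := by
      rw [hplus, map_smul, map_add, huu, add_comm]
    have hm : t • (n - u n) ∈ s59minssMinus X c := by
      rw [hminus, map_smul, map_sub, huu, ← smul_neg, neg_sub]
    have hsum : t • (n + u n) + t • (n - u n) = n := by
      rw [← smul_add]
      have : n + u n + (n - u n) = (2 : S) • n := by
        rw [two_smul]; abel
      rw [this, h2n]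
    rw [← hsum]
    exact Submodule.add_mem_sup hp hm

/-- **The counter-example is excluded**: on the base `N ⧸ X N` the element `c` acts by zero — this
is the hypothesis `hbase` read backwards; recorded for the consumers. -/
theorem s59minss_base_iff (X : S) (c : N →ₗ[S] N) :
    (∀ n, ∃ n', c n = X • n') ↔ LinearMap.range c ≤ LinearMap.range (X • (LinearMap.id : N →ₗ[S] N)) := by
  constructor
  · rintro h _ ⟨n, rfl⟩
    obtain ⟨n', hn'⟩ := h n
    exact ⟨n', by rw [LinearMap.smul_apply, LinearMap.id_apply, hn']⟩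
  · intro h n
    obtain ⟨n', hn'⟩ := h ⟨n, rfl⟩
    exact ⟨n', by rw [← hn', LinearMap.smul_apply, LinearMap.id_apply]⟩

end Fermat.Agent.S59
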